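import Fermat.Agent.Nodal.Disc
import Fermat.Agent.Red.G4Glue

/-!
# PROJECT N, (III)(A): existence of residue discs of the smooth points of the nodal reduction
-/

set_option autoImplicit false

open AlgebraicCurve Module FA18 FA18.G4

namespace FAN

variable {K F k E : Type*} [Field K] [Field F] [Algebra K F] [Field k] [Field E] [Algebra k E]

/-- `x` has poles only at the cusps, is integral for both norms, with reductions `a`, `b`. -/
def AffInt (O1 O2 : ValuationSubring F) (ρ1 : O1 →+* E) (ρ2 : O2 →+* E) (D : Divisor K F)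
    (x : F) (a b : E) : Prop :=
  (∃ n : ℕ, x ∈ riemannRochSpace (n • D)) ∧ Rd O1 ρ1 x a ∧ Rd O2 ρ2 x b

/-- the residue disc of the point `Q` of the first component. -/
def disc {A : ValuationSubring K} (π : A →+* k) (O1 O2 : ValuationSubring F) (ρ1 : O1 →+* E)
    (ρ2 : O2 →+* E) (D : Divisor K F) (Q : Place k E) : Set (Place K F) :=
  {P | D P = 0 ∧ ∀ x a b, AffInt O1 O2 ρ1 ρ2 D x a b → 0 < Q.ord a →
    ∃ c : A, π c = 0 ∧ 0 < P.ord (x - algebraMap K F c)}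

/-- the hypotheses of (A), symmetric in the two components. -/
structure Aff (A : ValuationSubring K) (π : A →+* k) (O1 O2 : ValuationSubring F)
    (ρ1 : O1 →+* E) (ρ2 : O2 →+* E) (D : Divisor K F) (C1 C2 : Divisor k E)
    (Good1 Good2 : Place k E → Prop) : Prop where
  hB1 : GBase A π O1 ρ1
  hB2 : GBase A π O2 ρ2
  hD : 0 ≤ D
  hC1 : 0 ≤ C1
  hC2 : 0 ≤ C2
  hdeg : Divisor.degree C1 + Divisor.degree C2 = Divisor.degree D
  hpos1 : ∃ Q, C1 Q ≠ 0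
  hpos2 : ∃ Q, C2 Q ≠ 0
  good1 : ∀ Q, Good1 Q → C1 Q = 0
  good2 : ∀ Q, Good2 Q → C2 Q = 0
  red1 : ∀ (n : ℕ) (x : F) (a b : E), x ∈ riemannRochSpace (n • D) → Rd O1 ρ1 x a →
    Rd O2 ρ2 x b → a ∈ riemannRochSpace (n • C1)
  red2 : ∀ (n : ℕ) (x : F) (a b : E), x ∈ riemannRochSpace (n • D) → Rd O1 ρ1 x a →
    Rd O2 ρ2 x b → b ∈ riemannRochSpace (n • C2)
  sup1 : ∀ Q, Good1 Q → ∀ Z1 Z2 : Finset (Place k E), Q ∉ Z1 → (∀ Q' ∈ Z1, C1 Q' = 0) →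
    (∀ Q' ∈ Z2, C2 Q' = 0) → ∃ (n : ℕ) (t : F) (t1 t2 : E), 0 < n ∧ t ∈ riemannRochSpace (n • D) ∧
      Rd O1 ρ1 t t1 ∧ Rd O2 ρ2 t t2 ∧ Q.ord t1 = 1 ∧ t2 ≠ 0 ∧
      (∀ Q' : Place k E, C1 Q' ≠ 0 → Q'.ord t1 = -(n * C1 Q')) ∧
      (∀ Q' : Place k E, C2 Q' ≠ 0 → Q'.ord t2 = -(n * C2 Q')) ∧
      (∀ Q' ∈ Z1, Q'.ord t1 = 0) ∧ (∀ Q' ∈ Z2, Q'.ord t2 = 0) ∧
      (∀ Q', 0 < Q'.ord t1 → Good1 Q') ∧ (∀ Q', 0 < Q'.ord t2 → Good2 Q')
  sup2 : ∀ Q, Good2 Q → ∀ Z1 Z2 : Finset (Place k E), Q ∉ Z2 → (∀ Q' ∈ Z1, C1 Q' = 0) →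
    (∀ Q' ∈ Z2, C2 Q' = 0) → ∃ (n : ℕ) (t : F) (t1 t2 : E), 0 < n ∧ t ∈ riemannRochSpace (n • D) ∧
      Rd O1 ρ1 t t1 ∧ Rd O2 ρ2 t t2 ∧ Q.ord t2 = 1 ∧ t1 ≠ 0 ∧
      (∀ Q' : Place k E, C1 Q' ≠ 0 → Q'.ord t1 = -(n * C1 Q')) ∧
      (∀ Q' : Place k E, C2 Q' ≠ 0 → Q'.ord t2 = -(n * C2 Q')) ∧
      (∀ Q' ∈ Z1, Q'.ord t1 = 0) ∧ (∀ Q' ∈ Z2, Q'.ord t2 = 0) ∧
      (∀ Q', 0 < Q'.ord t1 → Good1 Q') ∧ (∀ Q', 0 < Q'.ord t2 → Good2 Q')

variable {A : ValuationSubring K} {π : A →+* k} {O1 O2 : ValuationSubring F}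
  {ρ1 : O1 →+* E} {ρ2 : O2 →+* E} {D : Divisor K F} {C1 C2 : Divisor k E}
  {Good1 Good2 : Place k E → Prop}

theorem Aff.swap (H : Aff A π O1 O2 ρ1 ρ2 D C1 C2 Good1 Good2) :
    Aff A π O2 O1 ρ2 ρ1 D C2 C1 Good2 Good1 where
  hB1 := H.hB2
  hB2 := H.hB1
  hD := H.hD
  hC1 := H.hC2
  hC2 := H.hC1
  hdeg := by rw [add_comm]; exact H.hdeg
  hpos1 := H.hpos2
  hpos2 := H.hpos1
  good1 := H.good2
  good2 := H.good1
  red1 n x a b hx h1 h2 := H.red2 n x b a hx h2 h1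
  red2 n x a b hx h1 h2 := H.red1 n x b a hx h2 h1
  sup1 Q hQ Z1 Z2 hQZ hZ1 hZ2 := by
    obtain ⟨n, t, t1, t2, h0, h1, h2, h3, h4, h5, h6, h7, h8, h9, h10, h11⟩ :=
      H.sup2 Q hQ Z2 Z1 hQZ hZ2 hZ1
    exact ⟨n, t, t2, t1, h0, h1, h3, h2, h4, h5, h7, h6, h9, h8, h11, h10⟩
  sup2 Q hQ Z1 Z2 hQZ hZ1 hZ2 := by
    obtain ⟨n, t, t1, t2, h0, h1, h2, h3, h4, h5, h6, h7, h8, h9, h10, h11⟩ :=
      H.sup1 Q hQ Z2 Z1 hQZ hZ2 hZ1
    exact ⟨n, t, t2, t1, h0, h1, h3, h2, h4, h5, h7, h6, h9, h8, h11, h10⟩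

namespace AffInt

variable {x y : F} {a b a' b' : E}

theorem swap (h : AffInt O1 O2 ρ1 ρ2 D x a b) : AffInt O2 O1 ρ2 ρ1 D x b a :=
  ⟨h.1, h.2.2, h.2.1⟩

theorem mul (h : AffInt O1 O2 ρ1 ρ2 D x a b) (h' : AffInt O1 O2 ρ1 ρ2 D y a' b') :
    AffInt O1 O2 ρ1 ρ2 D (x * y) (a * a') (b * b') := by
  obtain ⟨⟨n, hn⟩, h1, h2⟩ := h
  obtain ⟨⟨n', hn'⟩, h1', h2'⟩ := h'
  exact ⟨⟨n + n', by rw [add_smul]; exact mul_mem_L hn hn'⟩, h1.mul h1', h2.mul h2'⟩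

theorem one (_hD : 0 ≤ D) : AffInt O1 O2 ρ1 ρ2 D 1 1 1 :=
  ⟨⟨0, by rw [zero_smul]; exact one_mem_L le_rfl⟩, Rd.one, Rd.one⟩

theorem pow (hD : 0 ≤ D) (h : AffInt O1 O2 ρ1 ρ2 D x a b) (j : ℕ) :
    AffInt O1 O2 ρ1 ρ2 D (x ^ j) (a ^ j) (b ^ j) := by
  induction j with
  | zero => simpa using one hD
  | succ j ih => rw [pow_succ, pow_succ, pow_succ]; exact ih.mul h

theorem const_mem (hD : 0 ≤ D) (n : ℕ) (c : K) :
    algebraMap K F c ∈ riemannRochSpace (n • D) := by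
  have h1 : (1 : F) ∈ riemannRochSpace (n • D) := one_mem_L (nsmul_nonneg hD n)
  have := (riemannRochSpace (n • D)).smul_mem c h1
  rwa [Algebra.smul_def, mul_one] at this

theorem sub_const (hD : 0 ≤ D) (hB1 : GBase A π O1 ρ1) (hB2 : GBase A π O2 ρ2)
    (h : AffInt O1 O2 ρ1 ρ2 D x a b) (c : A) :
    AffInt O1 O2 ρ1 ρ2 D (x - algebraMap K F c) (a - algebraMap k E (π c))
      (b - algebraMap k E (π c)) := by
  obtain ⟨⟨n, hn⟩, h1, h2⟩ := h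
  exact ⟨⟨n, Submodule.sub_mem _ hn (const_mem hD n _)⟩, h1.sub (hB1.const c), h2.sub (hB2.const c)⟩

theorem ord_nonneg (h : AffInt O1 O2 ρ1 ρ2 D x a b) {P : Place K F} (hP : D P = 0) :
    0 ≤ P.ord x := by
  obtain ⟨⟨n, hn⟩, -, -⟩ := h
  rcases eq_or_ne x 0 with rfl | hx
  · simp
  have := (mem_L_iff hx).1 hn P
  rw [Finsupp.smul_apply, hP, smul_zero] at this
  simpa using this

end AffInt

theorem ord_sub_const_eq_zero (Q : Place k E) {a : E} (ha : 0 < Q.ord a) {c : k} (hc : c ≠ 0) :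
    Q.ord (a - algebraMap k E c) = 0 := by
  have ha0 : a ≠ 0 := by rintro rfl; simp at ha
  have hc0 : -algebraMap k E c ≠ 0 := neg_ne_zero.2 (by simpa using hc)
  rw [sub_eq_add_neg, add_comm]
  rw [FAFF.ord_add_eq_of_lt Q hc0 ha0 (by rw [FAFF.ord_neg, FAFF.ord_algebraMap]; exact ha),
    FAFF.ord_neg, FAFF.ord_algebraMap]

/-- a place off the cusps and off the disc of `Q` is the zero of an integral affine function
whose reduction does not vanish at `Q`. -/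
theorem exists_killer (hD : 0 ≤ D) (hB1 : GBase A π O1 ρ1) (hB2 : GBase A π O2 ρ2)
    (hres : HasValues K F) (Q : Place k E) {P : Place K F} (hP : D P = 0)
    (hPQ : P ∉ disc π O1 O2 ρ1 ρ2 D Q) :
    ∃ e e1 e2, AffInt O1 O2 ρ1 ρ2 D e e1 e2 ∧ 0 < P.ord e ∧ e1 ≠ 0 ∧ Q.ord e1 = 0 := by
  have : ¬ ∀ x a b, AffInt O1 O2 ρ1 ρ2 D x a b → 0 < Q.ord a →
      ∃ c : A, π c = 0 ∧ 0 < P.ord (x - algebraMap K F c) := fun h => hPQ ⟨hP, h⟩
  push Not at this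
  obtain ⟨x, a, b, hx, ha, hns⟩ := this
  obtain ⟨c, hc | hc⟩ := hres P x (hx.ord_nonneg hP)
  · exfalso
    have hcA : c ∈ A := hB1.inter c (hc ▸ hx.2.1.mem)
    have := (hc ▸ hx.2.1).unique (hB1.const' hcA)
    rw [this, FAFF.ord_algebraMap] at ha
    exact lt_irrefl _ ha
  by_cases hcA : c ∈ A
  · have hπ : π ⟨c, hcA⟩ ≠ 0 := fun h => absurd hc (not_lt.2 (hns ⟨c, hcA⟩ h))
    have h0 := ord_sub_const_eq_zero Q ha hπ
    refine ⟨_, _, _, hx.sub_const hD hB1 hB2 ⟨c, hcA⟩, hc, ?_, h0⟩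
    intro h
    have ha' : a = algebraMap k E (π ⟨c, hcA⟩) := sub_eq_zero.1 h
    rw [ha', FAFF.ord_algebraMap] at ha
    exact lt_irrefl _ ha
  · have hc0 : c ≠ 0 := fun h => hcA (h ▸ A.zero_mem)
    have hcF : algebraMap K F c ≠ 0 := by simpa using hc0
    have e : 1 - algebraMap K F c⁻¹ * x = algebraMap K F (-c⁻¹) * (x - algebraMap K F c) := by
      rw [map_neg, map_inv₀]
      field_simp
      ring
    obtain ⟨⟨n, hn⟩, h1, h2⟩ := hx
    refine ⟨1 - algebraMap K F c⁻¹ * x, 1, 1, ⟨⟨n, ?_⟩, ?_, ?_⟩, ?_, one_ne_zero, by simp⟩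
    · refine Submodule.sub_mem _ (one_mem_L (nsmul_nonneg hD n)) ?_
      have := (riemannRochSpace (n • D)).smul_mem c⁻¹ hn
      rwa [Algebra.smul_def] at this
    · exact (Rd.one.sub ((hB1.const_inv_of_notMem hcA).mul h1)).congr rfl (by simp)
    · exact (Rd.one.sub ((hB2.const_inv_of_notMem hcA).mul h2)).congr rfl (by simp)
    · rw [e, ord_const_mul P (neg_ne_zero.2 (inv_ne_zero hc0))]
      exact hc


theorem exists_mem_L_of_poles {gF cF : ℤ} (HF : RFacts K F gF cF) (hD : 0 ≤ D) {y : F}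
    (hy : y ≠ 0) (h : ∀ P : Place K F, D P = 0 → 0 ≤ P.ord y) :
    ∃ n : ℕ, y ∈ riemannRochSpace (n • D) := by
  obtain ⟨Dy, hDy, -⟩ := HF.exists_div y hy
  refine ⟨∑ P ∈ Dy.support, (Dy P).natAbs, ?_⟩
  rw [mem_L_iff hy]
  intro P
  rw [Finsupp.smul_apply, nsmul_eq_mul]
  by_cases hP : D P = 0
  · rw [hP, mul_zero, neg_zero]; exact h P hP
  have hDP : 1 ≤ D P := by
    have := hD P
    simp only [Finsupp.coe_zero, Pi.zero_apply] at this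
    omega
  set n : ℕ := ∑ P ∈ Dy.support, (Dy P).natAbs with hn
  have h1 : -(n : ℤ) ≤ P.ord y := by
    rw [← hDy]
    by_cases hPs : P ∈ Dy.support
    · have : (Dy P).natAbs ≤ n := Finset.single_le_sum (f := fun P => (Dy P).natAbs)
        (fun _ _ => Nat.zero_le _) hPs
      omega
    · rw [Finsupp.notMem_support_iff.1 hPs]; omega
  have h2 : (n : ℤ) ≤ n * D P := by nlinarith
  omega

theorem exists_prod_killer (hD : 0 ≤ D) (hB1 : GBase A π O1 ρ1) (hB2 : GBase A π O2 ρ2)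
    (hres : HasValues K F) (Q : Place k E) (w : Place K F → ℕ) (T : Finset (Place K F))
    (hT : ∀ P ∈ T, D P = 0 ∧ P ∉ disc π O1 O2 ρ1 ρ2 D Q) :
    ∃ e e1 e2, AffInt O1 O2 ρ1 ρ2 D e e1 e2 ∧ e1 ≠ 0 ∧ Q.ord e1 = 0 ∧
      ∀ P ∈ T, (w P : ℤ) ≤ P.ord e := by
  classical
  induction T using Finset.induction_on with
  | empty => exact ⟨1, 1, 1, AffInt.one hD, one_ne_zero, by simp, by simp⟩
  | insert P0 T hP0 ih =>
    obtain ⟨e, e1, e2, he, he1, hQe, hw⟩ := ih fun P hP => hT P (Finset.mem_insert_of_mem hP)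
    obtain ⟨hDP0, hP0Q⟩ := hT P0 (Finset.mem_insert_self _ _)
    obtain ⟨e0, a0, b0, he0, hpos, ha0, hQ0⟩ := exists_killer hD hB1 hB2 hres Q hDP0 hP0Q
    have hene : e ≠ 0 := he.2.1.ne_zero he1
    have he0ne : e0 ≠ 0 := he0.2.1.ne_zero ha0
    refine ⟨e * e0 ^ w P0, e1 * a0 ^ w P0, e2 * b0 ^ w P0, he.mul (he0.pow hD _),
      mul_ne_zero he1 (pow_ne_zero _ ha0), ?_, ?_⟩
    · rw [Q.ord_mul he1 (pow_ne_zero _ ha0), ord_pow, hQe, hQ0]; simp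
    · intro P hP
      rw [P.ord_mul hene (pow_ne_zero _ he0ne), ord_pow]
      rcases Finset.mem_insert.1 hP with rfl | hP'
      · have h1 := he.ord_nonneg hDP0
        have : (w P : ℤ) ≤ w P * P.ord e0 := by nlinarith
        omega
      · have h1 := hw P hP'
        have h2 := he0.ord_nonneg (hT P hP).1
        have : (0 : ℤ) ≤ w P0 * P.ord e0 := by positivity
        omega

/-- **(Reg)** -/
theorem disc_reg (H : Aff A π O1 O2 ρ1 ρ2 D C1 C2 Good1 Good2) {gF cF : ℤ}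
    (HF : RFacts K F gF cF) (Q : Place k E) (hQ : C1 Q = 0) (x : F) (a b : E)
    (h1 : Rd O1 ρ1 x a) (h2 : Rd O2 ρ2 x b)
    (hpole : ∀ P ∈ disc π O1 O2 ρ1 ρ2 D Q, 0 ≤ P.ord x) : 0 ≤ Q.ord a := by
  classical
  rcases eq_or_ne a 0 with rfl | ha
  · simp
  have hx : x ≠ 0 := h1.ne_zero ha
  have hres : HasValues K F := hasValues_of_deg_one HF.deg_one
  obtain ⟨Dx, hDx, -⟩ := HF.exists_div x hx
  set T : Finset (Place K F) := Dx.support.filter (fun P => Dx P < 0 ∧ D P = 0) with hTdef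
  obtain ⟨e, e1, e2, he, he1, hQe, hw⟩ := exists_prod_killer H.hD H.hB1 H.hB2 hres Q
    (fun P => (-Dx P).toNat) T (fun P hP => by
      rw [hTdef, Finset.mem_filter] at hP
      refine ⟨hP.2.2, fun hPQ => ?_⟩
      have := hpole P hPQ
      rw [← hDx] at this
      omega)
  have hene : e ≠ 0 := he.2.1.ne_zero he1
  obtain ⟨n, hn⟩ := exists_mem_L_of_poles HF H.hD (mul_ne_zero hene hx) (fun P hP => by
    rw [P.ord_mul hene hx, ← hDx]
    have h0 := he.ord_nonneg hP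
    by_cases hneg : Dx P < 0
    · have hPT : P ∈ T := by
        rw [hTdef, Finset.mem_filter, Finsupp.mem_support_iff]
        exact ⟨by omega, hneg, hP⟩
      have := hw P hPT
      omega
    · omega)
  have hmem := H.red1 n (e * x) (e1 * a) (e2 * b) hn (he.2.1.mul h1) (he.2.2.mul h2)
  have := (mem_L_iff (mul_ne_zero he1 ha)).1 hmem Q
  rw [Finsupp.smul_apply, hQ, smul_zero, Q.ord_mul he1 ha, hQe] at this
  simpa using this


theorem exists_tau (hD : 0 ≤ D) (hB1 : GBase A π O1 ρ1) (hB2 : GBase A π O2 ρ2)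
    (Q : Place k E) {s : F} {s1 s2 : E} (hs : AffInt O1 O2 ρ1 ρ2 D s s1 s2) (hs1 : 0 < Q.ord s1)
    (w : Place K F → ℕ) (U : Finset (Place K F)) (hU : ∀ P ∈ U, P ∈ disc π O1 O2 ρ1 ρ2 D Q) :
    ∃ τ, AffInt O1 O2 ρ1 ρ2 D τ (s1 ^ (∑ P ∈ U, w P)) (s2 ^ (∑ P ∈ U, w P)) ∧
      ∀ P ∈ U, (w P : ℤ) ≤ P.ord τ := by
  classical
  have hs10 : s1 ≠ 0 := by rintro rfl; simp at hs1
  induction U using Finset.induction_on with
  | empty => exact ⟨1, by simpa using AffInt.one hD, by simp⟩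
  | insert P0 U hP0 ih =>
    obtain ⟨τ, hτ, hw⟩ := ih fun P hP => hU P (Finset.mem_insert_of_mem hP)
    obtain ⟨hDP0, hsm⟩ := hU P0 (Finset.mem_insert_self _ _)
    obtain ⟨c, hc, hpos⟩ := hsm s s1 s2 hs hs1
    have h0 := hs.sub_const hD hB1 hB2 c
    rw [hc, map_zero, sub_zero, sub_zero] at h0
    have hτne : τ ≠ 0 := hτ.2.1.ne_zero (pow_ne_zero _ hs10)
    have h0ne : s - algebraMap K F c ≠ 0 := h0.2.1.ne_zero hs10
    refine ⟨(s - algebraMap K F c) ^ w P0 * τ, ?_, ?_⟩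
    · rw [Finset.sum_insert hP0, pow_add, pow_add]
      exact (h0.pow hD _).mul hτ
    · intro P hP
      rw [P.ord_mul (pow_ne_zero _ h0ne) hτne, ord_pow]
      rcases Finset.mem_insert.1 hP with rfl | hP'
      · have h1 := hτ.ord_nonneg hDP0
        have : (w P : ℤ) ≤ w P * P.ord (s - algebraMap K F c) := by nlinarith
        omega
      · have h1 := hw P hP'
        have h2 := h0.ord_nonneg (hU P hP).1
        have : (0 : ℤ) ≤ w P0 * P.ord (s - algebraMap K F c) := by positivity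
        omega

/-- every zero of the reduction lifts, with multiplicity. -/
theorem mult_le (H : Aff A π O1 O2 ρ1 ρ2 D C1 C2 Good1 Good2) {gF cF : ℤ}
    (HF : RFacts K F gF cF) (Q : Place k E) (hQ : C1 Q = 0) {s : F} {s1 s2 : E}
    (hs : AffInt O1 O2 ρ1 ρ2 D s s1 s2) (hs1 : Q.ord s1 = 1) {u : F} {u1 u2 : E}
    (hu1 : Rd O1 ρ1 u u1) (hu2 : Rd O2 ρ2 u u2) (h1 : u1 ≠ 0) (h2 : u2 ≠ 0)
    (Du : Divisor K F) (hDu : ∀ P, Du P = P.ord u)
    (hnp : ∀ P ∈ disc π O1 O2 ρ1 ρ2 D Q, 0 ≤ P.ord u) [DecidablePred (· ∈ disc π O1 O2 ρ1 ρ2 D Q)] :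
    Q.ord u1 ≤ ∑ P ∈ Du.support.filter (· ∈ disc π O1 O2 ρ1 ρ2 D Q), Du P := by
  classical
  have hs10 : s1 ≠ 0 := by rintro rfl; simp at hs1
  have hu0 : u ≠ 0 := hu1.ne_zero h1
  set U := Du.support.filter (· ∈ disc π O1 O2 ρ1 ρ2 D Q) with hU
  obtain ⟨τ, hτ, hw⟩ := exists_tau H.hD H.hB1 H.hB2 Q hs (by omega) (fun P => (Du P).toNat) U
    (fun P hP => (Finset.mem_filter.1 hP).2)
  have hτne : τ ≠ 0 := hτ.2.1.ne_zero (pow_ne_zero _ hs10)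
  have hreg := disc_reg H HF Q hQ (τ * u⁻¹) _ _ (hτ.2.1.mul (hu1.inv H.hB1.surj h1))
    (hτ.2.2.mul (hu2.inv H.hB2.surj h2)) (fun P hP => by
      rw [P.ord_mul hτne (inv_ne_zero hu0), P.ord_inv, ← hDu]
      by_cases hPU : P ∈ U
      · have := hw P hPU
        have h3 := hnp P hP
        rw [← hDu] at h3
        omega
      · have h3 : Du P = 0 := by
          by_contra hne
          exact hPU (Finset.mem_filter.2 ⟨Finsupp.mem_support_iff.2 hne, hP⟩)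
        have := hτ.ord_nonneg hP.1
        omega)
  rw [Q.ord_mul (pow_ne_zero _ hs10) (inv_ne_zero h1), Q.ord_inv, ord_pow, hs1] at hreg
  have hsum : ((∑ P ∈ U, (Du P).toNat : ℕ) : ℤ) = ∑ P ∈ U, Du P := by
    rw [Nat.cast_sum]
    refine Finset.sum_congr rfl fun P hP => ?_
    have := hnp P (Finset.mem_filter.1 hP).2
    rw [← hDu] at this
    omega
  rw [← hsum]
  omega

theorem two_values_false {P : Place K F} {x : F} {c c2 : A} (hc : π c = 0) (hc2 : π c2 ≠ 0)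
    (h1 : 0 < P.ord (x - algebraMap K F c)) (h2 : 0 < P.ord (x - algebraMap K F c2)) : False := by
  have hne : (c2 : K) - c ≠ 0 := by
    intro h
    have : c2 = c := Subtype.ext (sub_eq_zero.1 h)
    exact hc2 (this ▸ hc)
  have h10 : x - algebraMap K F c ≠ 0 := by intro h; rw [h] at h1; simp at h1
  have h20 : -(x - algebraMap K F c2) ≠ 0 := by
    intro h; rw [neg_eq_zero] at h; rw [h] at h2; simp at h2
  have e : (x - algebraMap K F c) + -(x - algebraMap K F c2) = algebraMap K F ((c2 : K) - c) := by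
    rw [map_sub]; ring
  have h3 := FAFF.min_ord_le_ord_add P h10 h20 (by
    rw [e]; exact (map_ne_zero (algebraMap K F)).2 hne)
  rw [e, FAFF.ord_algebraMap, FAFF.ord_neg] at h3
  omega

/-- the value at a point of the disc of `Q` of a function whose reduction is a non-constant unit
at `Q`. -/
theorem exists_value_ne (hD : 0 ≤ D) (hB1 : GBase A π O1 ρ1) (hB2 : GBase A π O2 ρ2)
    (hresb : HasValues k E) (Q : Place k E) {P : Place K F}
    (hP : P ∈ disc π O1 O2 ρ1 ρ2 D Q) {x : F} {a b : E} (hx : AffInt O1 O2 ρ1 ρ2 D x a b)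
    (ha : Q.ord a = 0) (hnc : ∀ c : k, a ≠ algebraMap k E c) :
    ∃ c2 : A, π c2 ≠ 0 ∧ 0 < P.ord (x - algebraMap K F c2) := by
  obtain ⟨c', hc' | hc'⟩ := hresb Q a ha.ge
  · exact absurd hc' (hnc c')
  obtain ⟨c'', hc''⟩ := hB1.surjπ c'
  have hc'0 : c' ≠ 0 := by
    rintro rfl
    rw [map_zero, sub_zero] at hc'
    omega
  have h0 := hx.sub_const hD hB1 hB2 c''
  rw [hc''] at h0
  obtain ⟨d, hd, hpos⟩ := hP.2 _ _ _ h0 hc'
  refine ⟨c'' + d, by rw [map_add, hc'', hd, add_zero]; exact hc'0, ?_⟩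
  have : x - algebraMap K F ((c'' + d : A) : K) = x - algebraMap K F c'' - algebraMap K F d := by
    have e : ((c'' + d : A) : K) = (c'' : K) + d := rfl
    rw [e, map_add]; ring
  rw [this]
  exact hpos


theorem ne_const_of_ord_ne_zero {Q : Place k E} {a : E} (h : Q.ord a ≠ 0) (c : k) :
    a ≠ algebraMap k E c := by
  rintro rfl
  exact h (FAFF.ord_algebraMap Q c)

theorem disc_disjoint11 (H : Aff A π O1 O2 ρ1 ρ2 D C1 C2 Good1 Good2) {gb cb : ℤ}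
    (Hb : RFacts k E gb cb) {Q Q' : Place k E} (hQ : Good1 Q) (hQ' : C1 Q' = 0) (hne : Q ≠ Q')
    {P : Place K F} (h1 : P ∈ disc π O1 O2 ρ1 ρ2 D Q) (h2 : P ∈ disc π O1 O2 ρ1 ρ2 D Q') :
    False := by
  classical
  obtain ⟨n, t, t1, t2, hn, ht, hr1, hr2, hQt, -, -, -, hZ1, -, -, -⟩ :=
    H.sup1 Q hQ {Q'} ∅ (by simpa using hne) (by simpa using hQ') (by simp)
  have hA : AffInt O1 O2 ρ1 ρ2 D t t1 t2 := ⟨⟨n, ht⟩, hr1, hr2⟩
  obtain ⟨c, hc, hpos⟩ := h1.2 t t1 t2 hA (by omega)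
  obtain ⟨c2, hc2, hpos2⟩ := exists_value_ne H.hD H.hB1 H.hB2 (hasValues_of_deg_one Hb.deg_one) Q'
    h2 hA (hZ1 Q' (by simp)) (ne_const_of_ord_ne_zero (Q := Q) (by omega))
  exact two_values_false hc hc2 hpos hpos2

theorem disc_disjoint12 (H : Aff A π O1 O2 ρ1 ρ2 D C1 C2 Good1 Good2) {gb cb : ℤ}
    (Hb : RFacts k E gb cb) {Q Q' : Place k E} (hQ : Good1 Q) (hQ' : C2 Q' = 0)
    {P : Place K F} (h1 : P ∈ disc π O1 O2 ρ1 ρ2 D Q) (h2 : P ∈ disc π O2 O1 ρ2 ρ1 D Q') :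
    False := by
  classical
  obtain ⟨n, t, t1, t2, hn, ht, hr1, hr2, hQt, -, -, hp2, -, hZ2, -, -⟩ :=
    H.sup1 Q hQ ∅ {Q'} (by simp) (by simp) (by simpa using hQ')
  have hA : AffInt O1 O2 ρ1 ρ2 D t t1 t2 := ⟨⟨n, ht⟩, hr1, hr2⟩
  obtain ⟨c, hc, hpos⟩ := h1.2 t t1 t2 hA (by omega)
  obtain ⟨Qc, hQc⟩ := H.hpos2
  have hnc : Qc.ord t2 ≠ 0 := by
    rw [hp2 Qc hQc]
    simp [hn.ne', hQc]
  obtain ⟨c2, hc2, hpos2⟩ := exists_value_ne H.hD H.hB2 H.hB1 (hasValues_of_deg_one Hb.deg_one) Q'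
    h2 hA.swap (hZ2 Q' (by simp)) (ne_const_of_ord_ne_zero hnc)
  exact two_values_false hc hc2 hpos hpos2

/-- the zero divisor of a function of `E` with exact pole divisor `n C`. -/
theorem sum_zeros {gb cb : ℤ} (Hb : RFacts k E gb cb) {C : Divisor k E} {n : ℕ} {a : E}
    (ha : a ≠ 0) (hmem : a ∈ riemannRochSpace (n • C))
    (hp : ∀ Q' : Place k E, C Q' ≠ 0 → Q'.ord a = -(n * C Q')) :
    ∃ Z : Divisor k E, (∀ Q', 0 ≤ Z Q') ∧ (∀ Q', Z Q' ≠ 0 → C Q' = 0 ∧ Z Q' = Q'.ord a) ∧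
      (∀ Q', C Q' = 0 → Z Q' = Q'.ord a) ∧
      ∑ Q' ∈ Z.support, Z Q' = n * Divisor.degree C := by
  obtain ⟨Da, hDa, hdeg⟩ := Hb.exists_div a ha
  have hval : ∀ Q', (Da + n • C) Q' = if C Q' = 0 then Q'.ord a else 0 := by
    intro Q'
    rw [Finsupp.add_apply, Finsupp.smul_apply, hDa, nsmul_eq_mul]
    split_ifs with h
    · rw [h]; simp
    · rw [hp Q' h]; ring
  refine ⟨Da + n • C, fun Q' => ?_, fun Q' hQ' => ?_, fun Q' hQ' => by rw [hval, if_pos hQ'], ?_⟩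
  · rw [hval]
    split_ifs with h
    · have := (mem_L_iff ha).1 hmem Q'
      rw [Finsupp.smul_apply, h, smul_zero] at this
      simpa using this
    · exact le_rfl
  · rw [hval] at hQ' ⊢
    split_ifs at hQ' ⊢ with h
    · exact ⟨h, rfl⟩
    · exact absurd rfl hQ'
  · have := degree_eq_sum' Hb.deg_one (Da + n • C)
    rw [map_add, hdeg, zero_add, map_nsmul, nsmul_eq_mul] at this
    rw [this]
    rfl


open Classical in
/-- **counting**: for `c ≡ 0` the function `t - c` has exactly one zero on the disc of `Q`. -/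
theorem disc_unique_zero (H : Aff A π O1 O2 ρ1 ρ2 D C1 C2 Good1 Good2) {gF cF gb cb : ℤ}
    (HF : RFacts K F gF cF) (Hb : RFacts k E gb cb) {Q : Place k E}
    {n : ℕ} {u : F} {t1 t2 : E} (hu : u ∈ riemannRochSpace (n • D))
    (hr1 : Rd O1 ρ1 u t1) (hr2 : Rd O2 ρ2 u t2) (hQt : Q.ord t1 = 1) (ht2 : t2 ≠ 0)
    (hp1 : ∀ Q' : Place k E, C1 Q' ≠ 0 → Q'.ord t1 = -(n * C1 Q'))
    (hp2 : ∀ Q' : Place k E, C2 Q' ≠ 0 → Q'.ord t2 = -(n * C2 Q'))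
    (hg1 : ∀ Q', 0 < Q'.ord t1 → Good1 Q') (hg2 : ∀ Q', 0 < Q'.ord t2 → Good2 Q') :
    ∃ P ∈ disc π O1 O2 ρ1 ρ2 D Q, P.ord u = 1 ∧
      ∀ P' ∈ disc π O1 O2 ρ1 ρ2 D Q, P' ≠ P → P'.ord u = 0 := by
  have ht1 : t1 ≠ 0 := by rintro rfl; simp at hQt
  have hu0 : u ≠ 0 := hr1.ne_zero ht1
  obtain ⟨Du, hDu, hDudeg⟩ := HF.exists_div u hu0
  obtain ⟨Z1, hZ1nn, hZ1, hZ1e, hZ1s⟩ := sum_zeros Hb ht1 (H.red1 n u t1 t2 hu hr1 hr2) hp1
  obtain ⟨Z2, hZ2nn, hZ2, -, hZ2s⟩ := sum_zeros Hb ht2 (H.red2 n u t1 t2 hu hr1 hr2) hp2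
  have hA : AffInt O1 O2 ρ1 ρ2 D u t1 t2 := ⟨⟨n, hu⟩, hr1, hr2⟩
  set U1 : Place k E → Finset (Place K F) :=
    fun Q' => Du.support.filter (· ∈ disc π O1 O2 ρ1 ρ2 D Q') with hU1
  set U2 : Place k E → Finset (Place K F) :=
    fun Q' => Du.support.filter (· ∈ disc π O2 O1 ρ2 ρ1 D Q') with hU2
  -- lower bounds
  have hl1 : ∀ Q' ∈ Z1.support, Z1 Q' ≤ ∑ P ∈ U1 Q', Du P := by
    intro Q' hQ'
    obtain ⟨hC, hZ⟩ := hZ1 Q' (Finsupp.mem_support_iff.1 hQ')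
    have hpos : 0 < Q'.ord t1 := by
      have := hZ1nn Q'
      have h2 := Finsupp.mem_support_iff.1 hQ'
      omega
    obtain ⟨n', s, s1, s2, -, hs, hs1, hs2, hQs, -⟩ :=
      H.sup1 Q' (hg1 Q' hpos) ∅ ∅ (by simp) (by simp) (by simp)
    rw [hZ]
    exact mult_le H HF Q' hC ⟨⟨n', hs⟩, hs1, hs2⟩ hQs hr1 hr2 ht1 ht2 Du hDu
      (fun P hP => hA.ord_nonneg hP.1)
  have hl2 : ∀ Q' ∈ Z2.support, Z2 Q' ≤ ∑ P ∈ U2 Q', Du P := by
    intro Q' hQ'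
    obtain ⟨hC, hZ⟩ := hZ2 Q' (Finsupp.mem_support_iff.1 hQ')
    have hpos : 0 < Q'.ord t2 := by
      have := hZ2nn Q'
      have h2 := Finsupp.mem_support_iff.1 hQ'
      omega
    obtain ⟨n', s, s1, s2, -, hs, hs1, hs2, hQs, -⟩ :=
      H.swap.sup1 Q' (hg2 Q' hpos) ∅ ∅ (by simp) (by simp) (by simp)
    rw [hZ]
    exact mult_le H.swap HF Q' hC ⟨⟨n', hs⟩, hs1, hs2⟩ hQs hr2 hr1 ht2 ht1 Du hDu
      (fun P hP => hA.ord_nonneg hP.1)
  -- goodness of the points of the supports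
  have hgood1 : ∀ Q' ∈ Z1.support, Good1 Q' := by
    intro Q' hQ'
    obtain ⟨hC, hZ⟩ := hZ1 Q' (Finsupp.mem_support_iff.1 hQ')
    have := hZ1nn Q'
    have h2 := Finsupp.mem_support_iff.1 hQ'
    exact hg1 Q' (by omega)
  have hgood2 : ∀ Q' ∈ Z2.support, Good2 Q' := by
    intro Q' hQ'
    obtain ⟨hC, hZ⟩ := hZ2 Q' (Finsupp.mem_support_iff.1 hQ')
    have := hZ2nn Q'
    have h2 := Finsupp.mem_support_iff.1 hQ'
    exact hg2 Q' (by omega)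
  -- upper bound
  set ZF : Divisor K F := Du + n • D with hZF
  have hZFnn : ∀ P, 0 ≤ ZF P := by
    intro P
    have := (mem_L_iff hu0).1 hu P
    rw [hZF, Finsupp.add_apply, hDu]
    omega
  have hZFdeg : ∑ P ∈ ZF.support, ZF P = n * Divisor.degree D := by
    have := degree_eq_sum' HF.deg_one ZF
    rw [hZF, map_add, hDudeg, zero_add, map_nsmul, nsmul_eq_mul] at this
    rw [this]
    rfl
  have hZFeq : ∀ P, D P = 0 → ZF P = Du P := by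
    intro P hP
    rw [hZF, Finsupp.add_apply, Finsupp.smul_apply, hP, smul_zero, add_zero]
  set B1 := Z1.support.biUnion U1 with hB1
  set B2 := Z2.support.biUnion U2 with hB2
  have hd1 : (Z1.support : Set (Place k E)).PairwiseDisjoint U1 := by
    intro Q' hQ' Q'' hQ'' hne
    rw [Function.onFun, Finset.disjoint_left]
    intro P hP hP'
    exact disc_disjoint11 H Hb (hgood1 Q' hQ') (H.good1 _ (hgood1 Q'' hQ'')) hne
      (Finset.mem_filter.1 hP).2 (Finset.mem_filter.1 hP').2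
  have hd2 : (Z2.support : Set (Place k E)).PairwiseDisjoint U2 := by
    intro Q' hQ' Q'' hQ'' hne
    rw [Function.onFun, Finset.disjoint_left]
    intro P hP hP'
    exact disc_disjoint11 H.swap Hb (hgood2 Q' hQ') (H.good2 _ (hgood2 Q'' hQ'')) hne
      (Finset.mem_filter.1 hP).2 (Finset.mem_filter.1 hP').2
  have hd12 : Disjoint B1 B2 := by
    rw [Finset.disjoint_left]
    intro P hP hP'
    obtain ⟨Q', hQ', hPQ'⟩ := Finset.mem_biUnion.1 hP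
    obtain ⟨Q'', hQ'', hPQ''⟩ := Finset.mem_biUnion.1 hP'
    exact disc_disjoint12 H Hb (hgood1 Q' hQ') (H.good2 _ (hgood2 Q'' hQ''))
      (Finset.mem_filter.1 hPQ').2 (Finset.mem_filter.1 hPQ'').2
  have hsub : B1 ∪ B2 ⊆ ZF.support := by
    intro P hP
    rw [Finsupp.mem_support_iff]
    rcases Finset.mem_union.1 hP with h | h
    · obtain ⟨Q', -, hPQ'⟩ := Finset.mem_biUnion.1 h
      obtain ⟨h1, h2⟩ := Finset.mem_filter.1 hPQ'
      rw [hZFeq P h2.1]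
      exact Finsupp.mem_support_iff.1 h1
    · obtain ⟨Q', -, hPQ'⟩ := Finset.mem_biUnion.1 h
      obtain ⟨h1, h2⟩ := Finset.mem_filter.1 hPQ'
      rw [hZFeq P h2.1]
      exact Finsupp.mem_support_iff.1 h1
  have hup : ∑ Q' ∈ Z1.support, ∑ P ∈ U1 Q', Du P + ∑ Q' ∈ Z2.support, ∑ P ∈ U2 Q', Du P
      ≤ n * Divisor.degree D := by
    rw [← hZFdeg, ← Finset.sum_biUnion hd1, ← Finset.sum_biUnion hd2, ← Finset.sum_union hd12]
    refine le_trans (le_of_eq ?_)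
      (Finset.sum_le_sum_of_subset_of_nonneg hsub fun P _ _ => hZFnn P)
    refine Finset.sum_congr rfl fun P hP => ?_
    rcases Finset.mem_union.1 hP with h | h
    · obtain ⟨Q', -, hPQ'⟩ := Finset.mem_biUnion.1 h
      exact (hZFeq P (Finset.mem_filter.1 hPQ').2.1).symm
    · obtain ⟨Q', -, hPQ'⟩ := Finset.mem_biUnion.1 h
      exact (hZFeq P (Finset.mem_filter.1 hPQ').2.1).symm
  -- `Q` is in the support of `Z1`
  have hQC : C1 Q = 0 := H.good1 Q (hg1 Q (by omega))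
  have hZ1Q : Z1 Q = 1 ∧ Q ∈ Z1.support := by
    have h1 : Z1 Q = 1 := by rw [hZ1e Q hQC, hQt]
    exact ⟨h1, Finsupp.mem_support_iff.2 (by rw [h1]; exact one_ne_zero)⟩
  have hkey : ∑ P ∈ U1 Q, Du P = 1 := by
    by_contra hne
    have hlt : Z1 Q < ∑ P ∈ U1 Q, Du P := by
      have := hl1 Q hZ1Q.2
      rw [hZ1Q.1] at this ⊢
      omega
    have h1 : ∑ Q' ∈ Z1.support, Z1 Q' < ∑ Q' ∈ Z1.support, ∑ P ∈ U1 Q', Du P :=
      Finset.sum_lt_sum hl1 ⟨Q, hZ1Q.2, hlt⟩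
    have h2 : ∑ Q' ∈ Z2.support, Z2 Q' ≤ ∑ Q' ∈ Z2.support, ∑ P ∈ U2 Q', Du P :=
      Finset.sum_le_sum hl2
    rw [hZ1s] at h1
    rw [hZ2s] at h2
    have h3 := H.hdeg
    have : (n : ℤ) * Divisor.degree D = n * Divisor.degree C1 + n * Divisor.degree C2 := by
      rw [← h3]; ring
    omega
  have hge : ∀ P ∈ U1 Q, 1 ≤ Du P := by
    intro P hP
    obtain ⟨h1, h2⟩ := Finset.mem_filter.1 hP
    have h3 := hA.ord_nonneg h2.1
    rw [← hDu] at h3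
    have := Finsupp.mem_support_iff.1 h1
    omega
  have hne : (U1 Q).Nonempty := by
    rw [Finset.nonempty_iff_ne_empty]
    intro h
    rw [h, Finset.sum_empty] at hkey
    exact zero_ne_one hkey
  obtain ⟨P, hP⟩ := hne
  have huniq : ∀ P' ∈ U1 Q, P' = P := by
    intro P' hP'
    by_contra hPP
    have h1 : ∑ x ∈ ({P', P} : Finset (Place K F)), Du x ≤ ∑ x ∈ U1 Q, Du x :=
      Finset.sum_le_sum_of_subset_of_nonneg (by
        intro x hx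
        rcases Finset.mem_insert.1 hx with rfl | hx
        · exact hP'
        · rw [Finset.mem_singleton.1 hx]; exact hP) (fun x hx _ => by have := hge x hx; omega)
    rw [Finset.sum_pair hPP, hkey] at h1
    have := hge P hP
    have := hge P' hP'
    omega
  refine ⟨P, (Finset.mem_filter.1 hP).2, ?_, fun P' hP' hPP => ?_⟩
  · have : U1 Q = {P} := Finset.eq_singleton_iff_unique_mem.2 ⟨hP, huniq⟩
    rw [this, Finset.sum_singleton] at hkey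
    rw [← hDu, hkey]
  · by_contra hne
    rw [← hDu] at hne
    exact hPP (huniq P' (Finset.mem_filter.2 ⟨Finsupp.mem_support_iff.2 hne, hP'⟩))


/-- **(A)**: the disc of a good point is a disc. -/
theorem isDisc_disc (H : Aff A π O1 O2 ρ1 ρ2 D C1 C2 Good1 Good2) {gF cF gb cb : ℤ}
    (HF : RFacts K F gF cF) (Hb : RFacts k E gb cb) {Q : Place k E} (hQ : Good1 Q) :
    IsDisc A π O1 O2 ρ1 ρ2 D C1 C2 Q (disc π O1 O2 ρ1 ρ2 D Q) where
  reg x a b h1 h2 h := disc_reg H HF Q (H.good1 Q hQ) x a b h1 h2 h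
  noCusp P hP := hP.1
  param := by
    obtain ⟨n, t, t1, t2, hn, ht, hr1, hr2, hQt, ht2, hp1, hp2, -, -, hg1, hg2⟩ :=
      H.sup1 Q hQ ∅ ∅ (by simp) (by simp) (by simp)
    refine ⟨t, t1, t2, 0, n, ht, hr1, hr2, by simpa using hQt, by simpa using ht2, hp1, hp2,
      fun P hP => ?_, fun c hc => ?_⟩
    · exact hP.2 t t1 t2 ⟨⟨n, ht⟩, hr1, hr2⟩ (by omega)
    · have h0 := (AffInt.sub_const H.hD H.hB1 H.hB2 (⟨⟨n, ht⟩, hr1, hr2⟩ :
        AffInt O1 O2 ρ1 ρ2 D t t1 t2) c)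
      rw [hc, map_zero, sub_zero, sub_zero] at h0
      exact disc_unique_zero H HF Hb
        (Submodule.sub_mem _ ht (AffInt.const_mem H.hD n _)) h0.2.1 h0.2.2 hQt ht2 hp1 hp2 hg1 hg2

end FAN
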