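import Fermat.Agent.Nodal.ESide1
import Fermat.Agent.Nodal.DiscEx

/-!
# PROJECT N, (III): the hypotheses `Aff` of (A) from `NodalGeom`
-/

set_option autoImplicit false

open AlgebraicCurve Module FA18 FA18.G4

namespace FAN

variable {K F k E : Type*} [Field K] [Field F] [Algebra K F] [Field k] [Field E] [Algebra k E]
  [IsAlgClosed k]
  {A : ValuationSubring K} {π : A →+* k} {O1 O2 : ValuationSubring F}
  {ρ1 : O1 →+* E} {ρ2 : O2 →+* E} {D : Divisor K F} {gF cF gb cb : ℤ}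
  (G : NodalGeom A π O1 O2 ρ1 ρ2 D gF cF gb cb)

namespace NodalGeom

/-- smooth non-cuspidal points of the first component. -/
def Good1 (Q : Place k E) : Prop := G.C1 Q = 0 ∧ ∀ i, G.Qn i ≠ Q

/-- smooth non-cuspidal points of the second component. -/
def Good2 (Q : Place k E) : Prop := G.C2 Q = 0 ∧ ∀ i, G.Qn' i ≠ Q

theorem good1_of_pos {n : ℕ} {a : E} (ha : a ∈ riemannRochSpace (n • G.C1))
    (hc : ∀ P, G.C1 P ≠ 0 → P.ord a = -(n * G.C1 P)) (hn : ∀ i, G.e i a ≠ 0) (Q : Place k E)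
    (hQ : 0 < Q.ord a) : G.Good1 Q := by
  constructor
  · by_contra hne
    have h1 := hc Q hne
    have h2 : 0 ≤ G.C1 Q := G.hC1 Q
    have h3 : (0 : ℤ) ≤ n * G.C1 Q := mul_nonneg (Int.natCast_nonneg n) h2
    omega
  · rintro i rfl
    have := ((G.valAt_eOE i (G.mem_OE1 ha)).ord_eq_zero (hn i)).2
    omega

theorem good2_of_pos {n : ℕ} {b : E} (hb : b ∈ riemannRochSpace (n • G.C2))
    (hc : ∀ P, G.C2 P ≠ 0 → P.ord b = -(n * G.C2 P)) (hn : ∀ i, G.e' i b ≠ 0) (Q : Place k E)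
    (hQ : 0 < Q.ord b) : G.Good2 Q := by
  constructor
  · by_contra hne
    have h1 := hc Q hne
    have h2 : 0 ≤ G.C2 Q := G.hC2 Q
    have h3 : (0 : ℤ) ≤ n * G.C2 Q := mul_nonneg (Int.natCast_nonneg n) h2
    omega
  · rintro i rfl
    have := ((G.valAt_eOE' i (G.mem_OE2 hb)).ord_eq_zero (hn i)).2
    omega

/-- helper4's `Aff` from `NodalGeom`. -/
theorem aff : Aff A π O1 O2 ρ1 ρ2 D G.C1 G.C2 G.Good1 G.Good2 where
  hB1 := G.hB1
  hB2 := G.hB2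
  hD := G.hD
  hC1 := G.hC1
  hC2 := G.hC2
  hdeg := G.hdeg
  hpos1 := G.exists_cusp1
  hpos2 := G.exists_cusp2
  good1 _ h := h.1
  good2 _ h := h.1
  red1 n x a b hx h1 h2 := by
    have := (G.red' hx h1 h2).1
    rwa [G.hXL] at this
  red2 n x a b hx h1 h2 := by
    have := (G.red' hx h1 h2).2.1
    rwa [G.hYL] at this
  sup1 Q hQ Z1 Z2 hQZ hZ1 hZ2 := by
    obtain ⟨n1, -, h⟩ := G.exists_glued1 Q hQ.1 hQ.2 Z1 Z2 hQZ
    obtain ⟨a, ha, b, hb, ha0, hb0, hg, h1, h2, h3, x, hx, r1, r2⟩ := h (n1 + 1) (Nat.le_succ _)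
    refine ⟨n1 + 1, x, a, b, Nat.succ_pos _, hx, r1, r2, h1, hb0, fun Q' h' => h2 Q' (Or.inr h'),
      fun Q' h' => h3 Q' (Or.inr h'), fun Q' h' => ?_, fun Q' h' => ?_,
      G.good1_of_pos ha (fun P h' => h2 P (Or.inr h')) fun i => (hg i).2,
      G.good2_of_pos hb (fun P h' => h3 P (Or.inr h')) fun i => (hg i).1 ▸ (hg i).2⟩
    · rw [h2 Q' (Or.inl h'), hZ1 Q' h']; simp
    · rw [h3 Q' (Or.inl h'), hZ2 Q' h']; simp
  sup2 Q hQ Z1 Z2 hQZ hZ1 hZ2 := by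
    obtain ⟨n1, -, h⟩ := G.exists_glued2 Q hQ.1 hQ.2 Z1 Z2 hQZ
    obtain ⟨a, ha, b, hb, ha0, hb0, hg, h1, h2, h3, x, hx, r1, r2⟩ := h (n1 + 1) (Nat.le_succ _)
    refine ⟨n1 + 1, x, a, b, Nat.succ_pos _, hx, r1, r2, h1, ha0, fun Q' h' => h2 Q' (Or.inr h'),
      fun Q' h' => h3 Q' (Or.inr h'), fun Q' h' => ?_, fun Q' h' => ?_,
      G.good1_of_pos ha (fun P h' => h2 P (Or.inr h')) fun i => (hg i).2,
      G.good2_of_pos hb (fun P h' => h3 P (Or.inr h')) fun i => (hg i).1 ▸ (hg i).2⟩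
    · rw [h2 Q' (Or.inl h'), hZ1 Q' h']; simp
    · rw [h3 Q' (Or.inl h'), hZ2 Q' h']; simp

/-- (D1) with the points good, away from a given finite set. -/
theorem exists_good_S1S2 (hs : 0 < G.s) (Z : Finset (Place k E)) :
    ∃ S1 S2 : Finset (Place k E), Disjoint S1 Z ∧ Disjoint S2 Z ∧
      (∀ Q ∈ S1, G.Good1 Q) ∧ (∀ Q ∈ S2, G.Good2 Q) ∧
      (S1.card : ℤ) + S2.card = 2 * gb + G.s - 1 ∧
      ∀ a b : E, (∀ P, P ∉ S1 → 0 ≤ P.ord a) → (∀ P ∈ S1, -1 ≤ P.ord a) →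
        (∀ P, P ∉ S2 → 0 ≤ P.ord b) → (∀ P ∈ S2, -1 ≤ P.ord b) →
        (∀ i, ∃ c, ValAt (G.Qn i) a c ∧ ValAt (G.Qn' i) b c) →
        ∃ c : k, a = algebraMap k E c ∧ b = algebraMap k E c := by
  classical
  obtain ⟨S1, S2, h1, h2, h3, h4⟩ := G.exists_S1S2 hs
    (Z ∪ (G.C1.support ∪ G.C2.support ∪ Finset.univ.image G.Qn ∪ Finset.univ.image G.Qn'))
  rw [Finset.disjoint_union_right] at h1 h2
  refine ⟨S1, S2, h1.1, h2.1, fun Q hQ => ⟨?_, ?_⟩, fun Q hQ => ⟨?_, ?_⟩, h3, h4⟩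
  · by_contra hne
    refine Finset.disjoint_left.1 h1.2 hQ ?_
    simp only [Finset.mem_union]
    exact Or.inl (Or.inl (Or.inl (Finsupp.mem_support_iff.2 hne)))
  · rintro i rfl
    refine Finset.disjoint_left.1 h1.2 hQ ?_
    simp only [Finset.mem_union]
    exact Or.inl (Or.inr (Finset.mem_image_of_mem _ (Finset.mem_univ i)))
  · by_contra hne
    refine Finset.disjoint_left.1 h2.2 hQ ?_
    simp only [Finset.mem_union]
    exact Or.inl (Or.inl (Or.inr (Finsupp.mem_support_iff.2 hne)))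
  · rintro i rfl
    refine Finset.disjoint_left.1 h2.2 hQ ?_
    simp only [Finset.mem_union]
    exact Or.inr (Finset.mem_image_of_mem _ (Finset.mem_univ i))

/-- there is a good point away from a given finite set. -/
theorem exists_good1 (Z : Finset (Place k E)) : ∃ Q, G.Good1 Q ∧ Q ∉ Z := by
  classical
  obtain ⟨Q, -, hQ⟩ := ((FAR.infinite_places G.isFF).sdiff
    (Z ∪ (G.C1.support ∪ Finset.univ.image G.Qn)).finite_toSet).nonempty
  simp only [Finset.coe_union, Set.mem_union, Finset.mem_coe, not_or] at hQ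
  refine ⟨Q, ⟨?_, ?_⟩, hQ.1⟩
  · by_contra hne
    exact hQ.2.1 (Finsupp.mem_support_iff.2 hne)
  · rintro i rfl
    exact hQ.2.2 (Finset.mem_image_of_mem _ (Finset.mem_univ i))

end NodalGeom

end FAN
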