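import Fermat.Agent.Maz.RatVal
import Fermat.Agent.Red.G4Core
import Fermat.Agent.Gal.Defs

/-!
# PROJECT N: the valuation rings of `ℚ̄` have rank one
-/

set_option autoImplicit false

open AlgebraicCurve FA18 FA18.G4 Polynomial

namespace FAN

section K

variable {L : Type*} [Field L] [Algebra ℚ L] [Algebra.IsAlgebraic ℚ L] (A : ValuationSubring L)

/-- some power of the valuation of a non-zero algebraic number is a power of `v(q)`. -/
theorem exists_pow_val_eq {q : ℕ} (hq : q.Prime) (hA : A.LiesOverPrime q) {x : L} (hx : x ≠ 0) :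
    ∃ m : ℕ, 0 < m ∧ ∃ z : ℤ, A.valuation x ^ m = A.valuation (q : L) ^ z := by
  classical
  have : CharZero L := algebraRat.charZero L
  have halg : IsAlgebraic ℚ x := Algebra.IsAlgebraic.isAlgebraic x
  set p := minpoly ℚ x with hp
  have hp0 : p ≠ 0 := minpoly.ne_zero halg.isIntegral
  set t : ℕ → L := fun i => algebraMap ℚ L (p.coeff i) * x ^ i with ht
  have hsum : ∑ i ∈ p.support, t i = 0 := by
    have h1 : aeval x p = 0 := minpoly.aeval ℚ x
    rwa [aeval_def, eval₂_eq_sum, sum_def] at h1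
  have hvx : A.valuation x ≠ 0 := (Valuation.ne_zero_iff _).2 hx
  have hvq : A.valuation (q : L) ≠ 0 := FA13.val_prime_ne_zero A hq
  have hne : p.support.Nonempty := by
    rw [Finset.nonempty_iff_ne_empty, Ne, support_eq_empty]
    exact hp0
  have ht0 : ∀ i ∈ p.support, t i ≠ 0 := by
    intro i hi
    have : p.coeff i ≠ 0 := mem_support_iff.1 hi
    exact mul_ne_zero (by simpa using this) (pow_ne_zero _ hx)
  -- two terms with the same valuation
  obtain ⟨i, hi, j, hj, hij, heq⟩ : ∃ i ∈ p.support, ∃ j ∈ p.support, i < j ∧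
      A.valuation (t i) = A.valuation (t j) := by
    by_contra hcon
    push Not at hcon
    obtain ⟨j, hj, hmax⟩ := Finset.exists_max_image p.support (fun i => A.valuation (t i)) hne
    have key := Valuation.map_sum_eq_of_lt A.valuation (s := p.support) (f := t) hj (by
      intro i hi
      obtain ⟨hi1, hi2⟩ := Finset.mem_sdiff.1 hi
      have hij : i ≠ j := by simpa using hi2
      refine lt_of_le_of_ne (hmax i hi1) ?_
      rcases lt_or_gt_of_ne hij with h | h
      · exact hcon i hi1 j hj h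
      · exact (hcon j hj i hi1 h).symm)
    rw [hsum, map_zero] at key
    exact (Valuation.ne_zero_iff _).2 (ht0 j hj) key.symm
  obtain ⟨zi, hzi⟩ := FA13.val_rat_eq_zpow A hq hA (p.coeff i) (mem_support_iff.1 hi)
  obtain ⟨zj, hzj⟩ := FA13.val_rat_eq_zpow A hq hA (p.coeff j) (mem_support_iff.1 hj)
  refine ⟨j - i, Nat.sub_pos_of_lt hij, zi - zj, ?_⟩
  simp only [ht, map_mul, map_pow, eq_ratCast] at heq
  rw [hzi, hzj] at heq
  obtain ⟨d, rfl⟩ := Nat.exists_eq_add_of_lt hij
  have e : i + d + 1 - i = d + 1 := by omega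
  rw [e, zpow_sub₀ hvq]
  have h2 : A.valuation x ^ (i + d + 1) = A.valuation x ^ i * A.valuation x ^ (d + 1) := by
    rw [← pow_add]
    ring_nf
  rw [h2] at heq
  have hvi : A.valuation x ^ i ≠ 0 := pow_ne_zero _ hvx
  have hzj0 : A.valuation (q : L) ^ zj ≠ 0 := zpow_ne_zero _ hvq
  field_simp
  calc A.valuation x ^ (d + 1) * A.valuation (q : L) ^ zj
      = (A.valuation (q : L) ^ zj * (A.valuation x ^ i * A.valuation x ^ (d + 1))) *
          (A.valuation x ^ i)⁻¹ := by
        field_simp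
    _ = (A.valuation (q : L) ^ zi * A.valuation x ^ i) * (A.valuation x ^ i)⁻¹ := by rw [heq]
    _ = A.valuation (q : L) ^ zi := by field_simp

/-- **rank one.** -/
theorem arch_K {q : ℕ} (hq : q.Prime) (hA : A.LiesOverPrime q) {p0 : L}
    (h : A.valuation p0 < 1) (c : L) : ∃ M : ℕ, p0 ^ M * c ∈ A := by
  have : CharZero L := algebraRat.charZero L
  rcases eq_or_ne c 0 with rfl | hc
  · exact ⟨0, by simp⟩
  rcases eq_or_ne p0 0 with rfl | hp0
  · exact ⟨1, by simp⟩
  obtain ⟨m, hm, z, hz⟩ := exists_pow_val_eq A hq hA hp0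
  obtain ⟨m', hm', z', hz'⟩ := exists_pow_val_eq A hq hA hc
  have hq0 : 0 < A.valuation (q : L) := zero_lt_iff.mpr (FA13.val_prime_ne_zero A hq)
  have hq1 := FA13.val_prime_lt_one A hA
  have hz1 : 1 ≤ z := by
    by_contra hlt
    have h1 : z ≤ 0 := by omega
    have h2 := one_le_zpow_of_nonpos₀ hq0 hq1.le h1
    rw [← hz] at h2
    have h3 : A.valuation p0 ^ m < 1 := pow_lt_one₀ zero_le h hm.ne'
    exact absurd h3 (not_lt.2 h2)
  refine ⟨m * z'.natAbs, ?_⟩
  rw [← A.valuation_le_one_iff]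
  by_contra hgt
  push Not at hgt
  have h1 := one_lt_pow₀ hgt hm'.ne'
  rw [map_mul, map_pow, mul_pow, hz', ← pow_mul, mul_assoc, pow_mul, hz, ← zpow_natCast,
    ← zpow_mul, ← zpow_add₀ hq0.ne'] at h1
  have h2 : 0 ≤ z * ((z'.natAbs * m' : ℕ) : ℤ) + z' := by
    have h3 : (1 : ℤ) ≤ m' := by exact_mod_cast hm'
    have h4 : -z' ≤ (z'.natAbs : ℤ) := by
      rw [Int.natCast_natAbs]
      exact neg_le_abs z'
    have h5 : (0 : ℤ) ≤ z'.natAbs := Int.natCast_nonneg _
    have h6 : (z'.natAbs : ℤ) ≤ z'.natAbs * m' := by nlinarith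
    have h7 : (z'.natAbs : ℤ) * m' ≤ z * ((z'.natAbs : ℤ) * m') := by nlinarith
    rw [Nat.cast_mul]
    linarith
  exact absurd h1 (not_lt.2 (zpow_le_one₀ hq0 hq1.le h2))

end K

section F

variable {K F k E : Type*} [Field K] [Field F] [Algebra K F] [Field k] [Field E] [Algebra k E]
  {A : ValuationSubring K} {π : A →+* k} {O : ValuationSubring F} {ρ : O →+* E}

/-- rank one for the Gauss-type valuation `O`. -/
theorem arch_F (hB : GBase A π O ρ)
    (hK : ∀ p0 c : K, A.valuation p0 < 1 → ∃ M : ℕ, p0 ^ M * c ∈ A) (z μ : F)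
    (hμ : Rd O ρ μ 0) : ∃ M : ℕ, ∃ α, Rd O ρ (z * μ ^ M) α := by
  rcases eq_or_ne z 0 with rfl | hz
  · exact ⟨0, 0, by simpa using Rd.zero⟩
  rcases eq_or_ne μ 0 with rfl | hμ0
  · exact ⟨1, 0, by simpa using Rd.zero⟩
  obtain ⟨c, hc, zb, hzb, hcz⟩ := hB.scale z hz
  obtain ⟨c', hc', μb, hμb, hcμ⟩ := hB.scale μ hμ0
  have hc'A : c' ∉ A := by
    intro hmem
    have := ((hB.const' hmem).mul hμ).unique hcμ
    rw [mul_zero] at this
    exact hμb this.symm
  have hlt : A.valuation c'⁻¹ < 1 := by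
    rw [map_inv₀]
    have h1 : 1 < A.valuation c' := by
      by_contra h
      exact hc'A ((A.valuation_le_one_iff _).1 (not_lt.1 h))
    exact inv_lt_one_of_one_lt₀ h1
  obtain ⟨M, hM⟩ := hK c'⁻¹ c⁻¹ hlt
  refine ⟨M, _, (((hB.const' hM).mul hcz).mul (hcμ.pow M)).congr ?_ rfl⟩
  have h1 : algebraMap K F c ≠ 0 := by simpa using hc
  have h2 : algebraMap K F c' ≠ 0 := by simpa using hc'
  rw [map_mul, map_pow, map_inv₀, map_inv₀, mul_pow, inv_pow]
  field_simp

end F

/-- rank one for the valuation rings of `ℚ̄`. -/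
theorem arch_Kb {q : ℕ} (hq : q.Prime) (A : ValuationSubring FA24.Kb) (hA : A.LiesOverPrime q)
    (p0 c : FA24.Kb) (h : A.valuation p0 < 1) : ∃ M : ℕ, p0 ^ M * c ∈ A :=
  haveI : Algebra.IsAlgebraic ℚ FA24.Kb := AlgebraicClosure.isAlgebraic ℚ
  arch_K A hq hA h c

end FAN
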