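/-
PROJECT N, (CS1): the pole orders of `j(q)` and `j(q^l)` at the cusps of `X₀(M l)`.
-/
import Fermat.Agent.Red.Step2
import Fermat.Agent.Red.FrickeBar
import Fermat.Agent.Red.RFactsOf
import Fermat.Agent.Eis.Conj
import Fermat.Agent.Gal.AL

set_option autoImplicit false

open AlgebraicCurve IntermediateField ModularCurve FA24 FA18 FA18.St2

namespace FAN

section levelL

variable {l : ℕ} [NeZero l]

/-- transport of a place by an automorphism. -/
theorem exists_place_comp {N : ℕ} [NeZero N] (W : FN N ≃ₐ[Kb] FN N) (v : Place Kb (FN N)) :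
    ∃ v' : Place Kb (FN N), ∀ f : FN N, v'.ord f = v.ord (W f) := by
  obtain ⟨π, hπ⟩ := FAFF.exists_irreducible v
  have hπ0 := FAFF.coe_ne_zero_of_irreducible v hπ
  have hπ1 : v.ord (π : FN N) = 1 := v.ord_coe_irreducible hπ
  obtain ⟨v', c, hc, hv'⟩ := exists_place_of_isOrd (K := Kb)
    ((isOrd_place v).comp (W : FN N →+* FN N))
    (fun a _ => by
      show v.ord (W (algebraMap Kb (FN N) a)) = 0
      rw [AlgEquiv.commutes]
      exact FAFF.ord_algebraMap v a)
    ⟨W.symm π, by simpa using hπ0, by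
      show v.ord (W (W.symm π)) ≠ 0
      rw [AlgEquiv.apply_symm_apply, hπ1]
      exact one_ne_zero⟩
  have h1 : (1 : ℤ) = c * v'.ord (W.symm π) := by
    have := hv' (W.symm π) (by simpa using hπ0)
    simp only [RingHom.coe_coe, AlgEquiv.apply_symm_apply] at this
    rw [← this, hπ1]
  have hc1 : c = 1 := by
    have hdvd : c ∣ 1 := ⟨_, h1⟩
    exact Int.eq_one_of_dvd_one hc.le hdvd
  refine ⟨v', fun f => ?_⟩
  rcases eq_or_ne f 0 with rfl | hf
  · simp
  · have := hv' f hf
    simp only [RingHom.coe_coe] at this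
    rw [this, hc1, one_mul]

/-- the place of `X₀(l)` at the cusp `0`. -/
theorem exists_place_zero : ∃ v : Place Kb (FN l),
    v.ord (Jd l (dvd_refl l)) = -1 ∧ v.ord (xN l) = -(l : ℤ) := by
  have hJ1 : (frC l (Jd l (dvd_refl l))).order = -1 := by
    have h1 := frC_Jd (N := l) (d := l) (c := 1) (mul_one l)
    rw [qExpand_one_apply] at h1
    have h2 := order_JC
    rw [JC] at h2
    rw [← h2, ← h1]
  have hJ2 : (frC l (xN l)).order = -(l : ℤ) := by
    have h1 := frC_Jd (N := l) (d := 1) (c := l) (one_mul l)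
    have h2 := order_JC
    rw [JC] at h2
    have h3 : xN l = Jd l (⟨l, (one_mul l).symm⟩ : 1 ∣ l) := rfl
    rw [h3, h1, order_qExpand, h2]
    ring
  have hne1 : Jd l (dvd_refl l) ≠ 0 := by
    intro h
    rw [h, map_zero] at hJ1
    simp at hJ1
  have hl0 : (l : ℤ) ≠ 0 := by exact_mod_cast NeZero.ne l
  have hne2 : xN l ≠ 0 := by
    intro h
    rw [h, map_zero] at hJ2
    simp at hJ2
    exact hl0 (by exact_mod_cast hJ2)
  obtain ⟨v, c, hc, hv⟩ := exists_place_of_isOrd (K := Kb) (isOrd_order.comp (frC l))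
    (fun a _ => by
      show (frC l (algebraMap Kb (FN l) a)).order = 0
      rw [frC_algebraMap]
      exact HahnSeries.order_C)
    ⟨Jd l (dvd_refl l), hne1, by
      show (frC l (Jd l (dvd_refl l))).order ≠ 0
      rw [hJ1]; norm_num⟩
  have h1 : (-1 : ℤ) = c * v.ord (Jd l (dvd_refl l)) := by
    rw [← hJ1]; exact hv _ hne1
  have hc1 : c = 1 := by
    have hdvd : c ∣ 1 := ⟨-v.ord (Jd l (dvd_refl l)), by linarith⟩
    exact Int.eq_one_of_dvd_one hc.le hdvd
  refine ⟨v, by rw [hc1] at h1; linarith, ?_⟩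
  have h2 : -(l : ℤ) = c * v.ord (xN l) := by
    rw [← hJ2]; exact hv _ hne2
  rw [hc1] at h2; linarith

/-- the Fricke involution exchanges `j(q)` and `j(q^l)`. -/
theorem exists_fricke_swap : ∃ W : FN l ≃ₐ[Kb] FN l,
    W (xN l) = Jd l (dvd_refl l) ∧ W (Jd l (dvd_refl l)) = xN l := by
  obtain ⟨W, hW⟩ := exists_frickeBar l
  have i1 : NeZero (l / 1) := ⟨by rw [Nat.div_one]; exact NeZero.ne l⟩
  have i2 : NeZero (l / l) := ⟨by rw [Nat.div_self (Nat.pos_of_ne_zero (NeZero.ne l))]; exact one_ne_zero⟩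
  refine ⟨W, ?_, ?_⟩
  · have := hW 1 (one_dvd l)
    rw [xN, this]
    apply Subtype.ext
    show coeffEmb Kb (qExpand ℚ (l / 1) jq) = coeffEmb Kb (qExpand ℚ l jq)
    simp only [Nat.div_one]
  · have := hW l (dvd_refl l)
    rw [this]
    apply Subtype.ext
    show coeffEmb Kb (qExpand ℚ (l / l) jq) = coeffEmb Kb (qExpand ℚ 1 jq)
    simp only [Nat.div_self (Nat.pos_of_ne_zero (NeZero.ne l))]

/-- the cusps of `X₀(l)`. -/
theorem cusps_level_l (hl : l.Prime) (v : Place Kb (FN l)) (hv : v.ord (xN l) < 0) :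
    (v.ord (xN l) = -(l : ℤ) ∧ v.ord (Jd l (dvd_refl l)) = -1) ∨
      (v.ord (xN l) = -1 ∧ v.ord (Jd l (dvd_refl l)) = -(l : ℤ)) := by
  classical
  obtain ⟨v0, h01, h02⟩ := exists_place_zero (l := l)
  obtain ⟨W, hW1, hW2⟩ := exists_fricke_swap (l := l)
  obtain ⟨v1, hv1⟩ := exists_place_comp W v0
  have h11 : v1.ord (xN l) = -1 := by rw [hv1, hW1, h01]
  have h12 : v1.ord (Jd l (dvd_refl l)) = -(l : ℤ) := by rw [hv1, hW2, h02]
  have hl2 : (2 : ℤ) ≤ l := by exact_mod_cast hl.two_le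
  have hne : v0 ≠ v1 := by
    intro h
    rw [h, h11] at h02
    omega
  obtain ⟨c, H⟩ := FAR.rfacts_of_isFF (isFF_FN (N := l))
  obtain ⟨Pd, hPd⟩ := H.exists_poleDiv (xN l) (by
    intro h
    rw [h] at hv
    simp at hv)
  have hdeg := H.deg_poles (xN l) (transcendental_xN l) Pd hPd
  rw [finrank_FN, card_XN, FA16.dedekindPsi_prime l hl] at hdeg
  by_contra hcon
  have hv0 : v ≠ v0 := by
    rintro rfl
    exact hcon (Or.inl ⟨h02, h01⟩)
  have hv1' : v ≠ v1 := by
    rintro rfl
    exact hcon (Or.inr ⟨h11, h12⟩)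
  have hle : Finsupp.single v0 (l : ℤ) + Finsupp.single v1 1 + Finsupp.single v 1 ≤ Pd := by
    intro u
    rw [hPd, Finsupp.add_apply, Finsupp.add_apply]
    by_cases hu0 : u = v0
    · subst hu0
      rw [Finsupp.single_eq_same, Finsupp.single_eq_of_ne hne, Finsupp.single_eq_of_ne hv0.symm, h02]
      simp
    · rw [Finsupp.single_eq_of_ne hu0]
      by_cases hu1 : u = v1
      · subst hu1
        rw [Finsupp.single_eq_same, Finsupp.single_eq_of_ne hv1'.symm, h11]
        simp
      · rw [Finsupp.single_eq_of_ne hu1]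
        by_cases hu : u = v
        · subst hu
          rw [Finsupp.single_eq_same]
          have : (1 : ℤ) ≤ -(u.ord (xN l)) := by omega
          simpa using this
        · rw [Finsupp.single_eq_of_ne hu]
          simp
  have := degree_mono' H.deg_one hle
  rw [map_add, map_add, Divisor.degree_single, Divisor.degree_single, Divisor.degree_single,
    H.deg_one, H.deg_one, H.deg_one, hdeg] at this
  push_cast at this
  omega

/-- poles of `j(q^l)` are poles of `j(q)`. -/
theorem pole_level_l (hl : l.Prime) (v : Place Kb (FN l))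
    (hv : v.ord (Jd l (dvd_refl l)) < 0) : v.ord (xN l) < 0 := by
  obtain ⟨W, hW1, hW2⟩ := exists_fricke_swap (l := l)
  obtain ⟨v', hv'⟩ := exists_place_comp W v
  have h1 : v'.ord (xN l) < 0 := by rw [hv', hW1]; exact hv
  have hl2 : (2 : ℤ) ≤ l := by exact_mod_cast hl.two_le
  have h2 : v'.ord (Jd l (dvd_refl l)) < 0 := by
    rcases cusps_level_l hl v' h1 with h | h
    · rw [h.2]; norm_num
    · rw [h.2]; omega
  rwa [hv', hW2] at h2

end levelL

/-- **(CS1)** at level `M l`: at every place the pole orders `a` of `j(q)` and `b` of `j(q^l)`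
satisfy `(a, b) = e (l, 1)` or `e (1, l)`. -/
theorem cs1 (M : ℕ) {l : ℕ} [NeZero l] [NeZero (M * l)] (hl : l.Prime)
    (P : Place Kb (FN (M * l))) :
    (P.ord (xN (M * l)) < 0 ↔ P.ord (Jd (M * l) (dvd_mul_left l M)) < 0) ∧
    (P.ord (xN (M * l)) < 0 →
      (P.ord (xN (M * l)) = l * P.ord (Jd (M * l) (dvd_mul_left l M)) ∨
        P.ord (Jd (M * l) (dvd_mul_left l M)) = l * P.ord (xN (M * l)))) := by
  obtain ⟨v, e, he, hv⟩ := exists_place_restrict (dvd_mul_left l M) P
  have h1 : P.ord (xN (M * l)) = e * v.ord (xN l) := by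
    rw [← hv, xN, xN, incl_Jd]
  have h2 : P.ord (Jd (M * l) (dvd_mul_left l M)) = e * v.ord (Jd l (dvd_refl l)) := by
    rw [← hv, incl_Jd]
  have hl2 : (2 : ℤ) ≤ l := by exact_mod_cast hl.two_le
  have key : v.ord (xN l) < 0 → (v.ord (xN l) = -(l : ℤ) ∧ v.ord (Jd l (dvd_refl l)) = -1) ∨
      (v.ord (xN l) = -1 ∧ v.ord (Jd l (dvd_refl l)) = -(l : ℤ)) := cusps_level_l hl v
  have hx : P.ord (xN (M * l)) < 0 ↔ v.ord (xN l) < 0 := by
    rw [h1]
    constructor
    · intro h
      by_contra hcon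
      push Not at hcon
      have := mul_nonneg he.le hcon
      omega
    · intro h
      exact mul_neg_of_pos_of_neg he h
  have hy : P.ord (Jd (M * l) (dvd_mul_left l M)) < 0 ↔ v.ord (Jd l (dvd_refl l)) < 0 := by
    rw [h2]
    constructor
    · intro h
      by_contra hcon
      push Not at hcon
      have := mul_nonneg he.le hcon
      omega
    · intro h
      exact mul_neg_of_pos_of_neg he h
  refine ⟨?_, ?_⟩
  · rw [hx, hy]
    constructor
    · intro h
      rcases key h with h' | h'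
      · rw [h'.2]; norm_num
      · rw [h'.2]; omega
    · exact pole_level_l hl v
  · intro h
    rcases key (hx.1 h) with h' | h'
    · left
      rw [h1, h2, h'.1, h'.2]; ring
    · right
      rw [h1, h2, h'.1, h'.2]; ring

/-- (CS1) in terms of polar divisors: `D₂ ≤ l D₁` and `D₁ ≤ l D₂`. -/
theorem cs1_max (M : ℕ) {l : ℕ} [NeZero l] [NeZero (M * l)] (hl : l.Prime)
    (P : Place Kb (FN (M * l))) :
    max 0 (-(P.ord (Jd (M * l) (dvd_mul_left l M)))) ≤ l * max 0 (-(P.ord (xN (M * l)))) ∧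
    max 0 (-(P.ord (xN (M * l)))) ≤ l * max 0 (-(P.ord (Jd (M * l) (dvd_mul_left l M)))) := by
  obtain ⟨h1, h2⟩ := cs1 M hl P
  have hl2 : (2 : ℤ) ≤ l := by exact_mod_cast hl.two_le
  by_cases hx : P.ord (xN (M * l)) < 0
  · have hy := h1.1 hx
    rw [max_eq_right (by omega), max_eq_right (by omega)]
    rcases h2 hx with h | h
    · rw [h]
      constructor <;> nlinarith
    · rw [h]
      constructor <;> nlinarith
  · have hy : ¬ P.ord (Jd (M * l) (dvd_mul_left l M)) < 0 := fun h => hx (h1.2 h)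
    rw [max_eq_left (by omega), max_eq_left (by omega)]
    simp

theorem heckeAlphaBar_xN (M l : ℕ) [NeZero M] [NeZero l] :
    heckeAlphaBar Kb M l (xN M) = xN (M * l) :=
  Subtype.ext (coe_heckeAlphaBar M l _)

theorem heckeBetaBar_xN (M l : ℕ) [NeZero M] [NeZero l] :
    heckeBetaBar Kb M l (xN M) = Jd (M * l) (dvd_mul_left l M) := by
  apply Subtype.ext
  rw [coe_heckeBetaBar]
  show qExpand Kb l (coeffEmb Kb (qExpand ℚ 1 jq)) = coeffEmb Kb (qExpand ℚ l jq)
  rw [coeffEmb, ← coeffMap_qExpand, qExpand_qExpand]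
  simp only [mul_one]

end FAN
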