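import Fermat.Agent.Red.G4Core
import Fermat.Agent.Red.G2Deg

/-!
# Project N, package (0)[DIM]

Two reductions `ρ1 : O1 → E`, `ρ2 : O2 → E` of one function field `F / K` (semi-local situation).
If the two valuations are independent and `[F : K(x0)] ≤ [E : k(t1)] + [E : k(t2)]`, then the
simultaneous reduction of a finite dimensional `K`-subspace of `F` has at least the same
dimension.
-/

set_option autoImplicit false

namespace FAN

open Module IntermediateField Polynomial FA18 FA18.G4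

section Gauss

variable {K k : Type*} [Field K] [Field k] {A : ValuationSubring K} {π : A →+* k}

/-- Gaussian elimination over a valuation ring (pure coefficient form). -/
theorem gauss_le {ι : Type*} (d : ℕ) :
    ∀ (W : Submodule K (ι →₀ K)), FiniteDimensional K W → d ≤ finrank K W →
    ∀ (Y : Submodule k (ι →₀ k)), FiniteDimensional k Y →
      (∀ u ∈ W, (∀ i, u i ∈ A) → u.mapRange (ext0 A π) (ext0_zero π) ∈ Y) →
      d ≤ finrank k Y := by
  induction d with
  | zero => intro W _ _ Y _ _; exact Nat.zero_le _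
  | succ d IH =>
    intro W hfd hd Y hfY hY
    have hW : W ≠ ⊥ := by
      rintro rfl
      simp at hd
    obtain ⟨w, hwW, hw0⟩ := Submodule.exists_mem_ne_zero_of_ne_bot hW
    obtain ⟨i0, h0, hn⟩ := RedBase.exists_normal A hw0
    set w' : ι →₀ K := (w i0)⁻¹ • w with hw'
    have hw'A : ∀ i, w' i ∈ A := fun i => by simpa [hw'] using hn i
    have h1 : w' i0 = 1 := by simp [hw', h0]
    have hw'W : w' ∈ W := W.smul_mem _ hwW
    set W' : Submodule K (ι →₀ K) :=
      W ⊓ LinearMap.ker (Finsupp.lapply i0 : (ι →₀ K) →ₗ[K] K) with hW'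
    have hfd' : FiniteDimensional K W' := Submodule.finiteDimensional_of_le inf_le_left
    have hle : W ≤ (K ∙ w') ⊔ W' := by
      intro u hu
      rw [Submodule.mem_sup]
      refine ⟨u i0 • w', Submodule.smul_mem _ _ (Submodule.mem_span_singleton_self _),
        u - u i0 • w', ⟨W.sub_mem hu (W.smul_mem _ hw'W), ?_⟩, by abel⟩
      simp [h1]
    have hd' : d ≤ finrank K W' := by
      have e1 : finrank K W ≤ finrank K ((K ∙ w') ⊔ W' : Submodule K (ι →₀ K)) :=
        Submodule.finrank_mono hle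
      have e2 := Submodule.finrank_add_le_finrank_add_finrank (K ∙ w') W'
      have hw'0 : w' ≠ 0 := by
        intro h; rw [h] at h1; simp at h1
      have e3 : finrank K (K ∙ w') = 1 := finrank_span_singleton hw'0
      omega
    set Y' : Submodule k (ι →₀ k) :=
      Y ⊓ LinearMap.ker (Finsupp.lapply i0 : (ι →₀ k) →ₗ[k] k) with hY'
    have hfY' : FiniteDimensional k Y' := Submodule.finiteDimensional_of_le inf_le_left
    have ih := IH W' hfd' hd' Y' hfY' (by
      intro u hu huA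
      refine ⟨hY u hu.1 huA, ?_⟩
      have h3 : u i0 = 0 := hu.2
      show (u.mapRange (ext0 A π) (ext0_zero π)) i0 = 0
      rw [Finsupp.mapRange_apply, h3, ext0_zero])
    have hlt : Y' < Y := by
      rw [SetLike.lt_iff_le_and_exists]
      refine ⟨inf_le_left, _, hY w' hw'W hw'A, ?_⟩
      rintro ⟨-, h2⟩
      have h2' : (w'.mapRange (ext0 A π) (ext0_zero π)) i0 = 0 := h2
      rw [Finsupp.mapRange_apply, h1, ext0_one] at h2'
      exact one_ne_zero h2'
    have := Submodule.finrank_lt_finrank_of_lt hlt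
    omega

end Gauss

variable {K F k E : Type*} [Field K] [Field F] [Algebra K F] [Field k] [Field E] [Algebra k E]
variable {A : ValuationSubring K} {π : A →+* k}

/-- integral linear combinations reduce termwise. -/
theorem Rd_linComb {O : ValuationSubring F} {ρ : O →+* E}
    (hc : ∀ a : A, Rd O ρ (algebraMap K F a) (algebraMap k E (π a)))
    {ι : Type*} {e : ι → F} {eb : ι → E} (he : ∀ i, Rd O ρ (e i) (eb i)) {u : ι →₀ K}
    (hu : ∀ i, u i ∈ A) :
    Rd O ρ (Finsupp.linearCombination K e u)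
      (Finsupp.linearCombination k eb (u.mapRange (ext0 A π) (ext0_zero π))) := by
  rw [Finsupp.linearCombination_apply, Finsupp.sum, Finsupp.linearCombination_apply,
    Finsupp.sum_mapRange_index (h := fun i a => a • eb i) (fun i => zero_smul _ _), Finsupp.sum]
  refine Rd.sum _ _ _ fun i _ => ?_
  rw [Algebra.smul_def, Algebra.smul_def, ext0_of_mem π (hu i)]
  exact (hc ⟨u i, hu i⟩).mul (he i)

theorem linComb_prod {ι : Type*} (a b : ι → E) (v : ι →₀ k) :
    Finsupp.linearCombination k (fun i => ((a i, b i) : E × E)) v =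
      (Finsupp.linearCombination k a v, Finsupp.linearCombination k b v) := by
  refine Prod.ext ?_ ?_
  · have := Finsupp.apply_linearCombination k (LinearMap.fst k E E)
      (fun i => ((a i, b i) : E × E)) v
    exact this
  · have := Finsupp.apply_linearCombination k (LinearMap.snd k E E)
      (fun i => ((a i, b i) : E × E)) v
    exact this

variable {O1 O2 : ValuationSubring F} {ρ1 : O1 →+* E} {ρ2 : O2 →+* E}

/-- lifts of a family which is independent for the simultaneous reduction are independent. -/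
theorem linearIndependent_of_red2
    (hc1 : ∀ a : A, Rd O1 ρ1 (algebraMap K F a) (algebraMap k E (π a)))
    (hc2 : ∀ a : A, Rd O2 ρ2 (algebraMap K F a) (algebraMap k E (π a)))
    {ι : Type*} {e : ι → F} {a b : ι → E} (h1 : ∀ i, Rd O1 ρ1 (e i) (a i))
    (h2 : ∀ i, Rd O2 ρ2 (e i) (b i))
    (hli : LinearIndependent k (fun i => ((a i, b i) : E × E))) : LinearIndependent K e := by
  rw [linearIndependent_iff]
  intro u h
  by_contra hu
  obtain ⟨i0, h0, hn⟩ := RedBase.exists_normal A hu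
  set u' : ι →₀ K := (u i0)⁻¹ • u with hu'
  have hu'A : ∀ i, u' i ∈ A := fun i => by simpa [hu'] using hn i
  have h1' : u' i0 = 1 := by simp [hu', h0]
  have hz : Finsupp.linearCombination K e u' = 0 := by rw [hu', map_smul, h, smul_zero]
  have r1 := Rd_linComb hc1 h1 hu'A
  have r2 := Rd_linComb hc2 h2 hu'A
  rw [hz] at r1 r2
  have e1 := r1.unique Rd.zero
  have e2 := r2.unique Rd.zero
  have e3 : Finsupp.linearCombination k (fun i => ((a i, b i) : E × E))
      (u'.mapRange (ext0 A π) (ext0_zero π)) = 0 := by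
    rw [linComb_prod, e1, e2]; rfl
  have e4 := DFunLike.congr_fun ((linearIndependent_iff.1 hli) _ e3) i0
  rw [Finsupp.mapRange_apply, h1', ext0_one] at e4
  exact one_ne_zero e4

/-- [DIM] for subspaces of the span of an orthonormal family. -/
theorem dim_span
    (hc1 : ∀ a : A, Rd O1 ρ1 (algebraMap K F a) (algebraMap k E (π a)))
    (hc2 : ∀ a : A, Rd O2 ρ2 (algebraMap K F a) (algebraMap k E (π a)))
    {ι : Type*} {e : ι → F} {a b : ι → E} (h1 : ∀ i, Rd O1 ρ1 (e i) (a i))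
    (h2 : ∀ i, Rd O2 ρ2 (e i) (b i))
    (hli : LinearIndependent k (fun i => ((a i, b i) : E × E)))
    (V : Submodule K F) [FiniteDimensional K V] (hV : V ≤ Submodule.span K (Set.range e))
    (W : Submodule k (E × E)) [FiniteDimensional k W]
    (hW : ∀ x ∈ V, ∀ a b, Rd O1 ρ1 x a → Rd O2 ρ2 x b → (a, b) ∈ W) :
    finrank K V ≤ finrank k W := by
  have hK : LinearIndependent K e := linearIndependent_of_red2 hc1 hc2 h1 h2 hli
  have hinj : Function.Injective (Finsupp.linearCombination K e) := hK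
  have hinj' : Function.Injective
      (Finsupp.linearCombination k (fun i => ((a i, b i) : E × E))) := hli
  set Wc : Submodule K (ι →₀ K) := V.comap (Finsupp.linearCombination K e) with hWc
  have hmap : Wc.map (Finsupp.linearCombination K e) = V := by
    rw [hWc, Submodule.map_comap_eq, Finsupp.range_linearCombination, inf_eq_right.2 hV]
  have hfW : finrank K Wc = finrank K V := by
    rw [← hmap]; exact (finrank_map_of_injective _ hinj Wc).symm
  have hWfd : FiniteDimensional K Wc := by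
    have e1 := Submodule.equivMapOfInjective _ hinj Wc
    rw [hmap] at e1
    exact Module.Finite.equiv e1.symm
  set Y : Submodule k (ι →₀ k) :=
    W.comap (Finsupp.linearCombination k (fun i => ((a i, b i) : E × E))) with hY
  have hYle : Y.map (Finsupp.linearCombination k (fun i => ((a i, b i) : E × E))) ≤ W :=
    Submodule.map_comap_le _ _
  have hYfd : FiniteDimensional k Y := by
    have e1 := Submodule.equivMapOfInjective _ hinj' Y
    have : FiniteDimensional k
        (Y.map (Finsupp.linearCombination k (fun i => ((a i, b i) : E × E)))) :=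
      Submodule.finiteDimensional_of_le hYle
    exact Module.Finite.equiv e1.symm
  have hfY : finrank k Y ≤ finrank k W := by
    rw [← finrank_map_of_injective _ hinj' Y]
    exact Submodule.finrank_mono hYle
  have key := gauss_le (A := A) (π := π) (finrank K Wc) Wc hWfd le_rfl Y hYfd (by
    intro u hu huA
    rw [hY, Submodule.mem_comap, linComb_prod]
    exact hW _ hu _ _ (Rd_linComb hc1 h1 huA) (Rd_linComb hc2 h2 huA))
  omega

/-! ### independence of the two valuations: joint surjectivity -/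

/-- one half of the approximation theorem. -/
theorem exists_lift_left {E' : Type*} [Field E'] {ρ2' : O2 →+* E'}
    (hs1 : Function.Surjective ρ1) (hs2 : Function.Surjective ρ2')
    {t : F} (ht0 : t ≠ 0) (ht1 : Rd O1 ρ1 t 0) (ht2 : Rd O2 ρ2' t⁻¹ 0) (a : E) :
    ∃ x, Rd O1 ρ1 x a ∧ Rd O2 ρ2' x 0 := by
  obtain ⟨⟨x0, hx0⟩, hx0a⟩ := hs1 a
  have r0 : Rd O1 ρ1 x0 a := ⟨hx0, hx0a⟩
  by_cases hx2 : x0 ∈ O2
  · refine ⟨x0 * (1 + t)⁻¹, ?_, ?_⟩
    · have := r0.mul (Rd.inv hs1 (Rd.one.add ht1) (by simp))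
      simpa using this
    · have h1 : (1 + t)⁻¹ = t⁻¹ * (1 + t⁻¹)⁻¹ := by
        have : 1 + t = t * (1 + t⁻¹) := by field_simp; ring
        rw [this, mul_inv]
      have r2 : Rd O2 ρ2' x0 (ρ2' ⟨x0, hx2⟩) := ⟨hx2, rfl⟩
      have := r2.mul (ht2.mul (Rd.inv hs2 (Rd.one.add ht2) (by simp)))
      rw [h1]
      simpa using this
  · have hx00 : x0 ≠ 0 := by
      rintro rfl
      exact hx2 O2.zero_mem
    have r2 : Rd O2 ρ2' x0⁻¹ 0 := Rd.of_notMem hs2 hx2
    refine ⟨x0 * (1 + t * x0)⁻¹, ?_, ?_⟩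
    · have := r0.mul (Rd.inv hs1 (Rd.one.add (ht1.mul r0)) (by simp))
      simpa using this
    · have h1 : x0 * (1 + t * x0)⁻¹ = t⁻¹ * (1 + t⁻¹ * x0⁻¹)⁻¹ := by
        have : 1 + t * x0 = t * x0 * (1 + t⁻¹ * x0⁻¹) := by field_simp; ring
        rw [this, mul_inv, mul_inv]
        generalize (1 + t⁻¹ * x0⁻¹)⁻¹ = z
        field_simp
      have := ht2.mul (Rd.inv hs2 (Rd.one.add (ht2.mul r2)) (by simp))
      rw [h1]
      simpa using this

/-- joint surjectivity of the two reductions. -/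
theorem exists_lift2 (hs1 : Function.Surjective ρ1) (hs2 : Function.Surjective ρ2)
    {t : F} (ht0 : t ≠ 0) (ht1 : Rd O1 ρ1 t 0) (ht2 : Rd O2 ρ2 t⁻¹ 0) (a b : E) :
    ∃ x, Rd O1 ρ1 x a ∧ Rd O2 ρ2 x b := by
  obtain ⟨x, hx1, hx2⟩ := exists_lift_left hs1 hs2 ht0 ht1 ht2 a
  obtain ⟨y, hy2, hy1⟩ := exists_lift_left hs2 hs1 (inv_ne_zero ht0) ht2
    (by rwa [inv_inv]) b
  refine ⟨x + y, ?_, ?_⟩
  · simpa using hx1.add hy1
  · simpa using hx2.add hy2

/-- how to get `t`. -/
theorem exists_t (hs1 : Function.Surjective ρ1) (hs2 : Function.Surjective ρ2)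
    {z z' : F} {c c' : E} (h1 : Rd O1 ρ1 z 0) (h2 : Rd O2 ρ2 z c) (hc : c ≠ 0)
    (h1' : Rd O1 ρ1 z' c') (hc' : c' ≠ 0) (h2' : Rd O2 ρ2 z' 0) :
    z / z' ≠ 0 ∧ Rd O1 ρ1 (z / z') 0 ∧ Rd O2 ρ2 (z / z')⁻¹ 0 := by
  refine ⟨div_ne_zero (h2.ne_zero hc) (h1'.ne_zero hc'), ?_, ?_⟩
  · rw [div_eq_mul_inv]
    simpa using h1.mul (Rd.inv hs1 h1' hc')
  · rw [inv_div, div_eq_mul_inv]
    simpa using h2'.mul (Rd.inv hs2 h2 hc)

/-! ### the main theorem -/

theorem linComb_pow_ne_zero {t : E} (ht : Transcendental k t) {v : ℕ →₀ k} (hv : v ≠ 0) :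
    Finsupp.linearCombination k (fun j : ℕ => t ^ j) v ≠ 0 := by
  intro h
  have h1 : LinearIndependent k (fun j : ℕ => t ^ j) :=
    linearIndependent_pow_of_transcendental ht
  rw [linearIndependent_iff] at h1
  exact hv (h1 v h)

/-- normalisation of a polynomial: a common unit for the two valuations. -/
theorem exists_unit_aeval
    (hc1 : ∀ a : A, Rd O1 ρ1 (algebraMap K F a) (algebraMap k E (π a)))
    (hc2 : ∀ a : A, Rd O2 ρ2 (algebraMap K F a) (algebraMap k E (π a)))
    {x0 : F} {t1 t2 : E} (hx1 : Rd O1 ρ1 x0 t1) (hx2 : Rd O2 ρ2 x0 t2)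
    (htr1 : Transcendental k t1) (htr2 : Transcendental k t2) {q : K[X]} (hq : q ≠ 0) :
    ∃ (c : K) (d1 d2 : E), c ≠ 0 ∧ d1 ≠ 0 ∧ d2 ≠ 0 ∧ Rd O1 ρ1 (c • aeval x0 q) d1 ∧
      Rd O2 ρ2 (c • aeval x0 q) d2 := by
  obtain ⟨u, hu⟩ : ∃ u : ℕ →₀ K, u = (Polynomial.basisMonomials K).repr q := ⟨_, rfl⟩
  have hu0 : u ≠ 0 := by
    rw [hu]
    simpa using hq
  obtain ⟨i0, h0, hn⟩ := RedBase.exists_normal A hu0
  obtain ⟨u', hu'⟩ : ∃ u' : ℕ →₀ K, u' = (u i0)⁻¹ • u := ⟨_, rfl⟩
  have hu'A : ∀ i, u' i ∈ A := fun i => by simpa [hu'] using hn i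
  have h1' : u' i0 = 1 := by simp [hu', h0]
  have hz : (u i0)⁻¹ • aeval x0 q = Finsupp.linearCombination K (fun j : ℕ => x0 ^ j) u' := by
    rw [hu', map_smul, aeval_eq_linComb, hu]
  have hv : u'.mapRange (ext0 A π) (ext0_zero π) ≠ 0 := by
    intro h
    have e4 := DFunLike.congr_fun h i0
    rw [Finsupp.mapRange_apply, h1', ext0_one] at e4
    exact one_ne_zero e4
  refine ⟨(u i0)⁻¹, _, _, inv_ne_zero h0, linComb_pow_ne_zero htr1 hv,
    linComb_pow_ne_zero htr2 hv, ?_, ?_⟩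
  · rw [hz]
    exact Rd_linComb hc1 (fun j => hx1.pow j) hu'A
  · rw [hz]
    exact Rd_linComb hc2 (fun j => hx2.pow j) hu'A

/-- [DIM]: the simultaneous reduction of a finite dimensional subspace does not lose
dimension. -/
theorem dimred (hB1 : GBase A π O1 ρ1) (hB2 : GBase A π O2 ρ2)
    {t : F} (ht0 : t ≠ 0) (ht1 : Rd O1 ρ1 t 0) (ht2 : Rd O2 ρ2 t⁻¹ 0)
    {x0 : F} {t1 t2 : E} (hx1 : Rd O1 ρ1 x0 t1) (hx2 : Rd O2 ρ2 x0 t2)
    (htr1 : Transcendental k t1) (htr2 : Transcendental k t2)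
    [FiniteDimensional K⟮x0⟯ F] (hdeg : finrank K⟮x0⟯ F ≤ finrank k⟮t1⟯ E + finrank k⟮t2⟯ E)
    (V : Submodule K F) [FiniteDimensional K V] (W : Submodule k (E × E))
    [FiniteDimensional k W]
    (hW : ∀ x ∈ V, ∀ a b, Rd O1 ρ1 x a → Rd O2 ρ2 x b → (a, b) ∈ W) :
    finrank K V ≤ finrank k W := by
  have hc1 := hB1.const
  have hc2 := hB2.const
  set n1 := finrank k⟮t1⟯ E with hn1
  set n2 := finrank k⟮t2⟯ E with hn2
  obtain ⟨β, hβ⟩ := exists_linearIndependent_of_le_finrank (R := k⟮t1⟯) (M := E) hn1.le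
  obtain ⟨γ, hγ⟩ := exists_linearIndependent_of_le_finrank (R := k⟮t2⟯) (M := E) hn2.le
  have hch1 : ∀ i, ∃ x, Rd O1 ρ1 x (β i) ∧ Rd O2 ρ2 x 0 := fun i =>
    exists_lift2 hB1.surj hB2.surj ht0 ht1 ht2 (β i) 0
  have hch2 : ∀ i, ∃ x, Rd O1 ρ1 x 0 ∧ Rd O2 ρ2 x (γ i) := fun i =>
    exists_lift2 hB1.surj hB2.surj ht0 ht1 ht2 0 (γ i)
  choose b1 hb11 hb12 using hch1
  choose b2 hb21 hb22 using hch2
  -- the orthonormal family
  set v1 : ℕ × Fin n1 → E := fun p => t1 ^ p.1 * β p.2 with hv1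
  set v2 : ℕ × Fin n2 → E := fun p => t2 ^ p.1 * γ p.2 with hv2
  have hl1 : LinearIndependent k v1 := linearIndependent_pow_mul htr1 hβ
  have hl2 : LinearIndependent k v2 := linearIndependent_pow_mul htr2 hγ
  set e : (ℕ × Fin n1) ⊕ (ℕ × Fin n2) → F :=
    Sum.elim (fun p => x0 ^ p.1 * b1 p.2) (fun p => x0 ^ p.1 * b2 p.2) with he
  set a : (ℕ × Fin n1) ⊕ (ℕ × Fin n2) → E := Sum.elim v1 (fun _ => 0) with ha
  set b : (ℕ × Fin n1) ⊕ (ℕ × Fin n2) → E := Sum.elim (fun _ => 0) v2 with hb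
  have h1 : ∀ i, Rd O1 ρ1 (e i) (a i) := by
    rintro (p | p)
    · exact (hx1.pow p.1).mul (hb11 p.2)
    · simpa [he, ha] using (hx1.pow p.1).mul (hb21 p.2)
  have h2 : ∀ i, Rd O2 ρ2 (e i) (b i) := by
    rintro (p | p)
    · simpa [he, hb] using (hx2.pow p.1).mul (hb12 p.2)
    · exact (hx2.pow p.1).mul (hb22 p.2)
  have hli : LinearIndependent k (fun i => ((a i, b i) : E × E)) := by
    have := linearIndependent_inl_union_inr' hl1 hl2
    convert this using 1
    funext i
    rcases i with p | p <;> simp [ha, hb]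
  have hK : LinearIndependent K e := linearIndependent_of_red2 hc1 hc2 h1 h2 hli
  -- the `K(x0)`-basis
  set b' : Fin n1 ⊕ Fin n2 → F := Sum.elim b1 b2 with hb'
  have hcomp : (fun p : ℕ × (Fin n1 ⊕ Fin n2) => x0 ^ p.1 * b' p.2) =
      e ∘ (Equiv.prodSumDistrib ℕ (Fin n1) (Fin n2)) := by
    funext ⟨j, i⟩
    rcases i with i | i <;> simp [he, hb']
  have hK' : LinearIndependent K (fun p : ℕ × (Fin n1 ⊕ Fin n2) => x0 ^ p.1 * b' p.2) := by
    rw [hcomp]
    exact hK.comp _ (Equiv.injective _)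
  have h3 : LinearIndependent K⟮x0⟯ b' := linearIndependent_adjoin_of_pow_mul hK'
  have hcard : Fintype.card (Fin n1 ⊕ Fin n2) = finrank K⟮x0⟯ F := by
    have := h3.fintype_card_le_finrank
    simp only [Fintype.card_sum, Fintype.card_fin] at this ⊢
    omega
  set bs : Basis (Fin (n1 + n2)) K⟮x0⟯ F := (basisOfLI h3 hcard).reindex finSumFinEquiv with hbs
  have hpoly : polySpan K bs ≤ Submodule.span K (Set.range e) := by
    rw [polySpan, Submodule.span_le]
    rintro _ ⟨p, rfl⟩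
    refine Submodule.subset_span
      ⟨Equiv.prodSumDistrib ℕ (Fin n1) (Fin n2) (p.1, finSumFinEquiv.symm p.2), ?_⟩
    have := congrFun hcomp (p.1, finSumFinEquiv.symm p.2)
    simp only [Function.comp_apply] at this
    rw [← this]
    show x0 ^ p.1 * b' (finSumFinEquiv.symm p.2) = x0 ^ p.1 * bs p.2
    rw [hbs, Basis.reindex_apply, basisOfLI_apply]
  obtain ⟨q, hq, hqV⟩ := exists_denominator_sub bs V
    ((Submodule.fg_iff_finiteDimensional V).2 inferInstance)
  obtain ⟨c, d1, d2, hc, hd1, hd2, hr1, hr2⟩ :=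
    exists_unit_aeval hc1 hc2 hx1 hx2 htr1 htr2 hq
  set d : F := c • aeval x0 q with hd
  have hd0 : d ≠ 0 := hr1.ne_zero hd1
  set V' : Submodule K F := V.map (LinearMap.mulLeft K d) with hV'
  have hV'le : V' ≤ Submodule.span K (Set.range e) := by
    rintro _ ⟨y, hy, rfl⟩
    rw [LinearMap.mulLeft_apply, hd, smul_mul_assoc]
    exact Submodule.smul_mem _ _ (hpoly (hqV y hy))
  have hfV' : finrank K V' = finrank K V :=
    finrank_map_of_injective _ (fun a b hab => mul_left_cancel₀ hd0 hab) V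
  set W' : Submodule k (E × E) := W.map (LinearMap.mulLeft k ((d1, d2) : E × E)) with hW'
  have hfW' : finrank k W' ≤ finrank k W := Submodule.finrank_map_le _ _
  have key := dim_span hc1 hc2 h1 h2 hli V' hV'le W' (by
    rintro _ ⟨y, hy, rfl⟩ a' b' ra rb
    rw [LinearMap.mulLeft_apply] at ra rb
    have hy' : y = d⁻¹ * (d * y) := by rw [← mul_assoc, inv_mul_cancel₀ hd0, one_mul]
    have r1 := (Rd.inv hB1.surj hr1 hd1).mul ra
    have r2 := (Rd.inv hB2.surj hr2 hd2).mul rb
    rw [← hy'] at r1 r2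
    refine ⟨_, hW y hy _ _ r1 r2, ?_⟩
    rw [LinearMap.mulLeft_apply, Prod.mk_mul_mk, ← mul_assoc, ← mul_assoc,
      mul_inv_cancel₀ hd1, mul_inv_cancel₀ hd2, one_mul, one_mul])
  omega

end FAN
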