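import Fermat.Agent.Nodal.CuspL
import Fermat.Agent.Nodal.Dim

/-!
# PROJECT N: the concrete inputs at level `M l` (relative to the two reductions).
-/

set_option autoImplicit false

open AlgebraicCurve IntermediateField ModularCurve FA24 FA18 FA18.M1 FA18.G4 FAG Module

namespace FAN

/-! ### generalities on polar divisors -/

section Gen

variable {K F : Type*} [Field K] [Field F] [Algebra K F]

theorem polarDiv_pow {x : F} {B : Divisor K F} (hB : ∀ v, B v = max 0 (-(v.ord x))) (n : ℕ) (v) :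
    (n • B) v = max 0 (-(v.ord (x ^ n))) := by
  rw [Finsupp.smul_apply, hB, nsmul_eq_mul, ord_pow]
  have hn : (0 : ℤ) ≤ n := Nat.cast_nonneg n
  rcases le_total 0 (-(v.ord x)) with h | h
  · rw [max_eq_right h, max_eq_right (by nlinarith)]; ring
  · rw [max_eq_left h, max_eq_left (by nlinarith)]; ring

/-- polar divisor of a product of two functions with the same poles -/
theorem polarDiv_mul {x y : F} (hx : x ≠ 0) (hy : y ≠ 0) {B B' : Divisor K F}
    (hB : ∀ v, B v = max 0 (-(v.ord x)))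
    (hB' : ∀ v, B' v = max 0 (-(v.ord y)))
    (h1 : ∀ v : Place K F, 0 ≤ v.ord x → 0 ≤ v.ord y)
    (h2 : ∀ v : Place K F, 0 ≤ v.ord y → 0 ≤ v.ord x) (v) :
    (B + B') v = max 0 (-(v.ord (x * y))) := by
  rw [Finsupp.add_apply, hB, hB', v.ord_mul hx hy]
  rcases le_or_gt 0 (v.ord x) with h | h
  · have := h1 v h
    rw [max_eq_left (by omega), max_eq_left (by omega), max_eq_left (by omega)]; rfl
  · have h' : v.ord y < 0 := by
      by_contra hc
      have := h2 v (by omega)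
      omega
    rw [max_eq_right (by omega), max_eq_right (by omega), max_eq_right (by omega)]; ring

end Gen

section Conc

variable {M l : ℕ} [NeZero M] [NeZero l] [Fact l.Prime] (hlM : ¬ l ∣ M)
  {A : ValuationSubring Kb} (hA : A.LiesOverPrime l)
  {k : Type} [Field k] {π : A →+* k} (hπ : Function.Surjective π)
  {O1 O2 : ValuationSubring (FN (M * l))} {ρ1 : O1 →+* FbN k M} {ρ2 : O2 →+* FbN k M}
  (w : FN (M * l) ≃ₐ[Kb] FN (M * l))
  (hwα : ∀ f, w (heckeAlphaBar Kb M l f) = heckeBetaBar Kb M l f)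
  (hwβ : ∀ f, w (heckeBetaBar Kb M l f) = heckeAlphaBar Kb M l f)
  (h1 : IsInf A π O1 ρ1) (h2 : IsTwist w O1 O2 ρ1 ρ2)
  [CharP k l] [PerfectRing k l]

omit [NeZero M] [NeZero l] in
theorem galB_jb (σ : k →+* k) : galB σ M (jb k M) = jb k M :=
  Subtype.ext (by rw [coe_galB]; exact coeffMap_jqModC _)

omit [NeZero M] [NeZero l] in
theorem BB_jb : BB l (jb k M) = jb k M ^ l := by
  rw [BB, galB_jb]

include hlM hA hπ h1 in
theorem rd1_jA : Rd O1 ρ1 (jA M l) (jb k M) := h1.alpha hlM hA hπ (rd_xN M hlM A hA π hπ)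

include hlM hA hπ h1 in
theorem rd1_jB : Rd O1 ρ1 (jB M l) (jb k M ^ l) := by
  have := h1.beta hlM hA hπ (rd_xN M hlM A hA π hπ)
  rwa [BB_jb] at this

include hlM hA hπ h1 h2 hwα in
theorem rd2_jA : Rd O2 ρ2 (jA M l) (jb k M ^ l) := by
  have := IsTwist.alpha hlM hA hπ w hwα h1 h2 (rd_xN M hlM A hA π hπ)
  rwa [BB_jb] at this

include hlM hA hπ h1 h2 hwβ in
theorem rd2_jB : Rd O2 ρ2 (jB M l) (jb k M) :=
  IsTwist.beta hlM hA hπ w hwβ h1 h2 (rd_xN M hlM A hA π hπ)

/-- the test function `x₀ = (j j_l)^l`. -/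
noncomputable def x0 (M l : ℕ) [NeZero M] [NeZero l] : FN (M * l) := (jA M l * jB M l) ^ l

include hlM hA hπ h1 in
theorem rd1_x0 : Rd O1 ρ1 (x0 M l) (jb k M ^ (l * (l + 1))) := by
  have := ((rd1_jA hlM hA hπ h1).mul (rd1_jB hlM hA hπ h1)).pow l
  rw [← pow_succ', ← pow_mul, mul_comm (l + 1) l] at this
  exact this

include hlM hA hπ h1 h2 hwα hwβ in
theorem rd2_x0 : Rd O2 ρ2 (x0 M l) (jb k M ^ (l * (l + 1))) := by
  have := ((rd2_jA hlM hA hπ w hwα h1 h2).mul (rd2_jB hlM hA hπ w hwβ h1 h2)).pow l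
  rw [← pow_succ, ← pow_mul, mul_comm (l + 1) l] at this
  exact this

/-- `y₀ = j̄^(l²) - j̄`. -/
noncomputable def y0 (k : Type) [Field k] (M l : ℕ) : FbN k M := jb k M ^ (l ^ 2) - jb k M

include hlM hA hπ h1 in
theorem rd1_T0 : Rd O1 ρ1 (jB M l ^ l - jA M l) (y0 k M l) := by
  have := ((rd1_jB hlM hA hπ h1).pow l).sub (rd1_jA hlM hA hπ h1)
  rwa [← pow_mul, ← sq] at this

include hlM hA hπ h1 h2 hwα hwβ in
theorem rd2_T0 : Rd O2 ρ2 (jB M l ^ l - jA M l) 0 := by
  have := ((rd2_jB hlM hA hπ w hwβ h1 h2).pow l).sub (rd2_jA hlM hA hπ w hwα h1 h2)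
  rwa [sub_self] at this

include hlM hA hπ h1 in
theorem rd1_T0' : Rd O1 ρ1 (jA M l ^ l - jB M l) 0 := by
  have := ((rd1_jA hlM hA hπ h1).pow l).sub (rd1_jB hlM hA hπ h1)
  rwa [sub_self] at this

include hlM hA hπ h1 h2 hwα hwβ in
theorem rd2_T0' : Rd O2 ρ2 (jA M l ^ l - jB M l) (y0 k M l) := by
  have := ((rd2_jA hlM hA hπ w hwα h1 h2).pow l).sub (rd2_jB hlM hA hπ w hwβ h1 h2)
  rwa [← pow_mul, ← sq] at this

/-! ### divisors -/

omit [Fact l.Prime] in
theorem transcendental_jA : Transcendental Kb (jA M l) := by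
  intro h
  exact transcendental_xN M
    ((isAlgebraic_algHom_iff (heckeAlphaBar Kb M l) (heckeAlphaBar Kb M l).toRingHom.injective).1 h)

omit [Fact l.Prime] in
theorem transcendental_jB : Transcendental Kb (jB M l) := by
  intro h
  exact transcendental_xN M
    ((isAlgebraic_algHom_iff (heckeBetaBar Kb M l) (heckeBetaBar Kb M l).toRingHom.injective).1 h)

omit [Fact l.Prime] in
theorem jA_ne_zero : jA M l ≠ 0 := fun h => transcendental_jA (M := M) (l := l) (h ▸ isAlgebraic_zero)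

omit [Fact l.Prime] in
theorem jB_ne_zero : jB M l ≠ 0 := fun h => transcendental_jB (M := M) (l := l) (h ▸ isAlgebraic_zero)

include hlM hA hπ in
omit [NeZero l] [CharP k l] [PerfectRing k l] in
theorem transcendental_jb : Transcendental k (jb k M) := by
  obtain ⟨hx, hxρ⟩ := rd_xN M hlM A hA π hπ
  obtain ⟨hx', htr, -, -⟩ := RDN_hasDeg M hlM A hA π hπ
  rw [ext0_of_mem _ hx'] at htr
  rw [← hxρ]
  exact htr

include hlM hA hπ in
omit [NeZero l] [CharP k l] [PerfectRing k l] in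
theorem finrank_jb_ge : finrank Kb⟮xN M⟯ (FN M) ≤ finrank k⟮jb k M⟯ (FbN k M) := by
  obtain ⟨hx, hxρ⟩ := rd_xN M hlM A hA π hπ
  obtain ⟨hx', -, -, hdeg⟩ := RDN_hasDeg M hlM A hA π hπ
  rw [ext0_of_mem _ hx'] at hdeg
  rw [← hxρ]
  exact hdeg

variable {Dj Djw : Divisor Kb (FN (M * l))} (hDj : ∀ v, Dj v = max 0 (-(v.ord (jA M l))))
  (hDjw : ∀ v, Djw v = max 0 (-(v.ord (jB M l))))
  {Cj : Divisor k (FbN k M)} (hCj : ∀ v, Cj v = max 0 (-(v.ord (jb k M))))

include hDj hDjw in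
omit [CharP k l] [PerfectRing k l] in
theorem polar_x0 (v : Place Kb (FN (M * l))) :
    (l • (Dj + Djw)) v = max 0 (-(v.ord (x0 M l))) := by
  refine polarDiv_pow (polarDiv_mul jA_ne_zero jB_ne_zero hDj hDjw ?_ ?_) l v
  · intro v hv
    have := (level_bound M l v).1
    rw [max_eq_left (by omega)] at this
    simpa using this
  · intro v hv
    have := (level_bound M l v).2
    rw [max_eq_left (by omega)] at this
    simpa using this

include hCj in
omit [NeZero M] [NeZero l] [Fact l.Prime] [CharP k l] [PerfectRing k l] in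
theorem polar_C (n : ℕ) (v : Place k (FbN k M)) :
    (n • Cj) v = max 0 (-(v.ord (jb k M ^ n))) := polarDiv_pow hCj _ v

include hwα hlM hA hπ hDj hDjw hCj in
omit [CharP k l] [PerfectRing k l] in
theorem degree_D_le {gF cF gb cb : ℤ} (HF : RFacts Kb (FN (M * l)) gF cF)
    (Hb : RFacts k (FbN k M) gb cb) :
    Divisor.degree (l • (Dj + Djw)) ≤
      Divisor.degree ((l * (l + 1)) • Cj) + Divisor.degree ((l * (l + 1)) • Cj) := by
  have : NeZero (M * l) := ⟨Nat.mul_ne_zero (NeZero.ne M) (NeZero.ne l)⟩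
  have d1 := HF.deg_poles _ transcendental_jA Dj hDj
  have d2 := HF.deg_poles _ transcendental_jB Djw hDjw
  have d3 := Hb.deg_poles _ (transcendental_jb hlM hA hπ) Cj hCj
  have e1 : jA M l = xN (M * l) := by
    apply Subtype.ext
    rw [jA, coe_heckeAlphaBar, xN_val, xN_val]
  have e2 : finrank Kb⟮jB M l⟯ (FN (M * l)) = finrank Kb⟮jA M l⟯ (FN (M * l)) := by
    have : jB M l = w (jA M l) := (hwα _).symm
    rw [this, finrank, finrank, rank_adjoin_algEquiv]
  have e3 : finrank Kb⟮jA M l⟯ (FN (M * l)) = dedekindPsi M * (l + 1) := by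
    rw [e1, finrank_FN, St2.card_XN,
      FAGenus.dedekindPsi_mul_of_not_dvd M l (NeZero.ne M) Fact.out hlM, mul_comm]
  have e4 := finrank_jb_ge (M := M) hlM hA hπ
  rw [finrank_FN, St2.card_XN] at e4
  rw [map_nsmul, map_nsmul, map_add, d1, d2, d3, e2, e3]
  have e5 : (dedekindPsi M : ℤ) ≤ finrank k⟮jb k M⟯ (FbN k M) := by exact_mod_cast e4
  have hl : (0 : ℤ) ≤ l := Nat.cast_nonneg l
  simp only [nsmul_eq_mul]
  push_cast
  nlinarith [mul_nonneg hl (add_nonneg hl zero_le_one)]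

end Conc

end FAN
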