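import Fermat.Agent.Nodal.Dim

/-!
# Project N, package (0)[FI2]: the fundamental inequality for two reductions
-/

set_option autoImplicit false

namespace FAN

open Module IntermediateField Polynomial FA18 FA18.G4

variable {K F k E : Type*} [Field K] [Field F] [Algebra K F] [Field k] [Field E] [Algebra k E]
variable {A : ValuationSubring K} {π : A →+* k}
variable {O1 O2 : ValuationSubring F} {ρ1 : O1 →+* E} {ρ2 : O2 →+* E}

/-- [FI2]: `[E : k(ρ1 x)] + [E : k(ρ2 x)] ≤ [F : K(x)]`. -/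
theorem fi2 (hB1 : GBase A π O1 ρ1) (hB2 : GBase A π O2 ρ2)
    {t : F} (ht0 : t ≠ 0) (ht1 : Rd O1 ρ1 t 0) (ht2 : Rd O2 ρ2 t⁻¹ 0)
    {x0 : F} {t1 t2 : E} (hx1 : Rd O1 ρ1 x0 t1) (hx2 : Rd O2 ρ2 x0 t2)
    (htr1 : Transcendental k t1) (htr2 : Transcendental k t2)
    [FiniteDimensional K⟮x0⟯ F] :
    finrank k⟮t1⟯ E + finrank k⟮t2⟯ E ≤ finrank K⟮x0⟯ F := by
  have hc1 := hB1.const
  have hc2 := hB2.const
  set n1 := finrank k⟮t1⟯ E with hn1
  set n2 := finrank k⟮t2⟯ E with hn2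
  obtain ⟨β, hβ⟩ := exists_linearIndependent_of_le_finrank (R := k⟮t1⟯) (M := E) hn1.le
  obtain ⟨γ, hγ⟩ := exists_linearIndependent_of_le_finrank (R := k⟮t2⟯) (M := E) hn2.le
  have hch1 : ∀ i, ∃ x, Rd O1 ρ1 x (β i) ∧ Rd O2 ρ2 x 0 := fun i =>
    exists_lift2 hB1.surj hB2.surj ht0 ht1 ht2 (β i) 0
  have hch2 : ∀ i, ∃ x, Rd O1 ρ1 x 0 ∧ Rd O2 ρ2 x (γ i) := fun i =>
    exists_lift2 hB1.surj hB2.surj ht0 ht1 ht2 0 (γ i)
  choose b1 hb11 hb12 using hch1
  choose b2 hb21 hb22 using hch2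
  set v1 : ℕ × Fin n1 → E := fun p => t1 ^ p.1 * β p.2 with hv1
  set v2 : ℕ × Fin n2 → E := fun p => t2 ^ p.1 * γ p.2 with hv2
  have hl1 : LinearIndependent k v1 := linearIndependent_pow_mul htr1 hβ
  have hl2 : LinearIndependent k v2 := linearIndependent_pow_mul htr2 hγ
  set e : (ℕ × Fin n1) ⊕ (ℕ × Fin n2) → F :=
    Sum.elim (fun p => x0 ^ p.1 * b1 p.2) (fun p => x0 ^ p.1 * b2 p.2) with he
  set a : (ℕ × Fin n1) ⊕ (ℕ × Fin n2) → E := Sum.elim v1 (fun _ => 0) with ha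
  set b : (ℕ × Fin n1) ⊕ (ℕ × Fin n2) → E := Sum.elim (fun _ => 0) v2 with hb
  have h1 : ∀ i, Rd O1 ρ1 (e i) (a i) := by
    rintro (p | p)
    · exact (hx1.pow p.1).mul (hb11 p.2)
    · simpa [he, ha] using (hx1.pow p.1).mul (hb21 p.2)
  have h2 : ∀ i, Rd O2 ρ2 (e i) (b i) := by
    rintro (p | p)
    · simpa [he, hb] using (hx2.pow p.1).mul (hb12 p.2)
    · exact (hx2.pow p.1).mul (hb22 p.2)
  have hli : LinearIndependent k (fun i => ((a i, b i) : E × E)) := by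
    have := linearIndependent_inl_union_inr' hl1 hl2
    convert this using 1
    funext i
    rcases i with p | p <;> simp [ha, hb]
  have hK : LinearIndependent K e := linearIndependent_of_red2 hc1 hc2 h1 h2 hli
  set b' : Fin n1 ⊕ Fin n2 → F := Sum.elim b1 b2 with hb'
  have hcomp : (fun p : ℕ × (Fin n1 ⊕ Fin n2) => x0 ^ p.1 * b' p.2) =
      e ∘ (Equiv.prodSumDistrib ℕ (Fin n1) (Fin n2)) := by
    funext ⟨j, i⟩
    rcases i with i | i <;> simp [he, hb']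
  have hK' : LinearIndependent K (fun p : ℕ × (Fin n1 ⊕ Fin n2) => x0 ^ p.1 * b' p.2) := by
    rw [hcomp]
    exact hK.comp _ (Equiv.injective _)
  have h3 : LinearIndependent K⟮x0⟯ b' := linearIndependent_adjoin_of_pow_mul hK'
  have := h3.fintype_card_le_finrank
  simpa only [Fintype.card_sum, Fintype.card_fin] using this

/-- the upper bound: the simultaneous reduction of `V` has dimension at most `dim V`. -/
theorem dimred_le (hB1 : GBase A π O1 ρ1) (hB2 : GBase A π O2 ρ2)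
    (V : Submodule K F) [FiniteDimensional K V] (W : Submodule k (E × E))
    (hW : ∀ w ∈ W, ∃ x ∈ V, Rd O1 ρ1 x w.1 ∧ Rd O2 ρ2 x w.2) :
    FiniteDimensional k W ∧ finrank k W ≤ finrank K V := by
  have hrank : Module.rank k W ≤ finrank K V := by
    apply rank_le
    intro s hs
    have hch : ∀ z : s, ∃ x ∈ V, Rd O1 ρ1 x ((z : W) : E × E).1 ∧
        Rd O2 ρ2 x ((z : W) : E × E).2 := fun z => hW _ (z : W).2
    choose y hyV hy1 hy2 using hch
    have hli : LinearIndependent k fun z : s =>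
        ((((z : W) : E × E).1, ((z : W) : E × E).2) : E × E) :=
      hs.map' W.subtype (Submodule.ker_subtype _)
    have hK := linearIndependent_of_red2 hB1.const hB2.const hy1 hy2 hli
    have hK' : LinearIndependent K fun z : s => (⟨y z, hyV z⟩ : V) := by
      apply LinearIndependent.of_comp V.subtype
      exact hK
    have := hK'.fintype_card_le_finrank
    simpa using this
  have hfd : FiniteDimensional k W := by
    rw [FiniteDimensional, ← Module.rank_lt_aleph0_iff]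
    exact lt_of_le_of_lt hrank (Cardinal.natCast_lt_aleph0)
  refine ⟨hfd, ?_⟩
  rw [← finrank_eq_rank] at hrank
  exact_mod_cast hrank

/-- The simultaneous reduction of a subspace, as a `k`-subspace of `E × E`. -/
def red2 (hB1 : GBase A π O1 ρ1) (hB2 : GBase A π O2 ρ2) (V : Submodule K F) :
    Submodule k (E × E) where
  carrier := {w | ∃ x ∈ V, Rd O1 ρ1 x w.1 ∧ Rd O2 ρ2 x w.2}
  add_mem' := by
    rintro _ _ ⟨x, hx, h1, h2⟩ ⟨y, hy, h1', h2'⟩
    exact ⟨x + y, V.add_mem hx hy, h1.add h1', h2.add h2'⟩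
  zero_mem' := ⟨0, V.zero_mem, Rd.zero, Rd.zero⟩
  smul_mem' := by
    rintro c _ ⟨x, hx, h1, h2⟩
    obtain ⟨a, rfl⟩ := hB1.surjπ c
    refine ⟨(a : K) • x, V.smul_mem _ hx, ?_, ?_⟩
    · rw [Algebra.smul_def, Prod.smul_fst, Algebra.smul_def]
      exact (hB1.const a).mul h1
    · rw [Algebra.smul_def, Prod.smul_snd, Algebra.smul_def]
      exact (hB2.const a).mul h2

theorem mem_red2 (hB1 : GBase A π O1 ρ1) (hB2 : GBase A π O2 ρ2) {V : Submodule K F}
    {w : E × E} : w ∈ red2 hB1 hB2 V ↔ ∃ x ∈ V, Rd O1 ρ1 x w.1 ∧ Rd O2 ρ2 x w.2 := Iff.rfl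

instance finiteDimensional_red2 (hB1 : GBase A π O1 ρ1) (hB2 : GBase A π O2 ρ2)
    (V : Submodule K F) [FiniteDimensional K V] : FiniteDimensional k (red2 hB1 hB2 V) :=
  (dimred_le hB1 hB2 V _ fun _ hw => hw).1

/-- [DIM], equality form. -/
theorem finrank_red2 (hB1 : GBase A π O1 ρ1) (hB2 : GBase A π O2 ρ2)
    {t : F} (ht0 : t ≠ 0) (ht1 : Rd O1 ρ1 t 0) (ht2 : Rd O2 ρ2 t⁻¹ 0)
    {x0 : F} {t1 t2 : E} (hx1 : Rd O1 ρ1 x0 t1) (hx2 : Rd O2 ρ2 x0 t2)
    (htr1 : Transcendental k t1) (htr2 : Transcendental k t2)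
    [FiniteDimensional K⟮x0⟯ F] (hdeg : finrank K⟮x0⟯ F ≤ finrank k⟮t1⟯ E + finrank k⟮t2⟯ E)
    (V : Submodule K F) [FiniteDimensional K V] :
    finrank k (red2 hB1 hB2 V) = finrank K V :=
  le_antisymm (dimred_le hB1 hB2 V _ fun _ hw => hw).2
    (dimred hB1 hB2 ht0 ht1 ht2 hx1 hx2 htr1 htr2 hdeg V _
      fun x hx _ _ ha hb => ⟨x, hx, ha, hb⟩)

end FAN
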