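import Mathlib

/-!
# PROJECT N, package (I) [NODE]: a subalgebra of `B × B` with surjective projections, finite
codimension and "Kronecker elements" is nodal.  Pure algebra (Mathlib only).
-/

namespace FAN

open Module

section Reduced

/-- A noetherian commutative ring in which every element is an `n`-th power (`n ≥ 2`)
is reduced. -/
theorem isReduced_of_forall_pow {C : Type*} [CommRing C] [IsNoetherianRing C] (n : ℕ)
    (hn : 2 ≤ n) (h : ∀ x : C, ∃ g : C, x = g ^ n) : IsReduced C := by
  have hN : nilradical C ≤ nilradical C ^ 2 := by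
    intro x hx
    obtain ⟨g, rfl⟩ := h x
    have hg : g ∈ nilradical C := by
      rw [mem_nilradical] at hx ⊢
      exact (IsNilpotent.pow_iff_pos (by omega)).1 hx
    have h1 : g ^ n ∈ nilradical C ^ n := Ideal.pow_mem_pow hg n
    exact Ideal.pow_le_pow_right hn h1
  have hM : ∀ M : ℕ, nilradical C ≤ nilradical C ^ (M + 1) := by
    intro M
    induction M with
    | zero => simp
    | succ M ih =>
      calc nilradical C ≤ nilradical C ^ 2 := hN
        _ = nilradical C * nilradical C := sq _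
        _ ≤ nilradical C ^ (M + 1) * nilradical C := Ideal.mul_mono_left ih
        _ = nilradical C ^ (M + 1 + 1) := (pow_succ _ _).symm
  obtain ⟨M, hM0⟩ := IsNoetherianRing.isNilpotent_nilradical C
  have h0 : nilradical C = ⊥ := by
    rw [eq_bot_iff]
    calc nilradical C ≤ nilradical C ^ (M + 1) := hM M
      _ = nilradical C ^ M * nilradical C := pow_succ _ _
      _ = ⊥ := by rw [hM0]; simp
  exact nilradical_eq_bot_iff.1 h0

end Reduced

section Evals

variable {k : Type*} [Field k] [IsAlgClosed k]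

/-- A finite reduced commutative algebra over an algebraically closed field is `k ^ s`. -/
theorem exists_evals (C : Type*) [CommRing C] [Algebra k C] [Module.Finite k C] [IsReduced C] :
    ∃ (s : ℕ) (ev : Fin s → C →ₐ[k] k), Function.Bijective (fun (x : C) (i : Fin s) => ev i x) := by
  classical
  have : IsArtinianRing C := IsArtinianRing.of_finite k C
  have : Finite (MaximalSpectrum C) := inferInstance
  have hbij : ∀ I : MaximalSpectrum C, Function.Bijective (algebraMap k (C ⧸ I.asIdeal)) := by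
    intro I
    have := I.isMaximal
    let : Field (C ⧸ I.asIdeal) := Ideal.Quotient.field I.asIdeal
    have : Module.Finite k (C ⧸ I.asIdeal) :=
      Module.Finite.of_surjective (Ideal.Quotient.mkₐ k I.asIdeal).toLinearMap
        (Ideal.Quotient.mkₐ_surjective k I.asIdeal)
    exact IsAlgClosed.algebraMap_bijective_of_isIntegral
  let φ : ∀ I : MaximalSpectrum C, (C ⧸ I.asIdeal) ≃ₐ[k] k := fun I =>
    (AlgEquiv.ofBijective (Algebra.ofId k (C ⧸ I.asIdeal)) (hbij I)).symm
  obtain ⟨s, ⟨e⟩⟩ := Finite.exists_equiv_fin (MaximalSpectrum C)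
  refine ⟨s, fun i => (φ (e.symm i)).toAlgHom.comp (Ideal.Quotient.mkₐ k (e.symm i).asIdeal), ?_, ?_⟩
  · intro x y hxy
    apply (IsArtinianRing.equivPi C).injective
    funext I
    obtain ⟨i, rfl⟩ := e.symm.surjective I
    have := congrFun hxy i
    simp only [AlgHom.comp_apply] at this
    have h2 := (φ (e.symm i)).injective this
    simpa using h2
  · intro α
    obtain ⟨x, hx⟩ := (IsArtinianRing.equivPi C).surjective (fun I => (φ I).symm (α (e I)))
    refine ⟨x, ?_⟩
    funext i
    have := congrFun hx (e.symm i)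
    simp only [IsArtinianRing.equivPi_apply, Equiv.apply_symm_apply] at this
    simp only [AlgHom.comp_apply]
    have h3 : (Ideal.Quotient.mkₐ k (e.symm i).asIdeal) x = (φ (e.symm i)).symm (α i) := this
    rw [h3]
    simp

end Evals

section Node

variable {k B : Type*} [Field k] [CommRing B] [Algebra k B]

/-- The ideal `{a | (a, 0) ∈ R}` of `B`. -/
def nodeIdeal (R : Subalgebra k (B × B)) (h1 : ∀ x : B, ∃ y : B, (x, y) ∈ R) : Ideal B where
  carrier := {a | (a, (0 : B)) ∈ R}
  add_mem' := by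
    intro a b ha hb
    have := R.add_mem ha hb
    simpa using this
  zero_mem' := R.zero_mem
  smul_mem' := by
    intro c a ha
    obtain ⟨y, hy⟩ := h1 c
    have := R.mul_mem hy ha
    simpa using this

theorem mem_nodeIdeal (R : Subalgebra k (B × B)) (h1 : ∀ x : B, ∃ y : B, (x, y) ∈ R) (a : B) :
    a ∈ nodeIdeal R h1 ↔ (a, (0 : B)) ∈ R := Iff.rfl

/-- Transport of a point of `V(𝔞)` to the second factor. -/
theorem exists_transport (R : Subalgebra k (B × B)) (h1 : ∀ x : B, ∃ y : B, (x, y) ∈ R)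
    (h2 : ∀ y : B, ∃ x : B, (x, y) ∈ R) (φ : B →ₐ[k] k) (hφ : ∀ a ∈ nodeIdeal R h1, φ a = 0) :
    ∃ φ' : B →ₐ[k] k, ∀ x y, (x, y) ∈ R → φ x = φ' y := by
  classical
  choose X hX using h2
  have wd : ∀ x x' y, (x, y) ∈ R → (x', y) ∈ R → φ x = φ x' := by
    intro x x' y h h'
    have h3 : (x - x', (0 : B)) ∈ R := by
      have := R.sub_mem h h'
      simpa using this
    have := hφ _ h3
    rw [map_sub, sub_eq_zero] at this
    exact this
  refine ⟨AlgHom.ofLinearMap
    { toFun := fun y => φ (X y)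
      map_add' := ?_
      map_smul' := ?_ } ?_ ?_, ?_⟩
  · intro y y'
    rw [← map_add]
    exact wd _ _ (y + y') (hX _) (by simpa using R.add_mem (hX y) (hX y'))
  · intro c y
    simp only [RingHom.id_apply]
    rw [← map_smul]
    exact wd _ _ (c • y) (hX _) (by simpa using R.smul_mem (hX y) c)
  · change φ (X 1) = 1
    rw [← map_one φ]
    exact wd _ _ 1 (hX _) R.one_mem
  · intro y y'
    change φ (X (y * y')) = φ (X y) * φ (X y')
    rw [← map_mul]
    exact wd _ _ (y * y') (hX _) (by simpa using R.mul_mem (hX y) (hX y'))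
  · intro x y h
    exact wd _ _ y h (hX y)

/-- **[NODE]**.  Let `R ⊆ B × B` be a `k`-subalgebra (`k` algebraically closed) with surjective
projections such that `B ⧸ 𝔞` is finite over `k` (`𝔞 = {a | (a,0) ∈ R}`) and such that every
element of `B` is an `n`-th power modulo `𝔞` (`n ≥ 2`; Kronecker elements).  Then `R` is nodal. -/
theorem node_main [IsAlgClosed k] (R : Subalgebra k (B × B))
    (h1 : ∀ x : B, ∃ y : B, (x, y) ∈ R) (h2 : ∀ y : B, ∃ x : B, (x, y) ∈ R)
    [Module.Finite k (B ⧸ nodeIdeal R h1)] (n : ℕ) (hn : 2 ≤ n)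
    (hK : ∀ f : B, ∃ g : B, f - g ^ n ∈ nodeIdeal R h1) :
    ∃ (s : ℕ) (ev ev' : Fin s → B →ₐ[k] k),
      s = finrank k (B ⧸ nodeIdeal R h1) ∧
      Function.Injective ev ∧ Function.Injective ev' ∧
      (∀ α : Fin s → k, ∃ x : B, ∀ i, ev i x = α i) ∧
      (∀ α : Fin s → k, ∃ y : B, ∀ i, ev' i y = α i) ∧
      (∀ x y : B, (x, y) ∈ R ↔ ∀ i, ev i x = ev' i y) ∧
      (∀ a : B, a ∈ nodeIdeal R h1 ↔ ∀ i, ev i a = 0) := by
  classical
  set 𝔞 := nodeIdeal R h1 with h𝔞
  have : IsNoetherianRing (B ⧸ 𝔞) := IsNoetherianRing.of_finite k _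
  have hred : IsReduced (B ⧸ 𝔞) := by
    refine isReduced_of_forall_pow n hn ?_
    intro x
    obtain ⟨f, rfl⟩ := Ideal.Quotient.mk_surjective x
    obtain ⟨g, hg⟩ := hK f
    refine ⟨Ideal.Quotient.mk 𝔞 g, ?_⟩
    rw [← map_pow]
    exact Ideal.Quotient.eq.2 hg
  obtain ⟨s, ev0, hev0⟩ := exists_evals (k := k) (B ⧸ 𝔞)
  let ev : Fin s → B →ₐ[k] k := fun i => (ev0 i).comp (Ideal.Quotient.mkₐ k 𝔞)
  have hev_mem : ∀ a : B, a ∈ 𝔞 ↔ ∀ i, ev i a = 0 := by
    intro a
    constructor
    · intro ha i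
      have : Ideal.Quotient.mkₐ k 𝔞 a = 0 := Ideal.Quotient.eq_zero_iff_mem.2 ha
      simp only [ev, AlgHom.comp_apply, this, map_zero]
    · intro h
      apply Ideal.Quotient.eq_zero_iff_mem.1
      apply hev0.1
      funext i
      simpa [ev] using h i
  have htr : ∀ i, ∃ φ' : B →ₐ[k] k, ∀ x y, (x, y) ∈ R → ev i x = φ' y := fun i =>
    exists_transport R h1 h2 (ev i) (fun a ha => (hev_mem a).1 ha i)
  choose ev' hev' using htr
  have hsurj : ∀ α : Fin s → k, ∃ x : B, ∀ i, ev i x = α i := by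
    intro α
    obtain ⟨x, hx⟩ := hev0.2 α
    obtain ⟨x, rfl⟩ := Ideal.Quotient.mk_surjective x
    exact ⟨x, fun i => congrFun hx i⟩
  have hinj : Function.Injective ev := by
    intro i j hij
    by_contra hne
    obtain ⟨x, hx⟩ := hsurj (Pi.single i 1)
    have h3 := hx i
    have h4 := hx j
    rw [hij] at h3
    rw [h3] at h4
    simp [Ne.symm hne] at h4
  refine ⟨s, ev, ev', ?_, hinj, ?_, hsurj, ?_, ?_, hev_mem⟩
  · let L : (B ⧸ 𝔞) ≃ₗ[k] (Fin s → k) := LinearEquiv.ofBijective
      { toFun := fun x i => ev0 i x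
        map_add' := by intro x y; funext i; simp
        map_smul' := by intro c x; funext i; simp } hev0
    rw [L.finrank_eq]
    simp
  · intro i j hij
    apply hinj
    ext x
    obtain ⟨y, hy⟩ := h1 x
    rw [hev' i x y hy, hev' j x y hy, hij]
  · intro α
    obtain ⟨x, hx⟩ := hsurj α
    obtain ⟨y, hy⟩ := h1 x
    exact ⟨y, fun i => by rw [← hev' i x y hy, hx i]⟩
  · intro x y
    constructor
    · intro h i
      exact hev' i x y h
    · intro h
      obtain ⟨x', hx'⟩ := h2 y
      have h3 : x - x' ∈ 𝔞 := by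
        rw [hev_mem]
        intro i
        rw [map_sub, h i, hev' i x' y hx', sub_self]
      have h4 : (x - x', (0 : B)) ∈ R := h3
      have := R.add_mem h4 hx'
      simpa using this

end Node

end FAN
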