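import Fermat.Agent.Nodal.EvPlace
import Fermat.Agent.Nodal.Node
import Fermat.Agent.Nodal.FI2

/-!
# PROJECT N, (U3b) + (U4): the `NodalGeom` instance from abstract hypotheses
(symmetric divisor `D`, `C1 = C2 = C`), including the saturation at the cusps.
-/

set_option autoImplicit false

open AlgebraicCurve Module FA18 FA18.G4

namespace FAN

section LA

variable {k V : Type*} [Field k] [AddCommGroup V] [Module k V]

/-- abstract saturation: constant codimension + surjectivity on the graded pieces. -/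
theorem sat_abstract (Rn Fil : ℕ → Submodule k V) [∀ n, FiniteDimensional k (Fil n)]
    (hle : ∀ n, Rn n ≤ Fil n) (hRmono : ∀ n, Rn n ≤ Rn (n + 1))
    (hFmono : ∀ n, Fil n ≤ Fil (n + 1)) (n2 : ℕ)
    (hsup : ∀ n, n2 ≤ n → Fil (n + 1) ≤ Rn (n + 1) ⊔ Fil n)
    (hdim : ∀ n, n2 ≤ n →
      finrank k (Rn (n + 1)) + finrank k (Fil n) ≤ finrank k (Fil (n + 1)) + finrank k (Rn n)) :
    ∀ n, n2 ≤ n → ∀ r, Rn (n + r) ⊓ Fil n ≤ Rn n := by
  have hfR : ∀ n, FiniteDimensional k (Rn n) := fun n =>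
    Submodule.finiteDimensional_of_le (hle n)
  have step : ∀ n, n2 ≤ n → Rn (n + 1) ⊓ Fil n ≤ Rn n := by
    intro n hn
    have h1 : Rn n ≤ Rn (n + 1) ⊓ Fil n := le_inf (hRmono n) (hle n)
    have h2 : Rn (n + 1) ⊔ Fil n = Fil (n + 1) :=
      le_antisymm (sup_le (hle _) (hFmono n)) (hsup n hn)
    have h3 := Submodule.finrank_sup_add_finrank_inf_eq (Rn (n + 1)) (Fil n)
    rw [h2] at h3
    have h4 := hdim n hn
    have h5 : Rn n = Rn (n + 1) ⊓ Fil n :=
      Submodule.eq_of_le_of_finrank_le h1 (by omega)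
    exact h5.ge
  have hFm : ∀ n r, Fil n ≤ Fil (n + r) := by
    intro n r
    induction r with
    | zero => exact le_rfl
    | succ r ih => exact ih.trans (hFmono _)
  intro n hn r
  induction r with
  | zero => exact inf_le_left
  | succ r ih =>
    intro w hw
    refine ih ⟨step (n + r) (by omega) ⟨hw.1, hFm n r hw.2⟩, hw.2⟩

theorem finrank_submodule_prod {E : Type*} [AddCommGroup E] [Module k E]
    (p q : Submodule k E) [FiniteDimensional k p] [FiniteDimensional k q] :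
    FiniteDimensional k (p.prod q) ∧ finrank k (p.prod q) = finrank k p + finrank k q := by
  have h : p.prod q = LinearMap.range (LinearMap.prodMap p.subtype q.subtype) := by
    rw [LinearMap.range_prodMap, Submodule.range_subtype, Submodule.range_subtype]
  rw [h]
  refine ⟨inferInstance, ?_⟩
  rw [LinearMap.finrank_range_of_inj, Module.finrank_prod]
  exact Function.Injective.prodMap p.injective_subtype q.injective_subtype

end LA

variable {K F k E : Type*} [Field K] [Field F] [Algebra K F] [Field k] [Field E] [Algebra k E]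

theorem nsmul_L_mono {K F : Type*} [Field K] [Field F] [Algebra K F]
    {C : Divisor K F} (hC : 0 ≤ C) {n m : ℕ} (h : n ≤ m) :
    riemannRochSpace (n • C) ≤ riemannRochSpace (m • C) :=
  L_mono (nsmul_le_nsmul_left hC h)

/-- the functions with poles only on the support of `C`. -/
def OEof (C : Divisor k E) (hC : 0 ≤ C) : Subalgebra k E where
  carrier := {a | ∃ n : ℕ, a ∈ riemannRochSpace (n • C)}
  mul_mem' := by
    rintro a b ⟨n, ha⟩ ⟨m, hb⟩
    exact ⟨n + m, by rw [add_nsmul]; exact mul_mem_L ha hb⟩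
  add_mem' := by
    rintro a b ⟨n, ha⟩ ⟨m, hb⟩
    exact ⟨n + m, Submodule.add_mem _ (nsmul_L_mono hC (Nat.le_add_right _ _) ha)
      (nsmul_L_mono hC (Nat.le_add_left _ _) hb)⟩
  algebraMap_mem' := by
    intro c
    refine ⟨0, ?_⟩
    rw [Algebra.algebraMap_eq_smul_one]
    exact Submodule.smul_mem _ _ (one_mem_L (by simp))

theorem mem_OEof {C : Divisor k E} {hC : 0 ≤ C} {a : E} :
    a ∈ OEof C hC ↔ ∃ n : ℕ, a ∈ riemannRochSpace (n • C) := Iff.rfl

variable {A : ValuationSubring K} {π : A →+* k} {O1 O2 : ValuationSubring F}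
  {ρ1 : O1 →+* E} {ρ2 : O2 →+* E}

/-- the ring `R = ⋃ red2 L(nD)`. -/
def Rof (hB1 : GBase A π O1 ρ1) (hB2 : GBase A π O2 ρ2) (D : Divisor K F) (hD : 0 ≤ D)
    (B : Subalgebra k E) : Subalgebra k (B × B) where
  carrier := {w | ∃ (n : ℕ) (x : F), x ∈ riemannRochSpace (n • D) ∧
    Rd O1 ρ1 x (w.1 : E) ∧ Rd O2 ρ2 x (w.2 : E)}
  mul_mem' := by
    rintro a b ⟨n, x, hx, h1, h2⟩ ⟨m, y, hy, h1', h2'⟩
    exact ⟨n + m, x * y, by rw [add_nsmul]; exact mul_mem_L hx hy, h1.mul h1', h2.mul h2'⟩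
  add_mem' := by
    rintro a b ⟨n, x, hx, h1, h2⟩ ⟨m, y, hy, h1', h2'⟩
    exact ⟨n + m, x + y, Submodule.add_mem _ (nsmul_L_mono hD (Nat.le_add_right _ _) hx)
      (nsmul_L_mono hD (Nat.le_add_left _ _) hy), h1.add h1', h2.add h2'⟩
  algebraMap_mem' := by
    intro c
    obtain ⟨a, rfl⟩ := hB1.surjπ c
    refine ⟨0, algebraMap K F a, ?_, hB1.const a, hB2.const a⟩
    rw [Algebra.algebraMap_eq_smul_one]
    exact Submodule.smul_mem _ _ (one_mem_L (by simp))

theorem root_mem_L {C : Divisor k E} (m n : ℕ) (x : E) (hm : 0 < m)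
    (hx : x ^ m ∈ riemannRochSpace ((m * n) • C)) : x ∈ riemannRochSpace (n • C) := by
  rcases eq_or_ne x 0 with rfl | hx0
  · simp
  rw [mem_L_iff (pow_ne_zero _ hx0)] at hx
  rw [mem_L_iff hx0]
  intro v
  have := hx v
  rw [ord_pow, Finsupp.smul_apply] at this
  rw [Finsupp.smul_apply]
  have hm' : (0 : ℤ) < m := by exact_mod_cast hm
  simp only [nsmul_eq_mul, Nat.cast_mul] at this ⊢
  by_contra hlt
  push Not at hlt
  nlinarith

/-- hypotheses for the construction of `NodalGeom` (symmetric divisor, `C1 = C2 = C`). -/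
structure GeomHyp (A : ValuationSubring K) (π : A →+* k) (O1 O2 : ValuationSubring F)
    (ρ1 : O1 →+* E) (ρ2 : O2 →+* E) (D : Divisor K F) (C : Divisor k E)
    (gF cF gb cb : ℤ) (e : ℕ) : Prop where
  hB1 : GBase A π O1 ρ1
  hB2 : GBase A π O2 ρ2
  HF : RFacts K F gF cF
  Hb : RFacts k E gb cb
  hD : 0 ≤ D
  hC : 0 ≤ C
  hdegC : 0 < Divisor.degree C
  hdeg : Divisor.degree C + Divisor.degree C = Divisor.degree D
  he : 2 ≤ e
  pole : ∀ (n : ℕ) (x : F) (a b : E), x ∈ riemannRochSpace (n • D) → Rd O1 ρ1 x a →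
    Rd O2 ρ2 x b → a ∈ riemannRochSpace (n • C) ∧ b ∈ riemannRochSpace (n • C)
  dimred : ∀ V : Submodule K F, FiniteDimensional K V → ∀ W : Submodule k (E × E),
    FiniteDimensional k W → (∀ x ∈ V, ∀ a b, Rd O1 ρ1 x a → Rd O2 ρ2 x b → (a, b) ∈ W) →
    finrank K V ≤ finrank k W
  pr1 : ∀ (n : ℕ), ∀ a ∈ riemannRochSpace (n • C), ∃ (N : ℕ) (x : F) (b : E),
    x ∈ riemannRochSpace (N • D) ∧ Rd O1 ρ1 x a ∧ Rd O2 ρ2 x b
  pr2 : ∀ (n : ℕ), ∀ b ∈ riemannRochSpace (n • C), ∃ (N : ℕ) (x : F) (a : E),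
    x ∈ riemannRochSpace (N • D) ∧ Rd O1 ρ1 x a ∧ Rd O2 ρ2 x b
  kron : ∀ (n : ℕ), ∀ f ∈ riemannRochSpace (n • C), ∃ (g : E) (N' N : ℕ) (x : F),
    g ∈ riemannRochSpace (N' • C) ∧ x ∈ riemannRochSpace (N • D) ∧
      Rd O1 ρ1 x (f - g ^ e) ∧ Rd O2 ρ2 x 0
  lead1 : ∃ n1 : ℕ, ∀ n, n1 ≤ n → ∀ a ∈ riemannRochSpace ((n + 1) • C),
    ∃ a' ∈ riemannRochSpace (n • C), ∃ x ∈ riemannRochSpace ((n + 1) • D),
      Rd O1 ρ1 x (a - a') ∧ Rd O2 ρ2 x 0
  lead2 : ∃ n1 : ℕ, ∀ n, n1 ≤ n → ∀ b ∈ riemannRochSpace ((n + 1) • C),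
    ∃ b' ∈ riemannRochSpace (n • C), ∃ x ∈ riemannRochSpace ((n + 1) • D),
      Rd O1 ρ1 x 0 ∧ Rd O2 ρ2 x (b - b')

theorem GeomHyp.exists_nodalGeom [IsAlgClosed k] {D : Divisor K F} {C : Divisor k E}
    {gF cF gb cb : ℤ} {e : ℕ} (H : GeomHyp A π O1 O2 ρ1 ρ2 D C gF cF gb cb e) :
    ∃ G : NodalGeom A π O1 O2 ρ1 ρ2 D gF cF gb cb, G.C1 = C ∧ G.C2 = C := by
  classical
  have hC := H.hC
  set OE := OEof C hC with hOE
  set R := Rof H.hB1 H.hB2 D H.hD OE with hR
  have finLC : ∀ B : Divisor k E, FiniteDimensional k (riemannRochSpace B) := H.Hb.finDim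
  have finLD : ∀ B : Divisor K F, FiniteDimensional K (riemannRochSpace B) := H.HF.finDim
  have h1 : ∀ x : OE, ∃ y : OE, (x, y) ∈ R := by
    rintro ⟨a, n, ha⟩
    obtain ⟨N, x, b, hx, hr1, hr2⟩ := H.pr1 n a ha
    exact ⟨⟨b, N, (H.pole N x a b hx hr1 hr2).2⟩, N, x, hx, hr1, hr2⟩
  have h2 : ∀ y : OE, ∃ x : OE, (x, y) ∈ R := by
    rintro ⟨b, n, hb⟩
    obtain ⟨N, x, a, hx, hr1, hr2⟩ := H.pr2 n b hb
    exact ⟨⟨a, N, (H.pole N x a b hx hr1 hr2).1⟩, N, x, hx, hr1, hr2⟩
  obtain ⟨n1, hl1⟩ := H.lead1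
  obtain ⟨n1', hl2⟩ := H.lead2
  -- finite codimension
  have hfin0 : ∀ n : ℕ, ∀ a ∈ riemannRochSpace (n • C), ∃ a' ∈ riemannRochSpace (n1 • C),
      ∃ (N : ℕ) (x : F), x ∈ riemannRochSpace (N • D) ∧ Rd O1 ρ1 x (a - a') ∧
        Rd O2 ρ2 x 0 := by
    intro n
    induction n with
    | zero =>
      intro a ha
      exact ⟨a, nsmul_L_mono hC (Nat.zero_le _) ha, 0, 0, Submodule.zero_mem _,
        by rw [sub_self]; exact Rd.zero, Rd.zero⟩
    | succ n ih =>
      intro a ha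
      by_cases hn : n1 ≤ n
      · obtain ⟨a', ha', x, hx, hr1, hr2⟩ := hl1 n hn a ha
        obtain ⟨a'', ha'', N, y, hy, hs1, hs2⟩ := ih a' ha'
        refine ⟨a'', ha'', (n + 1) + N, x + y,
          Submodule.add_mem _ (nsmul_L_mono H.hD (Nat.le_add_right _ _) hx)
            (nsmul_L_mono H.hD (Nat.le_add_left _ _) hy), ?_, ?_⟩
        · have := hr1.add hs1
          rwa [sub_add_sub_cancel] at this
        · have := hr2.add hs2
          rwa [add_zero] at this
      · exact ⟨a, nsmul_L_mono hC (by omega) ha, 0, 0, Submodule.zero_mem _,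
          by rw [sub_self]; exact Rd.zero, Rd.zero⟩
  have hfin : Module.Finite k (OE ⧸ nodeIdeal R h1) := by
    let f : riemannRochSpace (n1 • C) →ₗ[k] (OE ⧸ nodeIdeal R h1) :=
      { toFun := fun a => Ideal.Quotient.mkₐ k (nodeIdeal R h1) ⟨a.1, n1, a.2⟩
        map_add' := fun a b => by rw [← map_add]; rfl
        map_smul' := fun c a => by rw [RingHom.id_apply, ← map_smul]; rfl }
    refine Module.Finite.of_surjective f ?_
    intro y
    obtain ⟨⟨a, n, ha⟩, rfl⟩ := Ideal.Quotient.mk_surjective y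
    obtain ⟨a', ha', N, x, hx, hr1, hr2⟩ := hfin0 n a ha
    refine ⟨⟨a', ha'⟩, ?_⟩
    symm
    refine Ideal.Quotient.eq.2 ?_
    exact ⟨N, x, hx, hr1, hr2⟩
  have hK : ∀ f : OE, ∃ g : OE, f - g ^ e ∈ nodeIdeal R h1 := by
    rintro ⟨f, n, hf⟩
    obtain ⟨g, N', N, x, hg, hx, hr1, hr2⟩ := H.kron n f hf
    exact ⟨⟨g, N', hg⟩, N, x, hx, hr1, hr2⟩
  obtain ⟨s, ev, ev', -, -, -, hsur, hsur', hRiff, -⟩ := node_main R h1 h2 e H.he hK
  -- places
  have hplace := exists_place_of_ev H.Hb hC H.hdegC OE (fun _ => Iff.rfl)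
  choose Qn hQnC hQnv using fun i => hplace (ev i)
  choose Qn' hQnC' hQnv' using fun i => hplace (ev' i)
  -- surjectivity at finite level
  have hlev : ∀ (φ : Fin s → OE →ₐ[k] k), (∀ α : Fin s → k, ∃ x : OE, ∀ i, φ i x = α i) →
      ∃ nS : ℕ, ∀ n : ℕ, nS ≤ n → ∀ α : Fin s → k,
        ∃ (a : E) (ha : a ∈ riemannRochSpace (n • C)), ∀ i, φ i ⟨a, n, ha⟩ = α i := by
    intro φ hφ
    choose b hb using fun j : Fin s => hφ (Pi.single j 1)
    choose m hm using fun j : Fin s => (b j).2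
    refine ⟨Finset.univ.sup m, fun n hn α => ?_⟩
    have hmem : ∀ j, ((b j : OE) : E) ∈ riemannRochSpace (n • C) := fun j =>
      nsmul_L_mono hC ((Finset.le_sup (Finset.mem_univ j)).trans hn) (hm j)
    refine ⟨∑ j, α j • ((b j : OE) : E),
      Submodule.sum_mem _ fun j _ => Submodule.smul_mem _ _ (hmem j), fun i => ?_⟩
    have hsum : ∀ h, (⟨∑ j, α j • ((b j : OE) : E), h⟩ : OE) = ∑ j, α j • b j := by
      intro h
      apply Subtype.ext
      simp
    refine (congrArg (φ i) (hsum _)).trans ?_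
    rw [map_sum]
    simp [hb, Pi.single_apply]
  obtain ⟨nS, hnS⟩ := hlev ev hsur
  obtain ⟨nS', hnS'⟩ := hlev ev' hsur'
  -- saturation
  set Rn : ℕ → Submodule k (E × E) := fun n =>
    red2 H.hB1 H.hB2 (riemannRochSpace (n • D)) with hRn
  set Fil : ℕ → Submodule k (E × E) := fun n =>
    (riemannRochSpace (n • C)).prod (riemannRochSpace (n • C)) with hFil
  have hFfin : ∀ n, FiniteDimensional k (Fil n) := fun n => (finrank_submodule_prod _ _).1
  have hFrank : ∀ n : ℕ, finrank k (Fil n) = finrank k (riemannRochSpace (n • C)) +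
      finrank k (riemannRochSpace (n • C)) := fun n => (finrank_submodule_prod _ _).2
  have hle : ∀ n, Rn n ≤ Fil n := by
    rintro n ⟨a, b⟩ ⟨x, hx, hr1, hr2⟩
    exact H.pole n x a b hx hr1 hr2
  have hRmono : ∀ n m, n ≤ m → Rn n ≤ Rn m := by
    rintro n m hnm w ⟨x, hx, hr⟩
    exact ⟨x, nsmul_L_mono H.hD hnm hx, hr⟩
  have hFmono : ∀ n, Fil n ≤ Fil (n + 1) := fun n =>
    Submodule.prod_mono (nsmul_L_mono hC (Nat.le_succ n)) (nsmul_L_mono hC (Nat.le_succ n))
  have hRrank : ∀ n : ℕ, finrank k (Rn n) = finrank K (riemannRochSpace (n • D)) := fun n =>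
    le_antisymm (dimred_le H.hB1 H.hB2 _ _ fun _ hw => hw).2
      (H.dimred _ (finLD _) _ inferInstance fun x hx _ _ ha hb => ⟨x, hx, ha, hb⟩)
  set n2 : ℕ := max (max n1 n1') (max cF.toNat cb.toNat) with hn2
  have hdC := H.hdegC
  have hdD := H.hdeg
  have hrC : ∀ n : ℕ, n2 ≤ n → (finrank k (riemannRochSpace (n • C)) : ℤ) =
      n * Divisor.degree C + 1 - gb := by
    intro n hn
    have h0 : Divisor.degree (n • C) = n * Divisor.degree C := by
      rw [map_nsmul, nsmul_eq_mul]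
    have h3 : cb ≤ (n : ℤ) := by
      have := Int.self_le_toNat cb
      have h4 : cb.toNat ≤ n := by omega
      have : ((cb.toNat : ℕ) : ℤ) ≤ n := by exact_mod_cast h4
      omega
    rw [H.Hb.riemann_eq _ (by rw [h0]; nlinarith), h0]
  have hrB : ∀ n : ℕ, n2 ≤ n → ∀ B : Divisor K F, Divisor.degree B = n * Divisor.degree D →
      (finrank K (riemannRochSpace B) : ℤ) = n * Divisor.degree D + 1 - gF := by
    intro n hn B hB
    have h3 : cF ≤ (n : ℤ) := by
      have := Int.self_le_toNat cF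
      have h4 : cF.toNat ≤ n := by omega
      have : ((cF.toNat : ℕ) : ℤ) ≤ n := by exact_mod_cast h4
      omega
    rw [H.HF.riemann_eq _ (by rw [hB]; nlinarith), hB]
  have hrD : ∀ n : ℕ, n2 ≤ n → (finrank K (riemannRochSpace (n • D)) : ℤ) =
      n * Divisor.degree D + 1 - gF := fun n hn =>
    hrB n hn _ (by rw [map_nsmul, nsmul_eq_mul])
  have hsup : ∀ n, n2 ≤ n → Fil (n + 1) ≤ Rn (n + 1) ⊔ Fil n := by
    rintro n hn ⟨a, b⟩ ⟨ha, hb⟩
    obtain ⟨a', ha', x, hx, hr1, hr2⟩ := hl1 n (by omega) a ha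
    obtain ⟨b', hb', y, hy, hs1, hs2⟩ := hl2 n (by omega) b hb
    have : ((a, b) : E × E) = ((a - a', 0) + (0, b - b')) + (a', b') := by
      ext <;> simp
    rw [this]
    exact Submodule.add_mem_sup
      (Submodule.add_mem _ ⟨x, hx, hr1, hr2⟩ ⟨y, hy, hs1, hs2⟩) ⟨ha', hb'⟩
  have hdim : ∀ n, n2 ≤ n → finrank k (Rn (n + 1)) + finrank k (Fil n) ≤
      finrank k (Fil (n + 1)) + finrank k (Rn n) := by
    intro n hn
    rw [hRrank, hRrank, hFrank, hFrank]
    have e1 := hrC n hn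
    have e2 := hrC (n + 1) (by omega)
    have e3 := hrD n hn
    have e4 := hrD (n + 1) (by omega)
    push_cast at e2 e4
    zify
    rw [e1, e2, e3, e4]
    nlinarith
  have hsat := sat_abstract Rn Fil hle (fun n => hRmono n (n + 1) (Nat.le_succ n)) hFmono n2
    hsup hdim
  have hkey : ∀ n : ℕ, n2 ≤ n → finrank k (riemannRochSpace (n • C)) +
      finrank k (riemannRochSpace (n • C)) ≤ finrank K (riemannRochSpace (n • D)) + s := by
    intro n hn
    let inc : riemannRochSpace (n • C) →ₗ[k] OE :=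
      { toFun := fun a => ⟨a.1, n, a.2⟩
        map_add' := fun _ _ => rfl
        map_smul' := fun _ _ => rfl }
    let Φ : (riemannRochSpace (n • C) × riemannRochSpace (n • C)) →ₗ[k] (Fin s → k) :=
      LinearMap.pi fun i => ((ev i).toLinearMap ∘ₗ inc) ∘ₗ LinearMap.fst k _ _ -
        ((ev' i).toLinearMap ∘ₗ inc) ∘ₗ LinearMap.snd k _ _
    have h3 := LinearMap.finrank_range_add_finrank_ker Φ
    have h4 : finrank k (LinearMap.range Φ) ≤ s := by
      have := Submodule.finrank_le (LinearMap.range Φ)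
      simpa using this
    let J : (riemannRochSpace (n • C) × riemannRochSpace (n • C)) →ₗ[k] E × E :=
      LinearMap.prodMap (Submodule.subtype _) (Submodule.subtype _)
    have hJ : Function.Injective J :=
      Function.Injective.prodMap (Submodule.injective_subtype _) (Submodule.injective_subtype _)
    have h6 : (LinearMap.ker Φ).map J ≤ Rn n := by
      rintro _ ⟨⟨a, b⟩, hab, rfl⟩
      have hgl : ∀ i, ev i ⟨a.1, n, a.2⟩ = ev' i ⟨b.1, n, b.2⟩ := by
        intro i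
        have := congrFun (LinearMap.mem_ker.1 hab) i
        exact sub_eq_zero.1 this
      obtain ⟨N, x, hx, hr1, hr2⟩ := (hRiff _ _).2 hgl
      exact hsat n hn N ⟨hRmono N (n + N) (Nat.le_add_left _ _) ⟨x, hx, hr1, hr2⟩, a.2, b.2⟩
    have h5 : finrank k (LinearMap.ker Φ) ≤ finrank k (Rn n) := by
      rw [← finrank_map_of_injective J hJ (LinearMap.ker Φ)]
      exact Submodule.finrank_mono h6
    rw [Module.finrank_prod] at h3
    rw [hRrank] at h5
    omega
  refine ⟨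
    { hB1 := H.hB1
      hB2 := H.hB2
      hD := H.hD
      OE := OE
      s := s
      ev := ev
      ev' := ev'
      X := fun n => riemannRochSpace (n • C)
      Y := fun n => riemannRochSpace (n • C)
      hX := fun n a ha => ⟨n, ha⟩
      hY := fun n a ha => ⟨n, ha⟩
      finX := fun n => finLC _
      finY := fun n => finLC _
      rootX := fun m n x hm hx => root_mem_L m n x hm hx
      rootY := fun m n x hm hx => root_mem_L m n x hm hx
      red := fun n x a b hx hr1 hr2 =>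
        ⟨(H.pole n x a b hx hr1 hr2).1, (H.pole n x a b hx hr1 hr2).2,
          (hRiff ⟨a, n, (H.pole n x a b hx hr1 hr2).1⟩
            ⟨b, n, (H.pole n x a b hx hr1 hr2).2⟩).1 ⟨n, x, hx, hr1, hr2⟩⟩
      n0 := max n2 (max nS nS')
      surj := fun n hn α β => by
        obtain ⟨a, ha, hav⟩ := hnS n (by omega) α
        obtain ⟨b, hb, hbv⟩ := hnS' n (by omega) β
        exact ⟨a, ha, b, hb, hav, hbv⟩
      dim := fun n hn B hB => by
        have e1 := hkey n (by omega)
        have e2 := hrB n (by omega) B hB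
        have e3 := hrD n (by omega)
        have : finrank K (riemannRochSpace B) = finrank K (riemannRochSpace (n • D)) := by
          zify
          rw [e2, e3]
        rw [this]
        exact e1
      finL := finLD
      dimred := H.dimred
      HF := H.HF
      Hb := H.Hb
      C1 := C
      C2 := C
      hC1 := hC
      hC2 := hC
      hXL := fun n => rfl
      hYL := fun n => rfl
      hdeg := H.hdeg
      hdeg1 := H.hdegC
      hdeg2 := H.hdegC
      Qn := Qn
      Qn' := Qn'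
      hQn := hQnC
      hQn' := hQnC'
      hev := hQnv
      hev' := hQnv' }, rfl, rfl⟩

end FAN
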