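import Fermat.Agent.Nodal.ELemma
import Fermat.Agent.Red.G4Core

/-!
# PROJECT N: the hypotheses (lead1)/(lead2) of the saturation argument, from the Kronecker element.
-/

set_option autoImplicit false

open AlgebraicCurve Module FA18 FA18.G4

namespace FAN

variable {K F k E : Type*} [Field K] [Field F] [Algebra K F] [Field k] [Field E] [Algebra k E]
variable {O1 O2 : ValuationSubring F} {ρ1 : O1 →+* E} {ρ2 : O2 →+* E}

theorem pow_mem_L' {B : Divisor K F} {x : F} (hx : x ∈ riemannRochSpace B) (j : ℕ) :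
    x ^ j ∈ riemannRochSpace (j • B) := by
  induction j with
  | zero =>
    rw [pow_zero, zero_smul]
    exact one_mem_L le_rfl
  | succ j ih =>
    rw [pow_succ, succ_nsmul]
    exact mul_mem_L ih hx

/-- **(lead1)** -/
theorem lead_of_pieces {gb cb : ℤ} (Hb : RFacts k E gb cb) {Cj : Divisor k E} (hCj : 0 ≤ Cj)
    (hdeg : 0 < Divisor.degree Cj) {Dj Djw : Divisor K F} {l : ℕ} (hl : 0 < l)
    {y0 : E} (hy00 : y0 ≠ 0) (hy0 : y0 ∈ riemannRochSpace ((l ^ 2) • Cj))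
    (hex : ∀ P : Place k E, Cj P ≠ 0 → P.ord y0 = -((l : ℤ) ^ 2 * Cj P))
    {T0 : F} (hT0 : T0 ∈ riemannRochSpace (l • Djw)) (h1 : Rd O1 ρ1 T0 y0) (h2 : Rd O2 ρ2 T0 0)
    {c0 : ℕ} (lift : ∀ n : ℕ, c0 ≤ n → ∀ fb ∈ riemannRochSpace (n • Cj),
      ∃ f ∈ riemannRochSpace (n • Dj), Rd O1 ρ1 f fb ∧ ∃ b, Rd O2 ρ2 f b) :
    ∃ n1 : ℕ, ∀ n, n1 ≤ n → ∀ a ∈ riemannRochSpace ((n + 1) • ((l * (l + 1)) • Cj)),
      ∃ a' ∈ riemannRochSpace (n • ((l * (l + 1)) • Cj)),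
        ∃ x ∈ riemannRochSpace ((n + 1) • (l • (Dj + Djw))),
          Rd O1 ρ1 x (a - a') ∧ Rd O2 ρ2 x 0 := by
  refine ⟨c0 + cb.toNat + l + 1, fun n hn a ha => ?_⟩
  set N : ℕ := n + 1 with hN
  have hd : (1 : ℤ) ≤ Divisor.degree Cj := hdeg
  have hcb : cb ≤ cb.toNat := Int.self_le_toNat _
  have hlZ : (1 : ℤ) ≤ l := by exact_mod_cast hl
  have hnZ : (c0 : ℤ) + cb.toNat + l + 1 ≤ n := by exact_mod_cast hn
  have hNZ : (N : ℤ) = n + 1 := by rw [hN]; push_cast; ring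
  have e1 : (N * l) • Cj + (N * l ^ 2) • Cj = N • ((l * (l + 1)) • Cj) := by
    rw [← add_smul, smul_smul]
    congr 1
    ring
  have e2 : (N * l) • Cj + (N * l ^ 2) • Cj - (l * (l + 1)) • Cj = n • ((l * (l + 1)) • Cj) := by
    rw [e1, hN, succ_nsmul, add_sub_cancel_right]
  have hyN : y0 ^ N ∈ riemannRochSpace ((N * l ^ 2) • Cj) := by
    have := pow_mem_L' hy0 N
    rwa [smul_smul] at this
  obtain ⟨x0, hx0, hx0'⟩ := exists_lead Hb (G := (N * l) • Cj) (H := (N * l ^ 2) • Cj)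
    (T := (l * (l + 1)) • Cj) (y := y0 ^ N) (pow_ne_zero _ hy00) (nsmul_nonneg hCj _) hyN
    (fun P hP => by
      have hP' : Cj P ≠ 0 := by
        intro h
        apply hP
        rw [Finsupp.smul_apply, h, smul_zero]
      rw [ord_pow, hex P hP', Finsupp.smul_apply, nsmul_eq_mul]
      push_cast
      ring)
    (by
      rw [map_sub, map_nsmul, map_nsmul, nsmul_eq_mul, nsmul_eq_mul]
      push_cast
      rw [hNZ]
      have h5 : (0 : ℤ) ≤ (n : ℤ) - l := by omega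
      have h6 := mul_nonneg (sub_nonneg.2 hlZ) h5
      have h7 : (cb : ℤ) ≤ l * ((n : ℤ) - l) := by nlinarith
      have h8 : (0 : ℤ) ≤ l * ((n : ℤ) - l) := by positivity
      have h9 := mul_nonneg (sub_nonneg.2 hd) h8
      nlinarith)
    (by
      rw [map_add, map_nsmul, map_nsmul, nsmul_eq_mul, nsmul_eq_mul]
      push_cast
      rw [hNZ]
      have h5 : (0 : ℤ) ≤ (n : ℤ) + 1 := by omega
      have h6 := mul_nonneg (sub_nonneg.2 hlZ) h5
      have h7 : (cb : ℤ) ≤ ((n : ℤ) + 1) * l := by nlinarith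
      have h8 : (0 : ℤ) ≤ ((n : ℤ) + 1) * l := by positivity
      have h9 := mul_nonneg (sub_nonneg.2 hd) h8
      have h4 : (0 : ℤ) ≤ ((n : ℤ) + 1) * (l : ℤ) ^ 2 * Divisor.degree Cj := by positivity
      nlinarith)
    (z := a) (by rw [e1]; exact ha)
  rw [e2] at hx0'
  obtain ⟨f, hf, hf1, b, hf2⟩ := lift (N * l) (by nlinarith) x0 hx0
  refine ⟨a - y0 ^ N * x0, hx0', f * T0 ^ N, ?_, ?_, ?_⟩
  · have h3 := mul_mem_L hf (pow_mem_L' hT0 N)
    have e3 : (N * l) • Dj + N • l • Djw = N • (l • (Dj + Djw)) := by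
      rw [smul_add, smul_add, smul_smul, smul_smul]
    rwa [e3] at h3
  · refine (hf1.mul (h1.pow N)).congr rfl ?_
    ring
  · refine (hf2.mul (h2.pow N)).congr rfl ?_
    rw [zero_pow (by omega), mul_zero]

end FAN
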