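import Fermat.Agent.Nodal.Pole

/-!
# Project N: [POLE] for a general effective divisor with a witness; [DIM] from divisor degrees
-/

set_option autoImplicit false

namespace FAN

open Module IntermediateField Polynomial FA18 FA18.G4 AlgebraicCurve

variable {K F k E : Type*} [Field K] [Field F] [Algebra K F] [Field k] [Field E] [Algebra k E]
variable {A : ValuationSubring K} {π : A →+* k}
variable {O1 O2 : ValuationSubring F} {ρ1 : O1 →+* E} {ρ2 : O2 →+* E}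

theorem poleDiv_le_of_mem {C C' : Divisor k E} {t : E} (ht0 : t ≠ 0)
    (hC : ∀ v, C v = max 0 (-(v.ord t))) (hC'0 : 0 ≤ C')
    (h : t ∈ riemannRochSpace C') : C ≤ C' := by
  intro Q
  have h1 := (mem_L_iff ht0).1 h Q
  have h2 := hC'0 Q
  simp only [Finsupp.coe_zero, Pi.zero_apply] at h2
  rw [hC]
  omega

/-- [POLE], general form: `B ≥ 0` and a witness `xw ∈ L(B)` whose two reductions have polar
divisors `C1`, `C2` with `deg B ≤ deg C1 + deg C2`. -/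
theorem pole_gen [IsAlgClosed k] {gF cF gb cb : ℤ}
    (hB1 : GBase A π O1 ρ1) (hB2 : GBase A π O2 ρ2)
    {t : F} (ht0 : t ≠ 0) (ht1 : Rd O1 ρ1 t 0) (ht2 : Rd O2 ρ2 t⁻¹ 0)
    (HF : RFacts K F gF cF) (Hb : RFacts k E gb cb)
    (x0 : F) [FiniteDimensional K⟮x0⟯ F]
    {B : Divisor K F} (hB0 : 0 ≤ B) {xw : F} {t1 t2 : E} (hxw : xw ∈ riemannRochSpace B)
    (hx1 : Rd O1 ρ1 xw t1) (hx2 : Rd O2 ρ2 xw t2) {C1 C2 : Divisor k E}
    (hC1 : ∀ v, C1 v = max 0 (-(v.ord t1))) (hC2 : ∀ v, C2 v = max 0 (-(v.ord t2)))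
    (hpos1 : 0 < Divisor.degree C1) (hpos2 : 0 < Divisor.degree C2)
    (hdeg : Divisor.degree B ≤ Divisor.degree C1 + Divisor.degree C2)
    (x : F) (a b : E) (hx : x ∈ riemannRochSpace B)
    (ha : Rd O1 ρ1 x a) (hb : Rd O2 ρ2 x b) :
    a ∈ riemannRochSpace C1 ∧ b ∈ riemannRochSpace C2 := by
  have : Infinite k := IsAlgClosed.instInfinite
  have ht10 : t1 ≠ 0 := by
    rintro rfl
    have : C1 = 0 := by ext v; rw [hC1]; simp
    rw [this, map_zero] at hpos1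
    exact lt_irrefl _ hpos1
  have ht20 : t2 ≠ 0 := by
    rintro rfl
    have : C2 = 0 := by ext v; rw [hC2]; simp
    rw [this, map_zero] at hpos2
    exact lt_irrefl _ hpos2
  have := HF.finDim B
  set W := red2 hB1 hB2 (riemannRochSpace B) with hW
  set W1 : Submodule k E := W.map (LinearMap.fst k E E) with hW1
  set W2 : Submodule k E := W.map (LinearMap.snd k E E) with hW2
  have h11 : ((1, 1) : E × E) ∈ W := ⟨1, one_mem_L hB0, Rd.one, Rd.one⟩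
  have hWfg : W.FG := (Submodule.fg_iff_finiteDimensional W).2 inferInstance
  obtain ⟨C1', hC1'0, hW1C, hsharp1⟩ := Hb.exists_minDiv W1 (hWfg.map _) ⟨_, h11, rfl⟩
  obtain ⟨C2', hC2'0, hW2C, hsharp2⟩ := Hb.exists_minDiv W2 (hWfg.map _) ⟨_, h11, rfl⟩
  have htn : ((t1, t2) : E × E) ∈ W := ⟨xw, hxw, hx1, hx2⟩
  have hle1 : C1 ≤ C1' := poleDiv_le_of_mem ht10 hC1 hC1'0 (hW1C ⟨_, htn, rfl⟩)
  have hle2 : C2 ≤ C2' := poleDiv_le_of_mem ht20 hC2 hC2'0 (hW2C ⟨_, htn, rfl⟩)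
  have hd1 := degree_mono' Hb.deg_one hle1
  have hd2 := degree_mono' Hb.deg_one hle2
  have hC1'pos : 0 < Divisor.degree C1' := by omega
  have hC2'pos : 0 < Divisor.degree C2' := by omega
  have hC1'ne : C1' ≠ 0 := by rintro rfl; simp at hC1'pos
  have hC2'ne : C2' ≠ 0 := by rintro rfl; simp at hC2'pos
  obtain ⟨w, hwW, hw1, hw2⟩ := exists_generic2 W C1' C2'
    (fun w hw => hW1C ⟨w, hw, rfl⟩) (fun w hw => hW2C ⟨w, hw, rfl⟩)
    (fun Q => by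
      obtain ⟨y, ⟨w, hw, rfl⟩, hy0, hyQ⟩ := hsharp1 Q
      exact ⟨w, hw, hy0, hyQ⟩)
    (fun Q => by
      obtain ⟨y, ⟨w, hw, rfl⟩, hy0, hyQ⟩ := hsharp2 Q
      exact ⟨w, hw, hy0, hyQ⟩)
  obtain ⟨Q1, hQ1⟩ := Finsupp.ne_iff.1 hC1'ne
  obtain ⟨Q2, hQ2⟩ := Finsupp.ne_iff.1 hC2'ne
  have hw10 : w.1 ≠ 0 := (hw1 Q1 (Finsupp.mem_support_iff.2 hQ1)).1
  have hw20 : w.2 ≠ 0 := (hw2 Q2 (Finsupp.mem_support_iff.2 hQ2)).1
  have hp1 := poleDiv_of_exact hC1'0 hw10 (hW1C ⟨w, hwW, rfl⟩) (fun Q hQ => (hw1 Q hQ).2)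
  have hp2 := poleDiv_of_exact hC2'0 hw20 (hW2C ⟨w, hwW, rfl⟩) (fun Q hQ => (hw2 Q hQ).2)
  have htr1 : Transcendental k w.1 := transcendental_of_poleDiv hC1'ne hp1
  have htr2 : Transcendental k w.2 := transcendental_of_poleDiv hC2'ne hp2
  obtain ⟨y, hyL, hy1, hy2⟩ := hwW
  have htrF : Transcendental K y := transcendental_of_Rd2 hB1 hB2 hy1 hy2 htr1 htr2
  have : FiniteDimensional K⟮y⟯ F := FAFF.finiteDimensional_adjoin_of_transcendental x0 y htrF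
  have hFI := fi2 hB1 hB2 ht0 ht1 ht2 hy1 hy2 htr1 htr2
  have hy0 : y ≠ 0 := hy1.ne_zero hw10
  obtain ⟨P, hP⟩ := HF.exists_poleDiv y hy0
  have e1 := Hb.deg_poles w.1 htr1 C1' hp1
  have e2 := Hb.deg_poles w.2 htr2 C2' hp2
  have e3 := HF.deg_poles y htrF P hP
  have h3 : P ≤ B := by
    intro v
    have h4 := (mem_L_iff hy0).1 hyL v
    have h5 := hB0 v
    simp only [Finsupp.coe_zero, Pi.zero_apply] at h5
    rw [hP]
    omega
  have h4 := degree_mono' HF.deg_one h3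
  have hFI' : (finrank k⟮w.1⟯ E : ℤ) + (finrank k⟮w.2⟯ E : ℤ) ≤ (finrank K⟮y⟯ F : ℤ) := by
    exact_mod_cast hFI
  have hE1 : C1 = C1' := eq_of_le_of_degree_eq' Hb.deg_one hle1 (by omega)
  have hE2 : C2 = C2' := eq_of_le_of_degree_eq' Hb.deg_one hle2 (by omega)
  rw [hE1, hE2]
  have hab : ((a, b) : E × E) ∈ W := ⟨x, hx, ha, hb⟩
  exact ⟨hW1C ⟨_, hab, rfl⟩, hW2C ⟨_, hab, rfl⟩⟩

/-- [DIM] from the same hypotheses as [POLE] (degrees of polar divisors instead of field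
degrees): the `dimred` field of `TwistData`. -/
theorem dimred_of_deg [IsAlgClosed k] {gF cF gb cb : ℤ}
    (hB1 : GBase A π O1 ρ1) (hB2 : GBase A π O2 ρ2)
    {t : F} (ht0 : t ≠ 0) (ht1 : Rd O1 ρ1 t 0) (ht2 : Rd O2 ρ2 t⁻¹ 0)
    (HF : RFacts K F gF cF) (Hb : RFacts k E gb cb)
    {x0 : F} {t1 t2 : E} (hx1 : Rd O1 ρ1 x0 t1) (hx2 : Rd O2 ρ2 x0 t2)
    [FiniteDimensional K⟮x0⟯ F]
    {D : Divisor K F} {C1 C2 : Divisor k E}
    (hD : ∀ v, D v = max 0 (-(v.ord x0))) (hC1 : ∀ v, C1 v = max 0 (-(v.ord t1)))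
    (hC2 : ∀ v, C2 v = max 0 (-(v.ord t2)))
    (hpos1 : 0 < Divisor.degree C1) (hpos2 : 0 < Divisor.degree C2)
    (hdeg : Divisor.degree D ≤ Divisor.degree C1 + Divisor.degree C2) :
    ∀ V : Submodule K F, FiniteDimensional K V → ∀ W : Submodule k (E × E),
    FiniteDimensional k W → (∀ x ∈ V, ∀ a b, Rd O1 ρ1 x a → Rd O2 ρ2 x b → (a, b) ∈ W) →
    finrank K V ≤ finrank k W := by
  intro V hV W hWfd hW
  have hC1ne : C1 ≠ 0 := by rintro rfl; simp at hpos1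
  have hC2ne : C2 ≠ 0 := by rintro rfl; simp at hpos2
  have htr1 : Transcendental k t1 := transcendental_of_poleDiv hC1ne hC1
  have htr2 : Transcendental k t2 := transcendental_of_poleDiv hC2ne hC2
  have htrF : Transcendental K x0 := transcendental_of_Rd2 hB1 hB2 hx1 hx2 htr1 htr2
  have e1 := Hb.deg_poles t1 htr1 C1 hC1
  have e2 := Hb.deg_poles t2 htr2 C2 hC2
  have e3 := HF.deg_poles x0 htrF D hD
  have hdeg' : finrank K⟮x0⟯ F ≤ finrank k⟮t1⟯ E + finrank k⟮t2⟯ E := by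
    have : (finrank K⟮x0⟯ F : ℤ) ≤ (finrank k⟮t1⟯ E : ℤ) + (finrank k⟮t2⟯ E : ℤ) := by omega
    exact_mod_cast this
  exact dimred hB1 hB2 ht0 ht1 ht2 hx1 hx2 htr1 htr2 hdeg' V W hW

end FAN
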