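import Fermat.Agent.Nodal.Conc
import Fermat.Agent.Nodal.GeomOf
import Fermat.Agent.Nodal.Lead
import Fermat.Agent.Nodal.PoleGen

/-!
# PROJECT N: the concrete `GeomHyp` at level `M l`.
-/

set_option autoImplicit false

open AlgebraicCurve IntermediateField ModularCurve FA24 FA18 FA18.M1 FA18.G4 FAG Module

namespace FAN

section Conc

variable {M l : ℕ} [NeZero M] [NeZero l] [Fact l.Prime] (hlM : ¬ l ∣ M) (hM : auxLevel l ∣ M)
  {A : ValuationSubring Kb} (hA : A.LiesOverPrime l)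
  {k : Type} [Field k] {π : A →+* k} (hπ : Function.Surjective π)
  {O1 O2 : ValuationSubring (FN (M * l))} {ρ1 : O1 →+* FbN k M} {ρ2 : O2 →+* FbN k M}
  (w : FN (M * l) ≃ₐ[Kb] FN (M * l))
  (hwα : ∀ f, w (heckeAlphaBar Kb M l f) = heckeBetaBar Kb M l f)
  (hwβ : ∀ f, w (heckeBetaBar Kb M l f) = heckeAlphaBar Kb M l f)
  (h1 : IsInf A π O1 ρ1) (h2 : IsTwist w O1 O2 ρ1 ρ2)
  {Dj Djw : Divisor Kb (FN (M * l))} (hDj : ∀ v, Dj v = max 0 (-(v.ord (jA M l))))
  (hDjw : ∀ v, Djw v = max 0 (-(v.ord (jB M l))))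
  {Cj : Divisor k (FbN k M)} (hCj : ∀ v, Cj v = max 0 (-(v.ord (jb k M))))

include hlM hM hA hπ hDj hDjw hCj in
/-- lifts at level `M`, pulled back by both degeneracy maps -/
theorem exists_lift_M : ∃ c0 : ℕ, ∀ n, c0 ≤ n → ∀ fb ∈ riemannRochSpace (n • Cj),
    ∃ f : FN M, Rd (RDN M hlM A hA π hπ).O (RDN M hlM A hA π hπ).ρ f fb ∧
      heckeAlphaBar Kb M l f ∈ riemannRochSpace (n • Dj) ∧
      heckeBetaBar Kb M l f ∈ riemannRochSpace (n • Djw) := by
  have : NeZero (M * l) := ⟨Nat.mul_ne_zero (NeZero.ne M) (NeZero.ne l)⟩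
  obtain ⟨cF, HFM⟩ := FAR.rfacts_of_isFF (isFF_FN (N := M))
  obtain ⟨DM, hDM⟩ := HFM.exists_poleDiv (xN M)
    (fun h => transcendental_xN M (h ▸ isAlgebraic_zero))
  obtain ⟨c0, h⟩ := exists_isRed_L M hlM hM A hA π hπ hDM hCj
  refine ⟨c0, fun n hn fb hfb => ?_⟩
  obtain ⟨y, hy, hyρ⟩ := (h n hn fb).1 hfb
  exact ⟨y, ⟨y.2, hyρ⟩,
    map_mem_L_polar isFF_FN (heckeAlphaBar Kb M l) (transcendental_xN M) hDM hDj hy,
    map_mem_L_polar isFF_FN (heckeBetaBar Kb M l) (transcendental_xN M) hDM hDjw hy⟩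

include hDj hDjw in
theorem Dj_le_D : Dj ≤ l • (Dj + Djw) ∧ Djw ≤ l • (Dj + Djw) := by
  have hl : (1 : ℤ) ≤ l := by exact_mod_cast (Fact.out : l.Prime).one_le
  have a1 := polar_nonneg hDj
  have a2 := polar_nonneg hDjw
  constructor <;> intro v <;> have b1 := a1 v <;> have b2 := a2 v <;>
    simp only [Finsupp.coe_zero, Pi.zero_apply] at b1 b2 <;>
    rw [Finsupp.smul_apply, Finsupp.add_apply, nsmul_eq_mul] <;> nlinarith

include hCj in
omit [NeZero M] [NeZero l] in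
theorem Cj_le_C : Cj ≤ (l * (l + 1)) • Cj := by
  have hl : (1 : ℤ) ≤ l := by exact_mod_cast (Fact.out : l.Prime).one_le
  have a1 := polar_nonneg hCj
  intro v
  have b1 := a1 v
  simp only [Finsupp.coe_zero, Pi.zero_apply] at b1
  rw [Finsupp.smul_apply, nsmul_eq_mul]
  push_cast
  nlinarith [mul_nonneg (sub_nonneg.2 hl) b1, mul_nonneg (mul_nonneg (sub_nonneg.2 hl) (by linarith : (0:ℤ) ≤ l)) b1]

set_option maxHeartbeats 4000000 in
include hlM hM hA hπ hwα hwβ h1 h2 hDj hDjw hCj in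
/-- **the concrete `GeomHyp`** -/
theorem geomHyp_conc [CharP k l] [PerfectRing k l] [IsAlgClosed k] {gF cF gb cb : ℤ}
    (hB1 : GBase A π O1 ρ1) (hB2 : GBase A π O2 ρ2)
    (HF : RFacts Kb (FN (M * l)) gF cF) (Hb : RFacts k (FbN k M) gb cb)
    (hgal : ∀ (n : ℕ) (a : FbN k M), a ∈ riemannRochSpace (n • Cj) →
      galB (Sinv k l) M a ∈ riemannRochSpace (n • Cj))
    (hy00 : y0 k M l ≠ 0) (hy0 : y0 k M l ∈ riemannRochSpace ((l ^ 2) • Cj))
    (hex : ∀ P : Place k (FbN k M), Cj P ≠ 0 → P.ord (y0 k M l) = -((l : ℤ) ^ 2 * Cj P)) :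
    GeomHyp A π O1 O2 ρ1 ρ2 (l • (Dj + Djw)) ((l * (l + 1)) • Cj) gF cF gb cb (l ^ 2) := by
  have : NeZero (M * l) := ⟨Nat.mul_ne_zero (NeZero.ne M) (NeZero.ne l)⟩
  have hl2 : 2 ≤ l := (Fact.out : l.Prime).two_le
  have hl0 : 0 < l := by omega
  have hCj0 : 0 ≤ Cj := polar_nonneg hCj
  have hDj0 : 0 ≤ Dj := polar_nonneg hDj
  have hDjw0 : 0 ≤ Djw := polar_nonneg hDjw
  obtain ⟨ht0, ht1, ht2⟩ := exists_t hB1.surj hB2.surj (rd1_T0' hlM hA hπ h1)
    (rd2_T0' hlM hA hπ w hwα hwβ h1 h2) hy00 (rd1_T0 hlM hA hπ h1) hy00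
    (rd2_T0 hlM hA hπ w hwα hwβ h1 h2)
  have hdegCj : 0 < Divisor.degree Cj := by
    rw [Hb.deg_poles _ (transcendental_jb hlM hA hπ) Cj hCj]
    have e4 := finrank_jb_ge (M := M) hlM hA hπ
    rw [finrank_FN] at e4
    have : 0 < Fintype.card (XN M) := Fintype.card_pos
    exact_mod_cast lt_of_lt_of_le this e4
  have hpos : 0 < Divisor.degree ((l * (l + 1)) • Cj) := by
    rw [map_nsmul, nsmul_eq_mul]
    have : (0 : ℤ) < ((l * (l + 1) : ℕ) : ℤ) := by positivity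
    positivity
  have hCne : (l * (l + 1)) • Cj ≠ 0 := by
    intro h
    rw [h] at hpos
    simp at hpos
  have htrC : Transcendental k (jb k M ^ (l * (l + 1))) :=
    transcendental_of_poleDiv hCne (polar_C hCj _)
  have r1 := rd1_x0 (M := M) (l := l) hlM hA hπ h1
  have r2 := rd2_x0 (M := M) (l := l) hlM hA hπ w hwα hwβ h1 h2
  have htrx : Transcendental Kb (x0 M l) := transcendental_of_Rd2 hB1 hB2 r1 r2 htrC htrC
  have hfd : FiniteDimensional Kb⟮x0 M l⟯ (FN (M * l)) :=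
    finiteDimensional_of_transcendental isFF_FN _ htrx
  have hle := degree_D_le hlM hA hπ w hwα hDj hDjw hCj HF Hb
  have hge : Divisor.degree ((l * (l + 1)) • Cj) + Divisor.degree ((l * (l + 1)) • Cj) ≤
      Divisor.degree (l • (Dj + Djw)) := by
    rw [Hb.deg_poles _ htrC _ (polar_C hCj _), HF.deg_poles _ htrx _ (polar_x0 hDj hDjw)]
    exact_mod_cast fi2 hB1 hB2 ht0 ht1 ht2 r1 r2 htrC htrC
  obtain ⟨c0, hlift⟩ := exists_lift_M hlM hM hA hπ hDj hDjw hCj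
  obtain ⟨hDD1, hDD2⟩ := Dj_le_D (M := M) (l := l) hDj hDjw
  have hup : ∀ (n : ℕ) (a : FbN k M), a ∈ riemannRochSpace (n • ((l * (l + 1)) • Cj)) →
      a ∈ riemannRochSpace ((n * (l * (l + 1)) + c0) • Cj) := by
    intro n a ha
    rw [smul_smul] at ha
    exact L_mono (nsmul_le_nsmul_left hCj0 (Nat.le_add_right _ _)) ha
  exact
    { hB1 := hB1
      hB2 := hB2
      HF := HF
      Hb := Hb
      hD := nsmul_nonneg (add_nonneg hDj0 hDjw0) l
      hC := nsmul_nonneg hCj0 _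
      hdegC := hpos
      hdeg := le_antisymm hge hle
      he := by nlinarith
      pole := pole hB1 hB2 ht0 ht1 ht2 HF Hb r1 r2 (polar_x0 hDj hDjw) (polar_C hCj _)
        (polar_C hCj _) hpos hpos hle
      dimred := dimred_of_deg hB1 hB2 ht0 ht1 ht2 HF Hb r1 r2 (polar_x0 hDj hDjw) (polar_C hCj _)
        (polar_C hCj _) hpos hpos hle
      pr1 := by
        intro n a ha
        obtain ⟨f, hf, hα, -⟩ := hlift _ (Nat.le_add_left _ _) a (hup n a ha)
        exact ⟨_, _, _, L_mono (nsmul_le_nsmul_right hDD1 _) hα, h1.alpha hlM hA hπ hf,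
          IsTwist.alpha hlM hA hπ w hwα h1 h2 hf⟩
      pr2 := by
        intro n a ha
        obtain ⟨f, hf, -, hβ⟩ := hlift _ (Nat.le_add_left _ _) a (hup n a ha)
        exact ⟨_, _, _, L_mono (nsmul_le_nsmul_right hDD2 _) hβ, h1.beta hlM hA hπ hf,
          IsTwist.beta hlM hA hπ w hwβ h1 h2 hf⟩
      kron := by
        intro n f hf
        set n' := n * (l * (l + 1)) + c0 with hn'
        have hf1 := hup n f hf
        have hf2 := hgal _ _ hf1
        have hf3 := hgal _ _ hf2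
        obtain ⟨F, hF, hα, -⟩ := hlift n' (Nat.le_add_left _ _) f hf1
        obtain ⟨F', hF', -, hβ⟩ := hlift n' (Nat.le_add_left _ _) _ hf2
        obtain ⟨k1, k2⟩ := kronecker hlM hA hπ w hwα hwβ h1 h2 hF hF'
        refine ⟨_, n', l * n', _, L_mono (nsmul_le_nsmul_right (Cj_le_C hCj) _) hf3, ?_, k1, k2⟩
        refine Submodule.sub_mem _ ?_ ?_
        · refine L_mono ?_ hα
          refine (nsmul_le_nsmul_right hDD1 n').trans
            (nsmul_le_nsmul_left (nsmul_nonneg (add_nonneg hDj0 hDjw0) l) ?_)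
          nlinarith
        · have := pow_mem_L hβ l
          rw [smul_smul] at this
          exact L_mono (nsmul_le_nsmul_right hDD2 _) this
      lead1 := by
        refine lead_of_pieces Hb hCj0 hdegCj hl0 hy00 hy0 hex (T0 := jB M l ^ l - jA M l) ?_
          (rd1_T0 hlM hA hπ h1) (rd2_T0 hlM hA hπ w hwα hwβ h1 h2) (c0 := c0) ?_
        · exact Submodule.sub_mem _ (pow_mem_L (mem_L_polar hDjw) l) (jA_mem_L hDjw)
        · intro n hn fb hfb
          obtain ⟨f, hf, hα, -⟩ := hlift n hn fb hfb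
          exact ⟨_, hα, h1.alpha hlM hA hπ hf, _, IsTwist.alpha hlM hA hπ w hwα h1 h2 hf⟩
      lead2 := by
        obtain ⟨n1, hn1⟩ := lead_of_pieces (O1 := O2) (O2 := O1) (ρ1 := ρ2) (ρ2 := ρ1)
          (Dj := Djw) (Djw := Dj) Hb hCj0 hdegCj hl0 hy00 hy0 hex (T0 := jA M l ^ l - jB M l)
          (Submodule.sub_mem _ (pow_mem_L (mem_L_polar hDj) l) (jB_mem_L hDj))
          (rd2_T0' hlM hA hπ w hwα hwβ h1 h2) (rd1_T0' hlM hA hπ h1) (c0 := c0) (by
            intro n hn fb hfb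
            obtain ⟨f, hf, -, hβ⟩ := hlift n hn fb hfb
            exact ⟨_, hβ, IsTwist.beta hlM hA hπ w hwβ h1 h2 hf, _, h1.beta hlM hA hπ hf⟩)
        refine ⟨n1, fun n hn b hb => ?_⟩
        obtain ⟨b', hb', x, hx, e1, e2⟩ := hn1 n hn b hb
        rw [add_comm Djw Dj] at hx
        exact ⟨b', hb', x, hx, e2, e1⟩ }

end Conc

end FAN
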