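import Fermat.Agent.Nodal.TwistLA
import Fermat.Agent.Red.G4Core
import Fermat.Agent.Red.DeuringA

/-!
# PROJECT N, (II) [TWIST]: the gluing invariant `ζ(u)` of a toric class, and its invariance
under inertia.
-/

set_option autoImplicit false

open AlgebraicCurve Module FA18 FA18.G4

namespace FAN

variable {K F k E : Type*} [Field K] [Field F] [Algebra K F] [Field k] [Field E] [Algebra k E]

/-- the input of (II): two reductions of `F` to `E`, the ring of regular functions `OE`, the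
nodes (as pairs of evaluations), pole bounds, and the dimension counts. -/
structure TwistData (A : ValuationSubring K) (π : A →+* k) (O1 O2 : ValuationSubring F)
    (ρ1 : O1 →+* E) (ρ2 : O2 →+* E) (D : Divisor K F) where
  hB1 : GBase A π O1 ρ1
  hB2 : GBase A π O2 ρ2
  hD : 0 ≤ D
  OE : Subalgebra k E
  s : ℕ
  ev : Fin s → OE →ₐ[k] k
  ev' : Fin s → OE →ₐ[k] k
  X : ℕ → Submodule k E
  Y : ℕ → Submodule k E
  hX : ∀ n, ∀ a ∈ X n, a ∈ OE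
  hY : ∀ n, ∀ a ∈ Y n, a ∈ OE
  finX : ∀ n, FiniteDimensional k (X n)
  finY : ∀ n, FiniteDimensional k (Y n)
  rootX : ∀ (m n : ℕ) (x : E), 0 < m → x ^ m ∈ X (m * n) → x ∈ X n
  rootY : ∀ (m n : ℕ) (x : E), 0 < m → x ^ m ∈ Y (m * n) → x ∈ Y n
  red : ∀ (n : ℕ) (x : F) (a b : E), x ∈ riemannRochSpace (n • D) → Rd O1 ρ1 x a →
    Rd O2 ρ2 x b → ∃ (ha : a ∈ X n) (hb : b ∈ Y n),
      ∀ i, ev i ⟨a, hX n a ha⟩ = ev' i ⟨b, hY n b hb⟩
  n0 : ℕ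
  surj : ∀ n, n0 ≤ n → ∀ α β : Fin s → k, ∃ (a : E) (ha : a ∈ X n) (b : E) (hb : b ∈ Y n),
    (∀ i, ev i ⟨a, hX n a ha⟩ = α i) ∧ ∀ i, ev' i ⟨b, hY n b hb⟩ = β i
  dim : ∀ n, n0 ≤ n → ∀ B : Divisor K F, Divisor.degree B = n * Divisor.degree D →
    finrank k (X n) + finrank k (Y n) ≤ finrank K (riemannRochSpace B) + s
  finL : ∀ B : Divisor K F, FiniteDimensional K (riemannRochSpace B)
  dimred : ∀ V : Submodule K F, FiniteDimensional K V → ∀ W : Submodule k (E × E),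
    FiniteDimensional k W → (∀ x ∈ V, ∀ a b, Rd O1 ρ1 x a → Rd O2 ρ2 x b → (a, b) ∈ W) →
    finrank K V ≤ finrank k W

section LSpace

theorem pow_mem_L {B : Divisor K F} {x : F} (hx : x ∈ riemannRochSpace B) (j : ℕ) :
    x ^ j ∈ riemannRochSpace (j • B) := by
  induction j with
  | zero =>
    rw [pow_zero, zero_smul]
    exact one_mem_L le_rfl
  | succ j ih =>
    rw [pow_succ, succ_nsmul]
    exact mul_mem_L ih hx

/-- `L(D2 + nD)` in terms of `u`, `div u = m D2`. -/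
theorem mem_L_twist_iff {m : ℕ} (hm : 0 < m) {u : F} (hu : u ≠ 0) {D D2 : Divisor K F}
    (hD2 : ∀ P : Place K F, P.ord u = m * D2 P) (n : ℕ) (x : F) :
    x ∈ riemannRochSpace (D2 + n • D) ↔ x ^ m * u ∈ riemannRochSpace ((m * n) • D) := by
  rcases eq_or_ne x 0 with rfl | hx
  · simp [zero_pow hm.ne']
  rw [mem_L_iff hx, mem_L_iff (mul_ne_zero (pow_ne_zero _ hx) hu)]
  refine forall_congr' fun v => ?_
  rw [v.ord_mul (pow_ne_zero _ hx) hu, ord_pow, hD2, Finsupp.add_apply, Finsupp.smul_apply,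
    Finsupp.smul_apply]
  have hm' : (0 : ℤ) < m := by exact_mod_cast hm
  simp only [nsmul_eq_mul, Nat.cast_mul]
  constructor
  · intro h
    nlinarith
  · intro h
    by_contra hlt
    push Not at hlt
    nlinarith

end LSpace

namespace TwistData

variable {A : ValuationSubring K} {π : A →+* k} {O1 O2 : ValuationSubring F}
  {ρ1 : O1 →+* E} {ρ2 : O2 →+* E} {D : Divisor K F} (T : TwistData A π O1 O2 ρ1 ρ2 D)

open Classical in
/-- evaluation at `Q_i`, extended by zero. -/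
noncomputable def e (i : Fin T.s) (a : E) : k := if h : a ∈ T.OE then T.ev i ⟨a, h⟩ else 0

open Classical in
/-- evaluation at `Q_i'`, extended by zero. -/
noncomputable def e' (i : Fin T.s) (a : E) : k := if h : a ∈ T.OE then T.ev' i ⟨a, h⟩ else 0

theorem e_eq (i : Fin T.s) {a : E} (h : a ∈ T.OE) : T.e i a = T.ev i ⟨a, h⟩ := dif_pos h
theorem e'_eq (i : Fin T.s) {a : E} (h : a ∈ T.OE) : T.e' i a = T.ev' i ⟨a, h⟩ := dif_pos h

theorem e_mul (i : Fin T.s) {a b : E} (ha : a ∈ T.OE) (hb : b ∈ T.OE) :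
    T.e i (a * b) = T.e i a * T.e i b := by
  rw [T.e_eq i ha, T.e_eq i hb, T.e_eq i (T.OE.mul_mem ha hb), ← map_mul]
  rfl

theorem e'_mul (i : Fin T.s) {a b : E} (ha : a ∈ T.OE) (hb : b ∈ T.OE) :
    T.e' i (a * b) = T.e' i a * T.e' i b := by
  rw [T.e'_eq i ha, T.e'_eq i hb, T.e'_eq i (T.OE.mul_mem ha hb), ← map_mul]
  rfl

theorem e_pow (i : Fin T.s) {a : E} (ha : a ∈ T.OE) (j : ℕ) : T.e i (a ^ j) = T.e i a ^ j := by
  rw [T.e_eq i ha, T.e_eq i (T.OE.pow_mem ha j), ← map_pow]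
  rfl

theorem e'_pow (i : Fin T.s) {a : E} (ha : a ∈ T.OE) (j : ℕ) :
    T.e' i (a ^ j) = T.e' i a ^ j := by
  rw [T.e'_eq i ha, T.e'_eq i (T.OE.pow_mem ha j), ← map_pow]
  rfl

theorem red' {n : ℕ} {x : F} {a b : E} (hx : x ∈ riemannRochSpace (n • D)) (h1 : Rd O1 ρ1 x a)
    (h2 : Rd O2 ρ2 x b) : a ∈ T.X n ∧ b ∈ T.Y n ∧ ∀ i, T.e i a = T.e' i b := by
  obtain ⟨ha, hb, h⟩ := T.red n x a b hx h1 h2
  refine ⟨ha, hb, fun i => ?_⟩
  rw [T.e_eq i (T.hX n a ha), T.e'_eq i (T.hY n b hb), h i]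

theorem surj' {n : ℕ} (hn : T.n0 ≤ n) (α β : Fin T.s → k) :
    ∃ a ∈ T.X n, ∃ b ∈ T.Y n, (∀ i, T.e i a = α i) ∧ ∀ i, T.e' i b = β i := by
  obtain ⟨a, ha, b, hb, h1, h2⟩ := T.surj n hn α β
  refine ⟨a, ha, b, hb, fun i => ?_, fun i => ?_⟩
  · rw [T.e_eq i (T.hX n a ha), h1 i]
  · rw [T.e'_eq i (T.hY n b hb), h2 i]

/-- the functional `e i` on `X n × Y n`. -/
noncomputable def eZ (n : ℕ) (i : Fin T.s) : (T.X n × T.Y n) →ₗ[k] k where
  toFun z := T.ev i ⟨z.1.1, T.hX n _ z.1.2⟩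
  map_add' z z' := by
    rw [← map_add]
    rfl
  map_smul' c z := by
    rw [RingHom.id_apply, ← map_smul]
    rfl

/-- the functional `e' i` on `X n × Y n`. -/
noncomputable def eZ' (n : ℕ) (i : Fin T.s) : (T.X n × T.Y n) →ₗ[k] k where
  toFun z := T.ev' i ⟨z.2.1, T.hY n _ z.2.2⟩
  map_add' z z' := by
    rw [← map_add]
    rfl
  map_smul' c z := by
    rw [RingHom.id_apply, ← map_smul]
    rfl

theorem eZ_apply (n : ℕ) (i : Fin T.s) (z : T.X n × T.Y n) : T.eZ n i z = T.e i z.1.1 :=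
  (T.e_eq i (T.hX n _ z.1.2)).symm

theorem eZ'_apply (n : ℕ) (i : Fin T.s) (z : T.X n × T.Y n) : T.eZ' n i z = T.e' i z.2.1 :=
  (T.e'_eq i (T.hY n _ z.2.2)).symm

/-- the reductions of the elements of `V`, inside `X n × Y n`. -/
def redZ (n : ℕ) (V : Submodule K F) : Submodule k (T.X n × T.Y n) where
  carrier := {z | ∃ x ∈ V, Rd O1 ρ1 x z.1.1 ∧ Rd O2 ρ2 x z.2.1}
  zero_mem' := ⟨0, V.zero_mem, Rd.zero, Rd.zero⟩
  add_mem' := by
    rintro z z' ⟨x, hx, h1, h2⟩ ⟨x', hx', h1', h2'⟩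
    exact ⟨x + x', V.add_mem hx hx', h1.add h1', h2.add h2'⟩
  smul_mem' := by
    rintro c z ⟨x, hx, h1, h2⟩
    obtain ⟨a, rfl⟩ := T.hB1.surjπ c
    refine ⟨algebraMap K F a * x, ?_, ?_, ?_⟩
    · rw [← Algebra.smul_def]
      exact V.smul_mem _ hx
    · have := (T.hB1.const a).mul h1
      refine this.congr rfl ?_
      show _ = π a • (z.1 : E)
      rw [Algebra.smul_def]
    · have := (T.hB2.const a).mul h2
      refine this.congr rfl ?_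
      show _ = π a • (z.2 : E)
      rw [Algebra.smul_def]

/-- **(II), at a fixed level `n`.** -/
theorem exists_zeta_level {m : ℕ} (hm : 0 < m) {u : F} (hu1 : Rd O1 ρ1 u 1) (hu2 : Rd O2 ρ2 u 1)
    {D2 : Divisor K F} (hD2 : ∀ P : Place K F, P.ord u = m * D2 P)
    (hdeg : Divisor.degree D2 = 0) {n : ℕ} (hn : T.n0 ≤ n) :
    ∃ ζ : Fin T.s → k, (∀ i, ζ i ^ m = 1) ∧ ∀ a b : E,
      (∃ x ∈ riemannRochSpace (D2 + n • D), Rd O1 ρ1 x a ∧ Rd O2 ρ2 x b) ↔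
        (a ∈ T.X n ∧ b ∈ T.Y n ∧ ∀ i, T.e i a = ζ i * T.e' i b) := by
  have hm1 : m - 1 + 1 = m := Nat.sub_add_cancel hm
  have hu0 : u ≠ 0 := hu1.ne_zero one_ne_zero
  set V := riemannRochSpace (D2 + n • D) with hV
  have huL : u ∈ riemannRochSpace (-(m • D2)) := by
    rw [mem_L_iff hu0]
    intro v
    rw [hD2]
    simp
  -- the polarised product
  have key : ∀ x1 ∈ V, ∀ x2 ∈ V, x1 ^ (m - 1) * x2 * u ∈ riemannRochSpace ((m * n) • D) := by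
    intro x1 h1 x2 h2
    have h3 := mul_mem_L (mul_mem_L (pow_mem_L h1 (m - 1)) h2) huL
    have e : (m - 1) • (D2 + n • D) + (D2 + n • D) + -(m • D2) = (m * n) • D := by
      rw [← succ_nsmul, hm1, smul_add, smul_smul]
      abel
    rwa [e] at h3
  have key2 : ∀ x1 ∈ V, ∀ x2 ∈ V, ∀ a1 b1 a2 b2 : E, Rd O1 ρ1 x1 a1 → Rd O2 ρ2 x1 b1 →
      Rd O1 ρ1 x2 a2 → Rd O2 ρ2 x2 b2 →
      a1 ^ (m - 1) * a2 ∈ T.X (m * n) ∧ b1 ^ (m - 1) * b2 ∈ T.Y (m * n) ∧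
        ∀ i, T.e i (a1 ^ (m - 1) * a2) = T.e' i (b1 ^ (m - 1) * b2) := by
    intro x1 h1 x2 h2 a1 b1 a2 b2 r1 r1' r2 r2'
    have q1 := ((r1.pow (m - 1)).mul r2).mul hu1
    have q2 := ((r1'.pow (m - 1)).mul r2').mul hu2
    rw [mul_one] at q1 q2
    exact T.red' (key x1 h1 x2 h2) q1 q2
  have hmem : ∀ x ∈ V, ∀ a b : E, Rd O1 ρ1 x a → Rd O2 ρ2 x b → a ∈ T.X n ∧ b ∈ T.Y n := by
    intro x hx a b r r'
    obtain ⟨h1, h2, -⟩ := key2 x hx x hx a b a b r r' r r'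
    rw [← pow_succ, hm1] at h1 h2
    exact ⟨T.rootX m n a hm h1, T.rootY m n b hm h2⟩
  have := T.finX n
  have := T.finY n
  have : FiniteDimensional K V := T.finL (D2 + n • D)
  -- dimension
  have hdimW : finrank k (T.X n × T.Y n) ≤ finrank k (T.redZ n V) + T.s := by
    rw [Module.finrank_prod]
    have h1 : finrank k (T.X n) + finrank k (T.Y n) ≤ finrank K V + T.s :=
      T.dim n hn (D2 + n • D) (by rw [map_add, hdeg, zero_add, map_nsmul, nsmul_eq_mul])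
    let ι : (T.X n × T.Y n) →ₗ[k] E × E := (T.X n).subtype.prodMap (T.Y n).subtype
    have h2 := T.dimred V inferInstance ((T.redZ n V).map ι) inferInstance (by
      intro x hx a b r r'
      obtain ⟨ha, hb⟩ := hmem x hx a b r r'
      exact ⟨(⟨a, ha⟩, ⟨b, hb⟩), ⟨x, hx, r, r'⟩, rfl⟩)
    have h3 := Submodule.finrank_map_le ι (T.redZ n V)
    omega
  obtain ⟨ζ, hζ, hW⟩ := twist_la (T.eZ n) (T.eZ' n) (by
      intro α β
      obtain ⟨a, ha, b, hb, h1, h2⟩ := T.surj n hn α β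
      exact ⟨(⟨a, ha⟩, ⟨b, hb⟩), h1, h2⟩) m hm (T.redZ n V) (by
      rintro z ⟨x, hx, r, r'⟩ i
      obtain ⟨-, -, h⟩ := key2 x hx x hx _ _ _ _ r r' r r'
      have := h i
      rw [← pow_succ, ← pow_succ, hm1, T.e_pow i (T.hX n _ z.1.2),
        T.e'_pow i (T.hY n _ z.2.2)] at this
      rw [eZ_apply, eZ'_apply, this]) (by
      rintro z ⟨x, hx, r, r'⟩ z' ⟨x', hx', s, s'⟩ i
      obtain ⟨-, -, h⟩ := key2 x hx x' hx' _ _ _ _ r r' s s'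
      have := h i
      rw [T.e_mul i (T.OE.pow_mem (T.hX n _ z.1.2) _) (T.hX n _ z'.1.2),
        T.e'_mul i (T.OE.pow_mem (T.hY n _ z.2.2) _) (T.hY n _ z'.2.2),
        T.e_pow i (T.hX n _ z.1.2), T.e'_pow i (T.hY n _ z.2.2)] at this
      rw [eZ_apply, eZ'_apply, eZ_apply, eZ'_apply, this]) hdimW
  refine ⟨ζ, hζ, fun a b => ⟨?_, ?_⟩⟩
  · rintro ⟨x, hx, r, r'⟩
    obtain ⟨ha, hb⟩ := hmem x hx a b r r'
    refine ⟨ha, hb, fun i => ?_⟩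
    have := (hW (⟨a, ha⟩, ⟨b, hb⟩)).1 ⟨x, hx, r, r'⟩ i
    rwa [eZ_apply, eZ'_apply] at this
  · rintro ⟨ha, hb, h⟩
    have := (hW (⟨a, ha⟩, ⟨b, hb⟩)).2 (fun i => by rw [eZ_apply, eZ'_apply]; exact h i)
    exact this

/-- `ζ` describes the reductions of `L(D2 + nD)`. -/
def IsZeta (D2 : Divisor K F) (n : ℕ) (ζ : Fin T.s → k) : Prop :=
  ∀ a b : E, (∃ x ∈ riemannRochSpace (D2 + n • D), Rd O1 ρ1 x a ∧ Rd O2 ρ2 x b) ↔
    (a ∈ T.X n ∧ b ∈ T.Y n ∧ ∀ i, T.e i a = ζ i * T.e' i b)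

variable {T}

theorem IsZeta.exists_elt {D2 : Divisor K F} {n : ℕ} {ζ : Fin T.s → k} (h : T.IsZeta D2 n ζ)
    (hn : T.n0 ≤ n) : ∃ x ∈ riemannRochSpace (D2 + n • D), ∃ a b : E, Rd O1 ρ1 x a ∧
      Rd O2 ρ2 x b ∧ a ∈ T.OE ∧ b ∈ T.OE ∧ (∀ i, T.e i a = ζ i) ∧ ∀ i, T.e' i b = 1 := by
  obtain ⟨a, ha, b, hb, h1, h2⟩ := T.surj' hn ζ 1
  obtain ⟨x, hx, r, r'⟩ := (h a b).2 ⟨ha, hb, fun i => by rw [h1, h2]; simp⟩
  exact ⟨x, hx, a, b, r, r', T.hX n a ha, T.hY n b hb, h1, h2⟩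

theorem IsZeta.mul {D2 D2' : Divisor K F} {n n' : ℕ} {ζ ζ' ζ'' : Fin T.s → k}
    (h : T.IsZeta D2 n ζ) (h' : T.IsZeta D2' n' ζ') (h'' : T.IsZeta (D2 + D2') (n + n') ζ'')
    (hn : T.n0 ≤ n) (hn' : T.n0 ≤ n') (i : Fin T.s) : ζ'' i = ζ i * ζ' i := by
  obtain ⟨x, hx, a, b, r, r', ha, hb, h1, h2⟩ := h.exists_elt hn
  obtain ⟨x', hx', a', b', s, s', ha', hb', h1', h2'⟩ := h'.exists_elt hn'
  have hxx : x * x' ∈ riemannRochSpace (D2 + D2' + (n + n') • D) := by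
    have := mul_mem_L hx hx'
    have e : D2 + n • D + (D2' + n' • D) = D2 + D2' + (n + n') • D := by
      rw [add_smul]
      abel
    rwa [e] at this
  obtain ⟨-, -, h3⟩ := (h'' (a * a') (b * b')).1 ⟨x * x', hxx, r.mul s, r'.mul s'⟩
  have := h3 i
  rw [T.e_mul i ha ha', T.e'_mul i hb hb', h1, h1', h2, h2'] at this
  rw [this]
  simp

theorem IsZeta.mono {D2 : Divisor K F} {n n' : ℕ} {ζ ζ' : Fin T.s → k}
    (h : T.IsZeta D2 n ζ) (h' : T.IsZeta D2 n' ζ') (hn : T.n0 ≤ n) (hnn : n ≤ n')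
    (i : Fin T.s) : ζ i = ζ' i := by
  obtain ⟨x, hx, a, b, r, r', ha, hb, h1, h2⟩ := h.exists_elt hn
  have hx' : x ∈ riemannRochSpace (D2 + n' • D) := by
    refine L_mono ?_ hx
    obtain ⟨j, rfl⟩ := Nat.exists_eq_add_of_le hnn
    rw [add_smul, ← add_assoc]
    exact le_add_of_nonneg_right (nsmul_nonneg T.hD j)
  obtain ⟨-, -, h3⟩ := (h' a b).1 ⟨x, hx', r, r'⟩
  have := h3 i
  rw [h1, h2, mul_one] at this
  exact this

variable (T)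

theorem isZeta_zero {n : ℕ} (hn : T.n0 ≤ n) : T.IsZeta 0 n 1 := by
  obtain ⟨ζ, hζ, h⟩ := T.exists_zeta_level (m := 1) one_pos (u := 1) Rd.one Rd.one (D2 := 0)
    (fun P => by simp [Place.ord_one]) (map_zero _) hn
  have : ζ = 1 := funext fun i => by simpa using hζ i
  rw [this] at h
  exact h

/-- **(II)**: the gluing invariant of `τ u / u` is trivial. -/
theorem zeta_inertia {m : ℕ} (hm : 0 < m) (τ : F →+* F)
    (hτ1 : ∀ x a, Rd O1 ρ1 x a → Rd O1 ρ1 (τ x) a) (hτ2 : ∀ x a, Rd O2 ρ2 x a → Rd O2 ρ2 (τ x) a)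
    (hτL : ∀ (n : ℕ) (x : F), x ∈ riemannRochSpace (n • D) → τ x ∈ riemannRochSpace (n • D))
    {u : F} (hu1 : Rd O1 ρ1 u 1) (hu2 : Rd O2 ρ2 u 1) {D2 D2' : Divisor K F}
    (hD2 : ∀ P : Place K F, P.ord u = m * D2 P) (hdeg : Divisor.degree D2 = 0)
    (hD2' : ∀ P : Place K F, P.ord (τ u) = m * D2' P) (hdeg' : Divisor.degree D2' = 0)
    {n : ℕ} (hn : T.n0 ≤ n) : T.IsZeta (D2' + -D2) n 1 := by
  have hu0 : u ≠ 0 := hu1.ne_zero one_ne_zero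
  have hτu0 : τ u ≠ 0 := (hτ1 u 1 hu1).ne_zero one_ne_zero
  -- the four invariants
  obtain ⟨ζ, -, h⟩ := T.exists_zeta_level hm hu1 hu2 hD2 hdeg hn
  obtain ⟨ζτ, -, hτ⟩ := T.exists_zeta_level hm (hτ1 u 1 hu1) (hτ2 u 1 hu2) hD2' hdeg' hn
  have hi1 : Rd O1 ρ1 u⁻¹ 1 := by
    have := hu1.inv T.hB1.surj one_ne_zero
    rwa [inv_one] at this
  have hi2 : Rd O2 ρ2 u⁻¹ 1 := by
    have := hu2.inv T.hB2.surj one_ne_zero
    rwa [inv_one] at this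
  obtain ⟨ζi, -, hi⟩ := T.exists_zeta_level (D2 := -D2) hm hi1 hi2
    (fun P => by rw [Place.ord_inv, hD2]; simp) (by rw [map_neg, hdeg, neg_zero]) hn
  have hy1 : Rd O1 ρ1 (τ u * u⁻¹) 1 := by
    have := (hτ1 u 1 hu1).mul hi1
    rwa [mul_one] at this
  have hy2 : Rd O2 ρ2 (τ u * u⁻¹) 1 := by
    have := (hτ2 u 1 hu2).mul hi2
    rwa [mul_one] at this
  have hyD : ∀ P : Place K F, P.ord (τ u * u⁻¹) = m * (D2' + -D2) P := by
    intro P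
    rw [P.ord_mul hτu0 (inv_ne_zero hu0), Place.ord_inv, hD2, hD2']
    simp
    ring
  have hydeg : Divisor.degree (D2' + -D2) = 0 := by rw [map_add, map_neg, hdeg, hdeg']; simp
  obtain ⟨ζy, -, hy⟩ := T.exists_zeta_level hm hy1 hy2 hyD hydeg hn
  obtain ⟨ζy2, -, hy2'⟩ := T.exists_zeta_level hm hy1 hy2 hyD hydeg (n := n + n) (by omega)
  -- `ζτ = ζ`
  have e1 : ∀ i, ζ i = ζτ i := by
    intro i
    obtain ⟨x, hx, a, b, r, r', ha, hb, h1, h2⟩ := IsZeta.exists_elt (T := T) h hn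
    have hx' : τ x ∈ riemannRochSpace (D2' + n • D) := by
      rw [mem_L_twist_iff hm hτu0 hD2', ← map_pow, ← map_mul]
      exact hτL _ _ ((mem_L_twist_iff hm hu0 hD2 n x).1 hx)
    obtain ⟨-, -, h3⟩ := (hτ a b).1 ⟨τ x, hx', hτ1 x a r, hτ2 x b r'⟩
    have := h3 i
    rw [h1, h2, mul_one] at this
    exact this
  -- `ζ ζi = 1`
  have e2 : ∀ i, ζ i * ζi i = 1 := by
    intro i
    have h0 : T.IsZeta (D2 + -D2) (n + n) 1 := by
      rw [add_neg_cancel]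
      exact T.isZeta_zero (by omega)
    exact (IsZeta.mul (T := T) h hi h0 hn hn i).symm
  have e3 : ∀ i, ζy2 i = ζτ i * ζi i := fun i => IsZeta.mul (T := T) hτ hi hy2' hn hn i
  have e4 : ∀ i, ζy i = ζy2 i := fun i => IsZeta.mono (T := T) hy hy2' hn (by omega) i
  have : ζy = 1 := funext fun i => by rw [e4, e3, ← e1, e2]; rfl
  rw [this] at hy
  exact hy

/-- the form consumed by (III): a function in `L(D'' + nD)` with reduction `(1, 1)`. -/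
theorem exists_one_of_inertia {m : ℕ} (hm : 0 < m) (τ : F →+* F)
    (hτ1 : ∀ x a, Rd O1 ρ1 x a → Rd O1 ρ1 (τ x) a) (hτ2 : ∀ x a, Rd O2 ρ2 x a → Rd O2 ρ2 (τ x) a)
    (hτL : ∀ (n : ℕ) (x : F), x ∈ riemannRochSpace (n • D) → τ x ∈ riemannRochSpace (n • D))
    {u : F} (hu1 : Rd O1 ρ1 u 1) (hu2 : Rd O2 ρ2 u 1) {D2 D2' : Divisor K F}
    (hD2 : ∀ P : Place K F, P.ord u = m * D2 P) (hdeg : Divisor.degree D2 = 0)
    (hD2' : ∀ P : Place K F, P.ord (τ u) = m * D2' P) (hdeg' : Divisor.degree D2' = 0)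
    {n : ℕ} (hn : T.n0 ≤ n) :
    ∃ f ∈ riemannRochSpace (D2' + -D2 + n • D), Rd O1 ρ1 f 1 ∧ Rd O2 ρ2 f 1 := by
  have h := T.zeta_inertia hm τ hτ1 hτ2 hτL hu1 hu2 hD2 hdeg hD2' hdeg' hn
  obtain ⟨h1, h2, h3⟩ := T.red' (n := n) (x := 1) (one_mem_L (nsmul_nonneg T.hD n)) Rd.one Rd.one
  exact (h 1 1).2 ⟨h1, h2, fun i => by rw [h3 i]; simp⟩

end TwistData

end FAN
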