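import Fermat.Agent.Nodal.Conc
import Fermat.Agent.Nodal.Twist

/-!
# PROJECT N, (S-c): `y0 = jb ^ (l ^ 2) - jb` has exact polar divisor `l ^ 2 • Cj`.
-/

set_option autoImplicit false

open AlgebraicCurve IntermediateField ModularCurve FA24 FA18 FA18.M1 FA18.G4 FAG Module

namespace FAN

section Abs

variable {k E : Type*} [Field k] [Field E] [Algebra k E]

/-- abstract form: `J ^ m - J`, `m ≥ 2`, `J` transcendental. -/
theorem pow_sub_self_exact {J : E} (hJ : Transcendental k J) {Cj : Divisor k E}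
    (hCj : ∀ v, Cj v = max 0 (-(v.ord J))) {m : ℕ} (hm : 2 ≤ m) :
    J ^ m - J ≠ 0 ∧ J ^ m - J ∈ riemannRochSpace (m • Cj) ∧
      ∀ P : Place k E, Cj P ≠ 0 → P.ord (J ^ m - J) = -((m : ℤ) * Cj P) := by
  have hJ0 : J ≠ 0 := fun h => hJ (h ▸ isAlgebraic_zero)
  have hne : J ^ m - J ≠ 0 := by
    intro h0
    apply hJ
    refine ⟨Polynomial.X ^ m - Polynomial.X, ?_, by simpa using h0⟩
    intro hp
    have := congrArg (fun p => Polynomial.coeff p 1) hp
    simp only [Polynomial.coeff_sub, Polynomial.coeff_X_pow, Polynomial.coeff_X_one,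
      Polynomial.coeff_zero] at this
    rw [if_neg (by omega)] at this
    simp at this
  refine ⟨hne, ?_, ?_⟩
  · have h1 : J ∈ riemannRochSpace Cj := mem_L_polar hCj
    have h2 : J ^ m ∈ riemannRochSpace (m • Cj) := pow_mem_L h1 m
    have h3 : Cj ≤ m • Cj := by
      intro v
      rw [Finsupp.smul_apply, nsmul_eq_mul]
      have h4 : 0 ≤ Cj v := polar_nonneg hCj v
      have h5 : (1 : ℤ) ≤ m := by exact_mod_cast (by omega : 1 ≤ m)
      nlinarith
    exact Submodule.sub_mem _ h2 (L_mono h3 h1)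
  · intro P hP
    have hneg : P.ord J < 0 := by
      by_contra hc
      apply hP
      rw [hCj, max_eq_left (by omega)]
    have hC : Cj P = -(P.ord J) := by rw [hCj, max_eq_right (by omega)]
    have hpow : P.ord (J ^ m) = m * P.ord J := ord_pow P J m
    have hm' : (2 : ℤ) ≤ m := by exact_mod_cast hm
    have hlt : P.ord (J ^ m) < P.ord (-J) := by
      rw [FAFF.ord_neg, hpow]
      nlinarith
    have := FAFF.ord_add_eq_of_lt P (pow_ne_zero m hJ0) (neg_ne_zero.2 hJ0) hlt
    rw [sub_eq_add_neg, this, hpow, hC]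
    ring

end Abs

section Conc

variable {M l : ℕ} [NeZero M] [Fact l.Prime] (hlM : ¬ l ∣ M)
  {A : ValuationSubring Kb} (hA : A.LiesOverPrime l)
  {k : Type} [Field k] {π : A →+* k} (hπ : Function.Surjective π)

include hlM hA hπ in
/-- **(S-c)** in the shape of `FAN.lead_of_pieces`. -/
theorem y0_exact {Cj : Divisor k (FbN k M)} (hCj : ∀ v, Cj v = max 0 (-(v.ord (jb k M)))) :
    y0 k M l ≠ 0 ∧ y0 k M l ∈ riemannRochSpace ((l ^ 2) • Cj) ∧
      ∀ P : Place k (FbN k M), Cj P ≠ 0 → P.ord (y0 k M l) = -((l : ℤ) ^ 2 * Cj P) := by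
  have hl : 2 ≤ l := (Fact.out : l.Prime).two_le
  have hm : 2 ≤ l ^ 2 := by nlinarith
  obtain ⟨h1, h2, h3⟩ := pow_sub_self_exact (transcendental_jb hlM hA hπ) hCj hm
  refine ⟨h1, h2, fun P hP => ?_⟩
  have := h3 P hP
  rw [y0, this]
  push_cast
  ring

end Conc

end FAN
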