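import Fermat.Agent.Nodal.Conc
import Fermat.Agent.Nodal.Lead

/-!
# PROJECT N: the fields `lead1`, `lead2` of `GeomHyp` for the concrete data at level `M l`.
-/

set_option autoImplicit false

open AlgebraicCurve IntermediateField ModularCurve FA24 FA18 FA18.M1 FA18.G4 FAG Module

namespace FAN

section Gen

variable {K F : Type*} [Field K] [Field F] [Algebra K F]

/-- existence of the polar divisor -/
theorem exists_polarDiv {gF cF : ℤ} (HF : RFacts K F gF cF) (x : F) :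
    ∃ B : Divisor K F, ∀ v, B v = max 0 (-(v.ord x)) := by
  rcases eq_or_ne x 0 with rfl | hx
  · exact ⟨0, fun v => by simp [Place.ord_zero]⟩
  obtain ⟨D, hD, -⟩ := HF.exists_div x hx
  refine ⟨D.mapRange (fun n => max 0 (-n)) (by simp), fun v => ?_⟩
  rw [Finsupp.mapRange_apply, hD]

theorem pow_sub_exact {x : F} (hx : x ≠ 0) {B : Divisor K F}
    (hB : ∀ v, B v = max 0 (-(v.ord x))) {e : ℕ} (he : 2 ≤ e) :
    x ^ e - x ∈ riemannRochSpace (e • B) ∧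
      ∀ P : Place K F, B P ≠ 0 → P.ord (x ^ e - x) = -((e : ℤ) * B P) := by
  have heZ : (2 : ℤ) ≤ e := by exact_mod_cast he
  constructor
  · refine sub_mem (pow_mem_L' (mem_L_polar hB) e) (L_mono ?_ (mem_L_polar hB))
    intro v
    rw [Finsupp.smul_apply, nsmul_eq_mul]
    have : 0 ≤ B v := polar_nonneg hB v
    nlinarith
  · intro P hP
    have h1 : P.ord x < 0 := by
      by_contra h
      apply hP
      rw [hB, max_eq_left (by omega)]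
    have h2 : B P = -(P.ord x) := by rw [hB, max_eq_right (by omega)]
    have h3 : P.ord (x ^ e) < P.ord (-x) := by
      rw [ord_pow, FAFF.ord_neg]
      nlinarith
    rw [sub_eq_add_neg, FAFF.ord_add_eq_of_lt P (pow_ne_zero _ hx) (neg_ne_zero.2 hx) h3, ord_pow,
      h2]
    ring

end Gen

section Conc

variable {M l : ℕ} [NeZero M] [NeZero l] [Fact l.Prime] (hlM : ¬ l ∣ M) (hM : auxLevel l ∣ M)
  {A : ValuationSubring Kb} (hA : A.LiesOverPrime l)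
  {k : Type} [Field k] {π : A →+* k} (hπ : Function.Surjective π)
  {O1 O2 : ValuationSubring (FN (M * l))} {ρ1 : O1 →+* FbN k M} {ρ2 : O2 →+* FbN k M}
  (w : FN (M * l) ≃ₐ[Kb] FN (M * l))
  (hwα : ∀ f, w (heckeAlphaBar Kb M l f) = heckeBetaBar Kb M l f)
  (hwβ : ∀ f, w (heckeBetaBar Kb M l f) = heckeAlphaBar Kb M l f)
  (h1 : IsInf A π O1 ρ1) (h2 : IsTwist w O1 O2 ρ1 ρ2)
  [CharP k l] [PerfectRing k l]
  {Dj Djw : Divisor Kb (FN (M * l))} (hDj : ∀ v, Dj v = max 0 (-(v.ord (jA M l))))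
  (hDjw : ∀ v, Djw v = max 0 (-(v.ord (jB M l))))
  {Cj : Divisor k (FbN k M)} (hCj : ∀ v, Cj v = max 0 (-(v.ord (jb k M))))

include hlM hM hA hπ hwα h1 h2 hDj hCj in
/-- lifts along `α^*`. -/
theorem lift_alpha : ∃ c0 : ℕ, ∀ n, c0 ≤ n → ∀ fb ∈ riemannRochSpace (n • Cj),
    ∃ f ∈ riemannRochSpace (n • Dj), Rd O1 ρ1 f fb ∧ ∃ b, Rd O2 ρ2 f b := by
  have : NeZero (M * l) := ⟨Nat.mul_ne_zero (NeZero.ne M) (NeZero.ne l)⟩
  obtain ⟨cM, HM⟩ := FAR.rfacts_of_isFF (isFF_FN (N := M))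
  obtain ⟨DM, hDM⟩ := exists_polarDiv HM (xN M)
  obtain ⟨c0, hc0⟩ := exists_isRed_L M hlM hM A hA π hπ hDM hCj
  refine ⟨c0, fun n hn fb hfb => ?_⟩
  obtain ⟨x, hx, hxρ⟩ := (hc0 n hn fb).1 hfb
  have hr : Rd (RDN M hlM A hA π hπ).O (RDN M hlM A hA π hπ).ρ (x : FN M) fb := ⟨x.2, hxρ⟩
  exact ⟨heckeAlphaBar Kb M l x,
    map_mem_L_polar (isFF_FN (N := M * l)) (heckeAlphaBar Kb M l) (transcendental_xN M) hDM hDj hx,
    h1.alpha hlM hA hπ hr, _, IsTwist.alpha hlM hA hπ w hwα h1 h2 hr⟩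

include hlM hM hA hπ hwβ h1 h2 hDjw hCj in
/-- lifts along `β^*`. -/
theorem lift_beta : ∃ c0 : ℕ, ∀ n, c0 ≤ n → ∀ fb ∈ riemannRochSpace (n • Cj),
    ∃ f ∈ riemannRochSpace (n • Djw), Rd O2 ρ2 f fb ∧ ∃ b, Rd O1 ρ1 f b := by
  have : NeZero (M * l) := ⟨Nat.mul_ne_zero (NeZero.ne M) (NeZero.ne l)⟩
  obtain ⟨cM, HM⟩ := FAR.rfacts_of_isFF (isFF_FN (N := M))
  obtain ⟨DM, hDM⟩ := exists_polarDiv HM (xN M)
  obtain ⟨c0, hc0⟩ := exists_isRed_L M hlM hM A hA π hπ hDM hCj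
  refine ⟨c0, fun n hn fb hfb => ?_⟩
  obtain ⟨x, hx, hxρ⟩ := (hc0 n hn fb).1 hfb
  have hr : Rd (RDN M hlM A hA π hπ).O (RDN M hlM A hA π hπ).ρ (x : FN M) fb := ⟨x.2, hxρ⟩
  exact ⟨heckeBetaBar Kb M l x,
    map_mem_L_polar (isFF_FN (N := M * l)) (heckeBetaBar Kb M l) (transcendental_xN M) hDM hDjw hx,
    IsTwist.beta hlM hA hπ w hwβ h1 h2 hr, _, h1.beta hlM hA hπ hr⟩

include hDjw in
omit [CharP k l] [PerfectRing k l] in
theorem T0_mem_L : jB M l ^ l - jA M l ∈ riemannRochSpace (l • Djw) :=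
  sub_mem (pow_mem_L' (mem_L_polar hDjw) l) (jA_mem_L hDjw)

include hDj in
omit [CharP k l] [PerfectRing k l] in
theorem T0'_mem_L : jA M l ^ l - jB M l ∈ riemannRochSpace (l • Dj) :=
  sub_mem (pow_mem_L' (mem_L_polar hDj) l) (jB_mem_L hDj)

include hlM hA hπ hCj in
omit [NeZero l] [CharP k l] [PerfectRing k l] in
theorem degree_Cj_pos {gb cb : ℤ} (Hb : RFacts k (FbN k M) gb cb) : 0 < Divisor.degree Cj := by
  rw [Hb.deg_poles _ (transcendental_jb hlM hA hπ) Cj hCj]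
  have e4 := finrank_jb_ge (M := M) hlM hA hπ
  have : 0 < finrank Kb⟮xN M⟯ (FN M) := finrank_pos
  exact_mod_cast lt_of_lt_of_le this e4

include hlM hA hπ hCj in
omit [NeZero l] [CharP k l] [PerfectRing k l] in
theorem y0_facts {gb cb : ℤ} (Hb : RFacts k (FbN k M) gb cb) :
    y0 k M l ≠ 0 ∧ y0 k M l ∈ riemannRochSpace ((l ^ 2) • Cj) ∧
      ∀ P : Place k (FbN k M), Cj P ≠ 0 → P.ord (y0 k M l) = -((l : ℤ) ^ 2 * Cj P) := by
  have hl : 2 ≤ l := (Fact.out : l.Prime).two_le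
  have hjb : jb k M ≠ 0 := fun h => transcendental_jb (M := M) hlM hA hπ (h ▸ isAlgebraic_zero)
  obtain ⟨e1, e2⟩ := pow_sub_exact hjb hCj (e := l ^ 2) (by nlinarith)
  have e3 : ∀ P : Place k (FbN k M), Cj P ≠ 0 → P.ord (y0 k M l) = -((l : ℤ) ^ 2 * Cj P) := by
    intro P hP
    rw [y0, e2 P hP]
    push_cast
    ring
  refine ⟨?_, e1, e3⟩
  intro h0
  have hpos := degree_Cj_pos hlM hA hπ hCj Hb
  obtain ⟨P, hP⟩ : ∃ P, Cj P ≠ 0 := by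
    by_contra hcon
    push Not at hcon
    have : Cj = 0 := Finsupp.ext hcon
    rw [this, map_zero] at hpos
    exact lt_irrefl _ hpos
  have := e3 P hP
  rw [h0, Place.ord_zero] at this
  have hl0 : (l : ℤ) ^ 2 ≠ 0 := by positivity
  have : (l : ℤ) ^ 2 * Cj P = 0 := by omega
  rcases mul_eq_zero.1 this with h | h
  · exact hl0 h
  · exact hP h

include hlM hM hA hπ hwα hwβ h1 h2 hDj hDjw hCj in
/-- the field `lead1` of `GeomHyp`. -/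
theorem lead1_conc {gb cb : ℤ} (Hb : RFacts k (FbN k M) gb cb) :
    ∃ n1 : ℕ, ∀ n, n1 ≤ n → ∀ a ∈ riemannRochSpace ((n + 1) • ((l * (l + 1)) • Cj)),
      ∃ a' ∈ riemannRochSpace (n • ((l * (l + 1)) • Cj)),
        ∃ x ∈ riemannRochSpace ((n + 1) • (l • (Dj + Djw))),
          Rd O1 ρ1 x (a - a') ∧ Rd O2 ρ2 x 0 := by
  obtain ⟨y1, y2, y3⟩ := y0_facts (l := l) hlM hA hπ hCj Hb
  obtain ⟨c0, hc0⟩ := lift_alpha hlM hM hA hπ w hwα h1 h2 hDj hCj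
  exact lead_of_pieces Hb (polar_nonneg hCj) (degree_Cj_pos hlM hA hπ hCj Hb)
    (Fact.out : l.Prime).pos y1 y2 y3 (T0_mem_L hDjw) (rd1_T0 hlM hA hπ h1)
    (rd2_T0 hlM hA hπ w hwα hwβ h1 h2) hc0

include hlM hM hA hπ hwα hwβ h1 h2 hDj hDjw hCj in
/-- the field `lead2` of `GeomHyp`. -/
theorem lead2_conc {gb cb : ℤ} (Hb : RFacts k (FbN k M) gb cb) :
    ∃ n1 : ℕ, ∀ n, n1 ≤ n → ∀ b ∈ riemannRochSpace ((n + 1) • ((l * (l + 1)) • Cj)),
      ∃ b' ∈ riemannRochSpace (n • ((l * (l + 1)) • Cj)),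
        ∃ x ∈ riemannRochSpace ((n + 1) • (l • (Dj + Djw))),
          Rd O1 ρ1 x 0 ∧ Rd O2 ρ2 x (b - b') := by
  obtain ⟨y1, y2, y3⟩ := y0_facts (l := l) hlM hA hπ hCj Hb
  obtain ⟨c0, hc0⟩ := lift_beta hlM hM hA hπ w hwβ h1 h2 hDjw hCj
  obtain ⟨n1, hn1⟩ := lead_of_pieces Hb (polar_nonneg hCj) (degree_Cj_pos hlM hA hπ hCj Hb)
    (Fact.out : l.Prime).pos y1 y2 y3 (T0'_mem_L hDj) (rd2_T0' hlM hA hπ w hwα hwβ h1 h2)
    (rd1_T0' hlM hA hπ h1) hc0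
  refine ⟨n1, fun n hn b hb => ?_⟩
  obtain ⟨b', hb', x, hx, r2, r1⟩ := hn1 n hn b hb
  rw [add_comm Djw Dj] at hx
  exact ⟨b', hb', x, hx, r1, r2⟩

end Conc

end FAN
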