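import Fermat.Agent.Nodal.PoleGen

/-!
# Project N: `deg D = deg C1 + deg C2` from `≤` (fundamental inequality)
-/

set_option autoImplicit false

namespace FAN

open Module IntermediateField Polynomial FA18 FA18.G4 AlgebraicCurve

variable {K F k E : Type*} [Field K] [Field F] [Algebra K F] [Field k] [Field E] [Algebra k E]
variable {A : ValuationSubring K} {π : A →+* k}
variable {O1 O2 : ValuationSubring F} {ρ1 : O1 →+* E} {ρ2 : O2 →+* E}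

/-- the reverse inequality `deg C1 + deg C2 ≤ deg D` always holds ([FI2]). -/
theorem deg_le_of_fi2 [IsAlgClosed k] {gF cF gb cb : ℤ}
    (hB1 : GBase A π O1 ρ1) (hB2 : GBase A π O2 ρ2)
    {t : F} (ht0 : t ≠ 0) (ht1 : Rd O1 ρ1 t 0) (ht2 : Rd O2 ρ2 t⁻¹ 0)
    (HF : RFacts K F gF cF) (Hb : RFacts k E gb cb)
    {x0 : F} {t1 t2 : E} (hx1 : Rd O1 ρ1 x0 t1) (hx2 : Rd O2 ρ2 x0 t2)
    [FiniteDimensional K⟮x0⟯ F]
    {D : Divisor K F} {C1 C2 : Divisor k E}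
    (hD : ∀ v, D v = max 0 (-(v.ord x0))) (hC1 : ∀ v, C1 v = max 0 (-(v.ord t1)))
    (hC2 : ∀ v, C2 v = max 0 (-(v.ord t2)))
    (hpos1 : 0 < Divisor.degree C1) (hpos2 : 0 < Divisor.degree C2) :
    Divisor.degree C1 + Divisor.degree C2 ≤ Divisor.degree D := by
  have hC1ne : C1 ≠ 0 := by rintro rfl; simp at hpos1
  have hC2ne : C2 ≠ 0 := by rintro rfl; simp at hpos2
  have htr1 : Transcendental k t1 := transcendental_of_poleDiv hC1ne hC1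
  have htr2 : Transcendental k t2 := transcendental_of_poleDiv hC2ne hC2
  have htrF : Transcendental K x0 := transcendental_of_Rd2 hB1 hB2 hx1 hx2 htr1 htr2
  have e1 := Hb.deg_poles t1 htr1 C1 hC1
  have e2 := Hb.deg_poles t2 htr2 C2 hC2
  have e3 := HF.deg_poles x0 htrF D hD
  have hFI := fi2 hB1 hB2 ht0 ht1 ht2 hx1 hx2 htr1 htr2
  have hFI' : (finrank k⟮t1⟯ E : ℤ) + (finrank k⟮t2⟯ E : ℤ) ≤ (finrank K⟮x0⟯ F : ℤ) := by
    exact_mod_cast hFI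
  omega

/-- `deg D = deg C1 + deg C2` under the hypotheses of `FAN.pole`. -/
theorem deg_eq_of_le [IsAlgClosed k] {gF cF gb cb : ℤ}
    (hB1 : GBase A π O1 ρ1) (hB2 : GBase A π O2 ρ2)
    {t : F} (ht0 : t ≠ 0) (ht1 : Rd O1 ρ1 t 0) (ht2 : Rd O2 ρ2 t⁻¹ 0)
    (HF : RFacts K F gF cF) (Hb : RFacts k E gb cb)
    {x0 : F} {t1 t2 : E} (hx1 : Rd O1 ρ1 x0 t1) (hx2 : Rd O2 ρ2 x0 t2)
    [FiniteDimensional K⟮x0⟯ F]
    {D : Divisor K F} {C1 C2 : Divisor k E}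
    (hD : ∀ v, D v = max 0 (-(v.ord x0))) (hC1 : ∀ v, C1 v = max 0 (-(v.ord t1)))
    (hC2 : ∀ v, C2 v = max 0 (-(v.ord t2)))
    (hpos1 : 0 < Divisor.degree C1) (hpos2 : 0 < Divisor.degree C2)
    (hdeg : Divisor.degree D ≤ Divisor.degree C1 + Divisor.degree C2) :
    Divisor.degree C1 + Divisor.degree C2 = Divisor.degree D :=
  le_antisymm (deg_le_of_fi2 hB1 hB2 ht0 ht1 ht2 HF Hb hx1 hx2 hD hC1 hC2 hpos1 hpos2) hdeg

end FAN
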