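import Fermat.Agent.Nodal.GeomOf
import Fermat.Agent.Nodal.DegEq

/-!
# PROJECT N: auxiliary lemmas for the construction of `GeomHyp`.
-/

set_option autoImplicit false

open AlgebraicCurve Module IntermediateField FA18 FA18.G4

namespace FAN

variable {K F k E : Type*} [Field K] [Field F] [Algebra K F] [Field k] [Field E] [Algebra k E]
variable {A : ValuationSubring K} {π : A →+* k} {O1 O2 : ValuationSubring F}
  {ρ1 : O1 →+* E} {ρ2 : O2 →+* E}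

/-- in `GeomHyp.kron` the condition on `g` is automatic. -/
theorem kron_of_weak {D : Divisor K F} {C : Divisor k E} (hC : 0 ≤ C) {e : ℕ} (he : 2 ≤ e)
    (pole : ∀ (n : ℕ) (x : F) (a b : E), x ∈ riemannRochSpace (n • D) → Rd O1 ρ1 x a →
      Rd O2 ρ2 x b → a ∈ riemannRochSpace (n • C) ∧ b ∈ riemannRochSpace (n • C))
    (kron : ∀ (n : ℕ), ∀ f ∈ riemannRochSpace (n • C), ∃ (g : E) (N : ℕ) (x : F),
      x ∈ riemannRochSpace (N • D) ∧ Rd O1 ρ1 x (f - g ^ e) ∧ Rd O2 ρ2 x 0) :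
    ∀ (n : ℕ), ∀ f ∈ riemannRochSpace (n • C), ∃ (g : E) (N' N : ℕ) (x : F),
      g ∈ riemannRochSpace (N' • C) ∧ x ∈ riemannRochSpace (N • D) ∧
        Rd O1 ρ1 x (f - g ^ e) ∧ Rd O2 ρ2 x 0 := by
  intro n f hf
  obtain ⟨g, N, x, hx, h1, h2⟩ := kron n f hf
  refine ⟨g, n + N, N, x, ?_, hx, h1, h2⟩
  have ha := (pole N x _ _ hx h1 h2).1
  have hg : g ^ e ∈ riemannRochSpace ((n + N) • C) := by
    have : g ^ e = f - (f - g ^ e) := by ring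
    rw [this]
    exact Submodule.sub_mem _ (nsmul_L_mono hC (Nat.le_add_right _ _) hf)
      (nsmul_L_mono hC (Nat.le_add_left _ _) ha)
  refine root_mem_L e (n + N) g (by omega) (nsmul_L_mono hC ?_ hg)
  exact Nat.le_mul_of_pos_left _ (by omega)

/-- `GeomHyp` from one test element `x0` (polar divisor `D`, both reductions `t1` with polar
divisor `C`) and the lifting statements. -/
theorem geomHyp_of [IsAlgClosed k] {gF cF gb cb : ℤ}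
    (hB1 : GBase A π O1 ρ1) (hB2 : GBase A π O2 ρ2)
    {t : F} (ht0 : t ≠ 0) (ht1 : Rd O1 ρ1 t 0) (ht2 : Rd O2 ρ2 t⁻¹ 0)
    (HF : RFacts K F gF cF) (Hb : RFacts k E gb cb)
    {x0 : F} {t1 : E} (hx1 : Rd O1 ρ1 x0 t1) (hx2 : Rd O2 ρ2 x0 t1)
    [FiniteDimensional K⟮x0⟯ F]
    {D : Divisor K F} {C : Divisor k E}
    (hD : ∀ v, D v = max 0 (-(v.ord x0))) (hC : ∀ v, C v = max 0 (-(v.ord t1)))
    (hpos : 0 < Divisor.degree C)
    (hdeg : Divisor.degree D ≤ Divisor.degree C + Divisor.degree C)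
    {e : ℕ} (he : 2 ≤ e)
    (pr1 : ∀ (n : ℕ), ∀ a ∈ riemannRochSpace (n • C), ∃ (N : ℕ) (x : F) (b : E),
      x ∈ riemannRochSpace (N • D) ∧ Rd O1 ρ1 x a ∧ Rd O2 ρ2 x b)
    (pr2 : ∀ (n : ℕ), ∀ b ∈ riemannRochSpace (n • C), ∃ (N : ℕ) (x : F) (a : E),
      x ∈ riemannRochSpace (N • D) ∧ Rd O1 ρ1 x a ∧ Rd O2 ρ2 x b)
    (kron : ∀ (n : ℕ), ∀ f ∈ riemannRochSpace (n • C), ∃ (g : E) (N : ℕ) (x : F),
      x ∈ riemannRochSpace (N • D) ∧ Rd O1 ρ1 x (f - g ^ e) ∧ Rd O2 ρ2 x 0)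
    (lead1 : ∃ n1 : ℕ, ∀ n, n1 ≤ n → ∀ a ∈ riemannRochSpace ((n + 1) • C),
      ∃ a' ∈ riemannRochSpace (n • C), ∃ x ∈ riemannRochSpace ((n + 1) • D),
        Rd O1 ρ1 x (a - a') ∧ Rd O2 ρ2 x 0)
    (lead2 : ∃ n1 : ℕ, ∀ n, n1 ≤ n → ∀ b ∈ riemannRochSpace ((n + 1) • C),
      ∃ b' ∈ riemannRochSpace (n • C), ∃ x ∈ riemannRochSpace ((n + 1) • D),
        Rd O1 ρ1 x 0 ∧ Rd O2 ρ2 x (b - b')) :
    GeomHyp A π O1 O2 ρ1 ρ2 D C gF cF gb cb e where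
  hB1 := hB1
  hB2 := hB2
  HF := HF
  Hb := Hb
  hD := fun v => by rw [hD]; simp
  hC := fun v => by rw [hC]; simp
  hdegC := hpos
  hdeg := deg_eq_of_le hB1 hB2 ht0 ht1 ht2 HF Hb hx1 hx2 hD hC hC hpos hpos hdeg
  he := he
  pole := pole hB1 hB2 ht0 ht1 ht2 HF Hb hx1 hx2 hD hC hC hpos hpos hdeg
  dimred := dimred_of_deg hB1 hB2 ht0 ht1 ht2 HF Hb hx1 hx2 hD hC hC hpos hpos hdeg
  pr1 := pr1
  pr2 := pr2
  kron := kron_of_weak (fun v => by rw [hC]; simp) he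
    (pole hB1 hB2 ht0 ht1 ht2 HF Hb hx1 hx2 hD hC hC hpos hpos hdeg) kron
  lead1 := lead1
  lead2 := lead2

end FAN
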