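import Fermat.Agent.Nodal.Conc
import Fermat.Agent.Nodal.GeomAux

/-!
# PROJECT N: the concrete `GeomHyp` at level `M l`, reduced to the five lifting statements.
-/

set_option autoImplicit false

open AlgebraicCurve IntermediateField ModularCurve FA24 FA18 FA18.M1 FA18.G4 FAG Module

namespace FAN

section ConcPole

variable {M l : ℕ} [NeZero M] [NeZero l] [Fact l.Prime] (hlM : ¬ l ∣ M)
  {A : ValuationSubring Kb} (hA : A.LiesOverPrime l)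
  {k : Type} [Field k] {π : A →+* k} (hπ : Function.Surjective π)
  {O1 O2 : ValuationSubring (FN (M * l))} {ρ1 : O1 →+* FbN k M} {ρ2 : O2 →+* FbN k M}
  (w : FN (M * l) ≃ₐ[Kb] FN (M * l))
  (hwα : ∀ f, w (heckeAlphaBar Kb M l f) = heckeBetaBar Kb M l f)
  (hwβ : ∀ f, w (heckeBetaBar Kb M l f) = heckeAlphaBar Kb M l f)
  (hB1 : GBase A π O1 ρ1) (hB2 : GBase A π O2 ρ2)
  (h1 : IsInf A π O1 ρ1) (h2 : IsTwist w O1 O2 ρ1 ρ2)
  [CharP k l] [PerfectRing k l]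

include hlM hA hπ hwα hwβ hB1 hB2 h1 h2 in
/-- the separating element `t`. -/
theorem conc_t : ∃ t : FN (M * l), t ≠ 0 ∧ Rd O1 ρ1 t 0 ∧ Rd O2 ρ2 t⁻¹ 0 := by
  obtain ⟨e, he1, he2⟩ := exists_e hlM hA hπ w hwα hwβ hB1 hB2 h1 h2
  have z1 : Rd O1 ρ1 (1 - e) 0 := by simpa using (Rd.one (O := O1) (ρ := ρ1)).sub he1
  have z2 : Rd O2 ρ2 (1 - e) 1 := by simpa using (Rd.one (O := O2) (ρ := ρ2)).sub he2
  exact ⟨_, exists_t hB1.surj hB2.surj z1 z2 one_ne_zero he1 one_ne_zero he2⟩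

include hlM hA hπ hwα hwβ hB1 hB2 h1 h2 in
theorem transcendental_x0 : Transcendental Kb (x0 M l) := by
  have hl : 0 < l * (l + 1) := Nat.mul_pos (Nat.pos_of_ne_zero (NeZero.ne l)) (Nat.succ_pos l)
  have htr : Transcendental k (jb k M ^ (l * (l + 1))) :=
    (transcendental_jb hlM hA hπ).pow hl
  exact transcendental_of_Rd2 hB1 hB2 (rd1_x0 hlM hA hπ h1) (rd2_x0 hlM hA hπ w hwα hwβ h1 h2)
    htr htr

include hlM hA hπ hwα hwβ hB1 hB2 h1 h2 in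
theorem finiteDimensional_x0 : FiniteDimensional Kb⟮x0 M l⟯ (FN (M * l)) := by
  have : NeZero (M * l) := ⟨Nat.mul_ne_zero (NeZero.ne M) (NeZero.ne l)⟩
  exact FAFF.finiteDimensional_adjoin_of_transcendental (xN (M * l)) _
    (transcendental_x0 hlM hA hπ w hwα hwβ hB1 hB2 h1 h2)

variable {Dj Djw : Divisor Kb (FN (M * l))} (hDj : ∀ v, Dj v = max 0 (-(v.ord (jA M l))))
  (hDjw : ∀ v, Djw v = max 0 (-(v.ord (jB M l))))
  {Cj : Divisor k (FbN k M)} (hCj : ∀ v, Cj v = max 0 (-(v.ord (jb k M))))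

include hlM hA hπ hCj in
omit [CharP k l] [PerfectRing k l] in
theorem degree_Cj_pos_h8 {gb cb : ℤ} (Hb : RFacts k (FbN k M) gb cb) : 0 < Divisor.degree Cj := by
  have d3 := Hb.deg_poles _ (transcendental_jb hlM hA hπ) Cj hCj
  have e4 := finrank_jb_ge (M := M) hlM hA hπ
  have e5 : 0 < finrank Kb⟮xN M⟯ (FN M) := Module.finrank_pos
  rw [d3]
  exact_mod_cast lt_of_lt_of_le e5 e4

include hlM hA hπ hCj in
omit [CharP k l] [PerfectRing k l] in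
theorem degree_C_pos {gb cb : ℤ} (Hb : RFacts k (FbN k M) gb cb) :
    0 < Divisor.degree ((l * (l + 1)) • Cj) := by
  have hl : 0 < l * (l + 1) := Nat.mul_pos (Nat.pos_of_ne_zero (NeZero.ne l)) (Nat.succ_pos l)
  rw [map_nsmul]
  exact nsmul_pos (degree_Cj_pos_h8 hlM hA hπ hCj Hb) hl.ne'

include hlM hA hπ hwα hwβ hB1 hB2 h1 h2 hDj hDjw hCj in
/-- **the concrete `GeomHyp`**, reduced to the five lifting statements. -/
theorem geomHyp_conc_of {gF cF gb cb : ℤ} (HF : RFacts Kb (FN (M * l)) gF cF)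
    (Hb : RFacts k (FbN k M) gb cb)
    (pr1 : ∀ (n : ℕ), ∀ a ∈ riemannRochSpace (n • ((l * (l + 1)) • Cj)),
      ∃ (N : ℕ) (x : FN (M * l)) (b : FbN k M),
      x ∈ riemannRochSpace (N • (l • (Dj + Djw))) ∧ Rd O1 ρ1 x a ∧ Rd O2 ρ2 x b)
    (pr2 : ∀ (n : ℕ), ∀ b ∈ riemannRochSpace (n • ((l * (l + 1)) • Cj)),
      ∃ (N : ℕ) (x : FN (M * l)) (a : FbN k M),
      x ∈ riemannRochSpace (N • (l • (Dj + Djw))) ∧ Rd O1 ρ1 x a ∧ Rd O2 ρ2 x b)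
    (kron : ∀ (n : ℕ), ∀ f ∈ riemannRochSpace (n • ((l * (l + 1)) • Cj)),
      ∃ (g : FbN k M) (N : ℕ) (x : FN (M * l)),
      x ∈ riemannRochSpace (N • (l • (Dj + Djw))) ∧ Rd O1 ρ1 x (f - g ^ (l ^ 2)) ∧ Rd O2 ρ2 x 0)
    (lead1 : ∃ n1 : ℕ, ∀ n, n1 ≤ n → ∀ a ∈ riemannRochSpace ((n + 1) • ((l * (l + 1)) • Cj)),
      ∃ a' ∈ riemannRochSpace (n • ((l * (l + 1)) • Cj)),
        ∃ x ∈ riemannRochSpace ((n + 1) • (l • (Dj + Djw))),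
        Rd O1 ρ1 x (a - a') ∧ Rd O2 ρ2 x 0)
    (lead2 : ∃ n1 : ℕ, ∀ n, n1 ≤ n → ∀ b ∈ riemannRochSpace ((n + 1) • ((l * (l + 1)) • Cj)),
      ∃ b' ∈ riemannRochSpace (n • ((l * (l + 1)) • Cj)),
        ∃ x ∈ riemannRochSpace ((n + 1) • (l • (Dj + Djw))),
        Rd O1 ρ1 x 0 ∧ Rd O2 ρ2 x (b - b')) :
    GeomHyp A π O1 O2 ρ1 ρ2 (l • (Dj + Djw)) ((l * (l + 1)) • Cj) gF cF gb cb (l ^ 2) := by
  have := isAlgClosed_of_surj A π hπ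
  have := finiteDimensional_x0 hlM hA hπ w hwα hwβ hB1 hB2 h1 h2
  obtain ⟨t, ht0, ht1, ht2⟩ := conc_t hlM hA hπ w hwα hwβ hB1 hB2 h1 h2
  have hl2 : 2 ≤ l := (Fact.out : l.Prime).two_le
  exact geomHyp_of hB1 hB2 ht0 ht1 ht2 HF Hb (rd1_x0 hlM hA hπ h1)
    (rd2_x0 hlM hA hπ w hwα hwβ h1 h2) (polar_x0 hDj hDjw) (polar_C hCj _)
    (degree_C_pos hlM hA hπ hCj Hb) (degree_D_le hlM hA hπ w hwα hDj hDjw hCj HF Hb)
    (by nlinarith) pr1 pr2 kron lead1 lead2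

end ConcPole

end FAN
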