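import Fermat.Agent.Nodal.Conc
import Fermat.Agent.Nodal.GeomOf

/-!
# PROJECT N: the fields `pr1`, `pr2`, `kron` of `GeomHyp` for the concrete data.
-/

set_option autoImplicit false

open AlgebraicCurve IntermediateField ModularCurve FA24 FA18 FA18.M1 FA18.G4 FAG Module

namespace FAN

section Conc

variable {M l : ℕ} [NeZero M] [NeZero l] [Fact l.Prime] (hlM : ¬ l ∣ M) (hM : auxLevel l ∣ M)
  {A : ValuationSubring Kb} (hA : A.LiesOverPrime l)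
  {k : Type} [Field k] {π : A →+* k} (hπ : Function.Surjective π)
  {O1 O2 : ValuationSubring (FN (M * l))} {ρ1 : O1 →+* FbN k M} {ρ2 : O2 →+* FbN k M}
  (w : FN (M * l) ≃ₐ[Kb] FN (M * l))
  (hwα : ∀ f, w (heckeAlphaBar Kb M l f) = heckeBetaBar Kb M l f)
  (hwβ : ∀ f, w (heckeBetaBar Kb M l f) = heckeAlphaBar Kb M l f)
  (h1 : IsInf A π O1 ρ1) (h2 : IsTwist w O1 O2 ρ1 ρ2)
  {Dj Djw : Divisor Kb (FN (M * l))} (hDj : ∀ v, Dj v = max 0 (-(v.ord (jA M l))))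
  (hDjw : ∀ v, Djw v = max 0 (-(v.ord (jB M l))))
  {Cj : Divisor k (FbN k M)} (hCj : ∀ v, Cj v = max 0 (-(v.ord (jb k M))))

include hlM hM hA hπ hDj hDjw hCj in
/-- lifting from the reduced curve of level `M`, pulled back by both degeneracy maps. -/
theorem liftM_h3 : ∃ c0 : ℕ, ∀ n : ℕ, c0 ≤ n → ∀ fb ∈ riemannRochSpace (n • Cj),
    ∃ f : FN M, Rd (RDN M hlM A hA π hπ).O (RDN M hlM A hA π hπ).ρ f fb ∧
      heckeAlphaBar Kb M l f ∈ riemannRochSpace (n • Dj) ∧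
      heckeBetaBar Kb M l f ∈ riemannRochSpace (n • Djw) := by
  have : NeZero (M * l) := ⟨Nat.mul_ne_zero (NeZero.ne M) (NeZero.ne l)⟩
  obtain ⟨cF, HF⟩ := FAR.rfacts_of_isFF (isFF_FN (N := M))
  obtain ⟨DM, hDM⟩ := HF.exists_poleDiv (xN M)
    (fun h => transcendental_xN M (h ▸ isAlgebraic_zero))
  obtain ⟨c0, hc0⟩ := exists_isRed_L M hlM hM A hA π hπ hDM hCj
  refine ⟨c0, fun n hn fb hfb => ?_⟩
  obtain ⟨y, hy, hyρ⟩ := (hc0 n hn fb).1 hfb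
  refine ⟨(y : FN M), ⟨y.2, hyρ⟩, ?_, ?_⟩
  · exact map_mem_L_polar (isFF_FN (N := M * l)) (heckeAlphaBar Kb M l) (transcendental_xN M)
      hDM hDj hy
  · exact map_mem_L_polar (isFF_FN (N := M * l)) (heckeBetaBar Kb M l) (transcendental_xN M)
      hDM hDjw hy

omit [NeZero M] [NeZero l] [Fact l.Prime] in
theorem smul_le_D_h3 (hDj0 : 0 ≤ Dj) (hDjw0 : 0 ≤ Djw) (hl : 0 < l) (n : ℕ) :
    n • Dj ≤ n • (l • (Dj + Djw)) ∧ l • (n • Djw) ≤ n • (l • (Dj + Djw)) ∧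
      n • Djw ≤ n • (l • (Dj + Djw)) := by
  have hl1 : (1 : ℤ) ≤ l := by exact_mod_cast hl
  have hn : (0 : ℤ) ≤ n := Nat.cast_nonneg n
  refine ⟨fun v => ?_, fun v => ?_, fun v => ?_⟩ <;>
  · have a1 : 0 ≤ Dj v := hDj0 v
    have a2 : 0 ≤ Djw v := hDjw0 v
    simp only [Finsupp.smul_apply, Finsupp.add_apply, nsmul_eq_mul]
    have a3 : 0 ≤ (n : ℤ) * Dj v := mul_nonneg hn a1
    have a4 : 0 ≤ (n : ℤ) * Djw v := mul_nonneg hn a2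
    nlinarith

omit [NeZero M] [NeZero l] [Fact l.Prime] in
theorem mem_L_Cj_h3 (hCj0 : 0 ≤ Cj) (c0 n m : ℕ) {a : FbN k M}
    (ha : a ∈ riemannRochSpace (n • (m • Cj))) :
    a ∈ riemannRochSpace ((c0 + n * m) • Cj) := by
  rw [← mul_nsmul'] at ha
  exact nsmul_L_mono hCj0 (Nat.le_add_left _ _) ha

variable [CharP k l] [PerfectRing k l]

include hlM hM hA hπ hDj hDjw hCj hwα h1 h2 in
theorem pr1_conc : ∀ (n : ℕ), ∀ a ∈ riemannRochSpace (n • ((l * (l + 1)) • Cj)),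
    ∃ (N : ℕ) (x : FN (M * l)) (b : FbN k M),
      x ∈ riemannRochSpace (N • (l • (Dj + Djw))) ∧ Rd O1 ρ1 x a ∧ Rd O2 ρ2 x b := by
  obtain ⟨c0, hc0⟩ := liftM_h3 hlM hM hA hπ hDj hDjw hCj
  intro n a ha
  obtain ⟨f, hf, hfα, -⟩ := hc0 _ (Nat.le_add_right c0 (n * (l * (l + 1)))) a
    (mem_L_Cj_h3 (polar_nonneg hCj) c0 n _ ha)
  exact ⟨_, heckeAlphaBar Kb M l f, BB l a,
    L_mono (smul_le_D_h3 (polar_nonneg hDj) (polar_nonneg hDjw) (Nat.pos_of_ne_zero (NeZero.ne l)) _).1 hfα,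
    h1.alpha hlM hA hπ hf, IsTwist.alpha hlM hA hπ w hwα h1 h2 hf⟩

include hlM hM hA hπ hDj hDjw hCj hwβ h1 h2 in
theorem pr2_conc : ∀ (n : ℕ), ∀ b ∈ riemannRochSpace (n • ((l * (l + 1)) • Cj)),
    ∃ (N : ℕ) (x : FN (M * l)) (a : FbN k M),
      x ∈ riemannRochSpace (N • (l • (Dj + Djw))) ∧ Rd O1 ρ1 x a ∧ Rd O2 ρ2 x b := by
  obtain ⟨c0, hc0⟩ := liftM_h3 hlM hM hA hπ hDj hDjw hCj
  intro n b hb
  obtain ⟨f, hf, -, hfβ⟩ := hc0 _ (Nat.le_add_right c0 (n * (l * (l + 1)))) b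
    (mem_L_Cj_h3 (polar_nonneg hCj) c0 n _ hb)
  exact ⟨_, heckeBetaBar Kb M l f, BB l b,
    L_mono (smul_le_D_h3 (polar_nonneg hDj) (polar_nonneg hDjw) (Nat.pos_of_ne_zero (NeZero.ne l)) _).2.2 hfβ,
    h1.beta hlM hA hπ hf, IsTwist.beta hlM hA hπ w hwβ h1 h2 hf⟩

include hlM hM hA hπ hDj hDjw hCj hwα hwβ h1 h2 in
theorem kron_conc_h3
    (hgal : ∀ (n : ℕ) (a : FbN k M), a ∈ riemannRochSpace (n • Cj) →
      galB (Sinv k l) M a ∈ riemannRochSpace (n • Cj)) :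
    ∀ (n : ℕ), ∀ f ∈ riemannRochSpace (n • ((l * (l + 1)) • Cj)),
    ∃ (g : FbN k M) (N' N : ℕ) (x : FN (M * l)),
      g ∈ riemannRochSpace (N' • ((l * (l + 1)) • Cj)) ∧
      x ∈ riemannRochSpace (N • (l • (Dj + Djw))) ∧
      Rd O1 ρ1 x (f - g ^ (l ^ 2)) ∧ Rd O2 ρ2 x 0 := by
  obtain ⟨c0, hc0⟩ := liftM_h3 hlM hM hA hπ hDj hDjw hCj
  have hl : 0 < l := Nat.pos_of_ne_zero (NeZero.ne l)
  intro n a ha
  have ha' := mem_L_Cj_h3 (polar_nonneg hCj) c0 n _ ha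
  set n' := c0 + n * (l * (l + 1)) with hn'
  obtain ⟨f, hf, hfα, -⟩ := hc0 n' (Nat.le_add_right _ _) a ha'
  obtain ⟨f', hf', -, hfβ⟩ := hc0 n' (Nat.le_add_right _ _) _ (hgal _ _ ha')
  have hk := kronecker hlM hA hπ w hwα hwβ h1 h2 hf hf'
  have hD := smul_le_D_h3 (polar_nonneg hDj) (polar_nonneg hDjw) hl n'
  refine ⟨galB (Sinv k l) M (galB (Sinv k l) M a), n', n', _, ?_, ?_, hk.1, hk.2⟩
  · have h3 := hgal _ _ (hgal _ _ ha')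
    refine L_mono ?_ h3
    refine nsmul_le_nsmul_right ?_ n'
    have : 1 • Cj ≤ (l * (l + 1)) • Cj :=
      nsmul_le_nsmul_left (polar_nonneg hCj) (Nat.mul_pos hl (Nat.succ_pos l))
    rwa [one_nsmul] at this
  · exact Submodule.sub_mem _ (L_mono hD.1 hfα) (L_mono hD.2.1 (pow_mem_L hfβ l))

end Conc

end FAN
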