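import Fermat.Agent.Nodal.LiftM
import Fermat.Agent.Red.Step2
import Fermat.Agent.Red.FrickeBar

/-!
# PROJECT N, (U2): the poles of `j` and `j_l`: `j_l ∈ L(l (j)_∞)`, `j ∈ L(l (j_l)_∞)`.
-/

set_option autoImplicit false

open AlgebraicCurve IntermediateField ModularCurve FA24 FA18 FA18.St2 Module

namespace FAN

section LevelL

variable (l : ℕ) [Fact l.Prime] [NeZero l]

/-- a place from a branch -/
theorem exists_place_branch (φ : FN l →+* LaurentSeries ℂ)
    (hC : ∀ a : Kb, (φ (algebraMap Kb (FN l) a)).order = 0) {a b : ℤ} {x y : FN l}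
    (hx : (φ x).order = a) (hy : (φ y).order = b) (hx0 : x ≠ 0) (hy0 : y ≠ 0)
    (hab : a = -1 ∨ b = -1) :
    ∃ v : Place Kb (FN l), v.ord x = a ∧ v.ord y = b := by
  obtain ⟨v, c, hc, hv⟩ := exists_place_of_isOrd (K := Kb) (isOrd_order.comp φ)
    (fun a _ => hC a)
    (by
      rcases hab with h | h
      · exact ⟨x, hx0, by show (φ x).order ≠ 0; rw [hx, h]; norm_num⟩
      · exact ⟨y, hy0, by show (φ y).order ≠ 0; rw [hy, h]; norm_num⟩)
  have h1 : (φ x).order = c * v.ord x := hv x hx0
  have h2 : (φ y).order = c * v.ord y := hv y hy0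
  rw [hx] at h1
  rw [hy] at h2
  have hc1 : c = 1 := by
    rcases hab with h | h
    · rw [h] at h1
      have : c ∣ 1 := ⟨-(v.ord x), by linarith⟩
      exact Int.eq_one_of_dvd_one hc.le this
    · rw [h] at h2
      have : c ∣ 1 := ⟨-(v.ord y), by linarith⟩
      exact Int.eq_one_of_dvd_one hc.le this
  rw [hc1, one_mul] at h1 h2
  exact ⟨v, h1.symm, h2.symm⟩

end LevelL

/-- two poles which exhaust the degree are the only poles. -/
theorem only_two_poles {K F : Type*} [Field K] [IsAlgClosed K] [CharZero K] [Field F] [Algebra K F]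
    (hF : IsFF K F) (x : F)
    (hx : Transcendental K x) (v1 v2 : Place K F) (hne : v1 ≠ v2) (h1 : v1.ord x < 0)
    (h2 : v2.ord x < 0) (h : (finrank K⟮x⟯ F : ℤ) ≤ -(v1.ord x) - v2.ord x)
    (v : Place K F) (hv : v.ord x < 0) : v = v1 ∨ v = v2 := by
  classical
  by_contra hcon
  push Not at hcon
  have hs := sum_poles hF x hx
  set S := (finite_poles hF x hx).toFinset with hS
  have hmem : ∀ u : Place K F, u ∈ S ↔ u.ord x < 0 := by
    intro u
    rw [hS, Set.Finite.mem_toFinset]
    rfl
  have hT : ({v, v1, v2} : Finset (Place K F)) ⊆ S := by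
    intro u hu
    simp only [Finset.mem_insert, Finset.mem_singleton] at hu
    rw [hmem]
    rcases hu with rfl | rfl | rfl <;> assumption
  have h3 := Finset.sum_le_sum_of_subset_of_nonneg (f := fun u : Place K F => -(u.ord x)) hT
    (fun u hu _ => by
      have := (hmem u).1 hu
      show 0 ≤ -(u.ord x)
      omega)
  rw [Finset.sum_neg_distrib, Finset.sum_neg_distrib, hs,
    Finset.sum_insert (by simp [hcon.1, hcon.2]),
    Finset.sum_insert (by simp [hne]), Finset.sum_singleton] at h3
  omega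

section LevelL

variable (l : ℕ) [Fact l.Prime] [NeZero l]

theorem levelL_bound (v : Place Kb (FN l)) :
    -((l : ℤ) * max 0 (-(v.ord (xN l)))) ≤ v.ord (Jd l (dvd_refl l)) ∧
      -((l : ℤ) * max 0 (-(v.ord (Jd l (dvd_refl l))))) ≤ v.ord (xN l) := by
  have hl : 2 ≤ l := (Fact.out : l.Prime).two_le
  set x := xN l with hx
  set y := Jd l (dvd_refl l) with hy
  obtain ⟨W, hW⟩ := exists_frickeBar l
  have : NeZero (l / 1) := ⟨by rw [Nat.div_one]; exact NeZero.ne l⟩
  have : NeZero (l / l) := ⟨by rw [Nat.div_self (by omega)]; exact one_ne_zero⟩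
  have hWx : W x = y := by
    have := hW 1 (one_dvd l)
    rw [hx, xN, this]
    apply Subtype.ext
    show coeffEmb Kb (qExpand ℚ (l / 1) jq) = coeffEmb Kb (qExpand ℚ l jq)
    simp only [Nat.div_one]
  have hWy : W y = x := by
    have := hW l (dvd_refl l)
    rw [hy, this]
    apply Subtype.ext
    show coeffEmb Kb (qExpand ℚ (l / l) jq) = coeffEmb Kb (qExpand ℚ 1 jq)
    have hll : l / l = 1 := Nat.div_self (by omega)
    simp only [hll]
  have hJ : (coeffMap (algebraMap ℚ ℂ) jq).order = -1 := order_JC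
  have e1 : (frC l x).order = -(l : ℤ) := by
    have h1 := frC_Jd (N := l) (d := 1) (c := l) (one_mul l)
    have h2 : frC l x = _ := h1
    rw [h2, order_qExpand, hJ]
    ring
  have e2 : (frC l y).order = -1 := by
    have h1 := frC_Jd (N := l) (d := l) (c := 1) (mul_one l)
    have h2 : frC l y = _ := h1
    rw [h2, order_qExpand, hJ]
    norm_num
  have htx : Transcendental Kb x := transcendental_xN l
  have hty : Transcendental Kb y := by
    rw [← hWx]
    intro h
    exact htx ((isAlgebraic_algHom_iff W.toAlgHom W.injective).1 h)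
  have hx0 : x ≠ 0 := fun h => htx (h ▸ isAlgebraic_zero)
  have hy0 : y ≠ 0 := fun h => hty (h ▸ isAlgebraic_zero)
  obtain ⟨v0, a1, a2⟩ := exists_place_branch l (frC l)
    (fun a => by rw [frC_algebraMap]; exact HahnSeries.order_C) e1 e2 hx0 hy0 (Or.inr rfl)
  obtain ⟨vi, b1, b2⟩ := exists_place_branch l ((frC l).comp (W : FN l →+* FN l))
    (fun a => by
      show (frC l (W (algebraMap Kb (FN l) a))).order = 0
      rw [AlgEquiv.commutes, frC_algebraMap]; exact HahnSeries.order_C)
    (x := x) (y := y) (a := -1) (b := -(l : ℤ))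
    (by show (frC l (W x)).order = -1; rw [hWx, e2])
    (by show (frC l (W y)).order = -(l : ℤ); rw [hWy, e1]) hx0 hy0 (Or.inl rfl)
  have hne : v0 ≠ vi := by
    rintro rfl
    rw [a1] at b1
    omega
  have hdeg : finrank Kb⟮x⟯ (FN l) = l + 1 := by
    rw [hx, finrank_FN, card_XN]
    have := FAGenus.dedekindPsi_mul_of_not_dvd 1 l one_ne_zero Fact.out
      (fun h => by have := Nat.le_of_dvd one_pos h; omega)
    rw [one_mul, dedekindPsi_one] at this
    rw [this]
    ring
  have hdeg' : finrank Kb⟮y⟯ (FN l) = l + 1 := by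
    rw [hy, finrank_FN_top, ← hx, hdeg]
  have hl0 : (2 : ℤ) ≤ l := by exact_mod_cast hl
  have P1 := only_two_poles isFF_FN x htx v0 vi hne (by omega) (by omega)
    (by rw [hdeg, a1, b1]; push_cast; omega) v
  have P2 := only_two_poles isFF_FN y hty v0 vi hne (by omega) (by omega)
    (by rw [hdeg', a2, b2]; push_cast; omega) v
  by_cases h0 : v = v0
  · rw [h0, a1, a2]
    constructor
    · rw [max_eq_right (by omega)]; nlinarith
    · rw [max_eq_right (by omega)]; omega
  by_cases hi : v = vi
  · rw [hi, b1, b2]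
    constructor
    · rw [max_eq_right (by omega)]; omega
    · rw [max_eq_right (by omega)]; nlinarith
  have q1 : 0 ≤ v.ord x := by
    by_contra h
    rcases P1 (by omega) with h | h
    · exact h0 h
    · exact hi h
  have q2 : 0 ≤ v.ord y := by
    by_contra h
    rcases P2 (by omega) with h | h
    · exact h0 h
    · exact hi h
  rw [max_eq_left (by omega), max_eq_left (by omega)]
  constructor <;> omega

end LevelL

section LevelML

variable (M l : ℕ) [NeZero M] [NeZero l] [Fact l.Prime]

/-- `j` at level `M l`. -/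
noncomputable def jA : FN (M * l) := heckeAlphaBar Kb M l (xN M)

/-- `j_l` at level `M l`. -/
noncomputable def jB : FN (M * l) := heckeBetaBar Kb M l (xN M)

theorem jA_eq : jA M l = incl (dvd_mul_left l M) (xN l) := by
  apply Subtype.ext
  rw [jA, coe_heckeAlphaBar, St2.coe_incl, xN_val, xN_val]

theorem jB_eq : jB M l = incl (dvd_mul_left l M) (Jd l (dvd_refl l)) := by
  apply Subtype.ext
  rw [jB, coe_heckeBetaBar, St2.coe_incl, xN_val]
  show _ = coeffEmb Kb (qExpand ℚ l jq)
  rw [coeffEmb, ← coeffMap_qExpand]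

/-- **(U2) = (CS1)** -/
theorem level_bound (P : Place Kb (FN (M * l))) :
    -((l : ℤ) * max 0 (-(P.ord (jA M l)))) ≤ P.ord (jB M l) ∧
      -((l : ℤ) * max 0 (-(P.ord (jB M l)))) ≤ P.ord (jA M l) := by
  have : NeZero (M * l) := ⟨Nat.mul_ne_zero (NeZero.ne M) (NeZero.ne l)⟩
  obtain ⟨v, e, he, hv⟩ := exists_place_restrict (dvd_mul_left l M) P
  obtain ⟨h1, h2⟩ := levelL_bound l v
  rw [jA_eq, jB_eq, hv, hv]
  have hl : (0 : ℤ) ≤ l := Nat.cast_nonneg l
  have key : ∀ a : ℤ, max 0 (-(e * a)) = e * max 0 (-a) := by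
    intro a
    rcases le_total 0 (-a) with h | h
    · rw [max_eq_right h, max_eq_right (by nlinarith)]; ring
    · rw [max_eq_left h, max_eq_left (by nlinarith)]; ring
  rw [key, key]
  constructor <;> nlinarith

variable {M l}

theorem jB_mem_L {Dj : Divisor Kb (FN (M * l))} (hDj : ∀ v, Dj v = max 0 (-(v.ord (jA M l)))) :
    jB M l ∈ riemannRochSpace (l • Dj) := by
  rw [mem_riemannRochSpace_iff]
  intro v
  right
  rw [Finsupp.smul_apply, hDj, nsmul_eq_mul]
  have := (level_bound M l v).1
  linarith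

theorem jA_mem_L {Djw : Divisor Kb (FN (M * l))} (hDjw : ∀ v, Djw v = max 0 (-(v.ord (jB M l)))) :
    jA M l ∈ riemannRochSpace (l • Djw) := by
  rw [mem_riemannRochSpace_iff]
  intro v
  right
  rw [Finsupp.smul_apply, hDjw, nsmul_eq_mul]
  have := (level_bound M l v).2
  linarith

end LevelML

end FAN
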