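import Fermat.Agent.Nodal.Twist

/-!
# PROJECT N, (III): interface.  Geometry of the nodal reduction and residue discs of smooth points.
-/

set_option autoImplicit false

open AlgebraicCurve Module FA18 FA18.G4

namespace FAN

variable {K F k E : Type*} [Field K] [Field F] [Algebra K F] [Field k] [Field E] [Algebra k E]

/-- `a` is regular at `Q` with value `c`. -/
def ValAt (Q : Place k E) (a : E) (c : k) : Prop :=
  a = algebraMap k E c ∨ 0 < Q.ord (a - algebraMap k E c)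

/-- `TwistData` together with the geometric meaning of its `E`-side. -/
structure NodalGeom (A : ValuationSubring K) (π : A →+* k) (O1 O2 : ValuationSubring F)
    (ρ1 : O1 →+* E) (ρ2 : O2 →+* E) (D : Divisor K F) (gF cF gb cb : ℤ)
    extends TwistData A π O1 O2 ρ1 ρ2 D where
  HF : RFacts K F gF cF
  Hb : RFacts k E gb cb
  C1 : Divisor k E
  C2 : Divisor k E
  hC1 : 0 ≤ C1
  hC2 : 0 ≤ C2
  hXL : ∀ n : ℕ, X n = riemannRochSpace (n • C1)
  hYL : ∀ n : ℕ, Y n = riemannRochSpace (n • C2)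
  hdeg : Divisor.degree C1 + Divisor.degree C2 = Divisor.degree D
  hdeg1 : 0 < Divisor.degree C1
  hdeg2 : 0 < Divisor.degree C2
  Qn : Fin s → Place k E
  Qn' : Fin s → Place k E
  hQn : ∀ i, C1 (Qn i) = 0
  hQn' : ∀ i, C2 (Qn' i) = 0
  hev : ∀ (i : Fin s) (a : OE), ValAt (Qn i) (a : E) (ev i a)
  hev' : ∀ (i : Fin s) (a : OE), ValAt (Qn' i) (a : E) (ev' i a)

/-- `Δ` is the residue disc of the smooth point `Q` of the FIRST component (for a point of the
second component swap `(O1, ρ1, C1)` and `(O2, ρ2, C2)`). -/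
structure IsDisc (A : ValuationSubring K) (π : A →+* k) (O1 O2 : ValuationSubring F)
    (ρ1 : O1 →+* E) (ρ2 : O2 →+* E) (D : Divisor K F) (C1 C2 : Divisor k E)
    (Q : Place k E) (Δ : Set (Place K F)) : Prop where
  /-- a function integral for both norms without pole on the disc has a reduction regular at `Q` -/
  reg : ∀ (x : F) (a b : E), Rd O1 ρ1 x a → Rd O2 ρ2 x b → (∀ P ∈ Δ, 0 ≤ P.ord x) → 0 ≤ Q.ord a
  /-- a parameter of the disc, with poles exactly `n D` resp. `(n C1, n C2)` -/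
  param : ∃ (t : F) (t1 t2 : E) (c0 : k) (n : ℕ), t ∈ riemannRochSpace (n • D) ∧
    Rd O1 ρ1 t t1 ∧ Rd O2 ρ2 t t2 ∧ Q.ord (t1 - algebraMap k E c0) = 1 ∧
    t2 - algebraMap k E c0 ≠ 0 ∧
    (∀ Q' : Place k E, C1 Q' ≠ 0 → Q'.ord t1 = -(n * C1 Q')) ∧
    (∀ Q' : Place k E, C2 Q' ≠ 0 → Q'.ord t2 = -(n * C2 Q')) ∧
    (∀ P ∈ Δ, ∃ c : A, π c = c0 ∧ 0 < P.ord (t - algebraMap K F c)) ∧
    (∀ c : A, π c = c0 → ∃ P ∈ Δ, P.ord (t - algebraMap K F c) = 1 ∧
      ∀ P' ∈ Δ, P' ≠ P → P'.ord (t - algebraMap K F c) = 0)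
  /-- no cusp on the disc -/
  noCusp : ∀ P ∈ Δ, D P = 0

end FAN
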