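import Fermat.Agent.Nodal.Disc
import Fermat.Agent.Red.G4Glue

/-!
# PROJECT N, (III)(B): local analysis on the residue disc of a smooth point of the nodal reduction
-/

set_option autoImplicit false

open AlgebraicCurve Module FA18 FA18.G4

namespace FAN

variable {K F k E : Type*} [Field K] [Field F] [Algebra K F] [Field k] [Field E] [Algebra k E]
variable {A : ValuationSubring K} {π : A →+* k} {O1 O2 : ValuationSubring F}
  {ρ1 : O1 →+* E} {ρ2 : O2 →+* E} {D : Divisor K F} {C1 C2 : Divisor k E} {Q : Place k E}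
  {Δ : Set (Place K F)}

theorem Rd_zpow {O : ValuationSubring F} {ρ : O →+* E} (hρ : Function.Surjective ρ) {x : F}
    {a : E} (h : Rd O ρ x a) (ha : a ≠ 0) (n : ℤ) : Rd O ρ (x ^ n) (a ^ n) := by
  cases n with
  | ofNat n => simpa using h.pow n
  | negSucc n =>
    rw [zpow_negSucc, zpow_negSucc]
    exact (h.pow (n + 1)).inv hρ (pow_ne_zero _ ha)

/-- the usable part of `IsDisc.param`. -/
theorem IsDisc.exists_param (hB1 : GBase A π O1 ρ1) (hB2 : GBase A π O2 ρ2)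
    (hd : IsDisc A π O1 O2 ρ1 ρ2 D C1 C2 Q Δ) :
    ∃ (t : F) (s1 s2 : E), Q.ord s1 = 1 ∧ s1 ≠ 0 ∧ s2 ≠ 0 ∧ Δ.Nonempty ∧
      ∀ P ∈ Δ, ∃ c : K, Rd O1 ρ1 (t - algebraMap K F c) s1 ∧
        Rd O2 ρ2 (t - algebraMap K F c) s2 ∧ P.ord (t - algebraMap K F c) = 1 ∧
        ∀ P' ∈ Δ, P' ≠ P → P'.ord (t - algebraMap K F c) = 0 := by
  obtain ⟨t, t1, t2, c0, n, -, ht1, ht2, hQ, h2, -, -, hz, hu⟩ := hd.param
  refine ⟨t, t1 - algebraMap k E c0, t2 - algebraMap k E c0, hQ, ?_, h2, ?_, ?_⟩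
  · intro h0
    rw [h0, Place.ord_zero] at hQ
    exact zero_ne_one hQ
  · obtain ⟨c, hc⟩ := hB1.surjπ c0
    obtain ⟨P, hP, -⟩ := hu c hc
    exact ⟨P, hP⟩
  · intro P hP
    obtain ⟨c, hc, hpos⟩ := hz P hP
    obtain ⟨P', hP', h1, h0⟩ := hu c hc
    have hPP : P = P' := by
      by_contra hne
      rw [h0 P hP hne] at hpos
      exact lt_irrefl _ hpos
    subst hPP
    refine ⟨c, ?_, ?_, h1, h0⟩
    · have := ht1.sub (hB1.const c)
      rwa [hc] at this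
    · have := ht2.sub (hB2.const c)
      rwa [hc] at this

/-- **(B1)** -/
theorem IsDisc.nonempty (hB1 : GBase A π O1 ρ1) (hB2 : GBase A π O2 ρ2)
    (hd : IsDisc A π O1 O2 ρ1 ρ2 D C1 C2 Q Δ) : Δ.Nonempty := by
  obtain ⟨-, -, -, -, -, -, h, -⟩ := hd.exists_param hB1 hB2
  exact h

open Classical in
/-- functions with prescribed divisor on the disc, units for both norms. -/
theorem IsDisc.exists_prod (hB1 : GBase A π O1 ρ1) (hB2 : GBase A π O2 ρ2)
    (hd : IsDisc A π O1 O2 ρ1 ρ2 D C1 C2 Q Δ) :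
    ∃ (s1 s2 : E), Q.ord s1 = 1 ∧ s1 ≠ 0 ∧ s2 ≠ 0 ∧
      ∀ (S : Finset (Place K F)) (n : Place K F → ℤ), (∀ P ∈ S, P ∈ Δ) →
      ∃ τ : F, Rd O1 ρ1 τ (s1 ^ (∑ P ∈ S, n P)) ∧ Rd O2 ρ2 τ (s2 ^ (∑ P ∈ S, n P)) ∧
        ∀ P ∈ Δ, P.ord τ = if P ∈ S then n P else 0 := by
  obtain ⟨t, s1, s2, hQ, hs1, hs2, -, hz⟩ := hd.exists_param hB1 hB2
  refine ⟨s1, s2, hQ, hs1, hs2, fun S n => ?_⟩
  induction S using Finset.induction_on with
  | empty =>
    intro _
    exact ⟨1, by simpa using Rd.one, by simpa using Rd.one, fun P _ => by simp⟩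
  | insert P0 S hP0 ih =>
    intro hS
    obtain ⟨τ, h1, h2, h3⟩ := ih fun P hP => hS P (Finset.mem_insert_of_mem hP)
    obtain ⟨c, hc1, hc2, hc3, hc4⟩ := hz P0 (hS P0 (Finset.mem_insert_self _ _))
    have hz0 : t - algebraMap K F c ≠ 0 := hc1.ne_zero hs1
    have hτ0 : τ ≠ 0 := h1.ne_zero (zpow_ne_zero _ hs1)
    refine ⟨(t - algebraMap K F c) ^ (n P0) * τ, ?_, ?_, fun P hP => ?_⟩
    · rw [Finset.sum_insert hP0, zpow_add₀ hs1]
      exact (Rd_zpow hB1.surj hc1 hs1 _).mul h1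
    · rw [Finset.sum_insert hP0, zpow_add₀ hs2]
      exact (Rd_zpow hB2.surj hc2 hs2 _).mul h2
    · rw [P.ord_mul (zpow_ne_zero _ hz0) hτ0, P.ord_zpow, h3 P hP]
      by_cases hPP : P = P0
      · subst hPP
        rw [hc3, if_neg hP0, if_pos (Finset.mem_insert_self _ _)]
        ring
      · rw [hc4 P hP hPP]
        by_cases hPS : P ∈ S
        · rw [if_pos hPS, if_pos (Finset.mem_insert_of_mem hPS)]
          ring
        · rw [if_neg hPS, if_neg (by simp [hPP, hPS])]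
          ring

open Classical in
/-- **(B2)** (R1) on the disc, for units of both norms. -/
theorem IsDisc.R1 (hB1 : GBase A π O1 ρ1) (hB2 : GBase A π O2 ρ2)
    (hd : IsDisc A π O1 O2 ρ1 ρ2 D C1 C2 Q Δ) {x : F} {a b : E} (hx1 : Rd O1 ρ1 x a)
    (hx2 : Rd O2 ρ2 x b) (ha : a ≠ 0) (hb : b ≠ 0) (Dx : Divisor K F)
    (hDx : ∀ P, Dx P = P.ord x) :
    ∑ P ∈ Dx.support.filter (· ∈ Δ), Dx P = Q.ord a := by
  obtain ⟨s1, s2, hQ, hs1, hs2, H⟩ := hd.exists_prod hB1 hB2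
  obtain ⟨τ, h1, h2, h3⟩ := H (Dx.support.filter (· ∈ Δ)) Dx
    (fun P hP => (Finset.mem_filter.1 hP).2)
  set n : ℤ := ∑ P ∈ Dx.support.filter (· ∈ Δ), Dx P with hn
  have hx0 : x ≠ 0 := hx1.ne_zero ha
  have hτ0 : τ ≠ 0 := h1.ne_zero (zpow_ne_zero _ hs1)
  have hord : ∀ P ∈ Δ, P.ord τ = P.ord x := by
    intro P hP
    rw [h3 P hP, ← hDx]
    split_ifs with h
    · rfl
    · by_contra hne
      exact h (Finset.mem_filter.2 ⟨Finsupp.mem_support_iff.2 (Ne.symm hne), hP⟩)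
  have e1 := hd.reg (x * τ⁻¹) _ _ (hx1.mul (h1.inv hB1.surj (zpow_ne_zero _ hs1)))
    (hx2.mul (h2.inv hB2.surj (zpow_ne_zero _ hs2))) (fun P hP => by
      rw [P.ord_mul hx0 (inv_ne_zero hτ0), P.ord_inv, hord P hP]
      simp)
  have e2 := hd.reg (τ * x⁻¹) _ _ (h1.mul (hx1.inv hB1.surj ha))
    (h2.mul (hx2.inv hB2.surj hb)) (fun P hP => by
      rw [P.ord_mul hτ0 (inv_ne_zero hx0), P.ord_inv, hord P hP]
      simp)
  rw [Q.ord_mul ha (inv_ne_zero (zpow_ne_zero _ hs1)), Q.ord_inv, Q.ord_zpow, hQ] at e1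
  rw [Q.ord_mul (zpow_ne_zero _ hs1) (inv_ne_zero ha), Q.ord_inv, Q.ord_zpow, hQ] at e2
  omega

/-- **(B3)** a zero on the disc gives a zero of the reduction. -/
theorem IsDisc.pos_ord (hB1 : GBase A π O1 ρ1) (hB2 : GBase A π O2 ρ2)
    (hd : IsDisc A π O1 O2 ρ1 ρ2 D C1 C2 Q Δ) {x : F} {a b : E} (hx1 : Rd O1 ρ1 x a)
    (hx2 : Rd O2 ρ2 x b) (hreg : ∀ P ∈ Δ, 0 ≤ P.ord x) {P : Place K F} (hP : P ∈ Δ)
    (hpos : 0 < P.ord x) : a = 0 ∨ 0 < Q.ord a := by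
  obtain ⟨t, s1, s2, hQ, hs1, hs2, -, hz⟩ := hd.exists_param hB1 hB2
  obtain ⟨c, hc1, hc2, hc3, hc4⟩ := hz P hP
  by_cases ha : a = 0
  · exact Or.inl ha
  right
  have hx0 : x ≠ 0 := hx1.ne_zero ha
  have hz0 : t - algebraMap K F c ≠ 0 := hc1.ne_zero hs1
  have e1 := hd.reg (x * (t - algebraMap K F c)⁻¹) _ _ (hx1.mul (hc1.inv hB1.surj hs1))
    (hx2.mul (hc2.inv hB2.surj hs2)) (fun P' hP' => by
      rw [P'.ord_mul hx0 (inv_ne_zero hz0), P'.ord_inv]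
      by_cases hPP : P' = P
      · subst hPP
        rw [hc3]
        omega
      · rw [hc4 P' hP' hPP]
        have := hreg P' hP'
        omega)
  rw [Q.ord_mul ha (inv_ne_zero hs1), Q.ord_inv, hQ] at e1
  omega

/-- **(B3')** at most a simple pole on the disc gives at most a simple pole of the reduction. -/
theorem IsDisc.neg_one_le_ord (hB1 : GBase A π O1 ρ1) (hB2 : GBase A π O2 ρ2)
    (hd : IsDisc A π O1 O2 ρ1 ρ2 D C1 C2 Q Δ) {x : F} {a b : E} (hx1 : Rd O1 ρ1 x a)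
    (hx2 : Rd O2 ρ2 x b) {P0 : Place K F} (hP0 : P0 ∈ Δ) (h0 : -1 ≤ P0.ord x)
    (hreg : ∀ P ∈ Δ, P ≠ P0 → 0 ≤ P.ord x) : -1 ≤ Q.ord a := by
  obtain ⟨t, s1, s2, hQ, hs1, hs2, -, hz⟩ := hd.exists_param hB1 hB2
  obtain ⟨c, hc1, hc2, hc3, hc4⟩ := hz P0 hP0
  by_cases ha : a = 0
  · rw [ha, Place.ord_zero]
    norm_num
  have hx0 : x ≠ 0 := hx1.ne_zero ha
  have hz0 : t - algebraMap K F c ≠ 0 := hc1.ne_zero hs1
  have e1 := hd.reg (x * (t - algebraMap K F c)) _ _ (hx1.mul hc1) (hx2.mul hc2)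
    (fun P' hP' => by
      rw [P'.ord_mul hx0 hz0]
      by_cases hPP : P' = P0
      · subst hPP
        rw [hc3]
        omega
      · rw [hc4 P' hP' hPP]
        have := hreg P' hP' hPP
        omega)
  rw [Q.ord_mul ha hs1, hQ] at e1
  omega

/-- **(B4)** values on the disc of a function whose reduction vanishes at `Q` are small. -/
theorem IsDisc.small (hB1 : GBase A π O1 ρ1) (hB2 : GBase A π O2 ρ2) (hres : HasValues K F)
    (hd : IsDisc A π O1 O2 ρ1 ρ2 D C1 C2 Q Δ) {x : F} {a b : E} (hx1 : Rd O1 ρ1 x a)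
    (hx2 : Rd O2 ρ2 x b) (hreg : ∀ P ∈ Δ, 0 ≤ P.ord x) (ha : a = 0 ∨ 0 < Q.ord a)
    {P : Place K F} (hP : P ∈ Δ) :
    ∃ c : K, Rd O1 ρ1 (algebraMap K F c) 0 ∧
      (x = algebraMap K F c ∨ 0 < P.ord (x - algebraMap K F c)) := by
  obtain ⟨c, hc⟩ := hres P x (hreg P hP)
  refine ⟨c, ?_, hc⟩
  have hnp : ∀ P' ∈ Δ, 0 ≤ P'.ord (x - algebraMap K F c) := fun P' hP' =>
    le_ord_sub_const P' le_rfl c (hreg P' hP')
  have hcA : c ∈ A := by
    by_contra hcA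
    have hc0 : c ≠ 0 := fun h => hcA (h ▸ A.zero_mem)
    rcases hc with hc | hc
    · exact hcA (hB1.inter c (hc ▸ hx1.mem))
    have hcF : algebraMap K F c ≠ 0 := by simpa using hc0
    have h1 : Rd O1 ρ1 (algebraMap K F c⁻¹ * (x - algebraMap K F c)) (-1) := by
      refine (((hB1.const_inv_of_notMem hcA).mul hx1).sub Rd.one).congr ?_ (by simp)
      rw [map_inv₀]
      field_simp
    have h2 : Rd O2 ρ2 (algebraMap K F c⁻¹ * (x - algebraMap K F c)) (-1) := by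
      refine (((hB2.const_inv_of_notMem hcA).mul hx2).sub Rd.one).congr ?_ (by simp)
      rw [map_inv₀]
      field_simp
    have h3 := hd.pos_ord hB1 hB2 h1 h2 (fun P' hP' => by
      rw [ord_const_mul P' (inv_ne_zero hc0)]; exact hnp P' hP') hP
      (by rw [ord_const_mul P (inv_ne_zero hc0)]; exact hc)
    rcases h3 with h3 | h3
    · simp at h3
    · rw [FAFF.ord_neg, Place.ord_one] at h3
      exact lt_irrefl _ h3
  have h0 : π ⟨c, hcA⟩ = 0 := by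
    by_contra hne
    have hneE : algebraMap k E (π ⟨c, hcA⟩) ≠ 0 := by simpa using hne
    have key : a - algebraMap k E (π ⟨c, hcA⟩) = 0 ∨
        0 < Q.ord (a - algebraMap k E (π ⟨c, hcA⟩)) := by
      rcases hc with hc | hc
      · left
        rw [sub_eq_zero]
        exact (hc ▸ hx1).unique (hB1.const' hcA)
      · exact hd.pos_ord hB1 hB2 (hx1.sub (hB1.const' hcA)) (hx2.sub (hB2.const' hcA)) hnp hP hc
    rcases ha with ha | ha
    · rw [ha, zero_sub] at key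
      rcases key with key | key
      · exact hneE (neg_eq_zero.1 key)
      · rw [FAFF.ord_neg, FAFF.ord_algebraMap] at key
        exact lt_irrefl _ key
    · rcases key with key | key
      · rw [sub_eq_zero.1 key, FAFF.ord_algebraMap] at ha
        exact lt_irrefl _ ha
      · have ha0 : a ≠ 0 := by
          rintro rfl
          simp at ha
        have h5 : Q.ord (algebraMap k E (π ⟨c, hcA⟩)) = 0 := FAFF.ord_algebraMap _ _
        have h6 : algebraMap k E (π ⟨c, hcA⟩) = a + -(a - algebraMap k E (π ⟨c, hcA⟩)) := by ring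
        have hd0 : a - algebraMap k E (π ⟨c, hcA⟩) ≠ 0 := by
          intro h
          rw [h, Place.ord_zero] at key
          exact lt_irrefl _ key
        have h7 := FAFF.min_ord_le_ord_add Q ha0 (neg_ne_zero.2 hd0) (by rw [← h6]; exact hneE)
        rw [← h6, h5, FAFF.ord_neg] at h7
        have := lt_min ha key
        omega
  have := hB1.const' hcA
  rwa [h0, map_zero] at this

/-- scaling for the sup norm. -/
theorem exists_scale2 (hB1 : GBase A π O1 ρ1) (hB2 : GBase A π O2 ρ2) {x : F} (hx : x ≠ 0) :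
    ∃ c : K, c ≠ 0 ∧ ∃ a b : E, Rd O1 ρ1 (algebraMap K F c * x) a ∧
      Rd O2 ρ2 (algebraMap K F c * x) b ∧ (a ≠ 0 ∨ b ≠ 0) := by
  obtain ⟨c1, hc1, a1, ha1, h1⟩ := hB1.scale x hx
  obtain ⟨c2, hc2, b2, hb2, h2⟩ := hB2.scale x hx
  rcases A.mem_or_inv_mem (c1 / c2) with h | h
  · refine ⟨c1, hc1, a1, algebraMap k E (π ⟨c1 / c2, h⟩) * b2, h1, ?_, Or.inl ha1⟩
    refine ((hB2.const' h).mul h2).congr ?_ rfl
    rw [← mul_assoc, ← map_mul, div_mul_cancel₀ _ hc2]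
  · rw [inv_div] at h
    refine ⟨c2, hc2, algebraMap k E (π ⟨c2 / c1, h⟩) * a1, b2, ?_, h2, Or.inr hb2⟩
    refine ((hB1.const' h).mul h1).congr ?_ rfl
    rw [← mul_assoc, ← map_mul, div_mul_cancel₀ _ hc1]

/-- ultrametric lemma for the sup norm, asymmetric form. -/
theorem mem_of_indep2_aux (hB1 : GBase A π O1 ρ1) (hB2 : GBase A π O2 ρ2) {H G : F}
    {H1 H2 G1 G2 φ1 φ2 : E} (hH1 : Rd O1 ρ1 H H1) (hH2 : Rd O2 ρ2 H H2) (hG1 : Rd O1 ρ1 G G1)
    (hG2 : Rd O2 ρ2 G G2)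
    (hind : ∀ d : k, H1 + algebraMap k E d * G1 ≠ 0 ∨ H2 + algebraMap k E d * G2 ≠ 0)
    {α β : K} (hαβ : A.valuation β ≤ A.valuation α)
    (hφ1 : Rd O1 ρ1 (algebraMap K F α * H + algebraMap K F β * G) φ1)
    (hφ2 : Rd O2 ρ2 (algebraMap K F α * H + algebraMap K F β * G) φ2) : α ∈ A := by
  by_contra hα
  have hα0 : α ≠ 0 := fun h => hα (h ▸ A.zero_mem)
  have h1 : β * α⁻¹ ∈ A := by
    rw [← A.valuation_le_one_iff, map_mul, map_inv₀]
    have hv : A.valuation α ≠ 0 := (Valuation.ne_zero_iff _).2 hα0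
    calc A.valuation β * (A.valuation α)⁻¹ ≤ A.valuation α * (A.valuation α)⁻¹ :=
          mul_le_mul_left hαβ _
      _ = 1 := mul_inv_cancel₀ hv
  have h4 : algebraMap K F α⁻¹ * (algebraMap K F α * H + algebraMap K F β * G)
      = H + algebraMap K F (β * α⁻¹) * G := by
    have : algebraMap K F α ≠ 0 := by simpa using hα0
    rw [map_mul, map_inv₀]
    field_simp
  have e1 := ((hB1.const_inv_of_notMem hα).mul hφ1)
  have e2 := ((hB2.const_inv_of_notMem hα).mul hφ2)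
  rw [h4] at e1 e2
  have f1 := e1.unique (hH1.add ((hB1.const' h1).mul hG1))
  have f2 := e2.unique (hH2.add ((hB2.const' h1).mul hG2))
  rw [zero_mul] at f1 f2
  rcases hind (π ⟨β * α⁻¹, h1⟩) with h | h
  · exact h f1.symm
  · exact h f2.symm

/-- ultrametric lemma for the sup norm. -/
theorem mem_of_indep2 (hB1 : GBase A π O1 ρ1) (hB2 : GBase A π O2 ρ2) {H G : F}
    {H1 H2 G1 G2 φ1 φ2 : E} (hH1 : Rd O1 ρ1 H H1) (hH2 : Rd O2 ρ2 H H2) (hG1 : Rd O1 ρ1 G G1)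
    (hG2 : Rd O2 ρ2 G G2)
    (hind : ∀ d : k, H1 + algebraMap k E d * G1 ≠ 0 ∨ H2 + algebraMap k E d * G2 ≠ 0)
    (hind' : ∀ d : k, G1 + algebraMap k E d * H1 ≠ 0 ∨ G2 + algebraMap k E d * H2 ≠ 0)
    {α β : K}
    (hφ1 : Rd O1 ρ1 (algebraMap K F α * H + algebraMap K F β * G) φ1)
    (hφ2 : Rd O2 ρ2 (algebraMap K F α * H + algebraMap K F β * G) φ2) :
    ∃ (hα : α ∈ A) (hβ : β ∈ A),
      φ1 = algebraMap k E (π ⟨α, hα⟩) * H1 + algebraMap k E (π ⟨β, hβ⟩) * G1 ∧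
      φ2 = algebraMap k E (π ⟨α, hα⟩) * H2 + algebraMap k E (π ⟨β, hβ⟩) * G2 := by
  have key : α ∈ A ∧ β ∈ A := by
    rcases le_total (A.valuation β) (A.valuation α) with h | h
    · have hα := mem_of_indep2_aux hB1 hB2 hH1 hH2 hG1 hG2 hind h hφ1 hφ2
      refine ⟨hα, ?_⟩
      rw [← A.valuation_le_one_iff] at hα ⊢
      exact h.trans hα
    · rw [add_comm] at hφ1 hφ2
      have hβ := mem_of_indep2_aux hB1 hB2 hG1 hG2 hH1 hH2 hind' h hφ1 hφ2
      refine ⟨?_, hβ⟩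
      rw [← A.valuation_le_one_iff] at hβ ⊢
      exact h.trans hβ
  refine ⟨key.1, key.2, ?_, ?_⟩
  · exact hφ1.unique (((hB1.const' key.1).mul hH1).add ((hB1.const' key.2).mul hG1))
  · exact hφ2.unique (((hB2.const' key.1).mul hH2).add ((hB2.const' key.2).mul hG2))

/-- **(B5)** the CLAIM, on the disc of a smooth point of the nodal reduction. -/
theorem IsDisc.claim (hB1 : GBase A π O1 ρ1) (hB2 : GBase A π O2 ρ2)
    (hd : IsDisc A π O1 O2 ρ1 ρ2 D C1 C2 Q Δ) (m : ℕ) (hm : (m : k) ≠ 0)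
    {f' : F} (hf1 : Rd O1 ρ1 f' 1) (hf2 : Rd O2 ρ2 f' 1) {ct c0 : K} (hc0 : c0 ≠ 0)
    {φ1 φ2 : E}
    (hφ1 : Rd O1 ρ1 (algebraMap K F c0 * (f' - algebraMap K F ct)) φ1)
    (hφ2 : Rd O2 ρ2 (algebraMap K F c0 * (f' - algebraMap K F ct)) φ2)
    {P0 P1 : Place K F} (hP0 : P0 ∈ Δ) (hP1 : P1 ∈ Δ)
    (hord : ∀ P ∈ Δ,
      P.ord f' = m * (Finsupp.single P1 (1 : ℤ) - Finsupp.single P0 1 : Divisor K F) P) :
    -1 ≤ Q.ord φ1 := by
  classical
  by_cases hne : P1 = P0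
  · subst hne
    have : 0 ≤ Q.ord φ1 := by
      refine hd.reg _ _ _ hφ1 hφ2 fun P hP => ?_
      rw [ord_const_mul P hc0]
      refine le_ord_sub_const P le_rfl ct ?_
      rw [hord P hP]
      simp
    omega
  obtain ⟨t, s1, s2, hQ, hs1, hs2, -, hz⟩ := hd.exists_param hB1 hB2
  obtain ⟨e0, h01, h02, h03, h04⟩ := hz P0 hP0
  obtain ⟨e1, h11, h12, h13, h14⟩ := hz P1 hP1
  set z0 : F := t - algebraMap K F e0 with hz0def
  set z1 : F := t - algebraMap K F e1 with hz1def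
  have hz0 : z0 ≠ 0 := h01.ne_zero hs1
  have hz1 : z1 ≠ 0 := h11.ne_zero hs1
  set a : K := e0 - e1 with hadef
  have hza : z1 = z0 + algebraMap K F a := by
    rw [hz0def, hz1def, hadef, map_sub]
    ring
  have ha1 : Rd O1 ρ1 (algebraMap K F a) 0 :=
    (h11.sub h01).congr (by rw [hza]; ring) (sub_self _)
  have ha2 : Rd O2 ρ2 (algebraMap K F a) 0 :=
    (h12.sub h02).congr (by rw [hza]; ring) (sub_self _)
  set S : F := z0⁻¹ with hSdef
  have hS1 : Rd O1 ρ1 S s1⁻¹ := h01.inv hB1.surj hs1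
  have hS2 : Rd O2 ρ2 S s2⁻¹ := h02.inv hB2.surj hs2
  set T : F := 1 + algebraMap K F a * S with hTdef
  have hTz : T = z1 * z0⁻¹ := by
    rw [hTdef, hSdef, hza]
    field_simp
  have hT1 : Rd O1 ρ1 T 1 := (Rd.one.add (ha1.mul hS1)).congr rfl (by simp)
  have hT2 : Rd O2 ρ2 T 1 := (Rd.one.add (ha2.mul hS2)).congr rfl (by simp)
  have hT0 : T ≠ 0 := hT1.ne_zero one_ne_zero
  have hTord : ∀ P ∈ Δ,
      P.ord T = (Finsupp.single P1 (1 : ℤ) - Finsupp.single P0 1 : Divisor K F) P := by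
    intro P hP
    rw [hTz, P.ord_mul hz1 (inv_ne_zero hz0), P.ord_inv, Finsupp.sub_apply, Finsupp.single_apply,
      Finsupp.single_apply]
    by_cases h1 : P1 = P
    · subst h1
      rw [if_pos rfl, if_neg (Ne.symm hne), h13, h04 P1 hP hne]
      ring
    · rw [if_neg h1, h14 P hP (Ne.symm h1)]
      by_cases h0 : P0 = P
      · subst h0
        rw [if_pos rfl, h03]
        ring
      · rw [if_neg h0, h04 P hP (Ne.symm h0)]
        ring
  have hf0 : f' ≠ 0 := hf1.ne_zero one_ne_zero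
  set Fi : F := f' * (T ^ m)⁻¹ with hFidef
  have hFi1 : Rd O1 ρ1 Fi 1 :=
    (hf1.mul ((hT1.pow m).inv hB1.surj (by simp))).congr rfl (by simp)
  have hFi2 : Rd O2 ρ2 Fi 1 :=
    (hf2.mul ((hT2.pow m).inv hB2.surj (by simp))).congr rfl (by simp)
  have hFiord : ∀ P ∈ Δ, P.ord Fi = 0 := by
    intro P hP
    rw [hFidef, P.ord_mul hf0 (inv_ne_zero (pow_ne_zero m hT0)), P.ord_inv, ord_pow, hTord P hP,
      hord P hP]
    ring
  set H0 : F := S * ∑ j ∈ Finset.range m, T ^ j with hH0def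
  have hH01 : Rd O1 ρ1 H0 (algebraMap k E (m : k) * s1⁻¹) := by
    refine (hS1.mul (Rd.sum (Finset.range m) (fun j => T ^ j) (fun j => (1 : E) ^ j)
      (fun j _ => hT1.pow j))).congr rfl ?_
    simp [mul_comm]
  have hH02 : Rd O2 ρ2 H0 (algebraMap k E (m : k) * s2⁻¹) := by
    refine (hS2.mul (Rd.sum (Finset.range m) (fun j => T ^ j) (fun j => (1 : E) ^ j)
      (fun j _ => hT2.pow j))).congr rfl ?_
    simp [mul_comm]
  have hgeom : T ^ m - 1 = algebraMap K F a * H0 := by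
    rw [← mul_geom_sum T m, hH0def, hTdef]
    ring
  have hH1 : Rd O1 ρ1 (Fi * H0) (algebraMap k E (m : k) * s1⁻¹) :=
    (hFi1.mul hH01).congr rfl (by simp)
  have hH2 : Rd O2 ρ2 (Fi * H0) (algebraMap k E (m : k) * s2⁻¹) :=
    (hFi2.mul hH02).congr rfl (by simp)
  have hHord : Q.ord (algebraMap k E (m : k) * s1⁻¹) = -1 := by
    rw [ord_const_mul _ hm, Q.ord_inv, hQ]
  have hdecomp : f' - algebraMap K F ct
      = algebraMap K F a * (Fi * H0) + (Fi - algebraMap K F ct) := by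
    have h1 : f' = Fi * T ^ m := by
      rw [hFidef, mul_assoc, inv_mul_cancel₀ (pow_ne_zero m hT0), mul_one]
    have h2 : algebraMap K F a * (Fi * H0) = Fi * (T ^ m - 1) := by rw [hgeom]; ring
    rw [h2]
    conv_lhs => rw [h1]
    ring
  obtain ⟨G, g1, g2, β, hG1, hG2, hg, hgord, hG⟩ : ∃ (G : F) (g1 g2 : E) (β : K),
      Rd O1 ρ1 G g1 ∧ Rd O2 ρ2 G g2 ∧ (g1 ≠ 0 ∨ g2 ≠ 0) ∧ 0 ≤ Q.ord g1 ∧
      Fi - algebraMap K F ct = algebraMap K F β * G := by
    by_cases hG0 : Fi - algebraMap K F ct = 0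
    · exact ⟨1, 1, 1, 0, Rd.one, Rd.one, Or.inl one_ne_zero, by simp, by simp [hG0]⟩
    · obtain ⟨c, hc, g1, g2, hG1, hG2, hg⟩ := exists_scale2 hB1 hB2 hG0
      refine ⟨_, g1, g2, c⁻¹, hG1, hG2, hg, ?_, ?_⟩
      · refine hd.reg _ _ _ hG1 hG2 fun P hP => ?_
        rw [ord_const_mul P hc]
        exact le_ord_sub_const P le_rfl ct (hFiord P hP).ge
      · have : algebraMap K F c ≠ 0 := by simpa using hc
        rw [map_inv₀]
        field_simp
  have hrw : algebraMap K F c0 * (f' - algebraMap K F ct) =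
      algebraMap K F (c0 * a) * (Fi * H0) + algebraMap K F (c0 * β) * G := by
    rw [hdecomp, hG, map_mul, map_mul]
    ring
  rw [hrw] at hφ1 hφ2
  obtain ⟨hα, hβ, hφb, -⟩ := mem_of_indep2 hB1 hB2 hH1 hH2 hG1 hG2
    (fun d => Or.inl (add_ne_zero_of_ord Q (by rw [hHord]; norm_num)
      (le_ord_const_mul _ le_rfl d hgord)))
    (fun d => by
      rcases eq_or_ne d 0 with rfl | hd0
      · simpa using hg
      · left
        rw [add_comm]
        refine add_ne_zero_of_ord Q ?_ hgord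
        rw [ord_const_mul _ hd0, hHord]
        norm_num) hφ1 hφ2
  rw [hφb]
  refine le_ord_add _ (by norm_num) (le_ord_const_mul _ (by norm_num) _ hHord.ge)
    (le_ord_const_mul _ (by norm_num) _ (by omega))

end FAN
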