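import Fermat.Agent.Red.DeuringA

/-!
# PROJECT N, (U3)(a): `y • L(G) + L(G + H - T) = L(G + H)`.
-/

set_option autoImplicit false

open AlgebraicCurve Module FA18

namespace FAN

variable {k E : Type*} [Field k] [Field E] [Algebra k E]

/-- **(U3)(a)**: leading terms at the points of `T` are realised by `y • L(G)`. -/
theorem exists_lead {gb cb : ℤ} (Hb : RFacts k E gb cb) {G H T : Divisor k E} {y : E}
    (hy0 : y ≠ 0) (hT : 0 ≤ T) (hyH : y ∈ riemannRochSpace H)
    (hex : ∀ P : Place k E, T P ≠ 0 → P.ord y = -H P)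
    (hdeg : cb ≤ Divisor.degree (G - T)) (hdeg' : cb ≤ Divisor.degree (G + H))
    {z : E} (hz : z ∈ riemannRochSpace (G + H)) :
    ∃ x ∈ riemannRochSpace G, z - y * x ∈ riemannRochSpace (G + H - T) := by
  have := Hb.finDim
  set μ : E →ₗ[k] E := LinearMap.mulLeft k y with hμ
  have hinj : Function.Injective μ := fun a b h => mul_left_cancel₀ hy0 h
  set U : Submodule k E := (riemannRochSpace G).map μ with hU
  set V : Submodule k E := riemannRochSpace (G + H - T) with hV
  have hUle : U ≤ riemannRochSpace (G + H) := by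
    rintro _ ⟨x, hx, rfl⟩
    have := mul_mem_L hx hyH
    rwa [mul_comm] at this
  have hVle : V ≤ riemannRochSpace (G + H) := L_mono (by
    intro P
    have := hT P
    simp only [Finsupp.coe_zero, Pi.zero_apply] at this
    simp only [Finsupp.coe_sub, Finsupp.coe_add, Pi.sub_apply, Pi.add_apply]
    omega)
  have hinf : U ⊓ V ≤ (riemannRochSpace (G - T)).map μ := by
    rintro _ ⟨⟨x, hx, rfl⟩, hxV⟩
    refine ⟨x, ?_, rfl⟩
    rcases eq_or_ne x 0 with rfl | hx0
    · exact Submodule.zero_mem _
    have hx' := (mem_L_iff hx0).1 hx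
    have hxV' : y * x ∈ riemannRochSpace (G + H - T) := hxV
    have hxV'' := (mem_L_iff (mul_ne_zero hy0 hx0)).1 hxV'
    show x ∈ riemannRochSpace (G - T)
    rw [mem_L_iff hx0]
    intro P
    have h1 := hx' P
    have h2 := hxV'' P
    rw [P.ord_mul hy0 hx0] at h2
    simp only [Finsupp.coe_sub, Finsupp.coe_add, Pi.sub_apply, Pi.add_apply] at h2 ⊢
    by_cases hP : T P = 0
    · rw [hP]; omega
    · rw [hex P hP] at h2; omega
  have fU : finrank k U = finrank k (riemannRochSpace G) :=
    (Submodule.equivMapOfInjective μ hinj _).finrank_eq.symm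
  have fI : finrank k ((riemannRochSpace (G - T)).map μ) = finrank k (riemannRochSpace (G - T)) :=
    (Submodule.equivMapOfInjective μ hinj _).finrank_eq.symm
  have hfU : FiniteDimensional k U := by rw [hU]; infer_instance
  have hfI : FiniteDimensional k ((riemannRochSpace (G - T)).map μ) := by infer_instance
  have h1 := Submodule.finrank_sup_add_finrank_inf_eq U V
  have h2 := Submodule.finrank_mono hinf
  have r1 := Hb.riemann G
  have r2 := Hb.riemann (G + H - T)
  have r3 := Hb.riemann_eq (G - T) hdeg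
  have r4 := Hb.riemann_eq (G + H) hdeg'
  rw [map_sub, map_add] at r2
  rw [map_sub] at r3
  rw [map_add] at r4
  have hsup : U ⊔ V = riemannRochSpace (G + H) := by
    apply Submodule.eq_of_le_of_finrank_le (sup_le hUle hVle)
    have : (finrank k (riemannRochSpace (G + H)) : ℤ) ≤ finrank k ↥(U ⊔ V) := by
      have h1' : (finrank k ↥(U ⊔ V) : ℤ) + finrank k ↥(U ⊓ V) = finrank k U + finrank k V := by
        exact_mod_cast h1
      have h2' : (finrank k ↥(U ⊓ V) : ℤ) ≤ finrank k (riemannRochSpace (G - T)) := by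
        rw [← fI]; exact_mod_cast h2
      rw [fU] at h1'
      have hVV : finrank k V = finrank k (riemannRochSpace (G + H - T)) := rfl
      rw [hVV] at h1'
      omega
    exact_mod_cast this
  rw [← hsup] at hz
  obtain ⟨u, ⟨x, hx, rfl⟩, v, hv, rfl⟩ := Submodule.mem_sup.1 hz
  refine ⟨x, hx, ?_⟩
  have : μ x + v - y * x = v := by
    show y * x + v - y * x = v
    ring
  rw [this]
  exact hv

end FAN
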