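import Fermat.Agent.Nodal.Disc
import Fermat.Agent.Red.RFactsOf

/-!
# PROJECT N, (III)(D2): the `E`-side.  Supply of glued pairs.
-/

set_option autoImplicit false

open AlgebraicCurve Module FA18 FA18.G4

namespace FAN

variable {k E : Type*} [Field k] [Field E] [Algebra k E]

section ValAt

theorem valAt_iff_ordGE {Q : Place k E} {a : E} {c : k} :
    ValAt Q a c ↔ FAR.OrdGE Q (a - algebraMap k E c) 1 := by
  unfold ValAt FAR.OrdGE
  rw [sub_eq_zero]
  constructor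
  · rintro (h | h)
    · exact Or.inl h
    · exact Or.inr (by omega)
  · rintro (h | h)
    · exact Or.inl h
    · exact Or.inr (by omega)

theorem ValAt.add_small {Q : Place k E} {a w : E} {c : k} (h : ValAt Q a c)
    (hw : FAR.OrdGE Q w 1) : ValAt Q (a + w) c := by
  rw [valAt_iff_ordGE] at h ⊢
  have := h.add hw
  convert this using 1
  ring

theorem ValAt.uniq {Q : Place k E} {a : E} {c c' : k} (h : ValAt Q a c) (h' : ValAt Q a c') :
    c = c' := by
  rw [valAt_iff_ordGE] at h h'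
  have h1 := h'.sub h
  have h2 : a - algebraMap k E c' - (a - algebraMap k E c) = algebraMap k E (c - c') := by
    rw [map_sub]; ring
  rw [h2] at h1
  by_contra hne
  have h3 : algebraMap k E (c - c') ≠ 0 := by
    simpa [sub_eq_zero] using hne
  have := h1.le h3
  rw [FAFF.ord_algebraMap] at this
  omega

theorem valAt_const (Q : Place k E) (c : k) : ValAt Q (algebraMap k E c) c := Or.inl rfl

theorem valAt_zero_iff {Q : Place k E} {a : E} : ValAt Q a 0 ↔ FAR.OrdGE Q a 1 := by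
  rw [valAt_iff_ordGE, map_zero, sub_zero]

/-- a nonzero value: the order is `0`. -/
theorem ValAt.ord_eq_zero {Q : Place k E} {a : E} {c : k} (h : ValAt Q a c) (hc : c ≠ 0) :
    a ≠ 0 ∧ Q.ord a = 0 := by
  rw [valAt_iff_ordGE] at h
  have hc' : algebraMap k E c ≠ 0 := by simpa using hc
  have h1 := FAR.ord_add_of_ordGE (v := Q) hc' (g := a - algebraMap k E c)
    (by rw [FAFF.ord_algebraMap]; simpa using h)
  rw [add_sub_cancel, FAFF.ord_algebraMap] at h1
  exact h1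

theorem ValAt.val_ne_zero {Q : Place k E} {a : E} {c : k} (h : ValAt Q a c) (ha : a ≠ 0)
    (h0 : Q.ord a = 0) : c ≠ 0 := by
  rintro rfl
  rw [valAt_zero_iff] at h
  have := h.le ha
  omega

end ValAt

section Generic

variable [Infinite k]

/-- in the pencil `b0 + t w` all but finitely many members have exact order `-B P` at the points
of `Z`. -/
theorem exists_pencil_exact {B : Divisor k E} {b0 w : E} (Z : Finset (Place k E))
    (hZ : ∀ P ∈ Z, b0 ∉ riemannRochSpace (B - Finsupp.single P 1) ∨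
      w ∉ riemannRochSpace (B - Finsupp.single P 1)) :
    ∃ t : k, ∀ P ∈ Z, b0 + t • w ∉ riemannRochSpace (B - Finsupp.single P 1) := by
  classical
  have hsub : ∀ P ∈ Z,
      {t : k | b0 + t • w ∈ riemannRochSpace (B - Finsupp.single P 1)}.Subsingleton := by
    intro P hP t ht t' ht'
    by_contra hne
    change b0 + t • w ∈ riemannRochSpace (B - Finsupp.single P 1) at ht
    change b0 + t' • w ∈ riemannRochSpace (B - Finsupp.single P 1) at ht'
    have h1 : (t - t') • w ∈ riemannRochSpace (B - Finsupp.single P 1) := by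
      have := Submodule.sub_mem _ ht ht'
      have h2 : b0 + t • w - (b0 + t' • w) = (t - t') • w := by rw [sub_smul]; ring
      rwa [h2] at this
    have h3 : w ∈ riemannRochSpace (B - Finsupp.single P 1) :=
      (Submodule.smul_mem_iff _ (sub_ne_zero.2 hne)).1 h1
    have h4 : b0 ∈ riemannRochSpace (B - Finsupp.single P 1) := by
      have := Submodule.sub_mem _ ht (Submodule.smul_mem _ t h3)
      rwa [add_sub_cancel_right] at this
    rcases hZ P hP with h | h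
    · exact h h4
    · exact h h3
  have hfin : (⋃ P ∈ Z,
      {t : k | b0 + t • w ∈ riemannRochSpace (B - Finsupp.single P 1)}).Finite :=
    Set.Finite.biUnion Z.finite_toSet fun P hP => (hsub P hP).finite
  obtain ⟨t, ht⟩ := hfin.infinite_compl.nonempty
  refine ⟨t, fun P hP h => ht ?_⟩
  simp only [Set.mem_iUnion]
  exact ⟨P, hP, h⟩

/-- a generic element of `L(B)`, `deg B` large, has exact order `-B P` at finitely many given
places. -/
theorem exists_exact {gb cb : ℤ} (Hb : RFacts k E gb cb) {B : Divisor k E}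
    (hB : cb + 1 ≤ Divisor.degree B) (Z : Finset (Place k E)) :
    ∃ y ∈ riemannRochSpace B, ∀ P ∈ Z, y ∉ riemannRochSpace (B - Finsupp.single P 1) := by
  classical
  induction Z using Finset.induction_on with
  | empty => exact ⟨0, Submodule.zero_mem _, by simp⟩
  | insert P Z hP ih =>
    obtain ⟨y, hy, hyZ⟩ := ih
    obtain ⟨w, hw, hw0, hwP⟩ := Hb.sharp hB P
    have hw' : w ∉ riemannRochSpace (B - Finsupp.single P 1) := by
      intro h
      have := (mem_L_iff hw0).1 h P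
      simp only [Finsupp.coe_sub, Pi.sub_apply, Finsupp.single_eq_same] at this
      omega
    obtain ⟨t, ht⟩ := exists_pencil_exact (B := B) (b0 := y) (w := w) (insert P Z) (by
      intro P' hP'
      rcases Finset.mem_insert.1 hP' with rfl | h
      · exact Or.inr hw'
      · exact Or.inl (hyZ P' h))
    exact ⟨y + t • w, Submodule.add_mem _ hy (Submodule.smul_mem _ t hw), ht⟩

end Generic

section Glued

variable [IsAlgClosed k]

theorem degree_sumPl' {gb cb : ℤ} (Hb : RFacts k E gb cb) (t : Finset (Place k E)) :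
    Divisor.degree (FAR.sumPl t) = t.card := by
  rw [FAR.sumPl, map_sum]
  simp [Divisor.degree_single, Hb.deg_one]

theorem notMem_iff_ord {B : Divisor k E} {P : Place k E} {y : E} (hy : y ∈ riemannRochSpace B) :
    y ∉ riemannRochSpace (B - Finsupp.single P 1) ↔ y ≠ 0 ∧ P.ord y = -B P := by
  constructor
  · exact fun h => ord_eq_of_mem_of_notMem hy h
  · rintro ⟨h0, h1⟩ h
    have := (mem_L_iff h0).1 h P
    simp only [Finsupp.coe_sub, Pi.sub_apply, Finsupp.single_eq_same] at this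
    omega

/-- (D2), core: supply of glued pairs. -/
theorem exists_glued {gb cb : ℤ} (Hb : RFacts k E gb cb) {C1 C2 : Divisor k E}
    (hdeg1 : 0 < Divisor.degree C1) (hdeg2 : 0 < Divisor.degree C2) {s : ℕ}
    (Qn Qn' : Fin s → Place k E) (Q : Place k E) (hQ : C1 Q = 0) (hQn : ∀ i, Qn i ≠ Q)
    (hC1n : ∀ i, C1 (Qn i) = 0) (hC2n : ∀ i, C2 (Qn' i) = 0)
    (Z1 Z2 : Finset (Place k E)) (hZ1 : Q ∉ Z1) :
    ∃ n1 : ℕ, ∀ n : ℕ, n1 ≤ n →
      (∀ a ∈ riemannRochSpace (n • C1), ∀ i, ∃ c, ValAt (Qn i) a c) →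
      (∀ β : Fin s → k, ∃ b ∈ riemannRochSpace (n • C2), ∀ i, ValAt (Qn' i) b (β i)) →
      ∃ a ∈ riemannRochSpace (n • C1), ∃ b ∈ riemannRochSpace (n • C2),
        a ≠ 0 ∧ b ≠ 0 ∧
        (∀ i, ∃ c : k, c ≠ 0 ∧ ValAt (Qn i) a c ∧ ValAt (Qn' i) b c) ∧ Q.ord a = 1 ∧
        (∀ P, (P ∈ Z1 ∨ C1 P ≠ 0) → P.ord a = -(n * C1 P)) ∧
        (∀ P, (P ∈ Z2 ∨ C2 P ≠ 0) → P.ord b = -(n * C2 P)) := by
  classical
  refine ⟨(cb + 2 + s).toNat, fun n hn hval hsurj => ?_⟩
  have hn' : cb + 2 + s ≤ n := by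
    have := Int.self_le_toNat (cb + 2 + s)
    omega
  have hn0 : (0 : ℤ) ≤ n := Int.natCast_nonneg n
  -- the function `a`
  set B1 : Divisor k E := n • C1 - Finsupp.single Q 1 with hB1
  have hB1deg : cb + 1 ≤ Divisor.degree B1 := by
    rw [hB1, map_sub, map_nsmul, Divisor.degree_single, Hb.deg_one]
    simp only [nsmul_eq_mul, Nat.cast_one, mul_one]
    nlinarith
  obtain ⟨a, ha, haZ⟩ := exists_exact Hb hB1deg
    (insert Q (Z1 ∪ C1.support ∪ Finset.univ.image Qn))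
  have haZ' : ∀ P ∈ insert Q (Z1 ∪ C1.support ∪ Finset.univ.image Qn),
      a ≠ 0 ∧ P.ord a = -B1 P := fun P hP => (notMem_iff_ord ha).1 (haZ P hP)
  have ha0 : a ≠ 0 := (haZ' Q (Finset.mem_insert_self _ _)).1
  have haL : a ∈ riemannRochSpace (n • C1) :=
    L_mono (sub_le_self _ (Finsupp.single_nonneg.2 zero_le_one)) ha
  have haQ : Q.ord a = 1 := by
    rw [(haZ' Q (Finset.mem_insert_self _ _)).2, hB1]
    simp [hQ]
  have haP : ∀ P, P ≠ Q → P ∈ Z1 ∪ C1.support ∪ Finset.univ.image Qn →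
      P.ord a = -(n * C1 P) := by
    intro P hPQ hP
    rw [(haZ' P (Finset.mem_insert_of_mem hP)).2, hB1]
    simp [Finsupp.single_eq_of_ne hPQ]
  have han : ∀ i, (Qn i).ord a = 0 := by
    intro i
    rw [haP (Qn i) (hQn i) (Finset.mem_union_right _ (Finset.mem_image_of_mem _ (Finset.mem_univ i))),
      hC1n]
    simp
  choose c hc using hval a haL
  have hc0 : ∀ i, c i ≠ 0 := fun i => (hc i).val_ne_zero ha0 (han i)
  -- the function `b`
  obtain ⟨b0, hb0, hb0v⟩ := hsurj c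
  set T : Finset (Place k E) := Finset.univ.image Qn' with hT
  set B2 : Divisor k E := n • C2 - FAR.sumPl T with hB2
  have hTcard : (T.card : ℤ) ≤ s := by
    have := Finset.card_image_le (s := (Finset.univ : Finset (Fin s))) (f := Qn')
    rw [Finset.card_univ, Fintype.card_fin] at this
    exact_mod_cast this
  have hB2deg : cb + 1 ≤ Divisor.degree B2 := by
    rw [hB2, map_sub, map_nsmul, degree_sumPl' Hb]
    simp only [nsmul_eq_mul]
    nlinarith
  obtain ⟨w, hw, hwZ⟩ := exists_exact Hb hB2deg ((Z2 ∪ C2.support) \ T)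
  have hwL : w ∈ riemannRochSpace (n • C2) := L_mono (sub_le_self _ (FAR.sumPl_nonneg T)) hw
  have hwZ' : ∀ P ∈ (Z2 ∪ C2.support) \ T,
      w ∉ riemannRochSpace (n • C2 - Finsupp.single P 1) := by
    intro P hP
    obtain ⟨h0, h1⟩ := (notMem_iff_ord hw).1 (hwZ P hP)
    rw [notMem_iff_ord hwL]
    refine ⟨h0, ?_⟩
    rw [h1, hB2, Finsupp.sub_apply, FAR.sumPl_apply, if_neg (Finset.mem_sdiff.1 hP).2, sub_zero]
  obtain ⟨t, ht⟩ := exists_pencil_exact (B := n • C2) (b0 := b0) (w := w)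
    ((Z2 ∪ C2.support) \ T) fun P hP => Or.inr (hwZ' P hP)
  have hbL : b0 + t • w ∈ riemannRochSpace (n • C2) :=
    Submodule.add_mem _ hb0 (Submodule.smul_mem _ t hwL)
  have hwn : ∀ i, FAR.OrdGE (Qn' i) w 1 := by
    intro i
    rcases eq_or_ne w 0 with h0 | h0
    · exact Or.inl h0
    · refine Or.inr ?_
      have := (mem_L_iff h0).1 hw (Qn' i)
      rw [hB2, Finsupp.sub_apply, FAR.sumPl_apply,
        if_pos (Finset.mem_image_of_mem _ (Finset.mem_univ i)), Finsupp.smul_apply, hC2n] at this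
      simp only [smul_zero] at this
      omega
  have hbv : ∀ i, ValAt (Qn' i) (b0 + t • w) (c i) := fun i =>
    (hb0v i).add_small ((hwn i).smul t)
  have hbP : ∀ P, (P ∈ Z2 ∨ C2 P ≠ 0) → b0 + t • w ≠ 0 ∧ P.ord (b0 + t • w) = -(n * C2 P) := by
    intro P hP
    by_cases hPT : P ∈ T
    · obtain ⟨i, -, rfl⟩ := Finset.mem_image.1 hPT
      have := (hbv i).ord_eq_zero (hc0 i)
      rw [hC2n]
      simpa using this
    · have hP' : P ∈ (Z2 ∪ C2.support) \ T := by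
        refine Finset.mem_sdiff.2 ⟨Finset.mem_union.2 ?_, hPT⟩
        rcases hP with h | h
        · exact Or.inl h
        · exact Or.inr (Finsupp.mem_support_iff.2 h)
      have := (notMem_iff_ord hbL).1 (ht P hP')
      simpa using this
  have hb0' : b0 + t • w ≠ 0 := by
    have : C2 ≠ 0 := by
      rintro rfl
      simp at hdeg2
    obtain ⟨P, hP⟩ := Finsupp.ne_iff.1 this
    exact (hbP P (Or.inr (by simpa using hP))).1
  refine ⟨a, haL, b0 + t • w, hbL, ha0, hb0', fun i => ⟨c i, hc0 i, hc i, hbv i⟩, haQ, ?_,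
    fun P hP => (hbP P hP).2⟩
  intro P hP
  have hPQ : P ≠ Q := by
    rintro rfl
    rcases hP with h | h
    · exact hZ1 h
    · exact h hQ
  refine haP P hPQ (Finset.mem_union_left _ (Finset.mem_union.2 ?_))
  rcases hP with h | h
  · exact Or.inl h
  · exact Or.inr (Finsupp.mem_support_iff.2 h)

end Glued

section Geom

variable {K F : Type*} [Field K] [Field F] [Algebra K F] [IsAlgClosed k]
  {A : ValuationSubring K} {π : A →+* k} {O1 O2 : ValuationSubring F}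
  {ρ1 : O1 →+* E} {ρ2 : O2 →+* E} {D : Divisor K F} {gF cF gb cb : ℤ}
  (G : NodalGeom A π O1 O2 ρ1 ρ2 D gF cF gb cb)

namespace NodalGeom

theorem mem_OE1 {n : ℕ} {a : E} (ha : a ∈ riemannRochSpace (n • G.C1)) : a ∈ G.OE :=
  G.hX n a (by rw [G.hXL]; exact ha)

theorem mem_OE2 {n : ℕ} {b : E} (hb : b ∈ riemannRochSpace (n • G.C2)) : b ∈ G.OE :=
  G.hY n b (by rw [G.hYL]; exact hb)

theorem valAt_eOE (i : Fin G.s) {a : E} (ha : a ∈ G.OE) : ValAt (G.Qn i) a (G.e i a) := by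
  rw [G.e_eq i ha]
  exact G.hev i ⟨a, ha⟩

theorem valAt_eOE' (i : Fin G.s) {a : E} (ha : a ∈ G.OE) : ValAt (G.Qn' i) a (G.e' i a) := by
  rw [G.e'_eq i ha]
  exact G.hev' i ⟨a, ha⟩

/-- lifting of glued pairs. -/
theorem exists_lift {n : ℕ} (hn : G.n0 ≤ n) {a b : E} (ha : a ∈ riemannRochSpace (n • G.C1))
    (hb : b ∈ riemannRochSpace (n • G.C2)) (h : ∀ i, G.e i a = G.e' i b) :
    ∃ x ∈ riemannRochSpace (n • D), Rd O1 ρ1 x a ∧ Rd O2 ρ2 x b := by
  have := (G.isZeta_zero hn a b).2 ⟨by rw [G.hXL]; exact ha, by rw [G.hYL]; exact hb,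
    fun i => by rw [h i]; simp⟩
  rwa [zero_add] at this

/-- (D2) for a point of the first component. -/
theorem exists_glued1 (Q : Place k E) (hQ : G.C1 Q = 0) (hQn : ∀ i, G.Qn i ≠ Q)
    (Z1 Z2 : Finset (Place k E)) (hZ1 : Q ∉ Z1) :
    ∃ n1 : ℕ, G.n0 ≤ n1 ∧ ∀ n : ℕ, n1 ≤ n →
      ∃ a ∈ riemannRochSpace (n • G.C1), ∃ b ∈ riemannRochSpace (n • G.C2),
        a ≠ 0 ∧ b ≠ 0 ∧ (∀ i, G.e i a = G.e' i b ∧ G.e i a ≠ 0) ∧ Q.ord a = 1 ∧
        (∀ P, (P ∈ Z1 ∨ G.C1 P ≠ 0) → P.ord a = -(n * G.C1 P)) ∧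
        (∀ P, (P ∈ Z2 ∨ G.C2 P ≠ 0) → P.ord b = -(n * G.C2 P)) ∧
        ∃ x ∈ riemannRochSpace (n • D), Rd O1 ρ1 x a ∧ Rd O2 ρ2 x b := by
  obtain ⟨n1, h⟩ := exists_glued G.Hb G.hdeg1 G.hdeg2 G.Qn G.Qn' Q hQ hQn G.hQn G.hQn' Z1 Z2 hZ1
  refine ⟨max n1 G.n0, le_max_right _ _, fun n hn => ?_⟩
  have hn0 : G.n0 ≤ n := (le_max_right _ _).trans hn
  obtain ⟨a, ha, b, hb, ha0, hb0, hg, h1, h2, h3⟩ := h n ((le_max_left _ _).trans hn)
    (fun a ha i => ⟨_, G.valAt_eOE i (G.mem_OE1 ha)⟩) (fun β => by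
      obtain ⟨-, -, b, hb, -, h2⟩ := G.surj' hn0 0 β
      rw [G.hYL] at hb
      refine ⟨b, hb, fun i => ?_⟩
      rw [← h2 i]
      exact G.valAt_eOE' i (G.mem_OE2 hb))
  have hg' : ∀ i, G.e i a = G.e' i b ∧ G.e i a ≠ 0 := by
    intro i
    obtain ⟨c, hc0, hc1, hc2⟩ := hg i
    have e1 := (G.valAt_eOE i (G.mem_OE1 ha)).uniq hc1
    have e2 := (G.valAt_eOE' i (G.mem_OE2 hb)).uniq hc2
    rw [e1, e2]
    exact ⟨rfl, hc0⟩
  exact ⟨a, ha, b, hb, ha0, hb0, hg', h1, h2, h3, G.exists_lift hn0 ha hb fun i => (hg' i).1⟩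

/-- (D2) for a point of the second component. -/
theorem exists_glued2 (Q : Place k E) (hQ : G.C2 Q = 0) (hQn : ∀ i, G.Qn' i ≠ Q)
    (Z1 Z2 : Finset (Place k E)) (hZ2 : Q ∉ Z2) :
    ∃ n1 : ℕ, G.n0 ≤ n1 ∧ ∀ n : ℕ, n1 ≤ n →
      ∃ a ∈ riemannRochSpace (n • G.C1), ∃ b ∈ riemannRochSpace (n • G.C2),
        a ≠ 0 ∧ b ≠ 0 ∧ (∀ i, G.e i a = G.e' i b ∧ G.e i a ≠ 0) ∧ Q.ord b = 1 ∧
        (∀ P, (P ∈ Z1 ∨ G.C1 P ≠ 0) → P.ord a = -(n * G.C1 P)) ∧
        (∀ P, (P ∈ Z2 ∨ G.C2 P ≠ 0) → P.ord b = -(n * G.C2 P)) ∧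
        ∃ x ∈ riemannRochSpace (n • D), Rd O1 ρ1 x a ∧ Rd O2 ρ2 x b := by
  obtain ⟨n1, h⟩ := exists_glued G.Hb G.hdeg2 G.hdeg1 G.Qn' G.Qn Q hQ hQn G.hQn' G.hQn Z2 Z1 hZ2
  refine ⟨max n1 G.n0, le_max_right _ _, fun n hn => ?_⟩
  have hn0 : G.n0 ≤ n := (le_max_right _ _).trans hn
  obtain ⟨b, hb, a, ha, hb0, ha0, hg, h1, h2, h3⟩ := h n ((le_max_left _ _).trans hn)
    (fun a ha i => ⟨_, G.valAt_eOE' i (G.mem_OE2 ha)⟩) (fun β => by
      obtain ⟨a, ha, -, -, h2, -⟩ := G.surj' hn0 β 0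
      rw [G.hXL] at ha
      refine ⟨a, ha, fun i => ?_⟩
      rw [← h2 i]
      exact G.valAt_eOE i (G.mem_OE1 ha))
  have hg' : ∀ i, G.e i a = G.e' i b ∧ G.e i a ≠ 0 := by
    intro i
    obtain ⟨c, hc0, hc1, hc2⟩ := hg i
    have e1 := (G.valAt_eOE i (G.mem_OE1 ha)).uniq hc2
    have e2 := (G.valAt_eOE' i (G.mem_OE2 hb)).uniq hc1
    rw [e1, e2]
    exact ⟨rfl, hc0⟩
  exact ⟨a, ha, b, hb, ha0, hb0, hg', h1, h3, h2, G.exists_lift hn0 ha hb fun i => (hg' i).1⟩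

end NodalGeom

end Geom

end FAN
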