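import Fermat.Agent.Nodal.ESide

/-!
# PROJECT N, (III)(D1): the `E`-side.  Non-special systems of points on the nodal curve.
-/

set_option autoImplicit false

open AlgebraicCurve Module FA18 FA18.G4

namespace FAN

variable {k E : Type*} [Field k] [Field E] [Algebra k E] [IsAlgClosed k]

/-- greedy choice of points which do not increase `l(B)`. -/
theorem exists_greedy (h : FA24.IsFF k E) (B : Divisor k E) (Z : Finset (Place k E)) (r : ℕ)
    (hr : Divisor.degree B + r + 1 - FAR.gR h ≤ FAR.ell B) :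
    ∃ S : Finset (Place k E), S.card = r ∧ Disjoint S Z ∧
      FAR.ell (B + FAR.sumPl S) = FAR.ell B := by
  classical
  induction r with
  | zero => exact ⟨∅, rfl, Finset.disjoint_empty_left _, by simp [FAR.sumPl]⟩
  | succ r ih =>
    obtain ⟨S, hS, hSZ, hell⟩ := ih (by push_cast at hr ⊢; omega)
    have hfin := FAR.finite_ell_add_single_ne h (B + FAR.sumPl S) (by
      rw [map_add, FAR.degree_sumPl h, hS, hell]
      push_cast at hr
      omega)
    obtain ⟨P, -, hP⟩ := ((FAR.infinite_places h).sdiff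
      ((hfin.union Z.finite_toSet).union S.finite_toSet)).nonempty
    have hP1 : FAR.ell (B + FAR.sumPl S + Finsupp.single P 1) = FAR.ell (B + FAR.sumPl S) := by
      by_contra hne
      exact hP (Or.inl (Or.inl hne))
    have hP2 : P ∉ Z := fun hh => hP (Or.inl (Or.inr hh))
    have hP3 : P ∉ S := fun hh => hP (Or.inr hh)
    refine ⟨insert P S, by rw [Finset.card_insert_of_notMem hP3, hS], ?_, ?_⟩
    · rw [Finset.disjoint_insert_left]
      exact ⟨hP2, hSZ⟩
    · rw [FAR.sumPl_insert hP3, ← add_assoc, hP1, hell]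

theorem gR_eq (h : FA24.IsFF k E) {gb cb : ℤ} (Hb : RFacts k E gb cb) : (FAR.gR h : ℤ) = gb := by
  obtain ⟨c, hc⟩ := FAR.exists_riemann_eq h
  obtain ⟨P, -⟩ := (FAR.infinite_places h).nonempty
  set B : Divisor k E := Finsupp.single P (max c cb) with hB
  have hdeg : Divisor.degree B = max c cb := by
    rw [hB, Divisor.degree_single, Hb.deg_one]
    simp
  have h1 := hc B (by rw [hdeg]; exact le_max_left _ _)
  have h2 := Hb.riemann_eq B (by rw [hdeg]; exact le_max_right _ _)
  have h3 : (FAR.ell B : ℤ) = (finrank k (riemannRochSpace B) : ℤ) := rfl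
  omega

/-- (D1), core. -/
theorem exists_S1S2 (h : FA24.IsFF k E) {gb cb : ℤ} (Hb : RFacts k E gb cb) {s : ℕ} (hs : 0 < s)
    (Qn Qn' : Fin s → Place k E) (hinj : Function.Injective Qn) (Z : Finset (Place k E)) :
    ∃ S1 S2 : Finset (Place k E), Disjoint S1 Z ∧ Disjoint S2 Z ∧
      (S1.card : ℤ) + S2.card = 2 * gb + s - 1 ∧
      ∀ a b : E, (∀ P, P ∉ S1 → 0 ≤ P.ord a) → (∀ P ∈ S1, -1 ≤ P.ord a) →
        (∀ P, P ∉ S2 → 0 ≤ P.ord b) → (∀ P ∈ S2, -1 ≤ P.ord b) →
        (∀ i, ∃ c, ValAt (Qn i) a c ∧ ValAt (Qn' i) b c) →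
        ∃ c : k, a = algebraMap k E c ∧ b = algebraMap k E c := by
  classical
  have hg := gR_eq h Hb
  set T : Finset (Place k E) := Finset.univ.image Qn with hT
  have hTcard : T.card = s := by
    rw [hT, Finset.card_image_of_injective _ hinj, Finset.card_univ, Fintype.card_fin]
  have hell0 : FAR.ell (-FAR.sumPl T) = 0 := by
    by_contra hne
    obtain ⟨z, hz0, hz⟩ := (FAR.ell_pos_iff h _).1 (Nat.pos_of_ne_zero hne)
    have := Hb.degree_nonneg_of_mem hz0 hz
    rw [map_neg, FAR.degree_sumPl h, hTcard] at this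
    omega
  obtain ⟨S1, hS1c, hS1Z, hS1⟩ := exists_greedy h (-FAR.sumPl T) Z (FAR.gR h + s - 1) (by
    rw [map_neg, FAR.degree_sumPl h, hTcard, hell0]
    have : ((FAR.gR h + s - 1 : ℕ) : ℤ) = FAR.gR h + s - 1 := by omega
    rw [this]
    push_cast
    omega)
  obtain ⟨S2, hS2c, hS2Z, hS2⟩ := exists_greedy h 0 Z (FAR.gR h) (by
    rw [map_zero, FAR.ell_zero h]
    simp)
  refine ⟨S1, S2, hS1Z, hS2Z, ?_, ?_⟩
  · rw [hS1c, hS2c, ← hg]
    have : ((FAR.gR h + s - 1 : ℕ) : ℤ) = FAR.gR h + s - 1 := by omega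
    rw [this]
    ring
  intro a b ha ha' hb hb' hglue
  -- `b` is constant
  have hbL : b ∈ riemannRochSpace (0 + FAR.sumPl S2) := by
    rcases eq_or_ne b 0 with rfl | hb0
    · exact Submodule.zero_mem _
    rw [mem_L_iff hb0]
    intro v
    rw [zero_add, FAR.sumPl_apply]
    split_ifs with hv
    · exact hb' v hv
    · simpa using hb v hv
  have h1L : (1 : E) ∈ riemannRochSpace (0 + FAR.sumPl S2) :=
    one_mem_L (by rw [zero_add]; exact FAR.sumPl_nonneg S2)
  have hfr : finrank k (riemannRochSpace (0 + FAR.sumPl S2)) = 1 := by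
    have : FAR.ell (0 + FAR.sumPl S2) = 1 := by rw [hS2, FAR.ell_zero h]
    exact this
  obtain ⟨c, hc⟩ := (finrank_eq_one_iff_of_nonzero' (⟨1, h1L⟩ : riemannRochSpace (0 + FAR.sumPl S2))
    (by intro h0; exact one_ne_zero (congrArg Subtype.val h0))).1 hfr ⟨b, hbL⟩
  have hbc : b = algebraMap k E c := by
    have := congrArg Subtype.val hc
    simp only [Submodule.coe_smul] at this
    rw [← this, Algebra.smul_def, mul_one]
  refine ⟨c, ?_, hbc⟩
  -- `a - c` vanishes at the nodes
  have hval : ∀ i, ValAt (Qn i) a c := by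
    intro i
    obtain ⟨c', h1, h2⟩ := hglue i
    rw [hbc] at h2
    rw [(valAt_const (Qn' i) c).uniq h2]
    exact h1
  by_contra hne
  have hne' : a - algebraMap k E c ≠ 0 := sub_ne_zero.2 hne
  have haL : a - algebraMap k E c ∈ riemannRochSpace (-FAR.sumPl T + FAR.sumPl S1) := by
    rw [mem_L_iff hne']
    intro v
    rw [Finsupp.add_apply, Finsupp.neg_apply, FAR.sumPl_apply, FAR.sumPl_apply]
    by_cases hvT : v ∈ T
    · obtain ⟨i, -, rfl⟩ := Finset.mem_image.1 hvT
      have := (valAt_iff_ordGE.1 (hval i)).le hne'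
      rw [if_pos hvT]
      split_ifs <;> omega
    · rw [if_neg hvT]
      by_cases hvS : v ∈ S1
      · rw [if_pos hvS]
        have h1 : FAR.OrdGE v a (-1) := Or.inr (ha' v hvS)
        have h2 := (h1.sub ((FAR.OrdGE.algebraMap v c).mono (by omega))).le hne'
        omega
      · rw [if_neg hvS]
        have h1 : FAR.OrdGE v a 0 := Or.inr (ha v hvS)
        have h2 := (h1.sub (FAR.OrdGE.algebraMap v c)).le hne'
        omega
  have hpos := (FAR.ell_pos_iff h _).2 ⟨_, hne', haL⟩
  rw [hS1, hell0] at hpos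
  exact lt_irrefl _ hpos

/-- `RFacts` and one place give `IsFF`. -/
theorem isFF_of_rfacts {gb cb : ℤ} (Hb : RFacts k E gb cb) (P : Place k E) : FA24.IsFF k E := by
  set n : ℤ := max (gb + 1) 0 with hn
  set B : Divisor k E := Finsupp.single P n with hB
  have hdeg : Divisor.degree B = n := by
    rw [hB, Divisor.degree_single, Hb.deg_one]
    simp
  have h1 := Hb.riemann B
  have h2 : 2 ≤ finrank k (riemannRochSpace B) := by
    have : gb + 1 ≤ n := le_max_left _ _
    omega
  have hex : ∃ x ∈ riemannRochSpace B, x ∉ (k ∙ (1 : E)) := by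
    by_contra hcon
    push Not at hcon
    have hle : riemannRochSpace B ≤ (k ∙ (1 : E)) := hcon
    have := Submodule.finrank_mono hle
    rw [finrank_span_singleton (one_ne_zero)] at this
    omega
  obtain ⟨x, -, hx1⟩ := hex
  have hconst : ∀ c : k, x ≠ algebraMap k E c := by
    rintro c rfl
    apply hx1
    rw [Submodule.mem_span_singleton]
    exact ⟨c, by rw [Algebra.smul_def, mul_one]⟩
  have hx0 : x ≠ 0 := by
    intro h0
    exact hconst 0 (by rw [h0, map_zero])
  have htr : Transcendental k x := by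
    intro halg
    have hint := halg.isIntegral
    have hd := IsAlgClosed.degree_eq_one_of_irreducible k (minpoly.irreducible hint)
    obtain ⟨c, hc⟩ := minpoly.mem_range_of_degree_eq_one k x hd
    exact hconst c hc.symm
  obtain ⟨Dp, hDp⟩ := Hb.exists_poleDiv x hx0
  have hfr := Hb.deg_poles x htr Dp hDp
  have hDp0 : 0 ≤ Dp := fun v => by rw [hDp]; simp
  have hDpne : Dp ≠ 0 := by
    intro h0
    -- no pole: `x ∈ L(0)`, which is `k`
    have hxL : x ∈ riemannRochSpace (0 : Divisor k E) := by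
      rw [mem_L_iff hx0]
      intro v
      have := hDp v
      rw [h0] at this
      simp only [Finsupp.coe_zero, Pi.zero_apply] at this ⊢
      have h3 : -(v.ord x) ≤ max 0 (-(v.ord x)) := le_max_right _ _
      omega
    have h1L : (1 : E) ∈ riemannRochSpace (0 : Divisor k E) := one_mem_L le_rfl
    have hle := Hb.ell_le 0 le_rfl
    rw [map_zero] at hle
    have := Hb.finDim (0 : Divisor k E)
    have hge : (k ∙ (1 : E)) ≤ riemannRochSpace (0 : Divisor k E) := by
      rw [Submodule.span_singleton_le_iff_mem]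
      exact h1L
    have heq : (k ∙ (1 : E)) = riemannRochSpace (0 : Divisor k E) := by
      refine Submodule.eq_of_le_of_finrank_le hge ?_
      rw [finrank_span_singleton (one_ne_zero)]
      omega
    exact hx1 (heq ▸ hxL)
  have hpos : 0 < Divisor.degree Dp := by
    rcases (degree_nonneg' Hb.deg_one hDp0).lt_or_eq with h | h
    · exact h
    · exact absurd (eq_zero_of_degree_eq_zero' Hb.deg_one hDp0 h.symm) hDpne
  refine ⟨x, htr, Module.finite_of_finrank_pos ?_⟩
  omega

section Geom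

variable {K F : Type*} [Field K] [Field F] [Algebra K F]
  {A : ValuationSubring K} {π : A →+* k} {O1 O2 : ValuationSubring F}
  {ρ1 : O1 →+* E} {ρ2 : O2 →+* E} {D : Divisor K F} {gF cF gb cb : ℤ}
  (G : NodalGeom A π O1 O2 ρ1 ρ2 D gF cF gb cb)

namespace NodalGeom

theorem exists_cusp1 : ∃ P, G.C1 P ≠ 0 := by
  have : G.C1 ≠ 0 := by
    intro h
    have := G.hdeg1
    rw [h] at this
    simp at this
  obtain ⟨P, hP⟩ := Finsupp.ne_iff.1 this
  exact ⟨P, by simpa using hP⟩

theorem exists_cusp2 : ∃ P, G.C2 P ≠ 0 := by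
  have : G.C2 ≠ 0 := by
    intro h
    have := G.hdeg2
    rw [h] at this
    simp at this
  obtain ⟨P, hP⟩ := Finsupp.ne_iff.1 this
  exact ⟨P, by simpa using hP⟩

include G in
theorem isFF : FA24.IsFF k E := isFF_of_rfacts G.Hb G.exists_cusp1.choose

theorem Qn_injective : Function.Injective G.Qn := by
  classical
  intro i j hij
  by_contra hne
  obtain ⟨a, ha, -, -, h1, -⟩ := G.surj' le_rfl (Pi.single i 1) 0
  have hi := G.valAt_eOE i (G.hX _ a ha)
  have hj := G.valAt_eOE j (G.hX _ a ha)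
  rw [hij] at hi
  have := hi.uniq hj
  rw [h1, h1, Pi.single_eq_same, Pi.single_eq_of_ne (Ne.symm hne)] at this
  exact one_ne_zero this

theorem Qn'_injective : Function.Injective G.Qn' := by
  classical
  intro i j hij
  by_contra hne
  obtain ⟨-, -, a, ha, -, h1⟩ := G.surj' le_rfl 0 (Pi.single i 1)
  have hi := G.valAt_eOE' i (G.hY _ a ha)
  have hj := G.valAt_eOE' j (G.hY _ a ha)
  rw [hij] at hi
  have := hi.uniq hj
  rw [h1, h1, Pi.single_eq_same, Pi.single_eq_of_ne (Ne.symm hne)] at this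
  exact one_ne_zero this

/-- (D1). -/
theorem exists_S1S2 (hs : 0 < G.s) (Z : Finset (Place k E)) :
    ∃ S1 S2 : Finset (Place k E), Disjoint S1 Z ∧ Disjoint S2 Z ∧
      (S1.card : ℤ) + S2.card = 2 * gb + G.s - 1 ∧
      ∀ a b : E, (∀ P, P ∉ S1 → 0 ≤ P.ord a) → (∀ P ∈ S1, -1 ≤ P.ord a) →
        (∀ P, P ∉ S2 → 0 ≤ P.ord b) → (∀ P ∈ S2, -1 ≤ P.ord b) →
        (∀ i, ∃ c, ValAt (G.Qn i) a c ∧ ValAt (G.Qn' i) b c) →
        ∃ c : k, a = algebraMap k E c ∧ b = algebraMap k E c :=
  FAN.exists_S1S2 G.isFF G.Hb hs G.Qn G.Qn' G.Qn_injective Z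

end NodalGeom

end Geom

end FAN
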