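import Fermat.Agent.Nodal.DiscEx

/-!
# PROJECT N, (U5): a `k`-point of the affine ring `⋃ L(nC)` is the evaluation at a place off `C`.
-/

set_option autoImplicit false

open AlgebraicCurve Module FA18 FA18.G4
open scoped Classical

namespace FAN

variable {k E : Type*} [Field k] [Field E] [Algebra k E]

/-- **(U5)** -/
theorem exists_place_of_ev {gb cb : ℤ} (Hb : RFacts k E gb cb) {C : Divisor k E} (hC : 0 ≤ C)
    (hdeg : 0 < Divisor.degree C) (OE : Subalgebra k E)
    (hOE : ∀ a, a ∈ OE ↔ ∃ n : ℕ, a ∈ riemannRochSpace (n • C)) (ev : OE →ₐ[k] k) :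
    ∃ Q : Place k E, C Q = 0 ∧ ∀ a : OE, ValAt Q (a : E) (ev a) := by
  have hreg : ∀ y : E, (∀ P : Place k E, C P = 0 → 0 ≤ P.ord y) → y ∈ OE := by
    intro y hy
    rcases eq_or_ne y 0 with rfl | hy0
    · exact OE.zero_mem
    · exact (hOE y).2 (exists_mem_L_of_poles Hb hC hy0 hy)
  have hord : ∀ a ∈ OE, ∀ P : Place k E, C P = 0 → 0 ≤ P.ord a := by
    intro a ha P hP
    rcases eq_or_ne a 0 with rfl | ha0
    · rw [P.ord_zero]
    obtain ⟨n, hn⟩ := (hOE a).1 ha
    have := (mem_L_iff ha0).1 hn P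
    rwa [Finsupp.smul_apply, hP, smul_zero, neg_zero] at this
  -- a non-zero element of the kernel
  obtain ⟨a, ha0, hev⟩ : ∃ a : OE, (a : E) ≠ 0 ∧ ev a = 0 := by
    set n : ℕ := (gb + 1).toNat with hn
    have h1 := Hb.riemann (n • C)
    rw [map_nsmul, nsmul_eq_mul] at h1
    have h2 : (2 : ℤ) ≤ finrank k (riemannRochSpace (n • C)) := by
      have : gb + 1 ≤ n := Int.self_le_toNat _
      have h3 : (0 : ℤ) ≤ n := Int.natCast_nonneg _
      nlinarith
    have hle : riemannRochSpace (n • C) ≤ Subalgebra.toSubmodule OE := fun a ha =>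
      (hOE a).2 ⟨n, ha⟩
    have := Hb.finDim (n • C)
    have h3 : LinearMap.ker (ev.toLinearMap ∘ₗ Submodule.inclusion hle) ≠ ⊥ := by
      apply LinearMap.ker_ne_bot_of_finrank_lt
      rw [finrank_self]
      omega
    obtain ⟨z, hz, hz0⟩ := Submodule.exists_mem_ne_zero_of_ne_bot h3
    refine ⟨Submodule.inclusion hle z, ?_, hz⟩
    intro h
    exact hz0 (Subtype.ext h)
  obtain ⟨Da, hDa, -⟩ := Hb.exists_div (a : E) ha0
  set T := Da.support.filter (fun P => C P = 0) with hT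
  by_contra hcon
  push Not at hcon
  have hx : ∀ Q : Place k E, C Q = 0 → ∃ x : OE, ((x : E) = 0 ∨ 0 < Q.ord (x : E)) ∧ ev x ≠ 0 := by
    intro Q hQ
    obtain ⟨b, hb⟩ := hcon Q hQ
    obtain ⟨c, hc⟩ := hasValues_of_deg_one Hb.deg_one Q (b : E) (hord b b.2 Q hQ)
    refine ⟨b - algebraMap k OE c, ?_, ?_⟩
    · rcases hc with h | h
      · left
        rw [Subalgebra.coe_sub, Subalgebra.coe_algebraMap, h, sub_self]
      · right
        rwa [Subalgebra.coe_sub, Subalgebra.coe_algebraMap]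
    · intro h0
      rw [map_sub, AlgHom.commutes, sub_eq_zero] at h0
      apply hb
      rw [h0]
      exact hc
  choose! x hx1 hx2 using hx
  set p : OE := ∏ Q ∈ T, x Q ^ (Da Q).toNat with hp
  have hne : ∀ z : OE, ev z ≠ 0 → (z : E) ≠ 0 := by
    intro z hz h
    apply hz
    have : z = 0 := Subtype.ext h
    rw [this, map_zero]
  have hevp : ∀ T' : Finset (Place k E), T' ⊆ T → ev (∏ Q ∈ T', x Q ^ (Da Q).toNat) ≠ 0 := by
    intro T' hT'
    rw [map_prod]
    refine Finset.prod_ne_zero_iff.2 fun Q hQ => ?_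
    rw [map_pow]
    exact pow_ne_zero _ (hx2 Q (Finset.mem_filter.1 (hT' hQ)).2)
  have hp0 : (p : E) ≠ 0 := hne p (hevp T subset_rfl)
  have hy : (p : E) * (a : E)⁻¹ ∈ OE := by
    apply hreg
    intro P hP
    rw [P.ord_mul hp0 (inv_ne_zero ha0), P.ord_inv, ← hDa]
    by_cases hPT : P ∈ T
    · have h1 : p = x P ^ (Da P).toNat * ∏ Q ∈ T.erase P, x Q ^ (Da Q).toNat :=
        (Finset.mul_prod_erase T _ hPT).symm
      have hx0 : (x P : E) ≠ 0 := hne _ (hx2 P hP)
      have hq0 := hne _ (hevp (T.erase P) (Finset.erase_subset _ _))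
      have h2 := (hx1 P hP).resolve_left hx0
      have h3 := hord _ (∏ Q ∈ T.erase P, x Q ^ (Da Q).toNat).2 P hP
      rw [h1, Subalgebra.coe_mul, Subalgebra.coe_pow, P.ord_mul (pow_ne_zero _ hx0) hq0, ord_pow]
      have h4 : Da P ≤ (Da P).toNat := Int.self_le_toNat _
      have h5 : (0 : ℤ) ≤ (Da P).toNat := Int.natCast_nonneg _
      nlinarith
    · have h1 : Da P = 0 := by
        by_contra h
        exact hPT (Finset.mem_filter.2 ⟨Finsupp.mem_support_iff.2 h, hP⟩)
      rw [h1]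
      have := hord p p.2 P hP
      omega
  have h1 : ev p = ev ⟨_, hy⟩ * ev a := by
    rw [← map_mul]
    congr 1
    apply Subtype.ext
    rw [Subalgebra.coe_mul]
    show (p : E) = (p : E) * (a : E)⁻¹ * (a : E)
    field_simp
  rw [hev, mul_zero] at h1
  exact hevp T subset_rfl h1

end FAN
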