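import Fermat.Agent.Nodal.Conc

/-!
# PROJECT N: semilinear automorphisms fixing `x0` preserve `L(n • (x0)_∞)`
-/

set_option autoImplicit false

open AlgebraicCurve IntermediateField ModularCurve FA24 FA18 FA18.M1 FA18.G4 FAG Module

namespace FAN

theorem semilinear_mem_L {K F : Type*} [Field K] [Field F] [Algebra K F] (g : SemilinearAut K F)
    {x0 : F} (hx0 : g • x0 = x0) {D : Divisor K F} (hD : ∀ v, D v = max 0 (-(v.ord x0))) {n : ℕ}
    {x : F} (hx : x ∈ riemannRochSpace (n • D)) : g • x ∈ riemannRochSpace (n • D) := by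
  rcases eq_or_ne x 0 with rfl | hx0'
  · rw [smul_zero]
    exact Submodule.zero_mem _
  have hgx : g • x ≠ 0 := by
    intro h
    apply hx0'
    have := congrArg (g⁻¹ • ·) h
    simpa using this
  rw [mem_L_iff hgx]
  rw [mem_L_iff hx0'] at hx
  intro v
  have h1 := SemilinearAut.ord_smul g (g⁻¹ • v) x
  have h2 := SemilinearAut.ord_smul g (g⁻¹ • v) x0
  rw [smul_inv_smul] at h1 h2
  rw [hx0] at h2
  have h3 := hx (g⁻¹ • v)
  rw [Finsupp.smul_apply, hD] at h3 ⊢
  rw [h1, h2]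
  exact h3

/-- `hinL`. -/
theorem galF_mem_L (N : ℕ) (σ : GQ) {x0 : FN N} (hx0 : galF N σ x0 = x0) {D : Divisor Kb (FN N)}
    (hD : ∀ v, D v = max 0 (-(v.ord x0))) {n : ℕ} {x : FN N}
    (hx : x ∈ riemannRochSpace (n • D)) : galF N σ x ∈ riemannRochSpace (n • D) :=
  semilinear_mem_L (arithmeticGalois (L := Kb) (modularFunctionFieldFull N) σ) hx0 hD hx

section B

variable {k : Type} [Field k]

theorem galB_galB (e : k ≃+* k) (M : ℕ) (a : FbN k M) :
    galB (e : k →+* k) M (galB (e.symm : k →+* k) M a) = a := by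
  apply Subtype.ext
  rw [coe_galB, coe_galB, coeffMap_coeffMap]
  have : (e : k →+* k).comp (e.symm : k →+* k) = RingHom.id k := RingHom.ext fun x => by simp
  rw [this, coeffMap_id]

theorem galB_galB' (e : k ≃+* k) (M : ℕ) (a : FbN k M) :
    galB (e.symm : k →+* k) M (galB (e : k →+* k) M a) = a := by
  apply Subtype.ext
  rw [coe_galB, coe_galB, coeffMap_coeffMap]
  have : (e.symm : k →+* k).comp (e : k →+* k) = RingHom.id k := RingHom.ext fun x => by simp
  rw [this, coeffMap_id]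

/-- `galB` as a semilinear automorphism. -/
noncomputable def galBAut (e : k ≃+* k) (M : ℕ) : SemilinearAut k (FbN k M) :=
  ⟨(RingEquiv.ofRingHom (galB (e : k →+* k) M) (galB (e.symm : k →+* k) M)
      (RingHom.ext (galB_galB e M)) (RingHom.ext (galB_galB' e M)), e), by
    intro c
    apply Subtype.ext
    show coeffMap (e : k →+* k) (algebraMap k (LaurentSeries k) c) = _
    rw [coeffMap_algebraMap]
    rfl⟩

theorem galBAut_smul (e : k ≃+* k) (M : ℕ) (a : FbN k M) :
    galBAut e M • a = galB (e : k →+* k) M a := rfl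

theorem galB_equiv_mem_L (e : k ≃+* k) {M : ℕ} {Cj : Divisor k (FbN k M)}
    (hCj : ∀ v, Cj v = max 0 (-(v.ord (jb k M)))) {n : ℕ} {a : FbN k M}
    (ha : a ∈ riemannRochSpace (n • Cj)) : galB (e : k →+* k) M a ∈ riemannRochSpace (n • Cj) :=
  semilinear_mem_L (galBAut e M) (by rw [galBAut_smul, galB_jb]) hCj ha

theorem galB_mem_L {l : ℕ} [Fact l.Prime] [CharP k l] [PerfectRing k l] {M : ℕ}
    {Cj : Divisor k (FbN k M)} (hCj : ∀ v, Cj v = max 0 (-(v.ord (jb k M)))) {n : ℕ}
    {a : FbN k M} (ha : a ∈ riemannRochSpace (n • Cj)) :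
    galB (Sinv k l) M a ∈ riemannRochSpace (n • Cj) :=
  galB_equiv_mem_L (frobeniusEquiv k l).symm hCj ha

end B

section fix

variable (M l : ℕ) [NeZero M] [NeZero l]

theorem galF_jA (σ : GQ) : galF (M * l) σ (jA M l) = jA M l := by
  apply Subtype.ext
  rw [coe_galF, jA, coe_heckeAlphaBar, xN_val]
  exact coeffMap_coeffEmb σ jq

theorem galF_jB (σ : GQ) : galF (M * l) σ (jB M l) = jB M l := by
  apply Subtype.ext
  rw [coe_galF, jB, coe_heckeBetaBar, xN_val, coeffMap_qExpand]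
  congr 1
  exact coeffMap_coeffEmb σ jq

/-- `hinL` for the symmetric divisor. -/
theorem galF_mem_L_sym (σ : GQ) {D : Divisor Kb (FN (M * l))} (e : ℕ)
    (hD : ∀ v, D v = max 0 (-(v.ord ((jA M l * jB M l) ^ e)))) {n : ℕ} {x : FN (M * l)}
    (hx : x ∈ riemannRochSpace (n • D)) : galF (M * l) σ x ∈ riemannRochSpace (n • D) :=
  galF_mem_L (M * l) σ (by rw [map_pow, map_mul, galF_jA, galF_jB]) hD hx

/-- `hinL`, in the shape of helper1's (S-b). -/
theorem galF_mem_L_x0 {D : Divisor Kb (FN (M * l))}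
    (hD : ∀ v, D v = max 0 (-(v.ord (x0 M l)))) (σ : GQ) (n : ℕ) (x : FN (M * l))
    (hx : x ∈ riemannRochSpace (n • D)) : galF (M * l) σ x ∈ riemannRochSpace (n • D) :=
  galF_mem_L_sym M l σ l hD hx

end fix

end FAN
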