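import Fermat.Agent.Nodal.ZInvOf
import Fermat.Agent.Nodal.ESide1

/-!
# PROJECT N, (III): (Z-inv) from `NodalGeom` + `Aff` (with (D1) and the genus bound discharged)
-/

set_option autoImplicit false

open AlgebraicCurve Module FA18 FA18.G4
open scoped Classical

namespace FAN

variable {K F k E : Type*} [Field K] [Field F] [Algebra K F] [Field k] [Field E] [Algebra k E]
variable {A : ValuationSubring K} {π : A →+* k} {O1 O2 : ValuationSubring F}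
  {ρ1 : O1 →+* E} {ρ2 : O2 →+* E} {D : Divisor K F} {gF cF gb cb : ℤ}
  {Good1 Good2 : Place k E → Prop}

/-- the arithmetic genus bound contained in `TwistData.dim`. -/
theorem NodalGeom.genus_le (G : NodalGeom A π O1 O2 ρ1 ρ2 D gF cF gb cb) :
    gF ≤ 2 * gb + G.s - 1 := by
  set n : ℕ := max G.n0 cF.toNat with hn
  have hn0 : G.n0 ≤ n := le_max_left _ _
  have hncF : cF ≤ (n : ℤ) := by
    have : cF.toNat ≤ n := le_max_right _ _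
    omega
  have hdegD : 1 ≤ Divisor.degree D := by
    have h1 := G.hdeg1
    have h2 := G.hdeg2
    have h3 := G.hdeg
    omega
  have hdeg : Divisor.degree (n • D) = n * Divisor.degree D := by
    rw [map_nsmul, nsmul_eq_mul]
  have h1 := G.dim n hn0 (n • D) hdeg
  have h2 := G.HF.riemann_eq (n • D) (by
    rw [hdeg]
    have : (0 : ℤ) ≤ n := by positivity
    nlinarith)
  have h3 := G.Hb.riemann (n • G.C1)
  have h4 := G.Hb.riemann (n • G.C2)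
  rw [G.hXL, G.hYL] at h1
  rw [map_nsmul, nsmul_eq_mul] at h3 h4
  rw [hdeg, ← G.hdeg] at h2
  have h1' : (finrank k (riemannRochSpace (n • G.C1)) : ℤ) + finrank k (riemannRochSpace (n • G.C2))
      ≤ finrank K (riemannRochSpace (n • D)) + G.s := by exact_mod_cast h1
  nlinarith

/-- **(Z-inv)** from the geometry of the nodal reduction, final abstract form. -/
theorem NodalGeom.zinv' [IsAlgClosed K] [IsAlgClosed k]
    (G : NodalGeom A π O1 O2 ρ1 ρ2 D gF cF gb cb) (hs : 0 < G.s)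
    (H : Aff A π O1 O2 ρ1 ρ2 D G.C1 G.C2 Good1 Good2)
    (hG1 : ∀ Q, G.C1 Q = 0 → (∀ i, G.Qn i ≠ Q) → Good1 Q)
    (hG2 : ∀ Q, G.C2 Q = 0 → (∀ i, G.Qn' i ≠ Q) → Good2 Q)
    {m : ℕ} (hm : (m : k) ≠ 0) (τ : F →+* F)
    (hτ1 : ∀ x a, Rd O1 ρ1 x a → Rd O1 ρ1 (τ x) a) (hτ2 : ∀ x a, Rd O2 ρ2 x a → Rd O2 ρ2 (τ x) a)
    (hτL : ∀ (n : ℕ) (x : F), x ∈ riemannRochSpace (n • D) → τ x ∈ riemannRochSpace (n • D))
    {u : F} (hu1 : Rd O1 ρ1 u 1) (hu2 : Rd O2 ρ2 u 1)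
    (hdiv : ∀ P : Place K F, (m : ℤ) ∣ P.ord u) (hdivτ : ∀ P : Place K F, (m : ℤ) ∣ P.ord (τ u)) :
    ∃ s : F, s ^ m = τ u * u⁻¹ := by
  set Z : Finset (Place k E) := G.C1.support ∪ G.C2.support ∪ Finset.univ.image G.Qn ∪
    Finset.univ.image G.Qn' with hZ
  have hZ1 : ∀ Q, Q ∉ Z → G.C1 Q = 0 := by
    intro Q hQ
    by_contra h
    exact hQ (by simp [hZ, h])
  have hZ2 : ∀ Q, Q ∉ Z → G.C2 Q = 0 := by
    intro Q hQ
    by_contra h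
    exact hQ (by simp [hZ, h])
  have hZ3 : ∀ Q, Q ∉ Z → ∀ i, G.Qn i ≠ Q := by
    intro Q hQ i h
    exact hQ (by simp [hZ, ← h])
  have hZ4 : ∀ Q, Q ∉ Z → ∀ i, G.Qn' i ≠ Q := by
    intro Q hQ i h
    exact hQ (by simp [hZ, ← h])
  obtain ⟨S1, S2, hd1, hd2, hcard, hLL⟩ := G.exists_S1S2 hs Z
  have hS1Z : ∀ Q ∈ S1, Q ∉ Z := fun Q hQ => Finset.disjoint_left.1 hd1 hQ
  have hS2Z : ∀ Q ∈ S2, Q ∉ Z := fun Q hQ => Finset.disjoint_left.1 hd2 hQ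
  obtain ⟨Qb, hQb⟩ := exists_notMem_of_RFacts G.Hb ⟨G.Qn ⟨0, hs⟩⟩ (S1 ∪ Z)
  have hQbS : Qb ∉ S1 := fun h => hQb (Finset.mem_union_left _ h)
  have hQbZ : Qb ∉ Z := fun h => hQb (Finset.mem_union_right _ h)
  refine G.zinv H hm (S1 := S1) (S2 := S2)
    (fun Q hQ => hG1 Q (hZ1 Q (hS1Z Q hQ)) (hZ3 Q (hS1Z Q hQ)))
    (fun Q hQ => hG2 Q (hZ2 Q (hS2Z Q hQ)) (hZ4 Q (hS2Z Q hQ)))
    (fun Q hQ i => (hZ3 Q (hS1Z Q hQ) i).symm) (fun Q hQ i => (hZ4 Q (hS2Z Q hQ) i).symm)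
    ?_ hLL (hG1 Qb (hZ1 Qb hQbZ) (hZ3 Qb hQbZ)) hQbS τ hτ1 hτ2 hτL hu1 hu2 hdiv hdivτ
  have := G.genus_le
  push_cast
  omega

end FAN
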