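import Fermat.Agent.Gal.ES3
import Fermat.Agent.H5.Frobenius
import Fermat.Agent.Nodal.ZInvOf2

/-!
# PROJECT N, (5)(a)+(b): the Riemann genera of `FN N` and of `FbN k M` are `gN`
-/

set_option autoImplicit false

open AlgebraicCurve IntermediateField ModularCurve FA24 FA18 FA18.M1 FAG

namespace FAN

/-- abstract form: good reduction ⇒ both Riemann genera are `g`. -/
theorem genus_eq_abs {K k : Type*} [Field K] [Field k] [IsAlgClosed K] [IsAlgClosed k]
    {A : ValuationSubring K} {π : A →+* k}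
    {F Fb : Type*} [Field F] [Algebra K F] [Field Fb] [Algebra k Fb] (R : RedData A π F Fb)
    (hF : IsFF K F) (hFb : IsFF k Fb) (g : ℕ)
    (I2 : ∀ B : Divisor K F,
      Divisor.degree B + 1 - g ≤ (Module.finrank K (riemannRochSpace B) : ℤ))
    (I3 : ∃ S : Finset (Place k Fb), S.card = g ∧
      Module.finrank k (riemannRochSpace (sumDiv S)) = 1) :
    FAR.gR hF = g ∧ FAR.gR hFb = g := by
  obtain ⟨cF, HF⟩ := FAR.rfacts_of_isFF hF
  obtain ⟨cb, Hb⟩ := FAR.rfacts_of_isFF hFb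
  obtain ⟨S, hS, hS1⟩ := I3
  have H : DeuringHyp K F k Fb R.O R.ρ g (FAR.gR hF) cF (FAR.gR hFb) cb :=
    { HF := HF
      Hb := Hb
      I2 := I2
      I3 := by
        have h1 := Hb.riemann (sumDiv S)
        rw [hS1, G4.sumDiv_eq_sumPts, G4.degree_sumPts Hb.deg_one, hS] at h1
        push_cast at h1
        omega
      surj := R.ρ_surj
      red := fun V hV => ⟨R.redSub V, fun _ => R.mem_redSub, R.finrank_redSub hF V hV⟩
      FI := R.FI hF }
  obtain ⟨P, -⟩ := (FAR.infinite_places hF).nonempty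
  set n : ℤ := max (max (cb + g) cF) (max cb 0) with hn
  have hn1 : cb + g ≤ n := (le_max_left _ _).trans (le_max_left _ _)
  have hn2 : cF ≤ n := (le_max_right _ _).trans (le_max_left _ _)
  have hn3 : cb ≤ n := (le_max_left _ _).trans (le_max_right _ _)
  have hn4 : 0 ≤ n := (le_max_right _ _).trans (le_max_right _ _)
  set B : Divisor K F := Finsupp.single P n with hB
  have hdeg : Divisor.degree B = n := by
    rw [hB, Divisor.degree_single, HF.deg_one]
    simp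
  have hB0 : 0 ≤ B := by
    rw [hB]
    exact Finsupp.single_nonneg.2 hn4
  obtain ⟨hg, C, -, hCdeg, hred⟩ := H.key B hB0 (by rw [hdeg]; exact hn1)
  have := HF.finDim B
  obtain ⟨W, hW, hWfr⟩ := H.red (riemannRochSpace B) inferInstance
  have hWC : W = riemannRochSpace C := by
    ext yb
    rw [hW, hred]
  rw [hWC] at hWfr
  have h1 := HF.riemann_eq B (by rw [hdeg]; exact hn2)
  have h2 := Hb.riemann_eq C (by rw [hCdeg, hdeg]; exact hn3)
  rw [hWfr, hCdeg] at h2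
  constructor
  · have : (FAR.gR hF : ℤ) = g := by omega
    exact_mod_cast this
  · exact_mod_cast hg

/-- (b) the genus of the reduction at a prime of good reduction. -/
theorem genus_FbN (M : ℕ) [NeZero M] {ℓ : ℕ} [Fact ℓ.Prime] (hℓM : ¬ ℓ ∣ M)
    (hM : auxLevel ℓ ∣ M) (A : ValuationSubring Kb) (hA : A.LiesOverPrime ℓ)
    {k : Type} [Field k] (π : A →+* k) (hπ : Function.Surjective π) {gb cb : ℤ}
    (Hb : RFacts k (FbN k M) gb cb) : gb = gN M := by
  have : IsAlgClosed k := isAlgClosed_of_surj A π hπ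
  obtain ⟨B, H⟩ := exists_hyp1 M hℓM A hA π hπ
  have h := (genus_eq_abs H.redData isFF_FN (isFF_FbN M hℓM A hA π hπ) (gN M)
    (I2 M) (I3 M hℓM A hA π hπ hM)).2
  rw [← gR_eq (isFF_FbN M hℓM A hA π hπ) Hb, h]

theorem genus_FN_aux (M : ℕ) [NeZero M] {ℓ : ℕ} [Fact ℓ.Prime] (hℓM : ¬ ℓ ∣ M)
    (hM : auxLevel ℓ ∣ M) (A : ValuationSubring Kb) (hA : A.LiesOverPrime ℓ)
    {k : Type} [Field k] (π : A →+* k) (hπ : Function.Surjective π) {gF cF : ℤ}
    (HF : RFacts Kb (FN M) gF cF) : gF = gN M := by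
  have : IsAlgClosed k := isAlgClosed_of_surj A π hπ
  obtain ⟨B, H⟩ := exists_hyp1 M hℓM A hA π hπ
  have h := (genus_eq_abs H.redData isFF_FN (isFF_FbN M hℓM A hA π hπ) (gN M)
    (I2 M) (I3 M hℓM A hA π hπ hM)).1
  rw [← gR_eq isFF_FN HF, h]

/-- (a) the genus of `FN N`. -/
theorem genus_FN (N : ℕ) [NeZero N] {gF cF : ℤ} (HF : RFacts Kb (FN N) gF cF) : gF = gN N := by
  obtain ⟨ℓ, hℓ5, hℓ⟩ := Nat.exists_infinite_primes (max 5 (N + 1))
  have h5 : 5 ≤ ℓ := (le_max_left _ _).trans hℓ5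
  have hN : N + 1 ≤ ℓ := (le_max_right _ _).trans hℓ5
  have : Fact ℓ.Prime := ⟨hℓ⟩
  have hℓN : ¬ ℓ ∣ N := fun h => by
    have := Nat.le_of_dvd (Nat.pos_of_ne_zero (NeZero.ne N)) h
    omega
  have haux : auxLevel ℓ ∣ N := by
    unfold auxLevel
    rw [if_neg (by omega), if_neg (by omega)]
    exact one_dvd N
  obtain ⟨A, hA⟩ := FA_h5.exists_liesOverPrime hℓ
  exact genus_FN_aux N hℓN haux A hA (IsLocalRing.residue A) IsLocalRing.residue_surjective HF

/-- the number of nodes is positive. -/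
theorem NodalGeom.s_pos_num (M : ℕ) [NeZero M] {ℓ : ℕ} [Fact ℓ.Prime] [NeZero (M * ℓ)] (hℓM : ¬ ℓ ∣ M)
    (hM : auxLevel ℓ ∣ M) (A : ValuationSubring Kb) (hA : A.LiesOverPrime ℓ)
    {k : Type} [Field k] (π : A →+* k) (hπ : Function.Surjective π)
    {O1 O2 : ValuationSubring (FN (M * ℓ))} {ρ1 : O1 →+* FbN k M} {ρ2 : O2 →+* FbN k M}
    {D : Divisor Kb (FN (M * ℓ))} {gF cF gb cb : ℤ}
    (G : NodalGeom A π O1 O2 ρ1 ρ2 D gF cF gb cb) (hnum : 2 * gN M ≤ gN (M * ℓ)) : 0 < G.s := by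
  have h1 := G.genus_le
  have h2 := genus_FN (M * ℓ) G.HF
  have h3 := genus_FbN M hℓM hM A hA π hπ G.Hb
  have h4 : (2 : ℤ) * gN M ≤ gN (M * ℓ) := by exact_mod_cast hnum
  omega

end FAN
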