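import Fermat.Agent.Nodal.DiscEx

/-!
# PROJECT N, (III)(E): global regularity and gluing of reductions (`Glob`)
-/

set_option autoImplicit false

open AlgebraicCurve Module FA18 FA18.G4

namespace FAN

variable {K F k E : Type*} [Field K] [Field F] [Algebra K F] [Field k] [Field E] [Algebra k E]

section ValAt

variable {Q : Place k E} {a b : E} {c d : k}

theorem zs_add {x y : E} (hx : x = 0 ∨ 0 < Q.ord x) (hy : y = 0 ∨ 0 < Q.ord y) :
    x + y = 0 ∨ 0 < Q.ord (x + y) := by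
  rcases hx with rfl | hx
  · simpa using hy
  rcases hy with rfl | hy
  · simpa using Or.inr hx
  by_cases h : x + y = 0
  · exact Or.inl h
  right
  have hx0 : x ≠ 0 := by rintro rfl; simp at hx
  have hy0 : y ≠ 0 := by rintro rfl; simp at hy
  have := FAFF.min_ord_le_ord_add Q hx0 hy0 h
  omega

theorem zs_mul {x y : E} (hx : x = 0 ∨ 0 < Q.ord x) (hy : 0 ≤ Q.ord y) :
    x * y = 0 ∨ 0 < Q.ord (x * y) := by
  rcases hx with rfl | hx
  · simp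
  rcases eq_or_ne y 0 with rfl | hy0
  · simp
  right
  have hx0 : x ≠ 0 := by rintro rfl; simp at hx
  rw [Q.ord_mul hx0 hy0]
  omega

theorem valAt_iff_g : ValAt Q a c ↔ (a - algebraMap k E c = 0 ∨ 0 < Q.ord (a - algebraMap k E c)) := by
  rw [ValAt, sub_eq_zero]

theorem ValAt.ord_nonneg (h : ValAt Q a c) : 0 ≤ Q.ord a := by
  rcases h with rfl | h
  · rw [FAFF.ord_algebraMap]
  · have := le_ord_sub_const Q le_rfl (-c) h.le
    rwa [map_neg, sub_neg_eq_add, sub_add_cancel] at this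

theorem ValAt.unique_g (h : ValAt Q a c) (h' : ValAt Q a d) : c = d := by
  rw [valAt_iff_g] at h h'
  have h'' : -(a - algebraMap k E c) = 0 ∨ 0 < Q.ord (-(a - algebraMap k E c)) := by
    rw [neg_eq_zero, FAFF.ord_neg]; exact h
  have := zs_add h' h''
  have e : a - algebraMap k E d + -(a - algebraMap k E c) = algebraMap k E (c - d) := by
    rw [map_sub]; ring
  rw [e, FAFF.ord_algebraMap] at this
  rcases this with h0 | h0
  · exact sub_eq_zero.1 ((map_eq_zero (algebraMap k E)).1 h0)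
  · exact absurd h0 (lt_irrefl _)

theorem ValAt.mul (h : ValAt Q a c) (h' : ValAt Q b d) : ValAt Q (a * b) (c * d) := by
  have hb := h'.ord_nonneg
  rw [valAt_iff_g] at h h' ⊢
  have e : a * b - algebraMap k E (c * d)
      = (a - algebraMap k E c) * b + (b - algebraMap k E d) * algebraMap k E c := by
    rw [map_mul]; ring
  rw [e]
  exact zs_add (zs_mul h hb) (zs_mul h' (by rw [FAFF.ord_algebraMap]))

theorem ValAt.ne_zero_of_ord_g (h : ValAt Q a c) (ha : a ≠ 0) (h0 : Q.ord a = 0) : c ≠ 0 := by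
  rintro rfl
  rcases h with h | h
  · exact ha (by simpa using h)
  · rw [map_zero, sub_zero] at h
    omega

end ValAt

variable {A : ValuationSubring K} {π : A →+* k} {O1 O2 : ValuationSubring F}
  {ρ1 : O1 →+* E} {ρ2 : O2 →+* E} {D : Divisor K F} {C1 C2 : Divisor k E}
  {Good1 Good2 : Place k E → Prop}

/-- `P` lies on the disc of a point of `S1` (first component) or `S2` (second component). -/
def InS (π : A →+* k) (O1 O2 : ValuationSubring F) (ρ1 : O1 →+* E) (ρ2 : O2 →+* E)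
    (D : Divisor K F) (S1 S2 : Finset (Place k E)) (P : Place K F) : Prop :=
  (∃ Q ∈ S1, P ∈ disc π O1 O2 ρ1 ρ2 D Q) ∨ (∃ Q ∈ S2, P ∈ disc π O2 O1 ρ2 ρ1 D Q)

theorem InS.swap {S1 S2 : Finset (Place k E)} {P : Place K F}
    (h : InS π O1 O2 ρ1 ρ2 D S1 S2 P) : InS π O2 O1 ρ2 ρ1 D S2 S1 P := Or.symm h

theorem InS.noCusp {S1 S2 : Finset (Place k E)} {P : Place K F}
    (h : InS π O1 O2 ρ1 ρ2 D S1 S2 P) : D P = 0 := by
  rcases h with ⟨Q, -, h⟩ | ⟨Q, -, h⟩ <;> exact h.1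

/-- regularity of the reduction at the points off the cusps and off `S1`. -/
theorem reg_off (H : Aff A π O1 O2 ρ1 ρ2 D C1 C2 Good1 Good2) {gF cF gb cb : ℤ}
    (HF : RFacts K F gF cF) (Hb : RFacts k E gb cb) {S1 S2 : Finset (Place k E)}
    (hS1 : ∀ Q ∈ S1, Good1 Q) (hS2 : ∀ Q ∈ S2, Good2 Q) {ψ : F} {a b : E}
    (h1 : Rd O1 ρ1 ψ a) (h2 : Rd O2 ρ2 ψ b)
    (hp : ∀ P, 0 ≤ P.ord ψ ∨ 0 < D P ∨ InS π O1 O2 ρ1 ρ2 D S1 S2 P)
    {Q' : Place k E} (hQ' : Q' ∉ S1) (hC : C1 Q' = 0) : 0 ≤ Q'.ord a := by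
  refine disc_reg H HF Q' hC ψ a b h1 h2 fun P hP => ?_
  rcases hp P with h | h | ⟨Q, hQ, h⟩ | ⟨Q, hQ, h⟩
  · exact h
  · rw [hP.1] at h; exact absurd h (lt_irrefl _)
  · exact (disc_disjoint11 H Hb (hS1 Q hQ) hC (fun e => hQ' (e ▸ hQ)) h hP).elim
  · exact (disc_disjoint12 H.swap Hb (hS2 Q hQ) hC h hP).elim

theorem exists_exact_killer (H : Aff A π O1 O2 ρ1 ρ2 D C1 C2 Good1 Good2)
    {S1 S2 : Finset (Place k E)} (hS1 : ∀ Q ∈ S1, Good1 Q) (hS2 : ∀ Q ∈ S2, Good2 Q)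
    (w : Place K F → ℕ) (T : Finset (Place K F)) (hT : ∀ P ∈ T, InS π O1 O2 ρ1 ρ2 D S1 S2 P) :
    ∃ (n : ℕ) (e : F) (e1 e2 : E), e ∈ riemannRochSpace (n • D) ∧ Rd O1 ρ1 e e1 ∧
      Rd O2 ρ2 e e2 ∧ e1 ≠ 0 ∧ e2 ≠ 0 ∧
      (∀ Q' : Place k E, C1 Q' ≠ 0 → Q'.ord e1 = -(n * C1 Q')) ∧
      (∀ Q' : Place k E, C2 Q' ≠ 0 → Q'.ord e2 = -(n * C2 Q')) ∧
      ∀ P ∈ T, (w P : ℤ) ≤ P.ord e := by
  classical
  induction T using Finset.induction_on with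
  | empty =>
    exact ⟨0, 1, 1, 1, by rw [zero_smul]; exact one_mem_L le_rfl, Rd.one, Rd.one, one_ne_zero,
      one_ne_zero, by simp, by simp, by simp⟩
  | insert P0 T hP0 ih =>
    obtain ⟨n, e, e1, e2, he, hr1, hr2, he1, he2, hx1, hx2, hw⟩ :=
      ih fun P hP => hT P (Finset.mem_insert_of_mem hP)
    -- a function with exact poles vanishing at `P0`
    obtain ⟨n', t, t1, t2, ht, ht1, ht2, h10, h20, hy1, hy2, hpos⟩ : ∃ (n' : ℕ) (t : F) (t1 t2 : E),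
        t ∈ riemannRochSpace (n' • D) ∧ Rd O1 ρ1 t t1 ∧ Rd O2 ρ2 t t2 ∧ t1 ≠ 0 ∧ t2 ≠ 0 ∧
        (∀ Q' : Place k E, C1 Q' ≠ 0 → Q'.ord t1 = -(n' * C1 Q')) ∧
        (∀ Q' : Place k E, C2 Q' ≠ 0 → Q'.ord t2 = -(n' * C2 Q')) ∧ 0 < P0.ord t := by
      rcases hT P0 (Finset.mem_insert_self _ _) with ⟨Q, hQ, hPQ⟩ | ⟨Q, hQ, hPQ⟩
      · obtain ⟨n', t, t1, t2, -, ht, ht1, ht2, hQt, h20, hy1, hy2, -⟩ :=
          H.sup1 Q (hS1 Q hQ) ∅ ∅ (by simp) (by simp) (by simp)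
        have hA : AffInt O1 O2 ρ1 ρ2 D t t1 t2 := ⟨⟨n', ht⟩, ht1, ht2⟩
        obtain ⟨c, hc, hpos⟩ := hPQ.2 t t1 t2 hA (by omega)
        have h0 := hA.sub_const H.hD H.hB1 H.hB2 c
        rw [hc, map_zero, sub_zero, sub_zero] at h0
        exact ⟨n', _, t1, t2, Submodule.sub_mem _ ht (AffInt.const_mem H.hD n' _), h0.2.1, h0.2.2,
          by rintro rfl; simp at hQt, h20, hy1, hy2, hpos⟩
      · obtain ⟨n', t, t2, t1, -, ht, ht2, ht1, hQt, h10, hy2, hy1, -⟩ :=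
          H.swap.sup1 Q (hS2 Q hQ) ∅ ∅ (by simp) (by simp) (by simp)
        have hA : AffInt O2 O1 ρ2 ρ1 D t t2 t1 := ⟨⟨n', ht⟩, ht2, ht1⟩
        obtain ⟨c, hc, hpos⟩ := hPQ.2 t t2 t1 hA (by omega)
        have h0 := hA.sub_const H.hD H.hB2 H.hB1 c
        rw [hc, map_zero, sub_zero, sub_zero] at h0
        exact ⟨n', _, t1, t2, Submodule.sub_mem _ ht (AffInt.const_mem H.hD n' _), h0.2.2, h0.2.1,
          h10, by rintro rfl; simp at hQt, hy1, hy2, hpos⟩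
    have hene : e ≠ 0 := hr1.ne_zero he1
    have htne : t ≠ 0 := ht1.ne_zero h10
    have hAe : AffInt O1 O2 ρ1 ρ2 D e e1 e2 := ⟨⟨n, he⟩, hr1, hr2⟩
    have hAt : AffInt O1 O2 ρ1 ρ2 D t t1 t2 := ⟨⟨n', ht⟩, ht1, ht2⟩
    refine ⟨n + w P0 * n', e * t ^ w P0, e1 * t1 ^ w P0, e2 * t2 ^ w P0, ?_, hr1.mul (ht1.pow _),
      hr2.mul (ht2.pow _), mul_ne_zero he1 (pow_ne_zero _ h10), mul_ne_zero he2 (pow_ne_zero _ h20),
      fun Q' hQ' => ?_, fun Q' hQ' => ?_, fun P hP => ?_⟩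
    · rw [add_smul, mul_smul]
      exact mul_mem_L he (pow_mem_L ht _)
    · rw [Q'.ord_mul he1 (pow_ne_zero _ h10), ord_pow, hx1 Q' hQ', hy1 Q' hQ']
      push_cast; ring
    · rw [Q'.ord_mul he2 (pow_ne_zero _ h20), ord_pow, hx2 Q' hQ', hy2 Q' hQ']
      push_cast; ring
    · rw [P.ord_mul hene (pow_ne_zero _ htne), ord_pow]
      rcases Finset.mem_insert.1 hP with rfl | hP'
      · have h1 := hAe.ord_nonneg (hT P hP).noCusp
        have : (w P : ℤ) ≤ w P * P.ord t := by nlinarith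
        omega
      · have h1 := hw P hP'
        have h2 := hAt.ord_nonneg (hT P hP).noCusp
        have : (0 : ℤ) ≤ w P0 * P.ord t := by positivity
        omega

/-- regularity of the reduction at the cusps. -/
theorem reg_cusp (H : Aff A π O1 O2 ρ1 ρ2 D C1 C2 Good1 Good2) {gF cF : ℤ}
    (HF : RFacts K F gF cF) {S1 S2 : Finset (Place k E)}
    (hS1 : ∀ Q ∈ S1, Good1 Q) (hS2 : ∀ Q ∈ S2, Good2 Q) {χ : F} {a b : E} {j : ℕ} (hj : 0 < j)
    (h1 : Rd O1 ρ1 χ (a ^ j)) (h2 : Rd O2 ρ2 χ (b ^ j))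
    (hp : ∀ P, 0 ≤ P.ord χ ∨ InS π O1 O2 ρ1 ρ2 D S1 S2 P)
    {Q' : Place k E} (hC : C1 Q' ≠ 0) : 0 ≤ Q'.ord a := by
  classical
  rcases eq_or_ne a 0 with rfl | ha
  · simp
  have hχ : χ ≠ 0 := h1.ne_zero (pow_ne_zero _ ha)
  obtain ⟨Dx, hDx, -⟩ := HF.exists_div χ hχ
  set T : Finset (Place K F) := Dx.support.filter (fun P => Dx P < 0) with hTdef
  obtain ⟨n, e, e1, e2, he, hr1, hr2, he1, he2, hx1, -, hw⟩ := exists_exact_killer H hS1 hS2
    (fun P => (-Dx P).toNat) T (fun P hP => by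
      rw [hTdef, Finset.mem_filter] at hP
      rcases hp P with h | h
      · rw [← hDx] at h; omega
      · exact h)
  have hene : e ≠ 0 := hr1.ne_zero he1
  have hmem : e * χ ∈ riemannRochSpace (n • D) := by
    rw [mem_L_iff (mul_ne_zero hene hχ)]
    intro P
    rw [P.ord_mul hene hχ, ← hDx]
    have h0 := (mem_L_iff hene).1 he P
    by_cases hneg : Dx P < 0
    · have hPT : P ∈ T := by
        rw [hTdef, Finset.mem_filter, Finsupp.mem_support_iff]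
        exact ⟨by omega, hneg⟩
      have h3 := hw P hPT
      have h4 : D P = 0 := by
        rcases hp P with h | h
        · rw [← hDx] at h; omega
        · exact h.noCusp
      rw [Finsupp.smul_apply, h4, smul_zero]
      omega
    · omega
  have h3 := H.red1 n _ _ _ hmem (hr1.mul h1) (hr2.mul h2)
  have h4 := (mem_L_iff (mul_ne_zero he1 (pow_ne_zero _ ha))).1 h3 Q'
  rw [Q'.ord_mul he1 (pow_ne_zero _ ha), ord_pow, hx1 Q' hC, Finsupp.smul_apply, nsmul_eq_mul] at h4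
  have h5 : (0 : ℤ) ≤ j * Q'.ord a := by omega
  have hj' : (0 : ℤ) < j := by exact_mod_cast hj
  by_contra hneg
  push Not at hneg
  nlinarith


section Geom

variable {gF cF gb cb : ℤ} (G : NodalGeom A π O1 O2 ρ1 ρ2 D gF cF gb cb)

theorem NodalGeom.valAt_eg {n : ℕ} {a : E} (ha : a ∈ G.X n) (i : Fin G.s) :
    ValAt (G.Qn i) a (G.toTwistData.e i a) := by
  rw [G.toTwistData.e_eq i (G.hX n a ha)]
  exact G.hev i ⟨a, G.hX n a ha⟩

theorem NodalGeom.valAt_eg' {n : ℕ} {a : E} (ha : a ∈ G.Y n) (i : Fin G.s) :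
    ValAt (G.Qn' i) a (G.toTwistData.e' i a) := by
  rw [G.toTwistData.e'_eq i (G.hY n a ha)]
  exact G.hev' i ⟨a, G.hY n a ha⟩

/-- the reductions of a function with poles on the discs of `S` and at the cusps are glued at the
nodes. -/
theorem glue_node (H : Aff A π O1 O2 ρ1 ρ2 D G.C1 G.C2 Good1 Good2)
    {S1 S2 : Finset (Place k E)} (hS1 : ∀ Q ∈ S1, Good1 Q) (hS2 : ∀ Q ∈ S2, Good2 Q)
    (hn1 : ∀ Q ∈ S1, ∀ i, Q ≠ G.Qn i) (hn2 : ∀ Q ∈ S2, ∀ i, Q ≠ G.Qn' i) {ψ : F} {a b : E}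
    (h1 : Rd O1 ρ1 ψ a) (h2 : Rd O2 ρ2 ψ b)
    (hp : ∀ P, 0 ≤ P.ord ψ ∨ 0 < D P ∨ InS π O1 O2 ρ1 ρ2 D S1 S2 P) (i : Fin G.s) :
    ∃ c, ValAt (G.Qn i) a c ∧ ValAt (G.Qn' i) b c := by
  classical
  have HF := G.HF
  have Hb := G.Hb
  have hresb : HasValues k E := hasValues_of_deg_one Hb.deg_one
  have hres : HasValues K F := hasValues_of_deg_one HF.deg_one
  rcases eq_or_ne ψ 0 with rfl | hψ
  · rw [h1.unique Rd.zero, h2.unique Rd.zero]
    exact ⟨0, Or.inl (by simp), Or.inl (by simp)⟩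
  have hQS : G.Qn i ∉ S1 := fun h => hn1 _ h i rfl
  have hQS' : G.Qn' i ∉ S2 := fun h => hn2 _ h i rfl
  have hra := reg_off H HF Hb hS1 hS2 h1 h2 hp hQS (G.hQn i)
  have hrb := reg_off H.swap HF Hb hS2 hS1 h2 h1
    (fun P => by rcases hp P with h | h | h
                 · exact Or.inl h
                 · exact Or.inr (Or.inl h)
                 · exact Or.inr (Or.inr h.swap)) hQS' (G.hQn' i)
  obtain ⟨c, hc⟩ := hresb _ a hra
  obtain ⟨c', hc'⟩ := hresb _ b hrb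
  have hca : ValAt (G.Qn i) a c := hc
  have hcb : ValAt (G.Qn' i) b c' := hc'
  obtain ⟨Dx, hDx, -⟩ := HF.exists_div ψ hψ
  set T : Finset (Place K F) := Dx.support.filter (fun P => Dx P < 0 ∧ D P = 0) with hTdef
  obtain ⟨e, e1, e2, he, he1, hQe, hw⟩ := exists_prod_killer H.hD H.hB1 H.hB2 hres (G.Qn i)
    (fun P => (-Dx P).toNat) T (fun P hP => by
      rw [hTdef, Finset.mem_filter] at hP
      refine ⟨hP.2.2, fun hPQ => ?_⟩
      rcases hp P with h | h | ⟨Q, hQ, h⟩ | ⟨Q, hQ, h⟩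
      · rw [← hDx] at h; omega
      · rw [hP.2.2] at h; exact lt_irrefl _ h
      · exact disc_disjoint11 H Hb (hS1 Q hQ) (G.hQn i) (hn1 Q hQ i) h hPQ
      · exact disc_disjoint12 H.swap Hb (hS2 Q hQ) (G.hQn i) h hPQ)
  have hene : e ≠ 0 := he.2.1.ne_zero he1
  obtain ⟨n, hn⟩ := exists_mem_L_of_poles HF H.hD (mul_ne_zero hene hψ) (fun P hP => by
    rw [P.ord_mul hene hψ, ← hDx]
    have h0 := he.ord_nonneg hP
    by_cases hneg : Dx P < 0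
    · have hPT : P ∈ T := by
        rw [hTdef, Finset.mem_filter, Finsupp.mem_support_iff]
        exact ⟨by omega, hneg, hP⟩
      have := hw P hPT
      omega
    · omega)
  obtain ⟨hX, hY, hg⟩ := G.toTwistData.red' hn (he.2.1.mul h1) (he.2.2.mul h2)
  obtain ⟨⟨ne, hne⟩, her1, her2⟩ := he
  obtain ⟨hXe, hYe, hge⟩ := G.toTwistData.red' hne her1 her2
  have v1 := (G.valAt_eg hX i).unique_g ((G.valAt_eg hXe i).mul hca)
  have v2 := (G.valAt_eg' hY i).unique_g ((G.valAt_eg' hYe i).mul hcb)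
  have hw0 : G.toTwistData.e i e1 ≠ 0 := (G.valAt_eg hXe i).ne_zero_of_ord_g he1 hQe
  have : c = c' := by
    have h3 := hg i
    rw [v1, v2, ← hge i] at h3
    exact mul_left_cancel₀ hw0 h3
  exact ⟨c, hca, this ▸ hcb⟩

/-- **(Glob)** -/
theorem glob (H : Aff A π O1 O2 ρ1 ρ2 D G.C1 G.C2 Good1 Good2)
    {S1 S2 : Finset (Place k E)} (hS1 : ∀ Q ∈ S1, Good1 Q) (hS2 : ∀ Q ∈ S2, Good2 Q)
    (hn1 : ∀ Q ∈ S1, ∀ i, Q ≠ G.Qn i) (hn2 : ∀ Q ∈ S2, ∀ i, Q ≠ G.Qn' i)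
    (hLL : ∀ a b : E, (∀ P ∉ S1, 0 ≤ P.ord a) → (∀ P ∈ S1, -1 ≤ P.ord a) →
      (∀ P ∉ S2, 0 ≤ P.ord b) → (∀ P ∈ S2, -1 ≤ P.ord b) →
      (∀ i, ∃ c, ValAt (G.Qn i) a c ∧ ValAt (G.Qn' i) b c) →
      ∃ c : k, a = algebraMap k E c ∧ b = algebraMap k E c)
    (a b : E)
    (h1 : ∃ ψ, Rd O1 ρ1 ψ a ∧ Rd O2 ρ2 ψ b ∧
      ∀ P, 0 ≤ P.ord ψ ∨ 0 < D P ∨ InS π O1 O2 ρ1 ρ2 D S1 S2 P)
    (h2 : ∃ j : ℕ, 0 < j ∧ ∃ χ, Rd O1 ρ1 χ (a ^ j) ∧ Rd O2 ρ2 χ (b ^ j) ∧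
      ∀ P, 0 ≤ P.ord χ ∨ InS π O1 O2 ρ1 ρ2 D S1 S2 P)
    (h3 : ∀ Q ∈ S1, -1 ≤ Q.ord a) (h4 : ∀ Q ∈ S2, -1 ≤ Q.ord b) :
    ∃ c : k, a = algebraMap k E c ∧ b = algebraMap k E c := by
  obtain ⟨ψ, hψ1, hψ2, hψp⟩ := h1
  obtain ⟨j, hj, χ, hχ1, hχ2, hχp⟩ := h2
  refine hLL a b (fun Q' hQ' => ?_) h3 (fun Q' hQ' => ?_) h4
    (glue_node G H hS1 hS2 hn1 hn2 hψ1 hψ2 hψp)
  · by_cases hC : G.C1 Q' = 0
    · exact reg_off H G.HF G.Hb hS1 hS2 hψ1 hψ2 hψp hQ' hC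
    · exact reg_cusp H G.HF hS1 hS2 hj hχ1 hχ2 hχp hC
  · by_cases hC : G.C2 Q' = 0
    · exact reg_off H.swap G.HF G.Hb hS2 hS1 hψ2 hψ1
        (fun P => by rcases hψp P with h | h | h
                     · exact Or.inl h
                     · exact Or.inr (Or.inl h)
                     · exact Or.inr (Or.inr h.swap)) hQ' hC
    · exact reg_cusp H.swap G.HF hS2 hS1 hj hχ2 hχ1
        (fun P => by rcases hχp P with h | h
                     · exact Or.inl h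
                     · exact Or.inr h.swap) hC

end Geom

end FAN
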