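/-
PROJECT N, (N-RED), part 2: formal properties of the two reductions of `X₀(M l)` at `l`
(inertia invariance, degeneracy maps, Kronecker elements, weak approximation).
-/
import Fermat.Agent.Gal.RD
import Fermat.Agent.Gal.AL
import Fermat.Agent.Gal.Defs
import Fermat.Agent.Gal.FrobSer
import Fermat.Agent.Red.G4Core
import Fermat.Agent.Red.I3Of

set_option autoImplicit false
set_option linter.unusedSectionVars false

open AlgebraicCurve IntermediateField ModularCurve FA24 FA18 FA18.M1 FA18.G4 FAG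

namespace FAN

/-! ### abstract part: weak approximation for two reductions -/

section Abs

variable {K F k E : Type*} [Field K] [Field F] [Algebra K F] [Field k] [Field E] [Algebra k E]
  {A : ValuationSubring K} {π : A →+* k} {O1 O2 : ValuationSubring F} {ρ1 : O1 →+* E}
  {ρ2 : O2 →+* E}

/-- a constant of positive valuation reduces to `0`. -/
theorem rd_const_zero (hB : GBase A π O1 ρ1) {c : K} (hc : c ∈ A) (hc' : c⁻¹ ∉ A) :
    Rd O1 ρ1 (algebraMap K F c) 0 := by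
  have := hB.const_inv_of_notMem hc'
  rwa [inv_inv] at this

/-- **[APPROX]** -/
theorem exists_approx [IsAlgClosed K] (hB1 : GBase A π O1 ρ1) (hB2 : GBase A π O2 ρ2) {t : F}
    {tb : E} (htb : tb ≠ 0) (h1 : Rd O1 ρ1 t tb) (h2 : Rd O2 ρ2 t 0) :
    ∃ e : F, Rd O1 ρ1 e 1 ∧ Rd O2 ρ2 e 0 := by
  have ht : t ≠ 0 := h1.ne_zero htb
  obtain ⟨c0, hc0, xb, hxb, hx⟩ := hB2.scale t ht
  -- `c0⁻¹` has positive valuation
  have hc0A : c0 ∉ A := by
    intro h
    have := (hB2.const' h).mul h2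
    rw [mul_zero] at this
    exact hxb (hx.unique this)
  obtain ⟨c, hc⟩ := IsAlgClosed.exists_pow_nat_eq c0⁻¹ (n := 2) (by norm_num)
  have hcne : c ≠ 0 := by
    rintro rfl
    rw [zero_pow (by norm_num)] at hc
    exact inv_ne_zero hc0 hc.symm
  have hcinv : c⁻¹ ∉ A := by
    intro h
    apply hc0A
    have : c0 = c⁻¹ * c⁻¹ := by
      rw [← mul_inv, ← sq, hc, inv_inv]
    rw [this]
    exact A.mul_mem _ _ h h
  have hcA : c ∈ A := by
    have := (A.mem_or_inv_mem c⁻¹).resolve_left hcinv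
    rwa [inv_inv] at this
  have hcF : algebraMap K F c ≠ 0 := by simpa using hcne
  -- at `v₁`
  have e1 : Rd O1 ρ1 (t + algebraMap K F c) tb := by
    simpa using h1.add (rd_const_zero hB1 hcA hcinv)
  have e1' : Rd O1 ρ1 (t * (t + algebraMap K F c)⁻¹) 1 := by
    have := h1.mul (e1.inv hB1.surj htb)
    rwa [mul_inv_cancel₀ htb] at this
  -- at `v₂`
  have e2 : Rd O2 ρ2 (t * (algebraMap K F c)⁻¹) 0 := by
    have h3 := hx.mul (rd_const_zero hB2 hcA hcinv)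
    rw [mul_zero] at h3
    refine h3.congr ?_ rfl
    have : algebraMap K F c0 = (algebraMap K F c)⁻¹ * (algebraMap K F c)⁻¹ := by
      rw [← mul_inv, ← sq, ← map_pow, hc, map_inv₀, inv_inv]
    rw [this]
    field_simp
  have e3 : Rd O2 ρ2 (t * (algebraMap K F c)⁻¹ + 1) 1 := by
    simpa using e2.add Rd.one
  have e4 : Rd O2 ρ2 (t * (algebraMap K F c)⁻¹ * (t * (algebraMap K F c)⁻¹ + 1)⁻¹) 0 := by
    have := e2.mul (e3.inv hB2.surj one_ne_zero)
    rwa [zero_mul] at this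
  refine ⟨t * (t + algebraMap K F c)⁻¹, e1', e4.congr ?_ rfl⟩
  have h5 : t + algebraMap K F c ≠ 0 := e1.ne_zero htb
  have h6 : t * (algebraMap K F c)⁻¹ + 1 ≠ 0 := e3.ne_zero one_ne_zero
  field_simp

/-- constants can be prescribed independently at the two valuations. -/
theorem exists_approx_const (hB1 : GBase A π O1 ρ1) (hB2 : GBase A π O2 ρ2) {e : F}
    (h1 : Rd O1 ρ1 e 1) (h2 : Rd O2 ρ2 e 0) (a b : k) :
    ∃ f : F, Rd O1 ρ1 f (algebraMap k E a) ∧ Rd O2 ρ2 f (algebraMap k E b) := by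
  obtain ⟨a', rfl⟩ := hB1.surjπ a
  obtain ⟨b', rfl⟩ := hB1.surjπ b
  refine ⟨algebraMap K F a' * e + algebraMap K F b' * (1 - e), ?_, ?_⟩
  · simpa using ((hB1.const a').mul h1).add ((hB1.const b').mul (Rd.one.sub h1))
  · simpa using ((hB2.const a').mul h2).add ((hB2.const b').mul (Rd.one.sub h2))

/-- arbitrary pairs of elements can be lifted. -/
theorem exists_approx_pair (hB1 : GBase A π O1 ρ1) (hB2 : GBase A π O2 ρ2) {e : F}
    (h1 : Rd O1 ρ1 e 1) (h2 : Rd O2 ρ2 e 0) {x y : F} {a a' b b' : E}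
    (hx1 : Rd O1 ρ1 x a) (hx2 : Rd O2 ρ2 x a') (hy1 : Rd O1 ρ1 y b') (hy2 : Rd O2 ρ2 y b) :
    Rd O1 ρ1 (x * e + y * (1 - e)) a ∧ Rd O2 ρ2 (x * e + y * (1 - e)) b := by
  constructor
  · simpa using (hx1.mul h1).add (hy1.mul (Rd.one.sub h1))
  · simpa using (hx2.mul h2).add (hy2.mul (Rd.one.sub h2))

end Abs

/-! ### the two reductions of `X₀(M l)` -/

section Conc

variable {M l : ℕ} [NeZero M] [NeZero l] [Fact l.Prime] (hlM : ¬ l ∣ M)
  (A : ValuationSubring Kb) (hA : A.LiesOverPrime l)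
  {k : Type} [Field k] (π : A →+* k) (hπ : Function.Surjective π)

/-- `(O1, ρ1)` is the reduction of `q`-expansions at `∞`. -/
def IsInf (O1 : ValuationSubring (FN (M * l))) (ρ1 : O1 →+* FbN k M) : Prop :=
  ∀ (f : FN (M * l)) (a : FbN k M), Rd O1 ρ1 f a ↔
    ((f : LaurentSeries Kb) ∈ WS A π ∧ redFun A π (f : LaurentSeries Kb) = (a : LaurentSeries k))

/-- `(O2, ρ2)` is `(O1, ρ1)` transported by `w`. -/
def IsTwist (w : FN (M * l) → FN (M * l)) (O1 O2 : ValuationSubring (FN (M * l)))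
    (ρ1 : O1 →+* FbN k M) (ρ2 : O2 →+* FbN k M) : Prop :=
  ∀ (f : FN (M * l)) (a : FbN k M), Rd O2 ρ2 f a ↔ Rd O1 ρ1 (w f) a

variable {A π}

include hπ in
/-- inertia acts trivially on reductions of `q`-expansions. -/
theorem WS_inertia {σ : GQ} (hσ : σ ∈ A.inertiaSubgroupIn ℚ) {f : LaurentSeries Kb}
    (hf : f ∈ WS A π) :
    coeffMap (σ : Kb →+* Kb) f ∈ WS A π ∧
      redFun A π (coeffMap (σ : Kb →+* Kb) f) = redFun A π f := by
  have hd := FAUnram.inertia_le_decomposition A hσ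
  have := WS_coeffMap (σ : Kb →+* Kb) (fun a ha => FAUnram.mem_of_mem_decomposition A hd ha)
    (RingHom.id k) (fun a => (map_inertia hπ hσ a _).symm) hf
  rwa [coeffMap_id] at this

include hπ in
/-- **(T1)** at `∞` -/
theorem IsInf.inertia {O1 : ValuationSubring (FN (M * l))} {ρ1 : O1 →+* FbN k M}
    (h1 : IsInf A π O1 ρ1) {σ : GQ} (hσ : σ ∈ A.inertiaSubgroupIn ℚ) (x : FN (M * l))
    (a : FbN k M) (hx : Rd O1 ρ1 x a) : Rd O1 ρ1 (galF (M * l) σ x) a := by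
  rw [h1] at hx ⊢
  rw [coe_galF]
  obtain ⟨e1, e2⟩ := WS_inertia hπ hσ hx.1
  exact ⟨e1, e2.trans hx.2⟩

/-- the Atkin-Lehner involution commutes with the Galois action. -/
theorem galF_comm_w (w : FN (M * l) ≃ₐ[Kb] FN (M * l))
    (hwα : ∀ f, w (heckeAlphaBar Kb M l f) = heckeBetaBar Kb M l f)
    (hwβ : ∀ f, w (heckeBetaBar Kb M l f) = heckeAlphaBar Kb M l f) (σ : GQ) (x : FN (M * l)) :
    w (galF (M * l) σ x) = galF (M * l) σ (w x) := by
  have hα : ∀ f : FN M, galF (M * l) σ (heckeAlphaBar Kb M l f) =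
      heckeAlphaBar Kb M l (galF M σ f) := by
    intro f
    apply Subtype.ext
    rw [coe_galF, coe_heckeAlphaBar, coe_heckeAlphaBar, coe_galF]
  have hβ : ∀ f : FN M, galF (M * l) σ (heckeBetaBar Kb M l f) =
      heckeBetaBar Kb M l (galF M σ f) := by
    intro f
    apply Subtype.ext
    rw [coe_galF, coe_heckeBetaBar, coe_heckeBetaBar, coe_galF, coeffMap_qExpand]
  induction x using FK_induction with
  | hc a =>
    rw [galF_algebraMap, AlgEquiv.commutes, AlgEquiv.commutes, galF_algebraMap]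
  | hJ d hd hdN =>
    obtain ⟨d', hd', h | h⟩ := Dv_cases (N := M) (Fact.out : l.Prime) ⟨d, hdN⟩
    · have h' : d = d' := h
      subst h'
      have e : JK Kb (M * l) hdN = heckeAlphaBar Kb M l (JK Kb M hd') :=
        (heckeAlphaBar_JK Kb hd').symm
      rw [e, hα, hwα, hwα, hβ]
    · have h' : d = l * d' := h
      subst h'
      have : NeZero d' := ⟨fun h0 => NeZero.ne (l * d') (by rw [h0, mul_zero])⟩
      have e : JK Kb (M * l) hdN = heckeBetaBar Kb M l (JK Kb M hd') :=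
        (heckeBetaBar_JK Kb hd').symm
      rw [e, hβ, hwβ, hwβ, hα]
  | hadd f g hf hg => rw [map_add, map_add, hf, hg, map_add, map_add]
  | hneg f hf => rw [map_neg, map_neg, hf, map_neg, map_neg]
  | hmul f g hf hg => rw [map_mul, map_mul, hf, hg, map_mul, map_mul]
  | hinv f hf => rw [map_inv₀, map_inv₀, hf, map_inv₀, map_inv₀]

include hπ in
/-- **(T1)** at `0` -/
theorem IsTwist.inertia {O1 O2 : ValuationSubring (FN (M * l))} {ρ1 : O1 →+* FbN k M}
    {ρ2 : O2 →+* FbN k M} (h1 : IsInf A π O1 ρ1) (w : FN (M * l) ≃ₐ[Kb] FN (M * l))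
    (hwα : ∀ f, w (heckeAlphaBar Kb M l f) = heckeBetaBar Kb M l f)
    (hwβ : ∀ f, w (heckeBetaBar Kb M l f) = heckeAlphaBar Kb M l f)
    (h2 : IsTwist w O1 O2 ρ1 ρ2) {σ : GQ} (hσ : σ ∈ A.inertiaSubgroupIn ℚ) (x : FN (M * l))
    (a : FbN k M) (hx : Rd O2 ρ2 x a) : Rd O2 ρ2 (galF (M * l) σ x) a := by
  rw [h2] at hx ⊢
  rw [galF_comm_w w hwα hwβ]
  exact h1.inertia hπ hσ _ _ hx

/-- the reduction at level `M` in relational form -/
theorem rd_RDN_iff (f : FN M) (a : FbN k M) :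
    Rd (RDN M hlM A hA π hπ).O (RDN M hlM A hA π hπ).ρ f a ↔
      ((f : LaurentSeries Kb) ∈ WS A π ∧
        redFun A π (f : LaurentSeries Kb) = (a : LaurentSeries k)) := by
  constructor
  · rintro ⟨h, rfl⟩
    exact ⟨h, rfl⟩
  · rintro ⟨h, e⟩
    exact ⟨h, Subtype.ext e⟩

section frob

variable [CharP k l] [PerfectRing k l]

end frob
end Conc

/-- the inverse Frobenius of `k` -/
noncomputable def Sinv (k : Type) [Field k] (l : ℕ) [Fact l.Prime] [CharP k l] [PerfectRing k l] :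
    k →+* k := ((frobeniusEquiv k l).symm : k ≃+* k)

/-- `B(x) = (S⁻¹ x) ^ l`, i.e. the substitution `q ↦ q ^ l`. -/
noncomputable def BB {k : Type} [Field k] (l : ℕ) [Fact l.Prime] [CharP k l] [PerfectRing k l]
    {M : ℕ} (a : FbN k M) : FbN k M := (galB (Sinv k l) M a) ^ l

section Conc

variable {M l : ℕ} [NeZero M] [NeZero l] [Fact l.Prime] (hlM : ¬ l ∣ M)
  {A : ValuationSubring Kb} (hA : A.LiesOverPrime l)
  {k : Type} [Field k] {π : A →+* k} (hπ : Function.Surjective π)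

section frob

variable [CharP k l] [PerfectRing k l]

lemma frobenius_Sinv (a : k) : frobenius k l (Sinv k l a) = a :=
  frobenius_apply_frobeniusEquiv_symm k l a

lemma coe_BB (a : FbN k M) : ((BB l a : FbN k M) : LaurentSeries k) =
    qExpand k l (a : LaurentSeries k) := by
  rw [BB]
  push_cast
  rw [coe_galB, pow_char_eq_qExpand l, coeffMap_coeffMap]
  congr 1
  have : (frobenius k l).comp (Sinv k l) = RingHom.id k := RingHom.ext frobenius_Sinv
  rw [this, coeffMap_id]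

end frob

variable {O1 O2 : ValuationSubring (FN (M * l))} {ρ1 : O1 →+* FbN k M} {ρ2 : O2 →+* FbN k M}

/-- **(T2)** -/
theorem IsInf.alpha (h1 : IsInf A π O1 ρ1) {f : FN M} {a : FbN k M}
    (hf : Rd (RDN M hlM A hA π hπ).O (RDN M hlM A hA π hπ).ρ f a) :
    Rd O1 ρ1 (heckeAlphaBar Kb M l f) a := by
  rw [rd_RDN_iff] at hf
  rw [h1, coe_heckeAlphaBar]
  exact hf

/-- **(T3)** -/
theorem IsInf.beta [CharP k l] [PerfectRing k l] (h1 : IsInf A π O1 ρ1) {f : FN M} {a : FbN k M}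
    (hf : Rd (RDN M hlM A hA π hπ).O (RDN M hlM A hA π hπ).ρ f a) :
    Rd O1 ρ1 (heckeBetaBar Kb M l f) (BB l a) := by
  rw [rd_RDN_iff] at hf
  rw [h1, coe_heckeBetaBar, coe_BB]
  obtain ⟨e1, e2⟩ := WS_qExpand l hf.1
  exact ⟨e1, by rw [e2, hf.2]⟩

section tw

variable (w : FN (M * l) ≃ₐ[Kb] FN (M * l))
    (hwα : ∀ f, w (heckeAlphaBar Kb M l f) = heckeBetaBar Kb M l f)
    (hwβ : ∀ f, w (heckeBetaBar Kb M l f) = heckeAlphaBar Kb M l f)

include hwα in
theorem IsTwist.alpha [CharP k l] [PerfectRing k l] (h1 : IsInf A π O1 ρ1)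
    (h2 : IsTwist w O1 O2 ρ1 ρ2) {f : FN M} {a : FbN k M}
    (hf : Rd (RDN M hlM A hA π hπ).O (RDN M hlM A hA π hπ).ρ f a) :
    Rd O2 ρ2 (heckeAlphaBar Kb M l f) (BB l a) := by
  rw [h2, hwα]
  exact h1.beta hlM hA hπ hf

include hwβ in
theorem IsTwist.beta (h1 : IsInf A π O1 ρ1)
    (h2 : IsTwist w O1 O2 ρ1 ρ2) {f : FN M} {a : FbN k M}
    (hf : Rd (RDN M hlM A hA π hπ).O (RDN M hlM A hA π hπ).ρ f a) :
    Rd O2 ρ2 (heckeBetaBar Kb M l f) a := by
  rw [h2, hwβ]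
  exact h1.alpha hlM hA hπ hf

include hwα hwβ in
/-- **(T4)** the Kronecker elements. -/
theorem kronecker [CharP k l] [PerfectRing k l] (h1 : IsInf A π O1 ρ1)
    (h2 : IsTwist w O1 O2 ρ1 ρ2) {f f' : FN M} {a : FbN k M}
    (hf : Rd (RDN M hlM A hA π hπ).O (RDN M hlM A hA π hπ).ρ f a)
    (hf' : Rd (RDN M hlM A hA π hπ).O (RDN M hlM A hA π hπ).ρ f' (galB (Sinv k l) M a)) :
    Rd O1 ρ1 (heckeAlphaBar Kb M l f - (heckeBetaBar Kb M l f') ^ l)
        (a - (galB (Sinv k l) M (galB (Sinv k l) M a)) ^ (l ^ 2)) ∧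
      Rd O2 ρ2 (heckeAlphaBar Kb M l f - (heckeBetaBar Kb M l f') ^ l) 0 := by
  constructor
  · have := (h1.alpha hlM hA hπ hf).sub ((h1.beta hlM hA hπ hf').pow l)
    rwa [BB, ← pow_mul, ← sq] at this
  · have := (IsTwist.alpha hlM hA hπ w hwα h1 h2 hf).sub
      ((IsTwist.beta hlM hA hπ w hwβ h1 h2 hf').pow l)
    rwa [BB, sub_self] at this

include hlM hA hπ hwα hwβ in
/-- **(T5)** `[APPROX]` for the two reductions. -/
theorem exists_e [CharP k l] [PerfectRing k l] (hB1 : GBase A π O1 ρ1) (hB2 : GBase A π O2 ρ2)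
    (h1 : IsInf A π O1 ρ1) (h2 : IsTwist w O1 O2 ρ1 ρ2) :
    ∃ e : FN (M * l), Rd O1 ρ1 e 1 ∧ Rd O2 ρ2 e 0 := by
  set R := RDN M hlM A hA π hπ with hR
  let a : FbN k M := ⟨jqModC k, jqModC_mem_full k M⟩
  obtain ⟨f, hf⟩ := R.ρ_surj a
  obtain ⟨f', hf'⟩ := R.ρ_surj (galB (Sinv k l) M a)
  obtain ⟨e1, e2⟩ := kronecker hlM hA hπ w hwα hwβ h1 h2 (f := f) (f' := f') (a := a)
    ⟨f.2, hf⟩ ⟨f'.2, hf'⟩
  refine exists_approx hB1 hB2 ?_ e1 e2
  intro h0
  have hS : galB (Sinv k l) M a = a := Subtype.ext (by rw [coe_galB]; exact coeffMap_jqModC _)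
  rw [hS, hS] at h0
  have h3 := congrArg (fun x : FbN k M => (x : LaurentSeries k).coeff (-((l ^ 2 : ℕ) : ℤ))) h0
  have h4 : ((a - a ^ (l ^ 2) : FbN k M) : LaurentSeries k) = jqModC k ^ 1 - jqModC k ^ (l ^ 2) := by
    rw [pow_one]; rfl
  have hl : 2 ≤ l := (Fact.out : l.Prime).two_le
  have h5 : (-((l ^ 2 : ℕ) : ℤ)) < -((1 : ℕ) : ℤ) := by
    have : 1 < l ^ 2 := by nlinarith
    omega
  have h6 : ((a - a ^ (l ^ 2) : FbN k M) : LaurentSeries k).coeff (-((l ^ 2 : ℕ) : ℤ)) = 0 := h3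
  rw [h4, HahnSeries.coeff_sub, coeff_jqModC_pow_of_lt k h5, coeff_jqModC_pow_self] at h6
  simp at h6

end tw

end Conc

end FAN
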