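import Fermat.Agent.Nodal.CuspL
import Fermat.Agent.Nodal.RedTau

/-!
# PROJECT N: the Galois action preserves `L(n • D)` for `D = m0 • (Dj + Djw)`.
-/

set_option autoImplicit false

open AlgebraicCurve IntermediateField ModularCurve FA24 FA18 FA18.St2 FAG Module

namespace FAN

variable {M l : ℕ} [NeZero M] [NeZero l] [Fact l.Prime]

theorem galF_xN_h (N : ℕ) (σ : GQ) : galF N σ (xN N) = xN N := by
  apply Subtype.ext
  rw [coe_galF, xN_val, coeffMap_coeffEmb]

theorem galF_jA_h (σ : GQ) : galF (M * l) σ (jA M l) = jA M l := by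
  apply Subtype.ext
  rw [coe_galF, jA, coe_heckeAlphaBar, xN_val, coeffMap_coeffEmb]

theorem galF_jB_h (σ : GQ) : galF (M * l) σ (jB M l) = jB M l := by
  apply Subtype.ext
  rw [coe_galF, jB, coe_heckeBetaBar, coeffMap_qExpand, xN_val, coeffMap_coeffEmb]

/-- **hinL** -/
theorem hinL {Dj Djw : Divisor Kb (FN (M * l))} (hDj : ∀ v, Dj v = max 0 (-(v.ord (jA M l))))
    (hDjw : ∀ v, Djw v = max 0 (-(v.ord (jB M l)))) (m0 : ℕ) (σ : GQ) (n : ℕ) (x : FN (M * l))
    (hx : x ∈ riemannRochSpace (n • (m0 • (Dj + Djw)))) :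
    galF (M * l) σ x ∈ riemannRochSpace (n • (m0 • (Dj + Djw))) := by
  rcases eq_or_ne x 0 with rfl | hx0
  · rw [map_zero]
    exact Submodule.zero_mem _
  have hgx0 : galF (M * l) σ x ≠ 0 := by
    rw [Ne, map_eq_zero_iff _ (galF (M * l) σ).injective]
    exact hx0
  rw [mem_L_iff hx0] at hx
  rw [mem_L_iff hgx0]
  intro P
  rw [ord_galF]
  set P' := (arithmeticGalois (L := Kb) (modularFunctionFieldFull (M * l)) σ)⁻¹ • P with hP'
  have h := hx P'
  have e1 : Dj P' = Dj P := by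
    rw [hDj, hDj, hP', ← ord_galF, galF_jA_h]
  have e2 : Djw P' = Djw P := by
    rw [hDjw, hDjw, hP', ← ord_galF, galF_jB_h]
  simp only [Finsupp.smul_apply, Finsupp.add_apply] at h ⊢
  rw [e1, e2] at h
  exact h

end FAN
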