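/-
PROJECT N: genus numerics, `2 g(M) ≤ g(M l)` for a prime `l ∤ M`.
-/
import Fermat.Agent.Genus.Final
import Fermat.Agent.Genus.CardCoset
import Fermat.Agent.Red.ModDefs

set_option autoImplicit false

open ModularCurve

namespace FAN

theorem cuspCount_mul_prime (N p : ℕ) (hN : N ≠ 0) (hp : p.Prime) (hpN : ¬ p ∣ N) :
    cuspCount (N * p) = 2 * cuspCount N := by
  unfold cuspCount
  rw [← Finset.sum_filter_add_sum_filter_not (N * p).divisors (fun d => p ∣ d)]
  have hcop : ∀ d, d ∣ N → Nat.Coprime d p := fun d hd =>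
    Nat.Coprime.symm ((Nat.Prime.coprime_iff_not_dvd hp).mpr fun h => hpN (h.trans hd))
  have h1 : ∑ d ∈ (N * p).divisors.filter (fun d => p ∣ d), Nat.totient (Nat.gcd d (N * p / d))
      = ∑ d ∈ N.divisors, Nat.totient (Nat.gcd d (N / d)) := by
    symm
    refine Finset.sum_bij (fun d _ => d * p) ?_ ?_ ?_ ?_
    · intro d hd
      simp only [Finset.mem_filter, Nat.mem_divisors] at hd ⊢
      exact ⟨⟨mul_dvd_mul_right hd.1 p, mul_ne_zero hN hp.ne_zero⟩, Dvd.intro_left d rfl⟩
    · intro a _ b _ h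
      exact Nat.eq_of_mul_eq_mul_right hp.pos h
    · intro d hd
      simp only [Finset.mem_filter, Nat.mem_divisors] at hd
      obtain ⟨⟨hd1, -⟩, d', rfl⟩ := hd
      refine ⟨d', ?_, mul_comm _ _⟩
      simp only [Nat.mem_divisors]
      refine ⟨?_, hN⟩
      rw [mul_comm N p] at hd1
      exact Nat.dvd_of_mul_dvd_mul_left hp.pos hd1
    · intro d hd
      simp only [Nat.mem_divisors] at hd
      rw [Nat.mul_div_mul_right _ _ hp.pos]
      congr 1
      have h2 : Nat.Coprime (N / d) p := hcop _ (Nat.div_dvd_of_dvd hd.1)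
      rw [Nat.gcd_comm (d * p), Nat.Coprime.gcd_mul_right_cancel_right d h2.symm, Nat.gcd_comm]
  have h2 : ∑ d ∈ (N * p).divisors.filter (fun d => ¬ p ∣ d), Nat.totient (Nat.gcd d (N * p / d))
      = ∑ d ∈ N.divisors, Nat.totient (Nat.gcd d (N / d)) := by
    have hset : (N * p).divisors.filter (fun d => ¬ p ∣ d) = N.divisors := by
      ext d
      simp only [Finset.mem_filter, Nat.mem_divisors]
      constructor
      · rintro ⟨⟨hd, -⟩, hpd⟩
        refine ⟨?_, hN⟩
        exact Nat.Coprime.dvd_of_dvd_mul_right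
          (Nat.Coprime.symm ((Nat.Prime.coprime_iff_not_dvd hp).mpr hpd)) hd
      · rintro ⟨hd, -⟩
        exact ⟨⟨hd.mul_right p, mul_ne_zero hN hp.ne_zero⟩, fun h => hpN (h.trans hd)⟩
    rw [hset]
    refine Finset.sum_congr rfl fun d hd => ?_
    simp only [Nat.mem_divisors] at hd
    congr 1
    rw [mul_comm N p, Nat.mul_div_assoc _ hd.1, mul_comm p]
    exact Nat.Coprime.gcd_mul_right_cancel_right (N / d) (hcop d hd.1).symm
  rw [h1, h2]
  ring

/-- a monic quadratic equation has at most two solutions in a field. -/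
theorem card_quad_le (F : Type*) [Field F] [Finite F] (b c : F) :
    Nat.card {x : F // x ^ 2 + b * x + c = 0} ≤ 2 := by
  classical
  set P : Polynomial F := Polynomial.X ^ 2 + Polynomial.C b * Polynomial.X + Polynomial.C c with hP
  have hdeg : P.natDegree = 2 := by
    rw [hP]; compute_degree!
  have hP0 : P ≠ 0 := by
    intro h
    rw [h] at hdeg
    simp at hdeg
  have hinj : Function.Injective
      (fun x : {x : F // x ^ 2 + b * x + c = 0} => (⟨x.1, by
        rw [Multiset.mem_toFinset, Polynomial.mem_roots hP0, Polynomial.IsRoot.def, hP]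
        simpa using x.2⟩ : ↥P.roots.toFinset)) := by
    intro x y h
    exact Subtype.ext (congrArg (fun z : ↥P.roots.toFinset => (z : F)) h)
  have h1 := Nat.card_le_card_of_injective _ hinj
  rw [Nat.card_eq_fintype_card (α := ↥P.roots.toFinset), Fintype.card_coe] at h1
  calc _ ≤ P.roots.toFinset.card := h1
    _ ≤ Multiset.card P.roots := Multiset.toFinset_card_le _
    _ ≤ P.natDegree := Polynomial.card_roots' P
    _ = 2 := hdeg

/-- solutions of a quadratic equation with integer coefficients modulo `N p`. -/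
theorem card_quad_mul_le (N p : ℕ) [NeZero N] (hp : p.Prime) (hpN : ¬ p ∣ N) (b c : ℤ) :
    Nat.card {x : ZMod (N * p) // x ^ 2 + (b : ZMod (N * p)) * x + (c : ZMod (N * p)) = 0} ≤
      2 * Nat.card {x : ZMod N // x ^ 2 + (b : ZMod N) * x + (c : ZMod N) = 0} := by
  classical
  have : Fact p.Prime := ⟨hp⟩
  have : NeZero (N * p) := ⟨mul_ne_zero (NeZero.ne N) hp.ne_zero⟩
  have hcop : Nat.Coprime N p :=
    Nat.Coprime.symm ((Nat.Prime.coprime_iff_not_dvd hp).mpr hpN)
  let e := ZMod.chineseRemainder hcop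
  have hmap : ∀ x : ZMod (N * p), x ^ 2 + (b : ZMod (N * p)) * x + (c : ZMod (N * p)) = 0 →
      (e x).1 ^ 2 + (b : ZMod N) * (e x).1 + (c : ZMod N) = 0 ∧
      (e x).2 ^ 2 + (b : ZMod p) * (e x).2 + (c : ZMod p) = 0 := by
    intro x hx
    have h := congrArg e hx
    rw [map_add, map_add, map_mul, map_pow, map_intCast, map_intCast, map_zero] at h
    exact ⟨congrArg Prod.fst h, congrArg Prod.snd h⟩
  have hinj : Function.Injective
      (fun x : {x : ZMod (N * p) // x ^ 2 + (b : ZMod (N * p)) * x + (c : ZMod (N * p)) = 0} =>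
        ((⟨(e x.1).1, (hmap x.1 x.2).1⟩, ⟨(e x.1).2, (hmap x.1 x.2).2⟩) :
          {x : ZMod N // x ^ 2 + (b : ZMod N) * x + (c : ZMod N) = 0} ×
          {x : ZMod p // x ^ 2 + (b : ZMod p) * x + (c : ZMod p) = 0})) := by
    intro x y h
    apply Subtype.ext
    apply e.injective
    have h1 := congrArg (fun z => (z.1 : ZMod N)) h
    have h2 := congrArg (fun z => (z.2 : ZMod p)) h
    exact Prod.ext h1 h2
  have h1 := Nat.card_le_card_of_injective _ hinj
  rw [Nat.card_prod] at h1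
  have h2 := card_quad_le (ZMod p) (b : ZMod p) (c : ZMod p)
  calc _ ≤ _ := h1
    _ ≤ Nat.card {x : ZMod N // x ^ 2 + (b : ZMod N) * x + (c : ZMod N) = 0} * 2 :=
      Nat.mul_le_mul_left _ h2
    _ = _ := mul_comm _ _

theorem nuTwo_mul_le (N p : ℕ) [NeZero N] (hp : p.Prime) (hpN : ¬ p ∣ N) :
    nuTwo (N * p) ≤ 2 * nuTwo N := by
  have := card_quad_mul_le N p hp hpN 0 1
  simpa [nuTwo] using this

theorem nuThree_mul_le (N p : ℕ) [NeZero N] (hp : p.Prime) (hpN : ¬ p ∣ N) :
    nuThree (N * p) ≤ 2 * nuThree N := by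
  have := card_quad_mul_le N p hp hpN 1 1
  simpa [nuThree] using this

/-- **genus numerics**: `2 g(M) ≤ g(M l)`. -/
theorem two_gN_le (M l : ℕ) [NeZero M] (hl : l.Prime) (hlM : ¬ l ∣ M) :
    2 * FA18.gN M ≤ FA18.gN (M * l) := by
  have : NeZero (M * l) := ⟨mul_ne_zero (NeZero.ne M) hl.ne_zero⟩
  have h1 : (FA18.gN M : ℚ) = genusFormula M := FAGenus.finrank_cusp_two M
  have h2 : (FA18.gN (M * l) : ℚ) = genusFormula (M * l) := FAGenus.finrank_cusp_two (M * l)
  have hψ := FAGenus.dedekindPsi_mul_of_not_dvd M l (NeZero.ne M) hl hlM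
  have hc := cuspCount_mul_prime M l (NeZero.ne M) hl hlM
  have hn2 : (nuTwo (M * l) : ℚ) ≤ 2 * nuTwo M := by exact_mod_cast nuTwo_mul_le M l hl hlM
  have hn3 : (nuThree (M * l) : ℚ) ≤ 2 * nuThree M := by exact_mod_cast nuThree_mul_le M l hl hlM
  have hψ0 : (0 : ℚ) ≤ dedekindPsi M := by positivity
  have hl2 : (2 : ℚ) ≤ l := by exact_mod_cast hl.two_le
  have key : (2 * FA18.gN M : ℚ) - 1 ≤ FA18.gN (M * l) := by
    rw [h1, h2, genusFormula, genusFormula, hψ, hc]
    push_cast
    nlinarith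
  have hψpos : (0 : ℚ) < dedekindPsi M := by
    have : 0 < dedekindPsi M := by
      rw [← FAGenus.index_Gamma0 M (NeZero.ne M)]
      exact Nat.pos_of_ne_zero (Subgroup.FiniteIndex.index_ne_zero)
    exact_mod_cast this
  have key' : (2 * FA18.gN M : ℚ) - 1 < FA18.gN (M * l) := by
    rw [h1, h2, genusFormula, genusFormula, hψ, hc]
    push_cast
    nlinarith
  have : (2 * FA18.gN M : ℤ) - 1 < FA18.gN (M * l) := by exact_mod_cast key'
  omega

end FAN
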