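import Fermat.Agent.Nodal.RedAbs2
import Fermat.Agent.Nodal.RedTau
import Fermat.Agent.Red.M1D

/-!
# PROJECT N, [N-RED], concrete part: the two reductions of `X₀(M l)` at `l`.
-/

set_option autoImplicit false
set_option linter.unusedSectionVars false

open AlgebraicCurve ModularCurve Module IntermediateField FA24 FA18 FA18.M1 FA18.G4 FAG FAIg

noncomputable section

namespace FAN

attribute [-instance] HahnSeries.instModule HahnSeries.instSMul HahnSeries.instSMulZeroClass
  HahnSeries.instDistribMulAction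

theorem pair_li {k L : Type*} [Field k] [Field L] [Algebra k L] {l : ℕ} (hl : 0 < l) {n' : ℕ}
    (yb tb : L) (htb : tb ≠ 0) (bb : Fin n' → L) (cc : ℕ × Fin n' → L)
    (hG : LinearIndependent k (fun p : ℕ × Fin n' => yb ^ p.1 * bb p.2)) :
    LinearIndependent k (fun p : ℕ × ((Fin l × Fin n') ⊕ Fin n') =>
      (Sum.elim (fun q : Fin l × Fin n' =>
          (((yb ^ l) ^ p.1 * (tb * (yb ^ (q.1 : ℕ) * bb q.2)), (0 : L)) : L × L))
        (fun i => (cc (p.1, i), yb ^ p.1 * bb i)) p.2)) := by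
  set G : ℕ × Fin n' → L := fun p => yb ^ p.1 * bb p.2 with hGdef
  let φ := Equiv.prodSumDistrib ℕ (Fin l × Fin n') (Fin n')
  rw [← linearIndependent_equiv φ.symm]
  let v1 : ℕ × (Fin l × Fin n') → L × L := fun x => (tb * G (l * x.1 + x.2.1, x.2.2), 0)
  let v2 : ℕ × Fin n' → L × L := fun x => (cc x, G x)
  have hfun : ((fun p : ℕ × ((Fin l × Fin n') ⊕ Fin n') =>
      (Sum.elim (fun q : Fin l × Fin n' =>
          (((yb ^ l) ^ p.1 * (tb * (yb ^ (q.1 : ℕ) * bb q.2)), (0 : L)) : L × L))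
        (fun i => (cc (p.1, i), yb ^ p.1 * bb i)) p.2)) ∘ φ.symm) = Sum.elim v1 v2 := by
    funext x
    rcases x with ⟨e, a, i⟩ | ⟨e, i⟩
    · show (((yb ^ l) ^ e * (tb * (yb ^ (a : ℕ) * bb i)), (0 : L)) : L × L) =
        (tb * (yb ^ (l * e + a) * bb i), 0)
      rw [pow_add, pow_mul]
      congr 1
      ring
    · rfl
  rw [hfun]
  have hψ : Function.Injective (fun x : ℕ × (Fin l × Fin n') => ((l * x.1 + x.2.1, x.2.2) : ℕ × Fin n')) := by
    rintro ⟨e, a, i⟩ ⟨e', a', i'⟩ h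
    simp only [Prod.mk.injEq] at h
    obtain ⟨h1, h2⟩ := h
    have ha := a.2
    have ha' := a'.2
    have he : e = e' := by
      have e1 : (l * e + a) / l = e := by
        rw [Nat.mul_add_div hl, Nat.div_eq_of_lt ha, add_zero]
      have e2 : (l * e' + a') / l = e' := by
        rw [Nat.mul_add_div hl, Nat.div_eq_of_lt ha', add_zero]
      rw [← e1, ← e2, h1]
    subst he
    have : (a : ℕ) = a' := by omega
    rw [Fin.ext this, h2]
  have h1 : LinearIndependent k v1 := by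
    have h := (hG.comp _ hψ).map' ((LinearMap.inl k L L) ∘ₗ (LinearMap.mulLeft k tb)) (by
      rw [LinearMap.ker_eq_bot]
      intro x y hxy
      simp only [LinearMap.coe_comp, Function.comp_apply, LinearMap.mulLeft_apply,
        LinearMap.inl_apply, Prod.mk.injEq, and_true] at hxy
      exact mul_left_cancel₀ htb hxy)
    exact h
  have h2 : LinearIndependent k v2 := by
    apply LinearIndependent.of_comp (LinearMap.snd k L L)
    exact hG
  refine LinearIndependent.sum_type h1 h2 ?_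
  rw [Submodule.disjoint_def]
  intro z hz1 hz2
  have hz : z.2 = 0 := by
    have hle : Submodule.span k (Set.range v1) ≤ LinearMap.ker (LinearMap.snd k L L) := by
      rw [Submodule.span_le]
      rintro _ ⟨x, rfl⟩
      rfl
    exact hle hz1
  obtain ⟨c, rfl⟩ := (Finsupp.mem_span_range_iff_exists_finsupp).1 hz2
  have e := Finsupp.apply_linearCombination k (LinearMap.snd k L L) v2 c
  rw [Finsupp.linearCombination_apply] at e
  have e' : Finsupp.linearCombination k G c = 0 := by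
    rw [← hz]
    exact e.symm
  have hc := linearIndependent_iff.1 hG c e'
  rw [hc]
  simp

/-- evaluation of integer polynomials at the `j(q^d)` -/
abbrev sR (R : Type*) [CommRing R] (P : MvPolynomial ℕ ℤ) : LaurentSeries R :=
  MvPolynomial.aeval (jdT R) P

lemma qExpand_sR {k : Type*} [Field k] (l : ℕ) [NeZero l] [Fact l.Prime] [CharP k l]
    (P : MvPolynomial ℕ ℤ) : qExpand k l (sR k P) = sR k P ^ l := by
  rw [pow_char_eq_qExpand l, coeffMap_aeval_jdT']

variable {M l : ℕ} [NeZero M] [NeZero l] [Fact l.Prime] (hlM : ¬ l ∣ M)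
  {A : ValuationSubring Kb} (hA : A.LiesOverPrime l)
  {k : Type} [Field k] {π : A →+* k} (hπ : Function.Surjective π)

/-- `w` maps the integral series `X` to the integral series `X'`. -/
def Wrel (w : FN (M * l) ≃ₐ[Kb] FN (M * l)) (X X' : LaurentSeries A) : Prop :=
  ∃ h : iotaA A X ∈ modularFunctionFieldBar (M * l),
    ((w ⟨iotaA A X, h⟩ : FN (M * l)) : LaurentSeries Kb) = iotaA A X'

variable {w : FN (M * l) ≃ₐ[Kb] FN (M * l)}

lemma Wrel.mul {X X' Y Y' : LaurentSeries A} (h1 : Wrel w X X') (h2 : Wrel w Y Y') :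
    Wrel w (X * Y) (X' * Y') := by
  obtain ⟨a, ha⟩ := h1
  obtain ⟨b, hb⟩ := h2
  refine ⟨by rw [map_mul]; exact mul_mem a b, ?_⟩
  have : (⟨iotaA A (X * Y), by rw [map_mul]; exact mul_mem a b⟩ : FN (M * l)) =
      ⟨iotaA A X, a⟩ * ⟨iotaA A Y, b⟩ := Subtype.ext (map_mul _ _ _)
  rw [this, map_mul, map_mul, ← ha, ← hb]
  rfl

lemma Wrel.sub {X X' Y Y' : LaurentSeries A} (h1 : Wrel w X X') (h2 : Wrel w Y Y') :
    Wrel w (X - Y) (X' - Y') := by
  obtain ⟨a, ha⟩ := h1
  obtain ⟨b, hb⟩ := h2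
  refine ⟨by rw [map_sub]; exact sub_mem a b, ?_⟩
  have : (⟨iotaA A (X - Y), by rw [map_sub]; exact sub_mem a b⟩ : FN (M * l)) =
      ⟨iotaA A X, a⟩ - ⟨iotaA A Y, b⟩ := Subtype.ext (map_sub _ _ _)
  rw [this, map_sub, map_sub, ← ha, ← hb]
  rfl

lemma Wrel.pow {X X' : LaurentSeries A} (h1 : Wrel w X X') (n : ℕ) : Wrel w (X ^ n) (X' ^ n) := by
  obtain ⟨a, ha⟩ := h1
  refine ⟨by rw [map_pow]; exact pow_mem a n, ?_⟩
  have : (⟨iotaA A (X ^ n), by rw [map_pow]; exact pow_mem a n⟩ : FN (M * l)) =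
      ⟨iotaA A X, a⟩ ^ n := Subtype.ext (map_pow _ _ _)
  rw [this, map_pow, map_pow, ← ha]
  rfl

lemma Wrel.alpha (hwα : ∀ f, w (heckeAlphaBar Kb M l f) = heckeBetaBar Kb M l f)
    {X : LaurentSeries A} (hX : iotaA A X ∈ modularFunctionFieldBar M) :
    Wrel w X (qExpand A l X) := by
  have h0 : iotaA A X ∈ modularFunctionFieldBar (M * l) :=
    (heckeAlphaBar Kb M l ⟨iotaA A X, hX⟩).2
  refine ⟨h0, ?_⟩
  have : (⟨iotaA A X, h0⟩ : FN (M * l)) = heckeAlphaBar Kb M l ⟨iotaA A X, hX⟩ := rfl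
  rw [this, hwα, coe_heckeBetaBar, coeffMap_qExpand]

lemma Wrel.beta (hwβ : ∀ f, w (heckeBetaBar Kb M l f) = heckeAlphaBar Kb M l f)
    {X : LaurentSeries A} (hX : iotaA A X ∈ modularFunctionFieldBar M) :
    Wrel w (qExpand A l X) X := by
  have e : iotaA A (qExpand A l X) =
      ((heckeBetaBar Kb M l ⟨iotaA A X, hX⟩ : FN (M * l)) : LaurentSeries Kb) := by
    rw [coe_heckeBetaBar, coeffMap_qExpand]
  have h0 : iotaA A (qExpand A l X) ∈ modularFunctionFieldBar (M * l) := by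
    rw [e]; exact Subtype.mem _
  refine ⟨h0, ?_⟩
  have : (⟨iotaA A (qExpand A l X), h0⟩ : FN (M * l)) = heckeBetaBar Kb M l ⟨iotaA A X, hX⟩ :=
    Subtype.ext e
  rw [this, hwβ, coe_heckeAlphaBar]

lemma iota_sR_mem {P : MvPolynomial ℕ ℤ}
    (hP : P ∈ MvPolynomial.supported ℤ (↑M.divisors : Set ℕ)) :
    iotaA A (sR A P) ∈ modularFunctionFieldBar M := by
  rw [coeffMap_aeval_jdT']
  exact aeval_jdT_mem_bar M hP

lemma red_sR (P : MvPolynomial ℕ ℤ) : redA A π (sR A P) = sR k P := coeffMap_aeval_jdT' π P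

lemma red_V_sR [CharP k l] (P : MvPolynomial ℕ ℤ) :
    redA A π (qExpand A l (sR A P)) = sR k P ^ l := by
  rw [coeffMap_qExpand, red_sR, qExpand_sR]

lemma sR_mem {P : MvPolynomial ℕ ℤ}
    (hP : P ∈ MvPolynomial.supported ℤ (↑M.divisors : Set ℕ)) :
    sR k P ∈ modularFunctionFieldFullC k M := aeval_jdT_mem M k hP

lemma X_mem_supported {d : ℕ} (hd : d ∣ M) :
    (MvPolynomial.X d : MvPolynomial ℕ ℤ) ∈ MvPolynomial.supported ℤ (↑M.divisors : Set ℕ) :=
  MvPolynomial.X_mem_supported.2 (by simpa using ⟨hd, NeZero.ne M⟩)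


lemma qExpand_jdT (R : Type*) [CommRing R] : qExpand R l (jdT R M) = jdT R (M * l) := by
  have : NeZero (l * M) := ⟨Nat.mul_ne_zero (NeZero.ne l) (NeZero.ne M)⟩
  have h : jdT R (M * l) = jdT R (l * M) := by rw [mul_comm]
  rw [h, jdT_eq, jdT_eq, qExpand_qExpand]

/-- the index set of the orthonormal basis -/
abbrev JJ (M l : ℕ) : Type := (Fin l × Fin (dedekindPsi M)) ⊕ Fin (dedekindPsi M)

include hlM hA hπ in
theorem exists_hyp2 [CharP k l] (hww : ∀ g, w (w g) = g)
    (hwα : ∀ f, w (heckeAlphaBar Kb M l f) = heckeBetaBar Kb M l f)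
    (hwβ : ∀ f, w (heckeBetaBar Kb M l f) = heckeAlphaBar Kb M l f) :
    ∃ B1 B2 : JJ M l → LaurentSeries A,
      Hyp2 π (modularFunctionFieldBar (M * l)) (modularFunctionFieldFullC k M) w (JJ M l)
        (jdT A (M * l)) (jdT A M) B1 B2 := by
  have hl : 0 < l := Nat.pos_of_ne_zero (NeZero.ne l)
  have hac : IsAlgClosed k := isAlgClosed_of_surj A π hπ
  have hyp : Hyp k M := hyp_of_isAlgClosed k M (natCast_prime_ne_zero M hlM A hA π hπ)
  obtain ⟨b, hb, hli⟩ := exists_linearIndependent_of_hyp (NeZero.ne M) hyp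
  have hYY : YY k M = k⟮jdT k M⟯ := by rw [YY, jdT_eq_SS (NeZero.ne M)]
  have htr : Transcendental k (jdT k M) := by
    rw [jdT_eq]; exact transcendental_jqNModC k M
  have htr1 : Transcendental k (jdT k 1) := by
    rw [jdT_eq]; exact transcendental_jqNModC k 1
  have hli' : LinearIndependent k⟮jdT k M⟯ (fun i => sR k (b i)) := by
    rw [← hYY]; exact hli
  have hG := linearIndependent_pow_mul (k := k) (E := LaurentSeries k) htr
    (y := fun i => sR k (b i)) hli'
  have hXM : (MvPolynomial.X M : MvPolynomial ℕ ℤ) ∈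
      MvPolynomial.supported ℤ (↑M.divisors : Set ℕ) := X_mem_supported (dvd_refl M)
  have hX1 : (MvPolynomial.X 1 : MvPolynomial ℕ ℤ) ∈
      MvPolynomial.supported ℤ (↑M.divisors : Set ℕ) := X_mem_supported (one_dvd M)
  have sXM : ∀ (R : Type) [CommRing R], sR R (MvPolynomial.X M) = jdT R M :=
    fun R _ => MvPolynomial.aeval_X _ _
  have sX1 : ∀ (R : Type) [CommRing R], sR R (MvPolynomial.X 1) = jdT R 1 :=
    fun R _ => MvPolynomial.aeval_X _ _
  set T1 : LaurentSeries A := jdT A 1 - (qExpand A l (jdT A 1)) ^ l with hT1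
  set T2 : LaurentSeries A := qExpand A l (jdT A 1) - (jdT A 1) ^ l with hT2
  have hmM : iotaA A (jdT A M) ∈ modularFunctionFieldBar M := by
    rw [← sXM]; exact iota_sR_mem hXM
  have hm1 : iotaA A (jdT A 1) ∈ modularFunctionFieldBar M := by
    rw [← sX1]; exact iota_sR_mem hX1
  have hWy : Wrel w (jdT A (M * l)) (jdT A M) := by
    rw [← qExpand_jdT]; exact Wrel.beta hwβ hmM
  have hWT : Wrel w T1 T2 := (Wrel.alpha hwα hm1).sub ((Wrel.beta hwβ hm1).pow l)
  have hPs : ∀ (a : ℕ) (i : Fin (dedekindPsi M)), (MvPolynomial.X M ^ a * b i : MvPolynomial ℕ ℤ) ∈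
      MvPolynomial.supported ℤ (↑M.divisors : Set ℕ) := fun a i =>
    mul_mem (pow_mem hXM a) (hb i)
  let B1 : JJ M l → LaurentSeries A :=
    Sum.elim (fun q => T1 * sR A (MvPolynomial.X M ^ (q.1 : ℕ) * b q.2))
      (fun i => qExpand A l (sR A (b i)))
  let B2 : JJ M l → LaurentSeries A :=
    Sum.elim (fun q => T2 * qExpand A l (sR A (MvPolynomial.X M ^ (q.1 : ℕ) * b q.2)))
      (fun i => sR A (b i))
  have hWB : ∀ j, Wrel w (B1 j) (B2 j) := by
    rintro (⟨a, i⟩ | i)
    · exact hWT.mul (Wrel.alpha hwα (iota_sR_mem (hPs a i)))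
    · exact Wrel.beta hwβ (iota_sR_mem (hb i))
  have hry1 : redA A π (jdT A (M * l)) = jdT k M ^ l := by
    rw [← qExpand_jdT, ← sXM, red_V_sR, sXM]
  have hry2 : redA A π (jdT A M) = jdT k M := coeffMap_jdT' π M
  have hrV1 : redA A π (qExpand A l (jdT A 1)) = jdT k 1 ^ l := by
    rw [← sX1, red_V_sR, sX1]
  have hrT1 : redA A π T1 = jdT k 1 - (jdT k 1 ^ l) ^ l := by
    rw [hT1, map_sub, map_pow, hrV1, coeffMap_jdT']
  have hrT2 : redA A π T2 = 0 := by
    rw [hT2, map_sub, map_pow, hrV1, coeffMap_jdT', sub_self]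
  have hjM : jdT k M ∈ modularFunctionFieldFullC k M := by rw [← sXM]; exact sR_mem hXM
  have hj1 : jdT k 1 ∈ modularFunctionFieldFullC k M := by rw [← sX1]; exact sR_mem hX1
  have htb : redA A π T1 ≠ 0 := by
    rw [hrT1, ← pow_mul]
    intro h0
    have h1 : Polynomial.aeval (jdT k 1) (Polynomial.X - Polynomial.X ^ (l * l) : Polynomial k) = 0 := by
      simpa using h0
    have h2 := (transcendental_iff.1 htr1) _ h1
    have h3 := congrArg (fun p => Polynomial.coeff p 1) h2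
    have hll : l * l ≠ 1 := by
      have : 2 ≤ l := (Fact.out : l.Prime).two_le
      nlinarith
    simp [Polynomial.coeff_X_pow, hll.symm] at h3
  refine ⟨B1, B2, ?_⟩
  refine
    { π_surj := hπ
      ww := hww
      y_mem := hWy.1
      wy := hWy.2
      B_mem := fun j => (hWB j).1
      wB := fun j => (hWB j).2
      ry1_mem := by rw [hry1]; exact pow_mem hjM l
      ry2_mem := by rw [hry2]; exact hjM
      rB1_mem := ?_
      rB2_mem := ?_
      tr1 := ?_
      tr2 := by rw [hry2]; exact htr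
      li := ?_
      fd := ?_
      deg := ?_
      gen := ?_ }
  · rintro (⟨a, i⟩ | i)
    · show redA A π (T1 * sR A _) ∈ _
      rw [map_mul, hrT1, red_sR]
      exact mul_mem (sub_mem hj1 (pow_mem (pow_mem hj1 l) l)) (sR_mem (hPs a i))
    · show redA A π (qExpand A l (sR A (b i))) ∈ _
      rw [red_V_sR]
      exact pow_mem (sR_mem (hb i)) l
  · rintro (⟨a, i⟩ | i)
    · show redA A π (T2 * _) ∈ _
      rw [map_mul, hrT2, zero_mul]
      exact zero_mem _
    · show redA A π (sR A (b i)) ∈ _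
      rw [red_sR]
      exact sR_mem (hb i)
  · rw [coeffMap_jdT', jdT_eq]
    exact transcendental_jqNModC k (M * l)
  · apply li_of_pair
    have h := pair_li hl (jdT k M) (redA A π T1) htb (fun i => sR k (b i))
      (fun p => (jdT k M ^ l) ^ p.1 * sR k (b p.2) ^ l) hG
    convert h using 1
    funext p
    rcases p with ⟨e, ⟨a, i⟩ | i⟩
    · show (redA A π (jdT A (M * l) ^ e * (T1 * sR A (MvPolynomial.X M ^ (a : ℕ) * b i))),
        redA A π (jdT A M ^ e * (T2 * qExpand A l (sR A (MvPolynomial.X M ^ (a : ℕ) * b i))))) =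
        ((jdT k M ^ l) ^ e * (redA A π T1 * (jdT k M ^ (a : ℕ) * sR k (b i))), 0)
      rw [map_mul, map_pow, map_mul, hry1, red_sR, map_mul (redA A π) (jdT A M ^ e), map_mul, hrT2,
        zero_mul, mul_zero]
      congr 3
      show MvPolynomial.aeval (jdT k) _ = _
      rw [map_mul, map_pow, MvPolynomial.aeval_X]
    · show (redA A π (jdT A (M * l) ^ e * qExpand A l (sR A (b i))),
        redA A π (jdT A M ^ e * sR A (b i))) =
        ((jdT k M ^ l) ^ e * sR k (b i) ^ l, jdT k M ^ e * sR k (b i))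
      rw [map_mul, map_pow, hry1, red_V_sR, map_mul, map_pow, hry2, red_sR]
  · have hyF : (⟨iotaA A (jdT A (M * l)), hWy.1⟩ : FN (M * l)) = Jd (M * l) (dvd_refl _) :=
      Subtype.ext ((coeffMap_jdT' A.subtype (M * l)).trans (Jd_val (M * l) (dvd_refl _)).symm)
    rw [hyF]
    exact finiteDimensional_FN_top (M * l)
  · have hyF : (⟨iotaA A (jdT A (M * l)), hWy.1⟩ : FN (M * l)) = Jd (M * l) (dvd_refl _) :=
      Subtype.ext ((coeffMap_jdT' A.subtype (M * l)).trans (Jd_val (M * l) (dvd_refl _)).symm)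
    rw [hyF, finrank_FN_top, finrank_FN, ← Nat.card_eq_fintype_card, FAGenus.card_coset,
      FAGenus.dedekindPsi_mul_of_not_dvd M l (NeZero.ne M) Fact.out hlM]
    simp only [Fintype.card_sum, Fintype.card_prod, Fintype.card_fin]
    apply le_of_eq
    ring
  · refine ⟨divisorExpansionsC k M, rfl, ?_⟩
    rintro s ⟨d, hd, hdM, rfl⟩
    refine ⟨jdT A d, ?_, ?_⟩
    · rw [coeffMap_jdT']
      exact jdT_mem_bar (M * l) (hdM.trans (dvd_mul_right M l))
    · rw [coeffMap_jdT', jdT_eq]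


include hlM hA hπ in
theorem exists_indep : ∃ c : Fin (dedekindPsi M) → LaurentSeries k,
    (∀ i, c i ∈ modularFunctionFieldFullC k M) ∧
    LinearIndependent k (fun p : ℕ × Fin (dedekindPsi M) => jdT k M ^ p.1 * c p.2) := by
  have hac : IsAlgClosed k := isAlgClosed_of_surj A π hπ
  have hyp : Hyp k M := hyp_of_isAlgClosed k M (natCast_prime_ne_zero M hlM A hA π hπ)
  obtain ⟨b, hb, hli⟩ := exists_linearIndependent_of_hyp (NeZero.ne M) hyp
  have hYY : YY k M = k⟮jdT k M⟯ := by rw [YY, jdT_eq_SS (NeZero.ne M)]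
  have htr : Transcendental k (jdT k M) := by
    rw [jdT_eq]; exact transcendental_jqNModC k M
  have hli' : LinearIndependent k⟮jdT k M⟯ (fun i => sR k (b i)) := by
    rw [← hYY]; exact hli
  have hG := linearIndependent_pow_mul (k := k) (E := LaurentSeries k) htr
    (y := fun i => sR k (b i)) hli'
  exact ⟨fun i => sR k (b i), fun i => sR_mem (hb i), hG⟩

section lower

variable {k' L : Type*} [Field k'] [Field L] [Algebra k' L]

theorem le_finrank_of_indep {E : Type*} [Field E] [Algebra k' E] {n' : ℕ} (t : E) (c : Fin n' → E)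
    (hG : LinearIndependent k' (fun p : ℕ × Fin n' => t ^ p.1 * c p.2))
    [FiniteDimensional k'⟮t⟯ E] : n' ≤ finrank k'⟮t⟯ E := by
  have h := linearIndependent_adjoin_of_pow_mul hG
  simpa using h.fintype_card_le_finrank

theorem mul_le_finrank_of_indep {E : Type*} [Field E] [Algebra k' E] {n' l : ℕ} (hl : 0 < l) (t : E)
    (c : Fin n' → E) (hG : LinearIndependent k' (fun p : ℕ × Fin n' => t ^ p.1 * c p.2))
    [FiniteDimensional k'⟮t ^ l⟯ E] : l * n' ≤ finrank k'⟮t ^ l⟯ E := by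
  have hψ : Function.Injective
      (fun x : ℕ × (Fin l × Fin n') => ((l * x.1 + x.2.1, x.2.2) : ℕ × Fin n')) := by
    rintro ⟨e, a, i⟩ ⟨e', a', i'⟩ h
    simp only [Prod.mk.injEq] at h
    obtain ⟨h1, h2⟩ := h
    have ha := a.2
    have ha' := a'.2
    have he : e = e' := by
      have e1 : (l * e + a) / l = e := by
        rw [Nat.mul_add_div hl, Nat.div_eq_of_lt ha, add_zero]
      have e2 : (l * e' + a') / l = e' := by
        rw [Nat.mul_add_div hl, Nat.div_eq_of_lt ha', add_zero]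
      rw [← e1, ← e2, h1]
    subst he
    have : (a : ℕ) = a' := by omega
    rw [Fin.ext this, h2]
  have h1 := hG.comp _ hψ
  have h2 : LinearIndependent k' (fun p : ℕ × (Fin l × Fin n') =>
      (t ^ l) ^ p.1 * (t ^ (p.2.1 : ℕ) * c p.2.2)) := by
    convert h1 using 1
    funext p
    show _ = t ^ (l * p.1 + p.2.1) * c p.2.2
    rw [pow_add, pow_mul]
    ring
  have h := linearIndependent_adjoin_of_pow_mul (y := fun q : Fin l × Fin n' =>
    t ^ (q.1 : ℕ) * c q.2) h2
  simpa using h.fintype_card_le_finrank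

end lower

/-! ### transport of a reduction by an automorphism -/

section twist

variable {K F k' E : Type*} [Field K] [Field F] [Algebra K F] [Field k'] [Field E] [Algebra k' E]
  {A' : ValuationSubring K} {π' : A' →+* k'}

/-- the transported valuation ring -/
def twO (w : F ≃ₐ[K] F) (O1 : ValuationSubring F) : ValuationSubring F :=
  O1.comap (w : F →+* F)

/-- the transported reduction -/
def twρ (w : F ≃ₐ[K] F) (O1 : ValuationSubring F) (ρ1 : O1 →+* E) : twO w O1 →+* E :=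
  ρ1.comp ((w : F →+* F).restrict (twO w O1) O1 (fun _ hx => hx))

lemma rd_tw (w : F ≃ₐ[K] F) (O1 : ValuationSubring F) (ρ1 : O1 →+* E) (f : F) (a : E) :
    Rd (twO w O1) (twρ w O1 ρ1) f a ↔ Rd O1 ρ1 (w f) a := Iff.rfl

theorem gBase_tw (w : F ≃ₐ[K] F) {O1 : ValuationSubring F} {ρ1 : O1 →+* E}
    (hB : GBase A' π' O1 ρ1) : GBase A' π' (twO w O1) (twρ w O1 ρ1) where
  surj := by
    intro a
    obtain ⟨x, hx⟩ := hB.surj a
    have h : Rd (twO w O1) (twρ w O1 ρ1) (w.symm x) a := by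
      rw [rd_tw, AlgEquiv.apply_symm_apply]
      exact ⟨x.2, hx⟩
    exact ⟨⟨_, h.1⟩, h.2⟩
  surjπ := hB.surjπ
  const := by
    intro a
    rw [rd_tw, AlgEquiv.commutes]
    exact hB.const a
  inter := by
    intro c hc
    have h : w (algebraMap K F c) ∈ O1 := hc
    rw [AlgEquiv.commutes] at h
    exact hB.inter c h
  scale := by
    intro x hx
    have hwx : w x ≠ 0 := by simpa using hx
    obtain ⟨c, hc, xb, hxb, h⟩ := hB.scale (w x) hwx
    refine ⟨c, hc, xb, hxb, ?_⟩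
    rw [rd_tw, map_mul, AlgEquiv.commutes]
    exact h

end twist


theorem redBase_of_gBase {K F k' E : Type*} [Field K] [Field F] [Algebra K F] [Field k'] [Field E]
    [Algebra k' E] {A' : ValuationSubring K} {π' : A' →+* k'} {O : ValuationSubring F}
    {ρ : O →+* E} (hB : GBase A' π' O ρ) : RedBase A' O π' ρ where
  pi_surj := hB.surjπ
  rho_surj := hB.surj
  mem_iff := fun a => ⟨hB.inter a, fun ha => (hB.const ⟨a, ha⟩).1⟩
  compat := fun a ha _ => (hB.const ⟨a, ha⟩).2

lemma red_jdT_mul [CharP k l] : redA A π (jdT A (M * l)) = jdT k M ^ l := by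
  have h1 : sR A (MvPolynomial.X M) = jdT A M := MvPolynomial.aeval_X _ _
  have h2 : sR k (MvPolynomial.X M) = jdT k M := MvPolynomial.aeval_X _ _
  rw [← qExpand_jdT, ← h1, red_V_sR, h2]

include hlM hA hπ in
/-- **[N-RED]** the two reductions of `X₀(M l)` at `l`. -/
theorem exists_nred [CharP k l] (hww : ∀ g, w (w g) = g)
    (hwα : ∀ f, w (heckeAlphaBar Kb M l f) = heckeBetaBar Kb M l f)
    (hwβ : ∀ f, w (heckeBetaBar Kb M l f) = heckeAlphaBar Kb M l f) :
    ∃ (O1 O2 : ValuationSubring (FN (M * l))) (ρ1 : O1 →+* FbN k M) (ρ2 : O2 →+* FbN k M),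
      GBase A π O1 ρ1 ∧ GBase A π O2 ρ2 ∧ IsInf A π O1 ρ1 ∧ IsTwist w O1 O2 ρ1 ρ2 ∧
      ∃ (x0 : FN (M * l)) (t1 t2 : FbN k M), Rd O1 ρ1 x0 t1 ∧ Rd O2 ρ2 x0 t2 ∧
        Transcendental k t1 ∧ Transcendental k t2 ∧ FiniteDimensional Kb⟮x0⟯ (FN (M * l)) ∧
        finrank Kb⟮x0⟯ (FN (M * l)) ≤ finrank k⟮t1⟯ (FbN k M) + finrank k⟮t2⟯ (FbN k M) := by
  have hl : 0 < l := Nat.pos_of_ne_zero (NeZero.ne l)
  obtain ⟨B1, B2, H2⟩ := exists_hyp2 hlM hA hπ hww hwα hwβ
  have HS := H2.hypS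
  have hB1 := HS.gBase
  have hB2 := gBase_tw w hB1
  refine ⟨HS.O, twO w HS.O, HS.ρ, twρ w HS.O HS.ρ, hB1, hB2, fun f a => HS.rd_iff,
    fun f a => Iff.rfl, ?_⟩
  obtain ⟨c, hc, hG⟩ := exists_indep hlM hA hπ
  have hjM : jdT k M ∈ modularFunctionFieldFullC k M := by
    have h2 : sR k (MvPolynomial.X M) = jdT k M := MvPolynomial.aeval_X _ _
    rw [← h2]; exact sR_mem (X_mem_supported (dvd_refl M))
  let t2 : FbN k M := ⟨jdT k M, hjM⟩
  have hx1 : Rd HS.O HS.ρ H2.yF (t2 ^ l) := by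
    rw [HS.rd_iff]
    refine ⟨iotaA_mem_WS _, ?_⟩
    show redFun A π (iotaA A (jdT A (M * l))) = _
    rw [redFun_iotaA, red_jdT_mul]
    rfl
  have hx2 : Rd (twO w HS.O) (twρ w HS.O HS.ρ) H2.yF t2 := by
    rw [rd_tw, HS.rd_iff]
    have e : ((w H2.yF : FN (M * l)) : LaurentSeries Kb) = iotaA A (jdT A M) := H2.wy
    rw [e]
    refine ⟨iotaA_mem_WS _, ?_⟩
    rw [redFun_iotaA, coeffMap_jdT']
  have htr2 : Transcendental k t2 := by
    rw [← transcendental_algebraMap_iff (A := LaurentSeries k)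
      (algebraMap (FbN k M) (LaurentSeries k)).injective]
    show Transcendental k (jdT k M)
    rw [jdT_eq]; exact transcendental_jqNModC k M
  have htr1 : Transcendental k (t2 ^ l) := by
    rw [← transcendental_algebraMap_iff (A := LaurentSeries k)
      (algebraMap (FbN k M) (LaurentSeries k)).injective]
    have := H2.tr1
    rw [red_jdT_mul] at this
    exact this
  have hfd := H2.fd'
  have hfd1 : FiniteDimensional k⟮t2 ^ l⟯ (FbN k M) := by
    have e : ext0 HS.O HS.ρ H2.yF = t2 ^ l := by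
      rw [ext0_of_mem _ hx1.1]; exact hx1.2
    have := finiteDimensional_adjoin_ext0 (redBase_of_gBase hB1) hx1.1 (by rw [e]; exact htr1)
    rwa [e] at this
  have hfd2 : FiniteDimensional k⟮t2⟯ (FbN k M) := by
    have e : ext0 (twO w HS.O) (twρ w HS.O HS.ρ) H2.yF = t2 := by
      rw [ext0_of_mem _ hx2.1]; exact hx2.2
    have := finiteDimensional_adjoin_ext0 (redBase_of_gBase hB2) hx2.1 (by rw [e]; exact htr2)
    rwa [e] at this
  have hGE : LinearIndependent k (fun p : ℕ × Fin (dedekindPsi M) =>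
      t2 ^ p.1 * (⟨c p.2, hc p.2⟩ : FbN k M)) := by
    apply LinearIndependent.of_comp (modularFunctionFieldFullC k M).val.toLinearMap
    exact hG
  have b1 := mul_le_finrank_of_indep hl t2 (fun i => (⟨c i, hc i⟩ : FbN k M)) hGE
  have b2 := le_finrank_of_indep t2 (fun i => (⟨c i, hc i⟩ : FbN k M)) hGE
  refine ⟨H2.yF, t2 ^ l, t2, hx1, hx2, htr1, htr2, hfd, ?_⟩
  rw [← H2.card_eq]
  simp only [Fintype.card_sum, Fintype.card_prod, Fintype.card_fin]
  omega

end FAN
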