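import Fermat.Agent.Nodal.S34Glue
import Fermat.Agent.Nodal.RedInf
import Fermat.Agent.Nodal.Conc2
import Fermat.Agent.Nodal.ConcC
import Fermat.Agent.Nodal.GenusEq
import Fermat.Agent.Nodal.Numerics
import Fermat.Agent.Nodal.GalBL

/-!
# PROJECT N: the concrete input `NodalInputAt (M * l) P`.
-/

set_option autoImplicit false

open AlgebraicCurve IntermediateField ModularCurve FA24 FA18 FA18.M1 FA18.G4 FAG Module

namespace FAN

theorem nodalInput_gen (M l : ℕ) [NeZero M] [NeZero l] [Fact l.Prime] [NeZero (M * l)]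
    (hlM : ¬ l ∣ M) (hM : auxLevel l ∣ M) (P : ValuationSubring Kb) (hP : P.LiesOverPrime l)
    {k : Type} [Field k] (π : P →+* k) (hπ : Function.Surjective π) :
    ∃ (O1 O2 : ValuationSubring (FN (M * l))) (ρ1 : O1 →+* FbN k M) (ρ2 : O2 →+* FbN k M)
      (D : Divisor Kb (FN (M * l))) (gF cF gb cb : ℤ)
      (G : NodalGeom P π O1 O2 ρ1 ρ2 D gF cF gb cb), 0 < G.s ∧
      (∀ τ ∈ P.inertiaSubgroupIn ℚ, ∀ x a, Rd O1 ρ1 x a → Rd O1 ρ1 (galF (M * l) τ x) a) ∧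
      (∀ τ ∈ P.inertiaSubgroupIn ℚ, ∀ x a, Rd O2 ρ2 x a → Rd O2 ρ2 (galF (M * l) τ x) a) ∧
      (∀ a b : k, ∃ f : FN (M * l),
        Rd O1 ρ1 f (algebraMap _ (FbN k M) a) ∧ Rd O2 ρ2 f (algebraMap _ (FbN k M) b)) ∧
      (∀ τ ∈ P.inertiaSubgroupIn ℚ, ∀ (n : ℕ) (x : FN (M * l)), x ∈ riemannRochSpace (n • D) →
        galF (M * l) τ x ∈ riemannRochSpace (n • D)) := by
  have hl : l.Prime := Fact.out
  have : IsAlgClosed k := isAlgClosed_of_surj P π hπ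
  have : CharP k l := charP_of_liesOver P hP π hπ
  have : PerfectRing k l := PerfectField.toPerfectRing l
  obtain ⟨w, hwα, hwβ, hww⟩ := exists_atkinLehner Kb iota M l hl hlM
  obtain ⟨O1, O2, ρ1, ρ2, hB1, hB2, h1, h2, -⟩ := exists_nred hlM hP hπ hww hwα hwβ
  obtain ⟨cF, HF⟩ := FAR.rfacts_of_isFF (isFF_FN (N := M * l))
  obtain ⟨cb, Hb⟩ := FAR.rfacts_of_isFF (isFF_FbN M hlM P hP π hπ)
  obtain ⟨Dj, hDj⟩ := HF.exists_poleDiv (jA M l) jA_ne_zero
  obtain ⟨Djw, hDjw⟩ := HF.exists_poleDiv (jB M l) jB_ne_zero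
  have hjb0 : jb k M ≠ 0 := fun h => transcendental_jb hlM hP hπ (h ▸ isAlgebraic_zero)
  obtain ⟨Cj, hCj⟩ := Hb.exists_poleDiv (jb k M) hjb0
  obtain ⟨hy00, hy0, hex⟩ := y0_exact (l := l) hlM hP hπ hCj
  have H := geomHyp_conc hlM hM hP hπ w hwα hwβ h1 h2 hDj hDjw hCj hB1 hB2 HF Hb
    (fun n a ha => galB_mem_L (l := l) hCj ha) hy00 hy0 hex
  obtain ⟨G, -, -⟩ := H.exists_nodalGeom
  obtain ⟨e, he1, he2⟩ := exists_e hlM hP hπ w hwα hwβ hB1 hB2 h1 h2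
  exact ⟨O1, O2, ρ1, ρ2, _, _, _, _, _, G,
    G.s_pos_num M hlM hM P hP π hπ (two_gN_le M l hl hlM),
    fun τ hτ x a hx => h1.inertia hπ hτ x a hx,
    fun τ hτ x a hx => IsTwist.inertia hπ h1 w hwα hwβ h2 hτ x a hx,
    fun a b => exists_approx_const hB1 hB2 he1 he2 a b,
    fun τ _ n x hx => galF_mem_L_x0 M l (polar_x0 hDj hDjw) τ n x hx⟩

/-- the algebra structure of the reduced function field (to help instance search). -/
noncomputable abbrev algFbN (k : Type) [Field k] (M : ℕ) : Algebra k (FbN k M) := inferInstance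

/-- **the concrete input.** -/
theorem nodalInput (M l : ℕ) [NeZero (M * l)] (hl : l.Prime) (hlM : ¬ l ∣ M)
    (hM : auxLevel l ∣ M) (P : ValuationSubring Kb) (hP : P.LiesOverPrime l) :
    NodalInputAt (M * l) P := by
  have : NeZero M := ⟨fun h => NeZero.ne (M * l) (by rw [h, zero_mul])⟩
  have : NeZero l := ⟨hl.ne_zero⟩
  have : Fact l.Prime := ⟨hl⟩
  obtain ⟨O1, O2, ρ1, ρ2, D, gF, cF, gb, cb, G, h⟩ := nodalInput_gen M l hlM hM P hP
    (IsLocalRing.residue P) IsLocalRing.residue_surjective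
  exact ⟨FbN (IsLocalRing.ResidueField P) M, inferInstance, algFbN _ M, O1, O2, ρ1, ρ2, D,
    gF, cF, gb, cb, G, h⟩

end FAN
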