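import Fermat.Agent.Nodal.RedTau
import Fermat.Agent.Nodal.Twist
import Fermat.Agent.Gal.ES3

/-!
# PROJECT N, (U1): good reduction of the spaces `L(n (j)_∞)` at the level prime to `l`,
and pull-back of `L`-spaces along homomorphisms of function fields.
-/

set_option autoImplicit false

open AlgebraicCurve IntermediateField ModularCurve FA24 FA18 FA18.M1 FA18.G4 FAG Module

namespace FAN

section Abs

variable {K F k Fb : Type*} [Field K] [Field F] [Algebra K F] [Field k] [Field Fb] [Algebra k Fb]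

/-- an element lies in `L` of its polar divisor -/
theorem mem_L_polar {x : F} {B : Divisor K F} (hB : ∀ v, B v = max 0 (-(v.ord x))) :
    x ∈ riemannRochSpace B := by
  rcases eq_or_ne x 0 with rfl | hx
  · simp
  rw [mem_L_iff hx]
  intro v
  rw [hB]
  have := le_max_right 0 (-(v.ord x))
  omega

theorem polar_nonneg {x : F} {B : Divisor K F} (hB : ∀ v, B v = max 0 (-(v.ord x))) : 0 ≤ B := by
  intro v
  rw [hB]
  exact le_max_left _ _

/-- the reduction of `L(n (x)_∞)` is `L(n (x̄)_∞)` if the degree of `x` does not drop. -/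
theorem isRed_polar [IsAlgClosed k] {O : ValuationSubring F} {ρ : O →+* Fb} {g gF cF gb cb : ℤ}
    (H : DeuringHyp K F k Fb O ρ g gF cF gb cb) (x : O)
    (htr : Transcendental k (ρ x)) (hdeg : finrank K⟮(x : F)⟯ F ≤ finrank k⟮ρ x⟯ Fb)
    {B : Divisor K F} (hB : ∀ v, B v = max 0 (-(v.ord (x : F))))
    {C : Divisor k Fb} (hC : ∀ v, C v = max 0 (-(v.ord (ρ x))))
    (n : ℕ) (hn : cb + g ≤ n * Divisor.degree B) : IsRed O ρ (n • B) (n • C) := by
  have hB0 : 0 ≤ B := polar_nonneg hB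
  obtain ⟨-, C', hC'0, hC'deg, hred⟩ := H.key (n • B) (nsmul_nonneg hB0 n) (by
    rw [map_nsmul, nsmul_eq_mul]; exact hn)
  have hρ0 : ρ x ≠ 0 := by
    intro h
    rw [h] at htr
    exact htr isAlgebraic_zero
  have hmem : ρ x ^ n ∈ riemannRochSpace C' :=
    (hred _).2 ⟨x ^ n, by simpa using pow_mem_L (mem_L_polar hB) n, map_pow ρ x n⟩
  have hle : n • C ≤ C' := by
    intro Q
    have h1 := (mem_L_iff (pow_ne_zero n hρ0)).1 hmem Q
    rw [ord_pow] at h1
    have h2 := hC'0 Q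
    simp only [Finsupp.coe_zero, Pi.zero_apply] at h2
    rw [Finsupp.smul_apply, hC, nsmul_eq_mul]
    rcases le_total 0 (-(Q.ord (ρ x))) with h3 | h3
    · rw [max_eq_right h3]
      linarith
    · rw [max_eq_left h3]
      simpa using h2
  obtain ⟨htrF, hFI⟩ := H.FI x htr
  have hd1 := H.HF.deg_poles (x : F) htrF B hB
  have hd2 := H.Hb.deg_poles (ρ x) htr C hC
  have heq : n • C = C' := by
    refine eq_of_le_of_degree_eq' H.Hb.deg_one hle ?_
    rw [hC'deg, map_nsmul, map_nsmul, hd1, hd2]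
    congr 1
    exact_mod_cast le_antisymm hFI hdeg
  rw [heq]
  exact hred

/-- restriction of a place along a homomorphism of function fields. -/
theorem exists_place_hom [IsAlgClosed K] [CharZero K] {F' : Type*} [Field F'] [Algebra K F'] (hF' : IsFF K F')
    (φ : F →ₐ[K] F') {x : F} (hx : Transcendental K x) (P' : Place K F') :
    ∃ (P : Place K F) (e : ℤ), 0 < e ∧ ∀ f : F, P'.ord (φ f) = e * P.ord f := by
  have hφx : Transcendental K (φ x) := by
    intro h
    exact hx ((isAlgebraic_algHom_iff φ φ.toRingHom.injective).1 h)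
  obtain ⟨v, c, hc, hv⟩ := exists_place_of_isOrd (K := K)
    ((isOrd_place P').comp φ.toRingHom)
    (fun a _ => by
      show P'.ord (φ (algebraMap K F a)) = 0
      rw [AlgHom.commutes]
      exact FAFF.ord_algebraMap P' a)
    (by
      by_cases h0 : P'.ord (φ x) = 0
      · obtain ⟨a, ha | ha⟩ := exists_ord_sub_pos hF' P' (φ x) h0.ge
        · exfalso
          apply hφx
          rw [ha]
          exact isAlgebraic_algebraMap a
        · refine ⟨x - algebraMap K F a, ?_, ?_⟩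
          · intro h1
            apply hx
            rw [sub_eq_zero.1 h1]
            exact isAlgebraic_algebraMap a
          · show P'.ord (φ (x - algebraMap K F a)) ≠ 0
            rw [map_sub, AlgHom.commutes]
            exact ha.ne'
      · refine ⟨x, ?_, ?_⟩
        · intro h1
          apply hx
          rw [h1]
          exact isAlgebraic_zero
        · exact h0)
  refine ⟨v, c, hc, fun f => ?_⟩
  rcases eq_or_ne f 0 with rfl | hf
  · rw [map_zero, Place.ord_zero, Place.ord_zero, mul_zero]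
  · exact hv f hf

/-- pull-back of `L(n (x)_∞)`. -/
theorem map_mem_L_polar [IsAlgClosed K] [CharZero K] {F' : Type*} [Field F'] [Algebra K F'] (hF' : IsFF K F')
    (φ : F →ₐ[K] F') {x : F} (hx : Transcendental K x)
    {B : Divisor K F} (hB : ∀ v, B v = max 0 (-(v.ord x)))
    {B' : Divisor K F'} (hB' : ∀ v, B' v = max 0 (-(v.ord (φ x))))
    {n : ℕ} {f : F} (hf : f ∈ riemannRochSpace (n • B)) : φ f ∈ riemannRochSpace (n • B') := by
  rcases eq_or_ne f 0 with rfl | hf0
  · simp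
  have hφf : φ f ≠ 0 := (map_ne_zero φ.toRingHom).2 hf0
  rw [mem_L_iff hφf]
  intro P'
  obtain ⟨P, e, he, hP⟩ := exists_place_hom hF' φ hx P'
  have h1 := (mem_L_iff hf0).1 hf P
  rw [Finsupp.smul_apply, hB, nsmul_eq_mul] at h1
  rw [Finsupp.smul_apply, hB', nsmul_eq_mul, hP, hP]
  have hn : (0 : ℤ) ≤ n := Nat.cast_nonneg n
  rcases le_total 0 (-(P.ord x)) with h3 | h3
  · rw [max_eq_right h3] at h1
    rw [max_eq_right (by nlinarith)]
    nlinarith
  · rw [max_eq_left h3] at h1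
    rw [max_eq_left (by nlinarith)]
    nlinarith

end Abs

/-- `j` modulo `l`, as an element of the reduced field. -/
noncomputable def jb (k : Type) [Field k] (M : ℕ) : FbN k M := ⟨jqModC k, jqModC_mem_full k M⟩

section Conc

variable (M : ℕ) [NeZero M] {l : ℕ} [Fact l.Prime] (hlM : ¬ l ∣ M) (hM : auxLevel l ∣ M)
  (A : ValuationSubring Kb) (hA : A.LiesOverPrime l)
  {k : Type} [Field k] (π : A →+* k) (hπ : Function.Surjective π)

theorem rd_xN : Rd (RDN M hlM A hA π hπ).O (RDN M hlM A hA π hπ).ρ (xN M) (jb k M) := by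
  rw [rd_RDN_iff]
  have h3 : M1.iotaA A (FAIg.jdT A 1) = ((xN M : FN M) : LaurentSeries Kb) := by
    rw [xN, M1.Jd_val, M1.coeffMap_jdT']
  rw [← h3]
  refine ⟨iotaA_mem_WS _, ?_⟩
  rw [redFun_iotaA]
  have h8 : M1.redA A π (FAIg.jdT A 1) = jqNModC k 1 := by
    rw [M1.coeffMap_jdT', FAIg.jdT_eq, jqNModC]
  rw [h8, jqNModC_one]
  rfl

include hM in
/-- **(U1)** good reduction of `L(n (j)_∞)` at level `M`. -/
theorem exists_isRed_L {DM : Divisor Kb (FN M)} (hDM : ∀ v, DM v = max 0 (-(v.ord (xN M))))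
    {C : Divisor k (FbN k M)} (hC : ∀ v, C v = max 0 (-(v.ord (jb k M)))) :
    ∃ c0 : ℕ, ∀ n : ℕ, c0 ≤ n →
      IsRed (RDN M hlM A hA π hπ).O (RDN M hlM A hA π hπ).ρ (n • DM) (n • C) := by
  have : IsAlgClosed k := isAlgClosed_of_surj A π hπ
  set R := RDN M hlM A hA π hπ with hR
  have hF : IsFF Kb (FN M) := isFF_FN
  have hFb : IsFF k (FbN k M) := isFF_FbN M hlM A hA π hπ
  obtain ⟨cF, HF⟩ := FAR.rfacts_of_isFF hF
  obtain ⟨cb, Hb⟩ := FAR.rfacts_of_isFF hFb
  obtain ⟨S, hS, hS1⟩ := I3 M hlM A hA π hπ hM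
  have H : DeuringHyp Kb (FN M) k (FbN k M) R.O R.ρ (gN M) (FAR.gR hF) cF (FAR.gR hFb) cb :=
    { HF := HF
      Hb := Hb
      I2 := I2 M
      I3 := by
        have h1 := Hb.riemann (sumDiv S)
        rw [hS1, G4.sumDiv_eq_sumPts, G4.degree_sumPts Hb.deg_one, hS] at h1
        push_cast at h1
        omega
      surj := R.ρ_surj
      red := fun V hV => ⟨R.redSub V, fun _ => R.mem_redSub, R.finrank_redSub hF V hV⟩
      FI := R.FI hF }
  obtain ⟨hx, hxρ⟩ := rd_xN M hlM A hA π hπ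
  obtain ⟨hx', htr, hfd, hdeg⟩ := RDN_hasDeg M hlM A hA π hπ
  rw [ext0_of_mem _ hx'] at htr hdeg
  have htr' : Transcendental k (R.ρ ⟨xN M, hx⟩) := htr
  have hC' : ∀ v, C v = max 0 (-(v.ord (R.ρ ⟨xN M, hx⟩))) := by
    intro v
    rw [hC, ← hxρ]
  obtain ⟨htrF, -⟩ := H.FI ⟨xN M, hx⟩ htr'
  have hd1 := HF.deg_poles (xN M) htrF DM hDM
  have hpos : 0 < finrank Kb⟮xN M⟯ (FN M) := finrank_pos
  refine ⟨(cb + gN M).toNat, fun n hn => ?_⟩
  refine isRed_polar H ⟨xN M, hx⟩ htr' hdeg hDM hC' n ?_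
  rw [hd1]
  have h1 : cb + gN M ≤ n := by
    have := Int.self_le_toNat (cb + gN M)
    omega
  have h2 : (1 : ℤ) ≤ (finrank Kb⟮xN M⟯ (FN M) : ℤ) := by exact_mod_cast hpos
  have h3 : (0 : ℤ) ≤ n := Nat.cast_nonneg n
  nlinarith

end Conc

end FAN
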