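import Fermat.Agent.Red.G4Glue

/-!
# PROJECT N, (III)(C): the nodal Theorem G (pair version of `const_of_div` and `G4_core`)
-/

set_option autoImplicit false

open AlgebraicCurve Module FA18 FA18.G4
open scoped Classical

namespace FAN

variable {K F k E : Type*} [Field K] [Field F] [Algebra K F] [Field k] [Field E] [Algebra k E]
variable {A : ValuationSubring K} {π : A →+* k} {O1 O2 : ValuationSubring F}
  {ρ1 : O1 →+* E} {ρ2 : O2 →+* E}

/-- the local facts on the residue disc `Δ` of a smooth point `Q` of the component `i`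
(`true` = first component) used by the nodal Theorem G. -/
structure DiscFacts (O1 O2 : ValuationSubring F) (ρ1 : O1 →+* E) (ρ2 : O2 →+* E)
    (D : Divisor K F) (m : ℕ) (i : Bool) (Q : Place k E) (Δ : Set (Place K F)) : Prop where
  nonempty : Δ.Nonempty
  noCusp : ∀ P ∈ Δ, D P = 0
  r1 : ∀ (x : F) (a b : E), Rd O1 ρ1 x a → Rd O2 ρ2 x b → a ≠ 0 → b ≠ 0 →
    ∀ Dx : Divisor K F, (∀ P, Dx P = P.ord x) →
      ∑ P ∈ Dx.support.filter (· ∈ Δ), Dx P = Q.ord (cond i a b)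
  zero : ∀ (x : F) (a b : E), Rd O1 ρ1 x a → Rd O2 ρ2 x b → (∀ P ∈ Δ, 0 ≤ P.ord x) →
    ∀ P ∈ Δ, 0 < P.ord x → cond i a b = 0 ∨ 0 < Q.ord (cond i a b)
  pole : ∀ (x : F) (a b : E), Rd O1 ρ1 x a → Rd O2 ρ2 x b → ∀ P0 ∈ Δ, -1 ≤ P0.ord x →
    (∀ P ∈ Δ, P ≠ P0 → 0 ≤ P.ord x) → -1 ≤ Q.ord (cond i a b)
  claim : ∀ (f' : F) (ct c0 : K) (φ1 φ2 : E), Rd O1 ρ1 f' 1 → Rd O2 ρ2 f' 1 → c0 ≠ 0 →
    Rd O1 ρ1 (algebraMap K F c0 * (f' - algebraMap K F ct)) φ1 →
    Rd O2 ρ2 (algebraMap K F c0 * (f' - algebraMap K F ct)) φ2 →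
    ∀ P0 ∈ Δ, ∀ P1 ∈ Δ,
      (∀ P ∈ Δ, P.ord f' = m * (Finsupp.single P1 (1 : ℤ) - Finsupp.single P0 1 : Divisor K F) P) →
      -1 ≤ Q.ord (cond i φ1 φ2)

/-- normalisation for the sup norm. -/
theorem scale2 (hB1 : GBase A π O1 ρ1) (hB2 : GBase A π O2 ρ2) (x : F) (hx : x ≠ 0) :
    ∃ c : K, c ≠ 0 ∧ ∃ a b : E, Rd O1 ρ1 (algebraMap K F c * x) a ∧
      Rd O2 ρ2 (algebraMap K F c * x) b ∧ (a ≠ 0 ∨ b ≠ 0) := by
  obtain ⟨c1, hc1, a1, ha1, h1⟩ := hB1.scale x hx
  obtain ⟨c2, hc2, b2, hb2, h2⟩ := hB2.scale x hx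
  have hc1F : algebraMap K F c1 ≠ 0 := by simpa using hc1
  have hc2F : algebraMap K F c2 ≠ 0 := by simpa using hc2
  rcases A.mem_or_inv_mem (c1 / c2) with h | h
  · refine ⟨c1, hc1, a1, _, h1, ((hB2.const' h).mul h2).congr ?_ rfl, Or.inl ha1⟩
    rw [map_div₀]
    field_simp
  · refine ⟨c2, hc2, _, b2, ((hB1.const' h).mul h1).congr ?_ rfl, h2, Or.inr hb2⟩
    rw [map_inv₀, map_div₀]
    field_simp

theorem sum_filter_eq_mapDomain {α β : Type*} (r : α → β) (Dv : α →₀ ℤ) (q : β) (S : Set α)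
    (h : ∀ P, r P = q ↔ P ∈ S) :
    ∑ P ∈ Dv.support.filter (· ∈ S), Dv P = Finsupp.mapDomain r Dv q := by
  rw [mapDomain_apply_eq_sum, Finset.sum_filter]
  refine Finset.sum_congr rfl fun P _ => ?_
  by_cases hP : P ∈ S
  · rw [if_pos hP, if_pos ((h P).2 hP)]
  · rw [if_neg hP, if_neg (fun h' => hP ((h P).1 h'))]

/-- **The nodal Theorem G.** -/
theorem nodalG [IsAlgClosed K] {gF cF : ℤ} (hB1 : GBase A π O1 ρ1) (hB2 : GBase A π O2 ρ2)
    (HF : RFacts K F gF cF) {D : Divisor K F} (hD : 0 ≤ D) {m : ℕ} (hm : (m : k) ≠ 0)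
    {J : Type*} [Fintype J] (i : J → Bool) (Q : J → Place k E) (Δ : J → Set (Place K F))
    (hd : ∀ j, DiscFacts O1 O2 ρ1 ρ2 D m (i j) (Q j) (Δ j))
    (hdisj : ∀ j j', j ≠ j' → Disjoint (Δ j) (Δ j'))
    (hcard : gF ≤ Fintype.card J)
    {ib : Bool} {Qb : Place k E} {Δb : Set (Place K F)}
    (hdb : DiscFacts O1 O2 ρ1 ρ2 D m ib Qb Δb) (hdisjb : ∀ j, Disjoint (Δ j) Δb)
    (glob : ∀ a b : E,
      (∃ ψ, Rd O1 ρ1 ψ a ∧ Rd O2 ρ2 ψ b ∧
        ∀ P : Place K F, 0 ≤ P.ord ψ ∨ 0 < D P ∨ ∃ j, P ∈ Δ j) →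
      (∃ l : ℕ, 0 < l ∧ ∃ χ, Rd O1 ρ1 χ (a ^ l) ∧ Rd O2 ρ2 χ (b ^ l) ∧
        ∀ P : Place K F, 0 ≤ P.ord χ ∨ ∃ j, P ∈ Δ j) →
      (∀ j, -1 ≤ (Q j).ord (cond (i j) a b)) →
      ∃ c : k, a = algebraMap k E c ∧ b = algebraMap k E c)
    {y : F} (hy1 : Rd O1 ρ1 y 1) (hy2 : Rd O2 ρ2 y 1) {D2 : Divisor K F}
    (hD2 : ∀ P, P.ord y = m * D2 P) {f : F} {n : ℕ}
    (hf : f ∈ riemannRochSpace (D2 + n • D)) (hf1 : Rd O1 ρ1 f 1) (hf2 : Rd O2 ρ2 f 1) :
    ∃ t : F, t ^ m = y := by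
  have hm0 : m ≠ 0 := by rintro rfl; simp at hm
  have hmZ : (m : ℤ) ≠ 0 := by exact_mod_cast hm0
  obtain ⟨m', rfl⟩ : ∃ m', m = m' + 1 := ⟨m - 1, by omega⟩
  have hy0 : y ≠ 0 := hy1.ne_zero one_ne_zero
  have hf0 : f ≠ 0 := hf1.ne_zero one_ne_zero
  -- degree of `D2`
  have hD2deg : Divisor.degree D2 = 0 := by
    obtain ⟨Dy, hDy, hDydeg⟩ := HF.exists_div y hy0
    have h1 : ((m' + 1 : ℕ) : ℤ) • D2 = Dy := by
      ext P
      rw [Finsupp.smul_apply, smul_eq_mul, hDy, hD2]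
    have : ((m' + 1 : ℕ) : ℤ) • Divisor.degree D2 = 0 := by rw [← map_zsmul, h1, hDydeg]
    rw [smul_eq_mul] at this
    exact (mul_eq_zero.1 this).resolve_left hmZ
  -- the base points
  choose P0 hP0 using fun j => (hd j).nonempty
  have huniq : ∀ j j' P, P ∈ Δ j → P ∈ Δ j' → j = j' := by
    intro j j' P h h'
    by_contra hne
    exact Set.disjoint_left.1 (hdisj j j' hne) h h'
  set A0 : Divisor K F := ∑ j, Finsupp.single (P0 j) (1 : ℤ) with hA0def
  have hA0in : ∀ j, ∀ P ∈ Δ j, A0 P = Finsupp.single (P0 j) (1 : ℤ) P := by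
    intro j P hP
    rw [hA0def, Finsupp.finsetSum_apply]
    refine Finset.sum_eq_single j (fun j' _ hj' => ?_) (fun h => absurd (Finset.mem_univ j) h)
    rw [Finsupp.single_apply, if_neg]
    intro h
    exact hj' (huniq j' j P (h ▸ hP0 j') hP)
  have hA0out : ∀ P, (∀ j, P ∉ Δ j) → A0 P = 0 := by
    intro P hP
    rw [hA0def, Finsupp.finsetSum_apply]
    refine Finset.sum_eq_zero fun j _ => ?_
    rw [Finsupp.single_apply, if_neg]
    intro h
    exact hP j (h ▸ hP0 j)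
  have hA0deg : Divisor.degree A0 = Fintype.card J := by
    rw [hA0def, map_sum]
    simp [HF.deg_one]
  -- the reduction map to the index set
  set r : Place K F → Option J := fun P => if h : ∃ j, P ∈ Δ j then some h.choose else none
    with hrdef
  have hr : ∀ P j, r P = some j ↔ P ∈ Δ j := by
    intro P j
    constructor
    · intro h
      by_cases hex : ∃ j, P ∈ Δ j
      · rw [hrdef] at h
        simp only [dif_pos hex, Option.some.injEq] at h
        rw [← h]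
        exact hex.choose_spec
      · rw [hrdef] at h
        simp only [dif_neg hex] at h
        exact absurd h (by simp)
    · intro h
      have hex : ∃ j, P ∈ Δ j := ⟨j, h⟩
      rw [hrdef]
      simp only [dif_pos hex, Option.some.injEq]
      exact huniq _ _ P hex.choose_spec h
  have hrn : ∀ P, r P = none ↔ ∀ j, P ∉ Δ j := by
    intro P
    constructor
    · intro h j hj
      rw [(hr P j).2 hj] at h
      exact absurd h (by simp)
    · intro h
      rw [hrdef]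
      simp only
      rw [dif_neg]
      rintro ⟨j, hj⟩
      exact h j hj
  have hrA0 : ∀ j, Finsupp.mapDomain r A0 (some j) = 1 := by
    intro j
    rw [hA0def, Finsupp.mapDomain_finsetSum, Finsupp.finsetSum_apply]
    rw [Finset.sum_eq_single j]
    · rw [Finsupp.mapDomain_single, (hr _ j).2 (hP0 j), Finsupp.single_eq_same]
    · intro j' _ hj'
      rw [Finsupp.mapDomain_single, (hr _ j').2 (hP0 j'), Finsupp.single_apply, if_neg]
      intro h
      exact hj' (Option.some.inj h)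
    · intro h
      exact absurd (Finset.mem_univ j) h
  -- the section `x`
  obtain ⟨x, hxL, hx0⟩ : ∃ x ∈ riemannRochSpace (D2 + A0), x ≠ 0 := by
    have h1 := HF.riemann (D2 + A0)
    rw [map_add, hD2deg, hA0deg, zero_add] at h1
    have h2 : riemannRochSpace (D2 + A0) ≠ ⊥ := by
      intro hbot
      rw [hbot, finrank_bot] at h1
      push_cast at h1
      omega
    obtain ⟨x, hx, hx0⟩ := Submodule.exists_mem_ne_zero_of_ne_bot h2
    exact ⟨x, hx, hx0⟩
  rw [mem_riemannRochSpace_iff] at hxL hf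
  obtain ⟨c, hc, a, b, hx1, hx2, hab⟩ := scale2 hB1 hB2 x hx0
  set x1 : F := algebraMap K F c * x with hx1def
  have hx10 : x1 ≠ 0 := mul_ne_zero (by simpa using hc) hx0
  have hx1ord : ∀ P : Place K F, -(D2 P + A0 P) ≤ P.ord x1 := by
    intro P
    rw [hx1def, ord_const_mul P hc]
    have := (hxL P).resolve_left hx0
    rw [Finsupp.add_apply] at this
    omega
  have hford : ∀ P : Place K F, -(D2 P + n * D P) ≤ P.ord f := by
    intro P
    have := (hf P).resolve_left hf0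
    rw [Finsupp.add_apply, Finsupp.smul_apply, nsmul_eq_mul] at this
    omega
  -- `ψ` and `χ`
  have hψord : ∀ P : Place K F, -(A0 P + m' * (n * D P)) ≤ P.ord (x1 * f ^ m' * y) := by
    intro P
    rw [P.ord_mul (mul_ne_zero hx10 (pow_ne_zero _ hf0)) hy0, P.ord_mul hx10 (pow_ne_zero _ hf0),
      ord_pow, hD2]
    have h1 := hx1ord P
    have h2 := hford P
    have h3 : (m' : ℤ) * -(D2 P + n * D P) ≤ m' * P.ord f :=
      mul_le_mul_of_nonneg_left h2 (by positivity)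
    push_cast
    nlinarith
  have hχord : ∀ P : Place K F, -(((m' + 1 : ℕ) : ℤ) * A0 P) ≤ P.ord (x1 ^ (m' + 1) * y) := by
    intro P
    rw [P.ord_mul (pow_ne_zero _ hx10) hy0, ord_pow, hD2]
    have h1 := hx1ord P
    have h3 : ((m' + 1 : ℕ) : ℤ) * -(D2 P + A0 P) ≤ ((m' + 1 : ℕ) : ℤ) * P.ord x1 :=
      mul_le_mul_of_nonneg_left h1 (by positivity)
    nlinarith
  have hψ1 : Rd O1 ρ1 (x1 * f ^ m' * y) a := ((hx1.mul (hf1.pow m')).mul hy1).congr rfl (by simp)
  have hψ2 : Rd O2 ρ2 (x1 * f ^ m' * y) b := ((hx2.mul (hf2.pow m')).mul hy2).congr rfl (by simp)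
  obtain ⟨c', hac, hbc⟩ := glob a b
    ⟨_, hψ1, hψ2, fun P => by
      by_cases hP : ∃ j, P ∈ Δ j
      · exact Or.inr (Or.inr hP)
      · push Not at hP
        have h1 := hψord P
        rw [hA0out P hP, zero_add] at h1
        rcases (hD P).lt_or_eq with h | h
        · exact Or.inr (Or.inl h)
        · left
          have h' : D P = 0 := h.symm
          rw [h'] at h1
          simpa using h1⟩
    ⟨m' + 1, Nat.succ_pos _, _, ((hx1.pow (m' + 1)).mul hy1).congr rfl (by simp),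
      ((hx2.pow (m' + 1)).mul hy2).congr rfl (by simp), fun P => by
      by_cases hP : ∃ j, P ∈ Δ j
      · exact Or.inr hP
      · push Not at hP
        have h1 := hχord P
        rw [hA0out P hP] at h1
        left
        simpa using h1⟩
    (fun j => (hd j).pole _ a b hψ1 hψ2 (P0 j) (hP0 j) (by
        have h1 := hψord (P0 j)
        rw [hA0in j _ (hP0 j), (hd j).noCusp _ (hP0 j), Finsupp.single_eq_same] at h1
        simpa using h1) (fun P hP hne => by
        have h1 := hψord P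
        rw [hA0in j _ hP, (hd j).noCusp _ hP, Finsupp.single_apply, if_neg (Ne.symm hne)] at h1
        simpa using h1))
  have hc'0 : c' ≠ 0 := by
    rintro rfl
    rw [map_zero] at hac hbc
    rcases hab with h | h
    · exact h hac
    · exact h hbc
  obtain ⟨a', ha'⟩ := hB1.surjπ c'⁻¹
  have ha'0 : (a' : K) ≠ 0 := by
    intro h
    have : a' = 0 := Subtype.ext h
    rw [this, map_zero] at ha'
    exact inv_ne_zero hc'0 ha'.symm
  set x2 : F := algebraMap K F a' * x1 with hx2def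
  have hx21 : Rd O1 ρ1 x2 1 := by
    refine ((hB1.const a').mul hx1).congr rfl ?_
    rw [ha', hac, ← map_mul, inv_mul_cancel₀ hc'0, map_one]
  have hx22 : Rd O2 ρ2 x2 1 := by
    refine ((hB2.const a').mul hx2).congr rfl ?_
    rw [ha', hbc, ← map_mul, inv_mul_cancel₀ hc'0, map_one]
  have hx20 : x2 ≠ 0 := hx21.ne_zero one_ne_zero
  obtain ⟨Dx, hDx, hDxdeg⟩ := HF.exists_div x2 hx20
  set f' : F := y * x2 ^ (m' + 1) with hf'def
  have hf'1 : Rd O1 ρ1 f' 1 := (hy1.mul (hx21.pow _)).congr rfl (by simp)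
  have hf'2 : Rd O2 ρ2 f' 1 := (hy2.mul (hx22.pow _)).congr rfl (by simp)
  set E0 : Divisor K F := D2 + A0 + Dx with hE0def
  have hE0 : ∀ P, 0 ≤ E0 P := by
    intro P
    have := hx1ord P
    rw [hE0def, Finsupp.add_apply, Finsupp.add_apply, hDx, hx2def, ord_const_mul P ha'0]
    omega
  have hE0deg : Divisor.degree E0 = Fintype.card J := by
    rw [hE0def, map_add, map_add, hD2deg, hA0deg, hDxdeg]
    ring
  have hf'ord : ∀ P : Place K F, P.ord f' = ((m' + 1 : ℕ) : ℤ) * (E0 P - A0 P) := by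
    intro P
    rw [hf'def, P.ord_mul hy0 (pow_ne_zero _ hx20), ord_pow, ← hDx, hD2, hE0def,
      Finsupp.add_apply, Finsupp.add_apply]
    ring
  -- each disc contains exactly one point of `E0`
  have hrE0 : ∀ j, Finsupp.mapDomain r E0 (some j) = 1 := by
    intro j
    have h1 := (hd j).r1 f' 1 1 hf'1 hf'2 one_ne_zero one_ne_zero
      (((m' + 1 : ℕ) : ℤ) • (E0 - A0)) (fun P => by
        rw [Finsupp.smul_apply, Finsupp.sub_apply, smul_eq_mul, hf'ord])
    rw [sum_filter_eq_mapDomain r _ (some j) (Δ j) (fun P => hr P j), Finsupp.mapDomain_smul,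
      Finsupp.smul_apply, Finsupp.mapDomain_sub, Finsupp.sub_apply, hrA0, smul_eq_mul] at h1
    have h2 : (Q j).ord (cond (i j) (1 : E) 1) = 0 := by
      rw [Bool.cond_self, Place.ord_one]
    rw [h2] at h1
    have := (mul_eq_zero.1 h1).resolve_left hmZ
    omega
  have hrE0n : Finsupp.mapDomain r E0 none = 0 := by
    have h1 : Divisor.degree E0 = (Finsupp.mapDomain r E0).sum fun _ n => n := by
      rw [degree_eq_sum' HF.deg_one, Finsupp.sum_mapDomain_index (by simp) (by simp)]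
    rw [Finsupp.sum_fintype _ _ (by simp), Fintype.sum_option, hE0deg,
      Finset.sum_congr rfl (fun j _ => hrE0 j)] at h1
    simp at h1
    exact h1
  have hE0out : ∀ P, (∀ j, P ∉ Δ j) → E0 P = 0 := fun P hP =>
    eq_zero_of_mapDomain_apply_eq_zero r E0 none (fun P' _ => hE0 P') hrE0n P ((hrn P).2 hP)
  have hout_ord : ∀ P : Place K F, (∀ j, P ∉ Δ j) → P.ord f' = 0 := by
    intro P hP
    rw [hf'ord, hE0out P hP, hA0out P hP]
    simp
  have hP1 : ∀ j, ∃ P1 ∈ Δ j, ∀ P ∈ Δ j, E0 P = Finsupp.single P1 (1 : ℤ) P := by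
    intro j
    obtain ⟨P1, h1, h2⟩ := exists_single_of_mapDomain_apply_eq_one r E0 (some j)
      (fun P _ => hE0 P) (hrE0 j)
    exact ⟨P1, (hr _ j).1 h1, fun P hP => h2 P ((hr P j).2 hP)⟩
  -- `f'` is constant
  obtain ⟨c1, hc1⟩ : ∃ c1 : K, f' = algebraMap K F c1 := by
    by_contra hcon
    push Not at hcon
    obtain ⟨R0, hR0⟩ := hdb.nonempty
    have hΔb : ∀ P ∈ Δb, ∀ j, P ∉ Δ j := fun P hP j hj => Set.disjoint_left.1 (hdisjb j) hj hP
    obtain ⟨ct, hct | hct⟩ := hasValues_of_deg_one HF.deg_one R0 f' (hout_ord _ (hΔb _ hR0)).ge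
    · exact hcon ct hct
    have hw0 : f' - algebraMap K F ct ≠ 0 := sub_ne_zero.2 (hcon ct)
    obtain ⟨c0, hc0, φ1, φ2, hφ1, hφ2, hφ⟩ := scale2 hB1 hB2 _ hw0
    have hreg : ∀ P : Place K F, (∀ j, P ∉ Δ j) →
        0 ≤ P.ord (algebraMap K F c0 * (f' - algebraMap K F ct)) := by
      intro P hP
      rw [ord_const_mul P hc0]
      exact le_ord_sub_const P le_rfl ct (hout_ord P hP).ge
    have hreg' : ∀ P : Place K F,
        0 ≤ P.ord (algebraMap K F c0 * (f' - algebraMap K F ct)) ∨ ∃ j, P ∈ Δ j := by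
      intro P
      by_cases hP : ∃ j, P ∈ Δ j
      · exact Or.inr hP
      · push Not at hP
        exact Or.inl (hreg P hP)
    obtain ⟨cc, h1, h2⟩ := glob φ1 φ2
      ⟨_, hφ1, hφ2, fun P => (hreg' P).imp_right Or.inr⟩
      ⟨1, one_pos, _, hφ1.congr rfl (pow_one _).symm, hφ2.congr rfl (pow_one _).symm, hreg'⟩
      (fun j => by
        obtain ⟨P1, hP1m, hP1E⟩ := hP1 j
        exact (hd j).claim f' ct c0 φ1 φ2 hf'1 hf'2 hc0 hφ1 hφ2 (P0 j) (hP0 j) P1 hP1m
          (fun P hP => by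
            rw [hf'ord, hP1E P hP, hA0in j P hP, Finsupp.sub_apply]))
    have h3 := hdb.zero _ φ1 φ2 hφ1 hφ2 (fun P hP => hreg P (hΔb P hP)) R0 hR0 (by
      rw [ord_const_mul R0 hc0]; exact hct)
    rw [h1, h2, Bool.cond_self, FAFF.ord_algebraMap] at h3
    have h4 : algebraMap k E cc = 0 := h3.resolve_right (lt_irrefl _)
    rcases hφ with h | h
    · exact h (h1.trans h4)
    · exact h (h2.trans h4)
  obtain ⟨s1, hs1⟩ := IsAlgClosed.exists_pow_nat_eq c1 (Nat.succ_pos m')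
  refine ⟨algebraMap K F s1 * x2⁻¹, ?_⟩
  rw [mul_pow, ← map_pow, hs1, ← hc1, hf'def, inv_pow, mul_assoc,
    mul_inv_cancel₀ (pow_ne_zero _ hx20), mul_one]

end FAN
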