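import Fermat.Agent.Nodal.NodalG
import Fermat.Agent.Nodal.DiscLocal

/-!
# PROJECT N, (III): glue `IsDisc ⇒ DiscFacts`, and (Z-inv) from the nodal Theorem G
-/

set_option autoImplicit false

open AlgebraicCurve Module FA18 FA18.G4
open scoped Classical

namespace FAN

variable {K F k E : Type*} [Field K] [Field F] [Algebra K F] [Field k] [Field E] [Algebra k E]
variable {A : ValuationSubring K} {π : A →+* k} {O1 O2 : ValuationSubring F}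
  {ρ1 : O1 →+* E} {ρ2 : O2 →+* E} {D : Divisor K F} {C1 C2 : Divisor k E}
  {Q : Place k E} {Δ : Set (Place K F)}

theorem IsDisc.discFacts1 (hB1 : GBase A π O1 ρ1) (hB2 : GBase A π O2 ρ2) {m : ℕ}
    (hm : (m : k) ≠ 0) (hd : IsDisc A π O1 O2 ρ1 ρ2 D C1 C2 Q Δ) :
    DiscFacts O1 O2 ρ1 ρ2 D m true Q Δ where
  nonempty := hd.nonempty hB1 hB2
  noCusp := hd.noCusp
  r1 x a b h1 h2 ha hb Dx hDx := by
    exact hd.R1 hB1 hB2 h1 h2 ha hb Dx hDx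
  zero x a b h1 h2 hreg P hP hpos := hd.pos_ord hB1 hB2 h1 h2 hreg hP hpos
  pole x a b h1 h2 P0 hP0 h0 hreg := hd.neg_one_le_ord hB1 hB2 h1 h2 hP0 h0 hreg
  claim f' ct c0 φ1 φ2 hf1 hf2 hc0 hφ1 hφ2 P0 hP0 P1 hP1 hord :=
    hd.claim hB1 hB2 m hm hf1 hf2 hc0 hφ1 hφ2 hP0 hP1 hord

theorem IsDisc.discFacts2 (hB1 : GBase A π O1 ρ1) (hB2 : GBase A π O2 ρ2) {m : ℕ}
    (hm : (m : k) ≠ 0) (hd : IsDisc A π O2 O1 ρ2 ρ1 D C2 C1 Q Δ) :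
    DiscFacts O1 O2 ρ1 ρ2 D m false Q Δ where
  nonempty := hd.nonempty hB2 hB1
  noCusp := hd.noCusp
  r1 x a b h1 h2 ha hb Dx hDx := by
    exact hd.R1 hB2 hB1 h2 h1 hb ha Dx hDx
  zero x a b h1 h2 hreg P hP hpos := hd.pos_ord hB2 hB1 h2 h1 hreg hP hpos
  pole x a b h1 h2 P0 hP0 h0 hreg := hd.neg_one_le_ord hB2 hB1 h2 h1 hP0 h0 hreg
  claim f' ct c0 φ1 φ2 hf1 hf2 hc0 hφ1 hφ2 P0 hP0 P1 hP1 hord :=
    hd.claim hB2 hB1 m hm hf2 hf1 hc0 hφ2 hφ1 hP0 hP1 hord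

/-- division of a principal divisor by `m`. -/
theorem exists_div_m {gF cF : ℤ} (HF : RFacts K F gF cF) {m : ℕ} (hm : 0 < m) {u : F}
    (hu : u ≠ 0) (hdiv : ∀ P : Place K F, (m : ℤ) ∣ P.ord u) :
    ∃ D2 : Divisor K F, (∀ P : Place K F, P.ord u = m * D2 P) ∧ Divisor.degree D2 = 0 := by
  have hmZ : (m : ℤ) ≠ 0 := by exact_mod_cast hm.ne'
  obtain ⟨Du, hDu, hDudeg⟩ := HF.exists_div u hu
  refine ⟨Du.mapRange (fun n => n / (m : ℤ)) (by simp), fun P => ?_, ?_⟩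
  · rw [Finsupp.mapRange_apply, hDu]
    exact (Int.mul_ediv_cancel' (hdiv P)).symm
  · have h1 : (m : ℤ) • Du.mapRange (fun n => n / (m : ℤ)) (by simp) = Du := by
      ext P
      rw [Finsupp.smul_apply, smul_eq_mul, Finsupp.mapRange_apply, hDu]
      exact Int.mul_ediv_cancel' (hdiv P)
    have : (m : ℤ) • Divisor.degree (Du.mapRange (fun n => n / (m : ℤ)) (by simp)) = 0 := by
      rw [← map_zsmul, h1, hDudeg]
    rw [smul_eq_mul] at this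
    exact (mul_eq_zero.1 this).resolve_left hmZ

/-- **(Z-inv)**, abstract form: (II) + (III). -/
theorem TwistData.zinv [IsAlgClosed K] (T : TwistData A π O1 O2 ρ1 ρ2 D) {gF cF : ℤ}
    (HF : RFacts K F gF cF) {m : ℕ} (hm : (m : k) ≠ 0)
    {J : Type*} [Fintype J] (i : J → Bool) (Q : J → Place k E) (Δ : J → Set (Place K F))
    (hd : ∀ j, DiscFacts O1 O2 ρ1 ρ2 D m (i j) (Q j) (Δ j))
    (hdisj : ∀ j j', j ≠ j' → Disjoint (Δ j) (Δ j'))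
    (hcard : gF ≤ Fintype.card J)
    {ib : Bool} {Qb : Place k E} {Δb : Set (Place K F)}
    (hdb : DiscFacts O1 O2 ρ1 ρ2 D m ib Qb Δb) (hdisjb : ∀ j, Disjoint (Δ j) Δb)
    (glob : ∀ a b : E,
      (∃ ψ, Rd O1 ρ1 ψ a ∧ Rd O2 ρ2 ψ b ∧
        ∀ P : Place K F, 0 ≤ P.ord ψ ∨ 0 < D P ∨ ∃ j, P ∈ Δ j) →
      (∃ l : ℕ, 0 < l ∧ ∃ χ, Rd O1 ρ1 χ (a ^ l) ∧ Rd O2 ρ2 χ (b ^ l) ∧
        ∀ P : Place K F, 0 ≤ P.ord χ ∨ ∃ j, P ∈ Δ j) →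
      (∀ j, -1 ≤ (Q j).ord (cond (i j) a b)) →
      ∃ c : k, a = algebraMap k E c ∧ b = algebraMap k E c)
    (τ : F →+* F)
    (hτ1 : ∀ x a, Rd O1 ρ1 x a → Rd O1 ρ1 (τ x) a) (hτ2 : ∀ x a, Rd O2 ρ2 x a → Rd O2 ρ2 (τ x) a)
    (hτL : ∀ (n : ℕ) (x : F), x ∈ riemannRochSpace (n • D) → τ x ∈ riemannRochSpace (n • D))
    {u : F} (hu1 : Rd O1 ρ1 u 1) (hu2 : Rd O2 ρ2 u 1)
    (hdiv : ∀ P : Place K F, (m : ℤ) ∣ P.ord u) (hdivτ : ∀ P : Place K F, (m : ℤ) ∣ P.ord (τ u)) :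
    ∃ s : F, s ^ m = τ u * u⁻¹ := by
  have hm0 : 0 < m := Nat.pos_of_ne_zero (by rintro rfl; simp at hm)
  have hu0 : u ≠ 0 := hu1.ne_zero one_ne_zero
  have hτu0 : τ u ≠ 0 := (hτ1 _ _ hu1).ne_zero one_ne_zero
  obtain ⟨D2, hD2, hD2deg⟩ := exists_div_m HF hm0 hu0 hdiv
  obtain ⟨D2', hD2', hD2'deg⟩ := exists_div_m HF hm0 hτu0 hdivτ
  obtain ⟨f, hf, hf1, hf2⟩ := T.exists_one_of_inertia hm0 τ hτ1 hτ2 hτL hu1 hu2 hD2 hD2deg hD2'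
    hD2'deg (le_refl T.n0)
  refine nodalG T.hB1 T.hB2 HF T.hD hm i Q Δ hd hdisj hcard hdb hdisjb glob
    (y := τ u * u⁻¹) (D2 := D2' + -D2) ?_ ?_ ?_ hf hf1 hf2
  · exact ((hτ1 _ _ hu1).mul (hu1.inv T.hB1.surj one_ne_zero)).congr rfl (by simp)
  · exact ((hτ2 _ _ hu2).mul (hu2.inv T.hB2.surj one_ne_zero)).congr rfl (by simp)
  · intro P
    rw [P.ord_mul hτu0 (inv_ne_zero hu0), P.ord_inv, hD2, hD2', Finsupp.add_apply,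
      Finsupp.neg_apply]
    ring

end FAN
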