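import Fermat.Agent.Nodal.FI2
import Fermat.Agent.Red.DeuringB
import Fermat.Agent.Nodal.Twist

/-!
# Project N, package (0)[POLE]: pole bounds for the simultaneous reduction of `L(n D)`
-/

set_option autoImplicit false

namespace FAN

open Module IntermediateField Polynomial FA18 FA18.G4 AlgebraicCurve

variable {K F k E : Type*} [Field K] [Field F] [Algebra K F] [Field k] [Field E] [Algebra k E]
variable {A : ValuationSubring K} {π : A →+* k}
variable {O1 O2 : ValuationSubring F} {ρ1 : O1 →+* E} {ρ2 : O2 →+* E}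

/-- lifts of elements with transcendental reductions are transcendental. -/
theorem transcendental_of_Rd2 (hB1 : GBase A π O1 ρ1) (hB2 : GBase A π O2 ρ2)
    {x0 : F} {t1 t2 : E} (hx1 : Rd O1 ρ1 x0 t1) (hx2 : Rd O2 ρ2 x0 t2)
    (htr1 : Transcendental k t1) (htr2 : Transcendental k t2) : Transcendental K x0 := by
  rw [transcendental_iff]
  intro p hp
  by_contra hp0
  obtain ⟨c, d1, d2, -, hd1, -, hr1, -⟩ :=
    exists_unit_aeval hB1.const hB2.const hx1 hx2 htr1 htr2 hp0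
  rw [hp, smul_zero] at hr1
  exact hd1 (hr1.unique Rd.zero)

/-- a simultaneous generic element of a subspace of `E × E`. -/
theorem exists_generic2 [Infinite k] (W : Submodule k (E × E))
    (C1 C2 : Divisor k E)
    (hW1 : ∀ w ∈ W, w.1 ∈ riemannRochSpace C1) (hW2 : ∀ w ∈ W, w.2 ∈ riemannRochSpace C2)
    (hs1 : ∀ Q : Place k E, ∃ w ∈ W, w.1 ≠ 0 ∧ Q.ord w.1 = -C1 Q)
    (hs2 : ∀ Q : Place k E, ∃ w ∈ W, w.2 ≠ 0 ∧ Q.ord w.2 = -C2 Q) :
    ∃ w ∈ W, (∀ Q ∈ C1.support, w.1 ≠ 0 ∧ Q.ord w.1 = -C1 Q) ∧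
      (∀ Q ∈ C2.support, w.2 ≠ 0 ∧ Q.ord w.2 = -C2 Q) := by
  classical
  let p1 : Place k E → Subspace k W := fun Q =>
    Submodule.comap ((LinearMap.fst k E E).comp W.subtype)
      (riemannRochSpace (C1 - Finsupp.single Q 1))
  let p2 : Place k E → Subspace k W := fun Q =>
    Submodule.comap ((LinearMap.snd k E E).comp W.subtype)
      (riemannRochSpace (C2 - Finsupp.single Q 1))
  have hp1 : ∀ Q, p1 Q ≠ ⊤ := by
    intro Q hQ
    obtain ⟨y, hy, hy0, hyQ⟩ := hs1 Q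
    have : (⟨y, hy⟩ : W) ∈ p1 Q := by rw [hQ]; trivial
    have h2 := (mem_L_iff hy0).1
      (show y.1 ∈ riemannRochSpace (C1 - Finsupp.single Q 1) from this) Q
    simp only [Finsupp.coe_sub, Pi.sub_apply, Finsupp.single_eq_same] at h2
    omega
  have hp2 : ∀ Q, p2 Q ≠ ⊤ := by
    intro Q hQ
    obtain ⟨y, hy, hy0, hyQ⟩ := hs2 Q
    have : (⟨y, hy⟩ : W) ∈ p2 Q := by rw [hQ]; trivial
    have h2 := (mem_L_iff hy0).1
      (show y.2 ∈ riemannRochSpace (C2 - Finsupp.single Q 1) from this) Q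
    simp only [Finsupp.coe_sub, Pi.sub_apply, Finsupp.single_eq_same] at h2
    omega
  let s : Finset (Subspace k W) := C1.support.image p1 ∪ C2.support.image p2
  have hs : ⊤ ∉ s := by
    intro h
    rcases Finset.mem_union.1 h with h | h
    · obtain ⟨Q, -, hQ⟩ := Finset.mem_image.1 h
      exact hp1 Q hQ
    · obtain ⟨Q, -, hQ⟩ := Finset.mem_image.1 h
      exact hp2 Q hQ
  have hne := Subspace.biUnion_ne_univ_of_top_notMem hs
  obtain ⟨y, hy⟩ := (Set.ne_univ_iff_exists_notMem _).1 hne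
  simp only [Set.mem_iUnion, not_exists] at hy
  refine ⟨y, y.2, fun Q hQ => ?_, fun Q hQ => ?_⟩
  · have h3 : (y : E × E).1 ∉ riemannRochSpace (C1 - Finsupp.single Q 1) := fun h =>
      hy (p1 Q) (Finset.mem_union_left _ (Finset.mem_image_of_mem _ hQ)) h
    exact ord_eq_of_mem_of_notMem (hW1 _ y.2) h3
  · have h3 : (y : E × E).2 ∉ riemannRochSpace (C2 - Finsupp.single Q 1) := fun h =>
      hy (p2 Q) (Finset.mem_union_right _ (Finset.mem_image_of_mem _ hQ)) h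
    exact ord_eq_of_mem_of_notMem (hW2 _ y.2) h3

theorem poleDiv_of_exact {C : Divisor k E} (hC0 : 0 ≤ C) {a : E} (ha0 : a ≠ 0)
    (ha : a ∈ riemannRochSpace C) (hex : ∀ Q ∈ C.support, Q.ord a = -C Q) (Q : Place k E) :
    C Q = max 0 (-(Q.ord a)) := by
  by_cases hQ : Q ∈ C.support
  · have := hC0 Q
    have h4 := hex Q hQ
    simp only [Finsupp.coe_zero, Pi.zero_apply] at this
    omega
  · have h5 : C Q = 0 := by simpa using hQ
    have := (mem_L_iff ha0).1 ha Q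
    omega

theorem transcendental_of_poleDiv [IsAlgClosed k] {C : Divisor k E} {a : E}
    (hC : C ≠ 0) (h : ∀ Q, C Q = max 0 (-(Q.ord a))) : Transcendental k a := by
  obtain ⟨Q, hQ⟩ := Finsupp.ne_iff.1 hC
  refine FAFF.transcendental_of_notMem_range ?_
  rintro ⟨c, rfl⟩
  apply hQ
  rw [h Q, FAFF.ord_algebraMap]; simp

theorem nsmul_poleDiv_le {C C' : Divisor k E} {t : E} (ht0 : t ≠ 0)
    (hC : ∀ v, C v = max 0 (-(v.ord t))) (hC'0 : 0 ≤ C') (n : ℕ)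
    (h : t ^ n ∈ riemannRochSpace C') : n • C ≤ C' := by
  intro Q
  have h1 := (mem_L_iff (pow_ne_zero n ht0)).1 h Q
  rw [ord_pow] at h1
  have h2 := hC'0 Q
  simp only [Finsupp.coe_zero, Pi.zero_apply] at h2
  rw [Finsupp.smul_apply, hC, nsmul_eq_mul]
  rcases le_total 0 (-(Q.ord t)) with h3 | h3
  · rw [max_eq_right h3]
    linarith
  · rw [max_eq_left h3]
    simpa using h2

/-- [POLE], `n ≥ 1`. -/
theorem pole_pos [IsAlgClosed k] {gF cF gb cb : ℤ}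
    (hB1 : GBase A π O1 ρ1) (hB2 : GBase A π O2 ρ2)
    {t : F} (ht0 : t ≠ 0) (ht1 : Rd O1 ρ1 t 0) (ht2 : Rd O2 ρ2 t⁻¹ 0)
    (HF : RFacts K F gF cF) (Hb : RFacts k E gb cb)
    {x0 : F} {t1 t2 : E} (hx1 : Rd O1 ρ1 x0 t1) (hx2 : Rd O2 ρ2 x0 t2)
    [FiniteDimensional K⟮x0⟯ F]
    {D : Divisor K F} {C1 C2 : Divisor k E}
    (hD : ∀ v, D v = max 0 (-(v.ord x0))) (hC1 : ∀ v, C1 v = max 0 (-(v.ord t1)))
    (hC2 : ∀ v, C2 v = max 0 (-(v.ord t2)))
    (hpos1 : 0 < Divisor.degree C1) (hpos2 : 0 < Divisor.degree C2)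
    (hdeg : Divisor.degree D ≤ Divisor.degree C1 + Divisor.degree C2)
    {n : ℕ} (hn : 0 < n) {x : F} {a b : E} (hx : x ∈ riemannRochSpace (n • D))
    (ha : Rd O1 ρ1 x a) (hb : Rd O2 ρ2 x b) :
    a ∈ riemannRochSpace (n • C1) ∧ b ∈ riemannRochSpace (n • C2) := by
  haveI : Infinite k := IsAlgClosed.instInfinite
  have hD0 : 0 ≤ D := fun v => by rw [hD]; simp
  have hnD0 : 0 ≤ n • D := nsmul_nonneg hD0 n
  have ht10 : t1 ≠ 0 := by
    rintro rfl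
    have : C1 = 0 := by ext v; rw [hC1]; simp
    rw [this, map_zero] at hpos1
    exact lt_irrefl _ hpos1
  have ht20 : t2 ≠ 0 := by
    rintro rfl
    have : C2 = 0 := by ext v; rw [hC2]; simp
    rw [this, map_zero] at hpos2
    exact lt_irrefl _ hpos2
  have hx00 : x0 ≠ 0 := hx1.ne_zero ht10
  haveI := HF.finDim (n • D)
  set W := red2 hB1 hB2 (riemannRochSpace (n • D)) with hW
  set W1 : Submodule k E := W.map (LinearMap.fst k E E) with hW1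
  set W2 : Submodule k E := W.map (LinearMap.snd k E E) with hW2
  have h11 : ((1, 1) : E × E) ∈ W := ⟨1, one_mem_L hnD0, Rd.one, Rd.one⟩
  have hWfg : W.FG := (Submodule.fg_iff_finiteDimensional W).2 inferInstance
  obtain ⟨C1', hC1'0, hW1C, hsharp1⟩ := Hb.exists_minDiv W1 (hWfg.map _) ⟨_, h11, rfl⟩
  obtain ⟨C2', hC2'0, hW2C, hsharp2⟩ := Hb.exists_minDiv W2 (hWfg.map _) ⟨_, h11, rfl⟩
  -- `x0 ^ n`
  have hx0n : x0 ^ n ∈ riemannRochSpace (n • D) := by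
    rw [mem_L_iff (pow_ne_zero n hx00)]
    intro v
    rw [ord_pow, Finsupp.smul_apply, hD, nsmul_eq_mul]
    rcases le_total 0 (-(v.ord x0)) with h3 | h3
    · rw [max_eq_right h3]; linarith
    · rw [max_eq_left h3]
      have : (0 : ℤ) ≤ (n : ℤ) * v.ord x0 := mul_nonneg (by positivity) (by omega)
      simpa using this
  have htn : ((t1 ^ n, t2 ^ n) : E × E) ∈ W := ⟨x0 ^ n, hx0n, hx1.pow n, hx2.pow n⟩
  have hle1 : n • C1 ≤ C1' := nsmul_poleDiv_le ht10 hC1 hC1'0 n (hW1C ⟨_, htn, rfl⟩)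
  have hle2 : n • C2 ≤ C2' := nsmul_poleDiv_le ht20 hC2 hC2'0 n (hW2C ⟨_, htn, rfl⟩)
  have hd1 := degree_mono' Hb.deg_one hle1
  have hd2 := degree_mono' Hb.deg_one hle2
  rw [map_nsmul, nsmul_eq_mul] at hd1 hd2
  have hn' : (1 : ℤ) ≤ n := by exact_mod_cast hn
  have hC1'pos : 0 < Divisor.degree C1' := by nlinarith
  have hC2'pos : 0 < Divisor.degree C2' := by nlinarith
  have hC1'ne : C1' ≠ 0 := by rintro rfl; simp at hC1'pos
  have hC2'ne : C2' ≠ 0 := by rintro rfl; simp at hC2'pos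
  -- the generic element
  obtain ⟨w, hwW, hw1, hw2⟩ := exists_generic2 W C1' C2'
    (fun w hw => hW1C ⟨w, hw, rfl⟩) (fun w hw => hW2C ⟨w, hw, rfl⟩)
    (fun Q => by
      obtain ⟨y, ⟨w, hw, rfl⟩, hy0, hyQ⟩ := hsharp1 Q
      exact ⟨w, hw, hy0, hyQ⟩)
    (fun Q => by
      obtain ⟨y, ⟨w, hw, rfl⟩, hy0, hyQ⟩ := hsharp2 Q
      exact ⟨w, hw, hy0, hyQ⟩)
  obtain ⟨Q1, hQ1⟩ := Finsupp.ne_iff.1 hC1'ne
  obtain ⟨Q2, hQ2⟩ := Finsupp.ne_iff.1 hC2'ne
  have hw10 : w.1 ≠ 0 := (hw1 Q1 (Finsupp.mem_support_iff.2 hQ1)).1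
  have hw20 : w.2 ≠ 0 := (hw2 Q2 (Finsupp.mem_support_iff.2 hQ2)).1
  have hp1 := poleDiv_of_exact hC1'0 hw10 (hW1C ⟨w, hwW, rfl⟩) (fun Q hQ => (hw1 Q hQ).2)
  have hp2 := poleDiv_of_exact hC2'0 hw20 (hW2C ⟨w, hwW, rfl⟩) (fun Q hQ => (hw2 Q hQ).2)
  have htr1 : Transcendental k w.1 := transcendental_of_poleDiv hC1'ne hp1
  have htr2 : Transcendental k w.2 := transcendental_of_poleDiv hC2'ne hp2
  obtain ⟨y, hyL, hy1, hy2⟩ := hwW
  have htrF : Transcendental K y := transcendental_of_Rd2 hB1 hB2 hy1 hy2 htr1 htr2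
  haveI : FiniteDimensional K⟮y⟯ F := FAFF.finiteDimensional_adjoin_of_transcendental x0 y htrF
  have hFI := fi2 hB1 hB2 ht0 ht1 ht2 hy1 hy2 htr1 htr2
  have hy0 : y ≠ 0 := hy1.ne_zero hw10
  obtain ⟨P, hP⟩ := HF.exists_poleDiv y hy0
  have e1 := Hb.deg_poles w.1 htr1 C1' hp1
  have e2 := Hb.deg_poles w.2 htr2 C2' hp2
  have e3 := HF.deg_poles y htrF P hP
  have h3 : P ≤ n • D := by
    intro v
    have h4 := (mem_L_iff hy0).1 hyL v
    have h5 := hnD0 v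
    simp only [Finsupp.coe_zero, Pi.zero_apply] at h5
    rw [hP]
    omega
  have h4 := degree_mono' HF.deg_one h3
  rw [map_nsmul, nsmul_eq_mul] at h4
  have hFI' : (finrank k⟮w.1⟯ E : ℤ) + (finrank k⟮w.2⟯ E : ℤ) ≤ (finrank K⟮y⟯ F : ℤ) := by
    exact_mod_cast hFI
  have hnD : (n : ℤ) * Divisor.degree D ≤
      (n : ℤ) * Divisor.degree C1 + (n : ℤ) * Divisor.degree C2 := by nlinarith
  have hE1 : n • C1 = C1' := eq_of_le_of_degree_eq' Hb.deg_one hle1 (by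
    rw [map_nsmul, nsmul_eq_mul]; omega)
  have hE2 : n • C2 = C2' := eq_of_le_of_degree_eq' Hb.deg_one hle2 (by
    rw [map_nsmul, nsmul_eq_mul]; omega)
  rw [hE1, hE2]
  have hab : ((a, b) : E × E) ∈ W := ⟨x, hx, ha, hb⟩
  exact ⟨hW1C ⟨_, hab, rfl⟩, hW2C ⟨_, hab, rfl⟩⟩

/-- a root criterion for `L`-spaces. -/
theorem mem_L_zero_of_pow {C : Divisor k E} {a : E}
    (h : ∀ m : ℕ, a ^ m ∈ riemannRochSpace C) : a ∈ riemannRochSpace (0 : Divisor k E) := by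
  rcases eq_or_ne a 0 with rfl | ha
  · exact Submodule.zero_mem _
  rw [mem_L_iff ha]
  intro Q
  by_contra hlt
  push Not at hlt
  simp only [Finsupp.coe_zero, Pi.zero_apply, neg_zero] at hlt
  have h1 := (mem_L_iff (pow_ne_zero _ ha)).1 (h ((C Q).toNat + 1)) Q
  rw [ord_pow] at h1
  have h2 : (C Q) ≤ ((C Q).toNat : ℤ) := Int.self_le_toNat _
  push_cast at h1
  nlinarith

/-- [POLE]. -/
theorem pole [IsAlgClosed k] {gF cF gb cb : ℤ}
    (hB1 : GBase A π O1 ρ1) (hB2 : GBase A π O2 ρ2)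
    {t : F} (ht0 : t ≠ 0) (ht1 : Rd O1 ρ1 t 0) (ht2 : Rd O2 ρ2 t⁻¹ 0)
    (HF : RFacts K F gF cF) (Hb : RFacts k E gb cb)
    {x0 : F} {t1 t2 : E} (hx1 : Rd O1 ρ1 x0 t1) (hx2 : Rd O2 ρ2 x0 t2)
    [FiniteDimensional K⟮x0⟯ F]
    {D : Divisor K F} {C1 C2 : Divisor k E}
    (hD : ∀ v, D v = max 0 (-(v.ord x0))) (hC1 : ∀ v, C1 v = max 0 (-(v.ord t1)))
    (hC2 : ∀ v, C2 v = max 0 (-(v.ord t2)))
    (hpos1 : 0 < Divisor.degree C1) (hpos2 : 0 < Divisor.degree C2)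
    (hdeg : Divisor.degree D ≤ Divisor.degree C1 + Divisor.degree C2)
    (n : ℕ) (x : F) (a b : E) (hx : x ∈ riemannRochSpace (n • D))
    (ha : Rd O1 ρ1 x a) (hb : Rd O2 ρ2 x b) :
    a ∈ riemannRochSpace (n • C1) ∧ b ∈ riemannRochSpace (n • C2) := by
  rcases Nat.eq_zero_or_pos n with rfl | hn
  · have hD0 : 0 ≤ D := fun v => by rw [hD]; simp
    have key : ∀ m : ℕ, a ^ m ∈ riemannRochSpace (1 • C1) ∧ b ^ m ∈ riemannRochSpace (1 • C2) := by
      intro m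
      refine pole_pos hB1 hB2 ht0 ht1 ht2 HF Hb hx1 hx2 hD hC1 hC2 hpos1 hpos2 hdeg
        one_pos (x := x ^ m) ?_ (ha.pow m) (hb.pow m)
      have h1 := pow_mem_L hx m
      rw [zero_smul, smul_zero] at h1
      exact L_mono (by rw [one_smul]; exact hD0) h1
    rw [zero_smul, zero_smul]
    exact ⟨mem_L_zero_of_pow fun m => (key m).1, mem_L_zero_of_pow fun m => (key m).2⟩
  · exact pole_pos hB1 hB2 ht0 ht1 ht2 HF Hb hx1 hx2 hD hC1 hC2 hpos1 hpos2 hdeg hn hx ha hb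

end FAN
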