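import Fermat.Agent.Red.M1C
import Fermat.Agent.Red.M1Abs
import Fermat.Agent.Red.G4Core

/-!
# PROJECT N, [N-RED], abstract part 1: a subfield `F` of `K((q))` all of whose nonzero elements can be
scaled to units of the ring `WS` of fractions of integral series: valuation ring, reduction map,
`GBase`.
-/

set_option autoImplicit false

open ModularCurve Module IntermediateField Polynomial FA18 FA18.M1 FA18.G4

noncomputable section

namespace FAN

attribute [-instance] HahnSeries.instModule HahnSeries.instSMul HahnSeries.instSMulZeroClass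
  HahnSeries.instDistribMulAction

variable {K : Type*} [Field K] {A : ValuationSubring K} {k : Type*} [Field k] {π : A →+* k}

/-- every nonzero element of `F` is a constant times a unit of `WS` with reduction in `E`. -/
structure HypS (π : A →+* k) (F : IntermediateField K (LaurentSeries K))
    (E : IntermediateField k (LaurentSeries k)) : Prop where
  π_surj : Function.Surjective π
  scaleW : ∀ f : F, f ≠ 0 → ∃ c : K, c ≠ 0 ∧ HahnSeries.C c * (f : LaurentSeries K) ∈ WS A π ∧
    redFun A π (HahnSeries.C c * (f : LaurentSeries K)) ≠ 0 ∧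
    redFun A π (HahnSeries.C c * (f : LaurentSeries K)) ∈ E
  gen : ∃ S : Set (LaurentSeries k), E = adjoin k S ∧
    ∀ s ∈ S, ∃ a : LaurentSeries A, iotaA A a ∈ F ∧ redA A π a = s

lemma redFun_mul {f g : LaurentSeries K} (hf : f ∈ WS A π) (hg : g ∈ WS A π) :
    redFun A π (f * g) = redFun A π f * redFun A π g := by
  have h := map_mul (redW A π) ⟨f, hf⟩ ⟨g, hg⟩
  rw [redW_apply, redW_apply, redW_apply] at h
  exact h

lemma redFun_add {f g : LaurentSeries K} (hf : f ∈ WS A π) (hg : g ∈ WS A π) :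
    redFun A π (f + g) = redFun A π f + redFun A π g := by
  have h := map_add (redW A π) ⟨f, hf⟩ ⟨g, hg⟩
  rw [redW_apply, redW_apply, redW_apply] at h
  exact h

lemma redFun_zero : redFun A π (0 : LaurentSeries K) = 0 := by
  have h := map_zero (redW A π)
  rw [redW_apply] at h
  exact h

lemma redFun_one : redFun A π (1 : LaurentSeries K) = 1 := by
  have h := map_one (redW A π)
  rw [redW_apply] at h
  exact h

lemma redFun_inv {f : LaurentSeries K} (hf : f ∈ WS A π) (h0 : redFun A π f ≠ 0) :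
    redFun A π f⁻¹ = (redFun A π f)⁻¹ := by
  have h1 := inv_mem_of_redFun_ne_zero hf h0
  have hf0 : f ≠ 0 := by
    rintro rfl
    exact h0 redFun_zero
  have h2 := redFun_mul hf h1
  rw [mul_inv_cancel₀ hf0, redFun_one] at h2
  exact (inv_eq_of_mul_eq_one_right h2.symm).symm

namespace HypS

variable {F : IntermediateField K (LaurentSeries K)} {E : IntermediateField k (LaurentSeries k)}
  (H : HypS π F E)

/-- the valuation ring -/
def O : ValuationSubring F :=
  { (WS A π).comap (algebraMap F (LaurentSeries K)) with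
    mem_or_inv_mem' := by
      intro f
      by_cases hf : f = 0
      · left
        rw [hf]
        exact Subring.zero_mem _
      obtain ⟨c, hc, h1, h2, -⟩ := H.scaleW f hf
      have hf' : (f : LaurentSeries K) ≠ 0 := fun h0 => hf (Subtype.ext h0)
      have hC : (HahnSeries.C c : LaurentSeries K) ≠ 0 := by
        rw [Ne, map_eq_zero]; exact hc
      rcases A.mem_or_inv_mem c with hcA | hcA
      · right
        show ((f⁻¹ : F) : LaurentSeries K) ∈ WS A π
        have h3 := (WS A π).mul_mem (C_mem_WS (π := π) hcA) (inv_mem_of_redFun_ne_zero h1 h2)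
        have h4 : (HahnSeries.C c : LaurentSeries K) * (HahnSeries.C c * (f : LaurentSeries K))⁻¹ =
            ((f⁻¹ : F) : LaurentSeries K) := by
          push_cast
          field_simp
        rwa [h4] at h3
      · left
        show (f : LaurentSeries K) ∈ WS A π
        have h3 := (WS A π).mul_mem (C_mem_WS (π := π) hcA) h1
        have h4 : (HahnSeries.C c⁻¹ : LaurentSeries K) * (HahnSeries.C c * (f : LaurentSeries K)) =
            (f : LaurentSeries K) := by
          rw [map_inv₀]
          field_simp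
        rwa [h4] at h3 }

lemma mem_O_iff {f : F} : f ∈ H.O ↔ (f : LaurentSeries K) ∈ WS A π := Iff.rfl

/-- the reduction map with values in `k((q))` -/
def ρL : H.O →+* LaurentSeries k :=
  (redW A π).comp (((algebraMap F (LaurentSeries K)).comp H.O.subtype).codRestrict (WS A π)
    (fun f => f.2))

lemma ρL_apply (f : H.O) : H.ρL f = redFun A π ((f : F) : LaurentSeries K) := rfl

lemma ρL_mem (f : H.O) : H.ρL f ∈ E := by
  by_cases hf : (f : F) = 0
  · have : f = 0 := Subtype.ext hf
    rw [this, map_zero]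
    exact zero_mem _
  obtain ⟨c, hc, h1, h2, h3⟩ := H.scaleW f hf
  have hC : (HahnSeries.C c : LaurentSeries K) ≠ 0 := by
    rw [Ne, map_eq_zero]; exact hc
  have hcA : c⁻¹ ∈ A := by
    rcases A.mem_or_inv_mem c with hcA | hcA
    · apply inv_mem_of_map_ne_zero H.π_surj hcA
      intro h0
      apply h2
      have hf2 : ((f : F) : LaurentSeries K) ∈ WS A π := f.2
      rw [redFun_mul (C_mem_WS hcA) hf2, redFun_C hcA, h0, map_zero, zero_mul]
    · exact hcA
  have h4 : ((f : F) : LaurentSeries K) =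
      (HahnSeries.C c⁻¹ : LaurentSeries K) * (HahnSeries.C c * ((f : F) : LaurentSeries K)) := by
    rw [map_inv₀]
    field_simp
  rw [ρL_apply, h4, redFun_mul (C_mem_WS hcA) h1, redFun_C hcA]
  exact mul_mem (C_mem E _) h3

/-- the reduction map -/
def ρ : H.O →+* E := H.ρL.codRestrict E H.ρL_mem

lemma coe_ρ (f : H.O) : ((H.ρ f : E) : LaurentSeries k) = redFun A π ((f : F) : LaurentSeries K) :=
  rfl

lemma iotaA_mem_O (Y : LaurentSeries A) (hY : iotaA A Y ∈ F) : (⟨iotaA A Y, hY⟩ : F) ∈ H.O :=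
  iotaA_mem_WS Y

lemma coe_ρ_iotaA (Y : LaurentSeries A) (hY : iotaA A Y ∈ F) :
    ((H.ρ ⟨⟨iotaA A Y, hY⟩, H.iotaA_mem_O Y hY⟩ : E) : LaurentSeries k) = redA A π Y := by
  rw [coe_ρ]
  exact redFun_iotaA Y

lemma inv_mem_O {f : H.O} (hf : H.ρ f ≠ 0) : ((f : F))⁻¹ ∈ H.O := by
  have h1 : redFun A π ((f : F) : LaurentSeries K) ≠ 0 := by
    intro h0
    exact hf (Subtype.ext h0)
  have := inv_mem_of_redFun_ne_zero f.2 h1
  rw [mem_O_iff]
  push_cast
  exact this

lemma ρ_surj : Function.Surjective H.ρ := by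
  obtain ⟨S, hS, hgen⟩ := H.gen
  rintro ⟨z, hz⟩
  suffices h : ∃ f : H.O, H.ρL f = z by
    obtain ⟨f, hf⟩ := h
    exact ⟨f, Subtype.ext hf⟩
  rw [hS] at hz
  induction hz using adjoin_induction with
  | mem x hx =>
    obtain ⟨a, ha, rfl⟩ := hgen x hx
    exact ⟨⟨⟨iotaA A a, ha⟩, H.iotaA_mem_O a ha⟩, redFun_iotaA a⟩
  | algebraMap c =>
    obtain ⟨a, rfl⟩ := H.π_surj c
    refine ⟨⟨algebraMap K F a, ?_⟩, ?_⟩
    · rw [mem_O_iff]
      show algebraMap K (LaurentSeries K) a ∈ _
      rw [algebraMap_eq_C']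
      exact C_mem_WS a.2
    · rw [ρL_apply]
      show redFun A π (algebraMap K (LaurentSeries K) a) = _
      rw [algebraMap_eq_C', algebraMap_eq_C', redFun_C a.2]
  | add x y _ _ hx hy =>
    obtain ⟨f, rfl⟩ := hx
    obtain ⟨g, rfl⟩ := hy
    exact ⟨f + g, map_add _ _ _⟩
  | inv x _ hx =>
    obtain ⟨f, rfl⟩ := hx
    by_cases h0 : H.ρL f = 0
    · exact ⟨0, by rw [h0, map_zero, inv_zero]⟩
    · have h1 : H.ρ f ≠ 0 := fun h => h0 (congrArg Subtype.val h)
      refine ⟨⟨_, H.inv_mem_O h1⟩, ?_⟩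
      have hf0 : (f : F) ≠ 0 := by
        intro h
        apply h0
        have : f = 0 := Subtype.ext h
        rw [this, map_zero]
      have h2 : f * ⟨_, H.inv_mem_O h1⟩ = 1 := Subtype.ext (mul_inv_cancel₀ hf0)
      have h3 := congrArg H.ρL h2
      rw [map_mul, map_one] at h3
      exact (inv_eq_of_mul_eq_one_right h3).symm
  | mul x y _ _ hx hy =>
    obtain ⟨f, rfl⟩ := hx
    obtain ⟨g, rfl⟩ := hy
    exact ⟨f * g, map_mul _ _ _⟩

/-- `Rd` in terms of `WS` and `redFun`. -/
lemma rd_iff {x : F} {a : E} : Rd H.O H.ρ x a ↔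
    (x : LaurentSeries K) ∈ WS A π ∧ redFun A π (x : LaurentSeries K) = (a : LaurentSeries k) := by
  constructor
  · rintro ⟨h, rfl⟩
    exact ⟨h, rfl⟩
  · rintro ⟨h, h'⟩
    exact ⟨h, Subtype.ext h'⟩

theorem gBase : GBase A π H.O H.ρ where
  surj := H.ρ_surj
  surjπ := H.π_surj
  const := by
    intro a
    rw [rd_iff]
    show algebraMap K (LaurentSeries K) a ∈ _ ∧
      redFun A π (algebraMap K (LaurentSeries K) a) = algebraMap k (LaurentSeries k) _
    rw [algebraMap_eq_C', algebraMap_eq_C', redFun_C a.2]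
    exact ⟨C_mem_WS a.2, rfl⟩
  inter := by
    intro c hc
    rw [mem_O_iff] at hc
    have hc' : algebraMap K (LaurentSeries K) c ∈ WS A π := hc
    rw [algebraMap_eq_C'] at hc'
    exact mem_of_C_mem_WS (map_eq_zero_of_not_isUnit H.π_surj) hc'
  scale := by
    intro x hx
    obtain ⟨c, hc, h1, h2, h3⟩ := H.scaleW x hx
    refine ⟨c, hc, ⟨_, h3⟩, fun h => h2 (congrArg Subtype.val h), ?_⟩
    rw [rd_iff]
    show algebraMap K (LaurentSeries K) c * (x : LaurentSeries K) ∈ _ ∧
      redFun A π (algebraMap K (LaurentSeries K) c * (x : LaurentSeries K)) = _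
    rw [algebraMap_eq_C']
    exact ⟨h1, rfl⟩

end HypS

end FAN
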