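import Fermat.Agent.Nodal.RedAbs

/-!
# PROJECT N, [N-RED], abstract part 2: a subfield `F` of `K((q))` with an involution `w` and a
`K(y)`-basis which is orthonormal for the sup of the two Gauss norms `|f|`, `|w f|`.
-/

set_option autoImplicit false

open ModularCurve Module IntermediateField Polynomial FA18 FA18.M1 FA18.G4

noncomputable section

namespace FAN

attribute [-instance] HahnSeries.instModule HahnSeries.instSMul HahnSeries.instSMulZeroClass
  HahnSeries.instDistribMulAction

variable {K : Type*} [Field K] {A : ValuationSubring K} {k : Type*} [Field k] {π : A →+* k}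

/-- integral linear combinations -/
def comb {ι : Type*} (e : ι → LaurentSeries A) (u : ι →₀ A) : LaurentSeries A :=
  u.sum fun i a => HahnSeries.C a * e i

lemma iota_comb {ι : Type*} (e : ι → LaurentSeries A) (u : ι →₀ A) :
    iotaA A (comb e u) = Finsupp.linearCombination K (fun i => iotaA A (e i))
      (u.mapRange (fun a : A => (a : K)) rfl) := by
  rw [comb, Finsupp.sum, Finsupp.linearCombination_apply,
    Finsupp.sum_mapRange_index (h := fun i (a : K) => a • iotaA A (e i)) (fun i => zero_smul _ _),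
    Finsupp.sum, map_sum]
  refine Finset.sum_congr rfl fun i _ => ?_
  rw [map_mul, iotaA_C, C_mul_eq_smul']

lemma red_comb {ι : Type*} (e : ι → LaurentSeries A) (u : ι →₀ A) :
    redA A π (comb e u) = Finsupp.linearCombination k (fun i => redA A π (e i))
      (u.mapRange π (map_zero π)) := by
  rw [comb, Finsupp.sum, Finsupp.linearCombination_apply,
    Finsupp.sum_mapRange_index (h := fun i (a : k) => a • redA A π (e i)) (fun i => zero_smul _ _),
    Finsupp.sum, map_sum]
  refine Finset.sum_congr rfl fun i _ => ?_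
  rw [map_mul, redA_C, C_mul_eq_smul']

lemma red_comb_mem {ι : Type*} (e : ι → LaurentSeries A) (E : IntermediateField k (LaurentSeries k))
    (he : ∀ i, redA A π (e i) ∈ E) (u : ι →₀ A) : redA A π (comb e u) ∈ E := by
  rw [red_comb, Finsupp.linearCombination_apply, Finsupp.sum]
  exact sum_mem fun i _ => IntermediateField.smul_mem _ (he i)

lemma linComb_eq {ι : Type*} (e : ι → LaurentSeries A) {u : ι →₀ K} {c : K} {u' : ι →₀ A}
    (h : u = c • u'.mapRange (fun a : A => (a : K)) rfl) :
    Finsupp.linearCombination K (fun i => iotaA A (e i)) u = HahnSeries.C c * iotaA A (comb e u') := by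
  rw [h, map_smul, ← iota_comb, C_mul_eq_smul']

lemma red_comb_ne_zero {ι : Type*} (e : ι → LaurentSeries A)
    (hli : LinearIndependent k fun i => redA A π (e i)) {u' : ι →₀ A} {i0 : ι} (h1 : u' i0 = 1) :
    redA A π (comb e u') ≠ 0 := by
  rw [red_comb]
  intro h
  have h2 := DFunLike.congr_fun ((linearIndependent_iff.1 hli) _ h) i0
  rw [Finsupp.mapRange_apply, h1, map_one] at h2
  exact one_ne_zero h2

lemma li_of_pair {ι M : Type*} [AddCommGroup M] [Module k M] {f g : ι → M}
    (h : LinearIndependent k fun p => (f p, g p)) (v : ι →₀ k)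
    (h1 : Finsupp.linearCombination k f v = 0) (h2 : Finsupp.linearCombination k g v = 0) :
    v = 0 := by
  apply linearIndependent_iff.1 h v
  have e1 := Finsupp.apply_linearCombination k (LinearMap.fst k M M) (fun p => (f p, g p)) v
  have e2 := Finsupp.apply_linearCombination k (LinearMap.snd k M M) (fun p => (f p, g p)) v
  apply Prod.ext
  · exact e1.trans h1
  · exact e2.trans h2

/-- the family `y ^ j * B i` -/
def eFamJ {J : Type} (y : LaurentSeries A) (B : J → LaurentSeries A) :
    ℕ × J → LaurentSeries A := fun p => y ^ p.1 * B p.2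

/-- the hypotheses -/
structure Hyp2 (π : A →+* k) (F : IntermediateField K (LaurentSeries K))
    (E : IntermediateField k (LaurentSeries k)) (w : F ≃ₐ[K] F) (J : Type) [Fintype J]
    (y1 y2 : LaurentSeries A) (B1 B2 : J → LaurentSeries A) : Prop where
  π_surj : Function.Surjective π
  ww : ∀ f, w (w f) = f
  y_mem : iotaA A y1 ∈ F
  wy : ((w ⟨iotaA A y1, y_mem⟩ : F) : LaurentSeries K) = iotaA A y2
  B_mem : ∀ i, iotaA A (B1 i) ∈ F
  wB : ∀ i, ((w ⟨iotaA A (B1 i), B_mem i⟩ : F) : LaurentSeries K) = iotaA A (B2 i)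
  ry1_mem : redA A π y1 ∈ E
  ry2_mem : redA A π y2 ∈ E
  rB1_mem : ∀ i, redA A π (B1 i) ∈ E
  rB2_mem : ∀ i, redA A π (B2 i) ∈ E
  tr1 : Transcendental k (redA A π y1)
  tr2 : Transcendental k (redA A π y2)
  li : ∀ v : (ℕ × J) →₀ k,
    Finsupp.linearCombination k (fun p => redA A π (eFamJ y1 B1 p)) v = 0 →
    Finsupp.linearCombination k (fun p => redA A π (eFamJ y2 B2 p)) v = 0 → v = 0
  fd : FiniteDimensional K⟮(⟨iotaA A y1, y_mem⟩ : F)⟯ F
  deg : finrank K⟮(⟨iotaA A y1, y_mem⟩ : F)⟯ F ≤ Fintype.card J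
  gen : ∃ S : Set (LaurentSeries k), E = adjoin k S ∧
    ∀ s ∈ S, ∃ a : LaurentSeries A, iotaA A a ∈ F ∧ redA A π a = s

namespace Hyp2

variable {F : IntermediateField K (LaurentSeries K)} {E : IntermediateField k (LaurentSeries k)}
  {w : F ≃ₐ[K] F} {J : Type} [Fintype J] {y1 y2 : LaurentSeries A} {B1 B2 : J → LaurentSeries A}
  (H : Hyp2 π F E w J y1 y2 B1 B2)

/-- `y` as an element of `F` -/
def yF : F := ⟨iotaA A y1, H.y_mem⟩

/-- `B i` as an element of `F` -/
def BF (i : J) : F := ⟨iotaA A (B1 i), H.B_mem i⟩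

/-- the monomials -/
def mF (p : ℕ × J) : F := H.yF ^ p.1 * H.BF p.2

lemma coe_mF (p : ℕ × J) : (H.mF p : LaurentSeries K) = iotaA A (eFamJ y1 B1 p) := by
  simp [mF, eFamJ, yF, BF]

lemma coe_w_mF (p : ℕ × J) : ((w (H.mF p) : F) : LaurentSeries K) = iotaA A (eFamJ y2 B2 p) := by
  rw [mF, map_mul, map_pow]
  push_cast
  rw [yF, BF, H.wy, H.wB, eFamJ, map_mul, map_pow]

lemma coe_linComb (u : (ℕ × J) →₀ K) :
    ((Finsupp.linearCombination K H.mF u : F) : LaurentSeries K) =
      Finsupp.linearCombination K (fun p => iotaA A (eFamJ y1 B1 p)) u := by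
  have h := Finsupp.apply_linearCombination K F.val.toLinearMap H.mF u
  have h2 : (F.val.toLinearMap ∘ H.mF) = fun p => iotaA A (eFamJ y1 B1 p) := by
    ext1 p
    exact H.coe_mF p
  rw [h2] at h
  exact h

lemma coe_w_linComb (u : (ℕ × J) →₀ K) :
    ((w (Finsupp.linearCombination K H.mF u) : F) : LaurentSeries K) =
      Finsupp.linearCombination K (fun p => iotaA A (eFamJ y2 B2 p)) u := by
  have h := Finsupp.apply_linearCombination K (F.val.toLinearMap ∘ₗ w.toLinearMap) H.mF u
  have h2 : ((F.val.toLinearMap ∘ₗ w.toLinearMap) ∘ H.mF) = fun p => iotaA A (eFamJ y2 B2 p) := by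
    ext1 p
    exact H.coe_w_mF p
  rw [h2] at h
  exact h

include H in
lemma pair_scale {u : (ℕ × J) →₀ K} (hu : u ≠ 0) :
    ∃ (c : K) (u' : (ℕ × J) →₀ A), c ≠ 0 ∧ u = c • u'.mapRange (fun a : A => (a : K)) rfl ∧
      (redA A π (comb (eFamJ y1 B1) u') ≠ 0 ∨ redA A π (comb (eFamJ y2 B2) u') ≠ 0) := by
  obtain ⟨c, u', i0, hc, h1, hu'⟩ := M1Abs.exists_normalA A hu
  refine ⟨c, u', hc, hu', ?_⟩
  by_contra hcon
  push Not at hcon
  obtain ⟨ha, hb⟩ := hcon
  rw [red_comb] at ha hb
  have h2 := DFunLike.congr_fun (H.li _ ha hb) i0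
  rw [Finsupp.mapRange_apply, h1, map_one] at h2
  exact one_ne_zero h2

lemma li_F : LinearIndependent K H.mF := by
  rw [linearIndependent_iff]
  intro u h0
  by_contra hu
  obtain ⟨c, u', hc, hu', hor⟩ := H.pair_scale hu
  have hC : (HahnSeries.C c : LaurentSeries K) ≠ 0 := by
    rw [Ne, map_eq_zero]; exact hc
  have h1 := H.coe_linComb u
  have h2 := H.coe_w_linComb u
  rw [h0] at h1 h2
  rw [linComb_eq _ hu'] at h1 h2
  rw [map_zero] at h2
  have h1' : iotaA A (comb (eFamJ y1 B1) u') = 0 := by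
    rcases mul_eq_zero.1 h1.symm with h | h
    · exact absurd h hC
    · exact h
  have h2' : iotaA A (comb (eFamJ y2 B2) u') = 0 := by
    rcases mul_eq_zero.1 h2.symm with h | h
    · exact absurd h hC
    · exact h
  have e1 : comb (eFamJ y1 B1) u' = 0 := iotaA_injective (by rw [h1', map_zero])
  have e2 : comb (eFamJ y2 B2) u' = 0 := iotaA_injective (by rw [h2', map_zero])
  rcases hor with h | h
  · exact h (by rw [e1, map_zero])
  · exact h (by rw [e2, map_zero])

lemma li_adj : LinearIndependent K⟮H.yF⟯ H.BF := linearIndependent_adjoin_of_pow_mul H.li_F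

lemma fd' : FiniteDimensional K⟮H.yF⟯ F := H.fd

lemma card_eq : Fintype.card J = finrank K⟮H.yF⟯ F := by
  have := H.fd'
  have h1 := H.li_adj.fintype_card_le_finrank
  have h2 : finrank K⟮H.yF⟯ F ≤ Fintype.card J := H.deg
  omega

/-- the `K(y)`-basis `B` of `F` -/
def basis : Basis (Fin (Fintype.card J)) K⟮H.yF⟯ F :=
  haveI := H.fd'
  (basisOfLI H.li_adj H.card_eq).reindex (Fintype.equivFin J)

lemma basis_apply (i : Fin (Fintype.card J)) : H.basis i = H.BF ((Fintype.equivFin J).symm i) := by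
  have := H.fd'
  rw [basis, Basis.reindex_apply]
  exact basisOfLI_apply H.li_adj H.card_eq _

include H in
lemma poly_scale {q : K[X]} (hq : q ≠ 0) :
    ∃ (c : K) (Q1 Q2 : LaurentSeries A), c ≠ 0 ∧ redA A π Q1 ≠ 0 ∧ redA A π Q2 ≠ 0 ∧
      redA A π Q1 ∈ E ∧ redA A π Q2 ∈ E ∧
      aeval (iotaA A y1) q = HahnSeries.C c * iotaA A Q1 ∧
      aeval (iotaA A y2) q = HahnSeries.C c * iotaA A Q2 := by
  have hu : (Polynomial.basisMonomials K).repr q ≠ 0 := by simpa using hq
  obtain ⟨c, u', i0, hc, h1, hu'⟩ := M1Abs.exists_normalA A hu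
  have hp1 : LinearIndependent k fun j : ℕ => redA A π (y1 ^ j) := by
    simpa only [map_pow] using linearIndependent_pow_of_transcendental H.tr1
  have hp2 : LinearIndependent k fun j : ℕ => redA A π (y2 ^ j) := by
    simpa only [map_pow] using linearIndependent_pow_of_transcendental H.tr2
  refine ⟨c, comb (fun j : ℕ => y1 ^ j) u', comb (fun j : ℕ => y2 ^ j) u', hc,
    red_comb_ne_zero _ hp1 h1, red_comb_ne_zero _ hp2 h1,
    red_comb_mem _ E (fun j => by rw [map_pow]; exact pow_mem H.ry1_mem j) u',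
    red_comb_mem _ E (fun j => by rw [map_pow]; exact pow_mem H.ry2_mem j) u', ?_, ?_⟩
  · rw [aeval_eq_linComb, ← linComb_eq _ hu']
    simp only [map_pow]
  · rw [aeval_eq_linComb, ← linComb_eq _ hu']
    simp only [map_pow]

include H in
lemma eFam1_mem (p : ℕ × J) : redA A π (eFamJ y1 B1 p) ∈ E := by
  rw [eFamJ, map_mul, map_pow]
  exact mul_mem (pow_mem H.ry1_mem _) (H.rB1_mem _)

include H in
lemma eFam2_mem (p : ℕ × J) : redA A π (eFamJ y2 B2 p) ∈ E := by
  rw [eFamJ, map_mul, map_pow]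
  exact mul_mem (pow_mem H.ry2_mem _) (H.rB2_mem _)

lemma frac_aux {f : LaurentSeries K} {c1 c2 : K} (hc1 : c1 ≠ 0) {Q G : LaurentSeries A}
    {a : LaurentSeries K}
    (ha : a = HahnSeries.C c2 * iotaA A Q) (h : a * f = HahnSeries.C c1 * iotaA A G) :
    HahnSeries.C (c2 / c1) * f * iotaA A Q = iotaA A G := by
  have hC : (HahnSeries.C c1 : LaurentSeries K) ≠ 0 := by
    rw [Ne, map_eq_zero]; exact hc1
  rw [ha] at h
  rw [map_div₀]
  field_simp
  linear_combination h

include H in
/-- scaling for the sup norm -/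
lemma supScale (f : F) (hf : f ≠ 0) : ∃ c : K, c ≠ 0 ∧
    HahnSeries.C c * (f : LaurentSeries K) ∈ WS A π ∧
    HahnSeries.C c * ((w f : F) : LaurentSeries K) ∈ WS A π ∧
    redFun A π (HahnSeries.C c * (f : LaurentSeries K)) ∈ E ∧
    redFun A π (HahnSeries.C c * ((w f : F) : LaurentSeries K)) ∈ E ∧
    (redFun A π (HahnSeries.C c * (f : LaurentSeries K)) ≠ 0 ∨
      redFun A π (HahnSeries.C c * ((w f : F) : LaurentSeries K)) ≠ 0) := by
  obtain ⟨q, hq, hm⟩ := exists_denominator H.basis f
  obtain ⟨c2, Q1, Q2, hc2, hQ1, hQ2, hQ1E, hQ2E, hq1, hq2⟩ := H.poly_scale hq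
  have hC2 : (HahnSeries.C c2 : LaurentSeries K) ≠ 0 := by
    rw [Ne, map_eq_zero]; exact hc2
  have hcoe : ((aeval H.yF q : F) : LaurentSeries K) = aeval (iotaA A y1) q :=
    (IntermediateField.aeval_coe F H.yF q).symm
  have hcoe2 : ((w (aeval H.yF q) : F) : LaurentSeries K) = aeval (iotaA A y2) q := by
    have h1 : w (aeval H.yF q) = aeval (w H.yF) q :=
      (Polynomial.aeval_algHom_apply (w : F →ₐ[K] F) H.yF q).symm
    rw [h1, ← H.wy]
    exact (IntermediateField.aeval_coe F (w H.yF) q).symm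
  have hq0 : (aeval H.yF q : F) ≠ 0 := by
    intro h0
    rw [h0] at hcoe
    rw [hq1] at hcoe
    have h3 : iotaA A Q1 = 0 := by
      rcases mul_eq_zero.1 hcoe.symm with h | h
      · exact absurd h hC2
      · exact h
    have : Q1 = 0 := iotaA_injective (by rw [h3, map_zero])
    exact hQ1 (by rw [this, map_zero])
  have hm1 : aeval H.yF q * f ∈ Submodule.span K (Set.range H.mF) := by
    have : Set.range (fun p : ℕ × Fin (Fintype.card J) => H.yF ^ p.1 * H.basis p.2) =
        Set.range H.mF := by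
      ext z
      constructor
      · rintro ⟨p, rfl⟩
        exact ⟨(p.1, (Fintype.equivFin J).symm p.2), by
          show _ = H.yF ^ p.1 * H.basis p.2
          rw [H.basis_apply, mF]⟩
      · rintro ⟨p, rfl⟩
        exact ⟨(p.1, Fintype.equivFin J p.2), by simp [H.basis_apply, mF]⟩
    rw [polySpan, this] at hm
    exact hm
  obtain ⟨u, hu⟩ := (Finsupp.mem_span_range_iff_exists_finsupp).1 hm1
  have hu' : Finsupp.linearCombination K H.mF u = aeval H.yF q * f := by
    rw [Finsupp.linearCombination_apply]; exact hu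
  have hu0 : u ≠ 0 := by
    rintro rfl
    rw [map_zero] at hu'
    exact mul_ne_zero hq0 hf hu'.symm
  obtain ⟨c1, u1, hc1, hu1, hor⟩ := H.pair_scale hu0
  have e1 := H.coe_linComb u
  have e2 := H.coe_w_linComb u
  rw [hu', linComb_eq _ hu1] at e1 e2
  rw [map_mul] at e2
  push_cast at e1 e2
  rw [hcoe] at e1
  rw [hcoe2] at e2
  have f1 := frac_aux hc1 hq1 e1
  have f2 := frac_aux hc1 hq2 e2
  refine ⟨c2 / c1, div_ne_zero hc2 hc1, ⟨_, _, hQ1, f1⟩, ⟨_, _, hQ2, f2⟩, ?_, ?_, ?_⟩
  · rw [redFun_eq hQ1 f1]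
    exact div_mem (red_comb_mem _ E H.eFam1_mem _) hQ1E
  · rw [redFun_eq hQ2 f2]
    exact div_mem (red_comb_mem _ E H.eFam2_mem _) hQ2E
  · rw [redFun_eq hQ1 f1, redFun_eq hQ2 f2]
    rcases hor with h | h
    · exact Or.inl (div_ne_zero h hQ1)
    · exact Or.inr (div_ne_zero h hQ2)

include H in
/-- scaling for the first Gauss norm: the trick `f * w f`. -/
theorem hypS : HypS π F E where
  π_surj := H.π_surj
  gen := H.gen
  scaleW := by
    intro f hf
    obtain ⟨c, hc, h1, h2, h3, h4, hor⟩ := H.supScale f hf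
    by_cases h0 : redFun A π (HahnSeries.C c * (f : LaurentSeries K)) = 0
    · have h5 : redFun A π (HahnSeries.C c * ((w f : F) : LaurentSeries K)) ≠ 0 :=
        hor.resolve_left (fun h => h h0)
      have hwf : w f ≠ 0 := by
        intro h
        exact hf (by simpa using h)
      obtain ⟨c', hc', g1, g2, g3, g4, hor'⟩ := H.supScale (f * w f) (mul_ne_zero hf hwf)
      have hinv : w (f * w f) = f * w f := by
        rw [map_mul, H.ww, mul_comm]
      rw [hinv] at hor'
      have g5 : redFun A π (HahnSeries.C c' * ((f * w f : F) : LaurentSeries K)) ≠ 0 := by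
        rcases hor' with h | h <;> exact h
      have hC : (HahnSeries.C c : LaurentSeries K) ≠ 0 := by
        rw [Ne, map_eq_zero]; exact hc
      have hwf' : ((w f : F) : LaurentSeries K) ≠ 0 := fun h => hwf (Subtype.ext h)
      have key : HahnSeries.C (c' / c) * (f : LaurentSeries K) =
          (HahnSeries.C c' * ((f * w f : F) : LaurentSeries K)) *
            (HahnSeries.C c * ((w f : F) : LaurentSeries K))⁻¹ := by
        rw [map_div₀]
        push_cast
        field_simp
      have hi := inv_mem_of_redFun_ne_zero h2 h5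
      refine ⟨c' / c, div_ne_zero hc' hc, ?_, ?_, ?_⟩
      · rw [key]
        exact (WS A π).mul_mem g1 hi
      · rw [key, redFun_mul g1 hi, redFun_inv h2 h5]
        exact mul_ne_zero g5 (inv_ne_zero h5)
      · rw [key, redFun_mul g1 hi, redFun_inv h2 h5]
        exact mul_mem g3 (inv_mem h4)
    · exact ⟨c, hc, h1, h0, h3⟩

end Hyp2

end FAN
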