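/-
PROJECT N, (IV): unipotent inertia on `KK (p ^ n) N` implies S34.
-/
import Fermat.Agent.Tate.S31Core

set_option autoImplicit false

open FA24 FAG FAT31 Module IsLocalRing Polynomial

namespace FAN

/-- inertia at `q` acts unipotently on `KK m N`. -/
def UnipHyp (m N q : ℕ) [NeZero N] : Prop :=
  ∀ P : ValuationSubring Kb, P.LiesOverPrime q → ∀ τ ∈ P.inertiaSubgroupIn ℚ,
    (KK.act m N τ - 1) * (KK.act m N τ - 1) = 0

theorem add_inv_eq_two {E : Type*} [Ring E] {a b : E} (hab : a * b = 1)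
    (h : (a - 1) * (a - 1) = 0) : a + b = 1 + 1 := by
  have h3 : (a - 1) * (a - 1) * b = a + b - (1 + 1) := by
    have : (a - 1) * (a - 1) * b = a * (a * b) - (a * b) - (a * b) + b := by noncomm_ring
    rw [this, hab, mul_one]
    abel
  rw [h, zero_mul] at h3
  exact sub_eq_zero.mp h3.symm

section Main

variable {p N : ℕ} [NeZero N] {S : Finset ℕ} {T : Type} [CommRing T] [IsLocalRing T]

/-- the trace congruence `tr ρ(τ) ≡ 2`. -/
theorem trace_sub_two_mem (hp : p.Prime) (hpT : (p : T) ∈ maximalIdeal T) (hpS : p ∈ S)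
    (hNS : ∀ q : ℕ, q.Prime → q ∣ N → q ∈ S)
    (π : CuspForm.heckeAlgebra N 2 (↑S : Set ℕ) →+* T) (ρ : GaloisRepAdic T)
    (hfrob : ∀ (ℓ : ℕ) (hℓ : ℓ.Prime) (hℓN : ¬ ℓ ∣ N) (hℓS : ℓ ∉ (↑S : Set ℕ)),
      ∀ A : ValuationSubring (AlgebraicClosure ℚ), A.LiesOverPrime ℓ →
        ∀ σ : AlgebraicClosure ℚ ≃ₐ[ℚ] AlgebraicClosure ℚ, A.IsFrobeniusAt σ ℓ →
          LinearMap.charpoly (ρ.ρ σ) =
            X ^ 2 - C (π (CuspForm.heckeAlgebra.T hℓ hℓN hℓS)) * X + C ((ℓ : T)))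
    {q : ℕ} (hq : q.Prime) (hqp : q ≠ p) (hU : ∀ n, UnipHyp (p ^ n) N q)
    (P : ValuationSubring Kb) (hP : P.LiesOverPrime q)
    (τ : GQ) (hτ : τ ∈ P.inertiaSubgroupIn ℚ) (n : ℕ) :
    LinearMap.trace T ρ.V (ρ.ρ τ) - 2 ∈ maximalIdeal T ^ n := by
  classical
  obtain ⟨R, _, φ, ψ, hgen, c, hAR⟩ := hecke_AR N (↑S : Set ℕ) p
  set m : ℕ := p ^ (n + c) with hm
  have : NeZero m := ⟨pow_ne_zero _ hp.ne_zero⟩
  have : Fact q.Prime := ⟨hq⟩
  have hmS : ∀ ℓ : ℕ, ℓ.Prime → ℓ ∣ m → ℓ ∈ S := by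
    intro ℓ hℓ h
    rw [(Nat.prime_dvd_prime_iff_eq hℓ hp).1 (hℓ.dvd_of_dvd_pow h)]
    exact hpS
  have hqm : ¬ q ∣ m := fun h =>
    hqp ((Nat.prime_dvd_prime_iff_eq hq hp).1 (hq.dvd_of_dvd_pow h))
  obtain ⟨Ψ, hker, hΨ, -⟩ := exists_PsiM m N
  -- the fields
  obtain ⟨L1, hL1fin, hL1⟩ := ρ.isAdicContinuous n
  have := FAH3.fg_Gamma0 N
  obtain ⟨r, γ, b, -, -⟩ := exists_basis_dual
    {γ : CongruenceSubgroup.Gamma0 N |
      ((γ : Matrix.SpecialLinearGroup (Fin 2) ℤ) : Matrix (Fin 2) (Fin 2) ℤ).trace ^ 2 = 4}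
    (ModularCurve.Period.parabolicHoms ℤ (CongruenceSubgroup.Gamma0 N) ℤ) (fun χ => Iff.rfl)
  obtain ⟨L2, hL2fin, hL2⟩ := exists_field_fix b Ψ
    (fun σ => (KK.act m N σ : KK m N →ₗ[ZMod m] KK m N).toAddMonoidHom) (KK.act_smooth m N)
  obtain ⟨ζ, hζ⟩ := exists_primitive_root_nat m
  have halg : Algebra.IsAlgebraic ℚ Kb := AlgebraicClosure.isAlgebraic ℚ
  have hcl : IsAlgClosure ℚ Kb := ⟨inferInstance, inferInstance⟩
  have hnorm : Normal ℚ Kb := IsAlgClosure.normal ℚ Kb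
  have hζfin : FiniteDimensional ℚ (IntermediateField.adjoin ℚ {ζ}) :=
    IntermediateField.adjoin.finiteDimensional (Algebra.IsAlgebraic.isAlgebraic ζ).isIntegral
  have hL12fin : FiniteDimensional ℚ (L1 ⊔ L2 : IntermediateField ℚ Kb) :=
    IntermediateField.finiteDimensional_sup L1 L2
  have hL3fin : FiniteDimensional ℚ
      (L1 ⊔ L2 ⊔ IntermediateField.adjoin ℚ {ζ} : IntermediateField ℚ Kb) :=
    IntermediateField.finiteDimensional_sup (L1 ⊔ L2) (IntermediateField.adjoin ℚ {ζ})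
  set L : IntermediateField ℚ Kb := IntermediateField.normalClosure ℚ
    (L1 ⊔ L2 ⊔ IntermediateField.adjoin ℚ {ζ} : IntermediateField ℚ Kb) Kb with hL
  have hLfin : FiniteDimensional ℚ L := normalClosure.is_finiteDimensional _ _ _
  have hLn : Normal ℚ L := normalClosure.normal _ _ _
  have hLg : IsGalois ℚ L := ⟨⟩
  have hle : (L1 ⊔ L2 ⊔ IntermediateField.adjoin ℚ {ζ} : IntermediateField ℚ Kb) ≤ L :=
    IntermediateField.le_normalClosure _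
  have hL1le : L1 ≤ L := le_trans (le_trans le_sup_left le_sup_left) hle
  have hL2le : L2 ≤ L := le_trans (le_trans le_sup_right le_sup_left) hle
  have hζL : ζ ∈ L := hle ((le_sup_right : IntermediateField.adjoin ℚ {ζ} ≤
    L1 ⊔ L2 ⊔ IntermediateField.adjoin ℚ {ζ}) (IntermediateField.mem_adjoin_simple_self ℚ ζ))
  obtain ⟨y, e, hy1, hy2, hy3⟩ := frob_data hmS hNS π ρ hfrob φ ψ hgen Ψ hΨ (maximalIdeal T ^ n) L
    (fun σ hσ v => hL1 σ (fun x hx => hσ x (hL1le hx)) v)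
    (fun σ hσ χ => hL2 σ (fun x hx => hσ x (hL2le hx)) χ) hζ hζL τ
  -- the exponent
  have he : e ≡ 1 [MOD m] := by
    rw [← pow_eq_pow_iff_of_primitive hζ (NeZero.ne m), ← hy3, pow_one,
      apply_root_of_mem_inertia hqm P hP hτ hζ]
  have he' : ∀ x : KK m N, e • x = x := by
    intro x
    rw [← Nat.cast_smul_eq_nsmul (ZMod m), (ZMod.natCast_eq_natCast_iff e 1 m).2 he, Nat.cast_one,
      one_smul]
  -- unipotence
  have hτ1 : KK.act m N τ + KK.act m N τ⁻¹ = 1 + 1 :=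
    add_inv_eq_two (by rw [← map_mul, mul_inv_cancel, map_one]) (hU (n + c) P hP τ hτ)
  have hzero : ∀ χ, Ψ (φ (y - (1 + 1)) χ) = 0 := by
    intro χ
    rw [map_sub, map_add, map_one, LinearMap.sub_apply, LinearMap.add_apply, Module.End.one_apply,
      map_sub, hy2, he', ← LinearMap.add_apply, hτ1, LinearMap.add_apply, Module.End.one_apply,
      map_add, sub_self]
  obtain ⟨t', ht'⟩ := hAR n (y - (1 + 1)) fun χ => hker _ (hzero χ)
  have h1 : π (ψ y) - 2 ∈ maximalIdeal T ^ n := by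
    have : π (ψ y) - 2 = π (ψ (y - (1 + 1))) := by
      rw [map_sub, map_sub, map_add, map_add, map_one, map_one, one_add_one_eq_two]
    rw [this, ht', map_nsmul, nsmul_eq_mul, Nat.cast_pow]
    exact Ideal.mul_mem_right _ _ (Ideal.pow_mem_pow hpT n)
  have h2 : LinearMap.trace T ρ.V (ρ.ρ τ) - 2 =
      (LinearMap.trace T ρ.V (ρ.ρ τ) - π (ψ y)) + (π (ψ y) - 2) := by ring
  rw [h2]
  exact Ideal.add_mem _ hy1 h1

/-- **S34**, abstract form. -/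
theorem unipotent_of_unip [IsHausdorff (maximalIdeal T) T]
    (h2T : ∀ x : T, 2 * x = 0 → x = 0)
    (hp : p.Prime) (hpT : (p : T) ∈ maximalIdeal T) (hpS : p ∈ S)
    (hNS : ∀ q : ℕ, q.Prime → q ∣ N → q ∈ S)
    (π : CuspForm.heckeAlgebra N 2 (↑S : Set ℕ) →+* T) (ρ : GaloisRepAdic T)
    (hfrob : ∀ (ℓ : ℕ) (hℓ : ℓ.Prime) (hℓN : ¬ ℓ ∣ N) (hℓS : ℓ ∉ (↑S : Set ℕ)),
      ∀ A : ValuationSubring (AlgebraicClosure ℚ), A.LiesOverPrime ℓ →
        ∀ σ : AlgebraicClosure ℚ ≃ₐ[ℚ] AlgebraicClosure ℚ, A.IsFrobeniusAt σ ℓ →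
          LinearMap.charpoly (ρ.ρ σ) =
            X ^ 2 - C (π (CuspForm.heckeAlgebra.T hℓ hℓN hℓS)) * X + C ((ℓ : T)))
    {q : ℕ} (hq : q.Prime) (hqp : q ≠ p) (hU : ∀ n, UnipHyp (p ^ n) N q) :
    ρ.IsUnipotentOnInertiaAt q := by
  classical
  intro P hP τ hτ
  have htr : ∀ τ' ∈ P.inertiaSubgroupIn ℚ, LinearMap.trace T ρ.V (ρ.ρ τ') = 2 := by
    intro τ' hτ'
    rw [← sub_eq_zero]
    refine IsHausdorff.haus (I := maximalIdeal T) inferInstance _ fun n => ?_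
    rw [SModEq.zero, smul_eq_mul, Ideal.mul_top]
    exact trace_sub_two_mem hp hpT hpS hNS π ρ hfrob hq hqp hU P hP τ' hτ' n
  let B := Module.finBasisOfFinrankEq T ρ.V ρ.finrank_eq
  have hcp : LinearMap.charpoly (ρ.ρ τ) =
      X ^ 2 - C (LinearMap.toMatrix B B (ρ.ρ τ)).trace * X +
        C (LinearMap.toMatrix B B (ρ.ρ τ)).det := by
    rw [← LinearMap.charpoly_toMatrix (ρ.ρ τ) B, Matrix.charpoly_fin_two]
  have h1 := trace_pow_eq_dick ρ.finrank_eq (ρ.ρ τ) hcp 1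
  have h2 := trace_pow_eq_dick ρ.finrank_eq (ρ.ρ τ) hcp 2
  rw [pow_one, dick_one, htr τ hτ] at h1
  rw [← map_pow, htr (τ ^ 2) (pow_mem hτ 2), dick_succ_succ, dick_one, dick_zero, ← h1] at h2
  have h3 : (LinearMap.toMatrix B B (ρ.ρ τ)).det = 1 := by
    rw [← sub_eq_zero]
    apply h2T
    linear_combination h2
  rw [hcp, ← h1, h3]
  simp only [map_ofNat, map_one]
  ring

end Main

end FAN
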