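/-
PROJECT N, (IV): descent of `UnipHyp` from the level `lcm N (auxLevel q)` to the level `N`.
-/
import Fermat.Agent.Nodal.S34Core
import Fermat.Agent.Red.Descend
import Fermat.Agent.Gal.K4Fun

set_option autoImplicit false

open FA24 FAG AlgebraicCurve FA18 ModularCurve

namespace FAN

/-- `St2.descend` without any hypothesis on the level. -/
theorem descend_root (N : ℕ) [NeZero N] {l : ℕ} (m : ℕ) (hm : ¬ l ∣ m)
    (f : FN N) (s : LaurentSeries Kb)
    (hs : s ∈ modularFunctionFieldBar (Nat.lcm N (auxLevel l)))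
    (hsf : s ^ m = (f : LaurentSeries Kb)) : ∃ t : FN N, t ^ m = f := by
  by_cases hdvd : auxLevel l ∣ N
  · rw [Nat.lcm_eq_left hdvd] at hs
    exact ⟨⟨s, hs⟩, Subtype.ext hsf⟩
  obtain ⟨p, hp, hpl, hcop⟩ : ∃ p : ℕ, p.Prime ∧ auxLevel l = p ∧ Nat.Coprime (p + 1) m := by
    unfold auxLevel at hdvd ⊢
    split_ifs at hdvd ⊢ with h2 h3
    · subst h2
      refine ⟨3, by norm_num, rfl, ?_⟩
      have : Nat.Coprime 2 m := (Nat.Prime.coprime_iff_not_dvd Nat.prime_two).2 hm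
      exact Nat.Coprime.pow_left 2 this
    · subst h3
      exact ⟨2, by norm_num, rfl, (Nat.Prime.coprime_iff_not_dvd Nat.prime_three).2 hm⟩
    · exact absurd (one_dvd N) hdvd
  rw [hpl] at hdvd hs
  have hlcm : Nat.lcm N p = N * p :=
    Nat.Coprime.lcm_eq_mul ((Nat.Prime.coprime_iff_not_dvd hp).2 hdvd).symm
  rw [hlcm] at hs
  have : NeZero p := ⟨hp.ne_zero⟩
  obtain ⟨t, ht, htm⟩ := St2.exists_root_of_coprime (St2.incl (dvd_mul_right N p)).fieldRange
    (p + 1) (St2.finrank_range_incl p hp hdvd) m hcop (St2.incl (dvd_mul_right N p) f)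
    (AlgHom.mem_fieldRange.2 ⟨f, rfl⟩) ⟨s, hs⟩ (Subtype.ext (by
      rw [St2.coe_incl, ← hsf]; rfl))
  obtain ⟨t0, rfl⟩ := AlgHom.mem_fieldRange.1 ht
  refine ⟨t0, (St2.incl (dvd_mul_right N p)).injective ?_⟩
  show St2.incl (dvd_mul_right N p) (t0 ^ m) = St2.incl (dvd_mul_right N p) f
  rw [map_pow, htm]

theorem galF_incl {N N' : ℕ} (h : N ∣ N') (σ : GQ) (f : FN N) :
    galF N' σ (St2.incl h f) = St2.incl h (galF N σ f) := by
  apply Subtype.ext
  rw [coe_galF, St2.coe_incl, St2.coe_incl, coe_galF]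

/-- `(τ - 1)(τ' - 1) = 0` on `KK`, in terms of functions. -/
theorem act_sub_one_mul_eq_zero_iff {m N : ℕ} [NeZero m] (τ τ' : GQ) :
    (KK.act m N τ - 1) * (KK.act m N τ' - 1) = 0 ↔
      ∀ w : FN N, w ≠ 0 → (∀ Q : Place Kb (FN N), (m : ℤ) ∣ Q.ord w) →
        ∃ s : FN N, s ^ m =
          (galF N τ (galF N τ' w) * w) * (galF N τ w * galF N τ' w)⁻¹ := by
  have main : ∀ u : UU m N, ((KK.act m N τ - 1) * (KK.act m N τ' - 1)) (KK.mk u) = 0 ↔
      ∃ s : FN N, s ^ m =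
          (galF N τ (galF N τ' ((u : (FN N)ˣ) : FN N)) * ((u : (FN N)ˣ) : FN N)) *
            (galF N τ ((u : (FN N)ˣ) : FN N) * galF N τ' ((u : (FN N)ˣ) : FN N))⁻¹ := by
    intro u
    have e1 : (KK.act m N τ' - 1) (KK.mk u) =
        KK.mk (UU.map (galM N τ') (dvd_ord_galM m N τ') u) - KK.mk u := by
      rw [LinearMap.sub_apply, Module.End.one_apply, KK.act_mk]
    rw [Module.End.mul_apply, e1, LinearMap.sub_apply, Module.End.one_apply, map_sub, KK.act_mk,
      KK.act_mk]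
    have h1 : KK.mk (UU.map (galM N τ) (dvd_ord_galM m N τ)
        (UU.map (galM N τ') (dvd_ord_galM m N τ') u) * u) =
        KK.mk (UU.map (galM N τ) (dvd_ord_galM m N τ) u *
          UU.map (galM N τ') (dvd_ord_galM m N τ') u) ↔ _ := KK.mk_eq_mk_iff _ _ _ _
    rw [KK.mk_mul, KK.mk_mul] at h1
    rw [sub_eq_zero, sub_eq_sub_iff_add_eq_add, add_comm (KK.mk (UU.map (galM N τ')
      (dvd_ord_galM m N τ') u)), h1]
    exact Iff.rfl
  constructor
  · intro h w hw hd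
    have := (main (UU.of w hw hd)).1 (by rw [h, LinearMap.zero_apply])
    exact this
  · intro h
    refine KK.end_ext fun u => ?_
    rw [LinearMap.zero_apply]
    exact (main u).2 (h _ (u : (FN N)ˣ).ne_zero u.2)

/-- descent of the unipotence hypothesis from the auxiliary level. -/
theorem unipHyp_of_lcm (m N q : ℕ) [NeZero N] [NeZero m] (hm : ¬ q ∣ m)
    [NeZero (Nat.lcm N (auxLevel q))]
    (h : UnipHyp m (Nat.lcm N (auxLevel q)) q) : UnipHyp m N q := by
  intro P hP τ hτ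
  have h1 := (act_sub_one_mul_eq_zero_iff τ τ).1 (h P hP τ hτ)
  rw [act_sub_one_mul_eq_zero_iff]
  intro w hw hd
  have hNN' : N ∣ Nat.lcm N (auxLevel q) := Nat.dvd_lcm_left _ _
  obtain ⟨s, hs⟩ := h1 (St2.incl hNN' w)
    ((map_ne_zero_iff _ (St2.incl hNN').injective).2 hw) (St2.dvd_ord_incl hNN' w m hd)
  refine descend_root N m hm _ (s : LaurentSeries Kb) s.2 ?_
  rw [← IntermediateField.coe_pow, hs, galF_incl, galF_incl, ← map_mul, ← map_mul, ← map_inv₀,
    ← map_mul, St2.coe_incl]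

end FAN
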