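import Fermat.Agent.Nodal.UnipOf
import Fermat.Agent.Nodal.UnipDescend
import Fermat.Agent.Red.FinalA

/-!
# PROJECT N: final glue.  Nodal geometry at all levels `M * l` (`l ∤ M`, `auxLevel l ∣ M`) gives the
unipotence hypothesis `UnipHyp m N q` for `q ∥ N`, `q ∤ m`.
-/

set_option autoImplicit false

open FA24 FAG AlgebraicCurve FA18 FA18.G4

namespace FAN

/-- the concrete input at level `N` and a place `P` of `ℚ̄`. -/
def NodalInputAt (N : ℕ) [NeZero N] (P : ValuationSubring Kb) : Prop :=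
  ∃ (E : Type) (_ : Field E) (_ : Algebra (IsLocalRing.ResidueField P) E)
    (O1 O2 : ValuationSubring (FN N)) (ρ1 : O1 →+* E) (ρ2 : O2 →+* E)
    (D : Divisor Kb (FN N)) (gF cF gb cb : ℤ)
    (G : NodalGeom P (IsLocalRing.residue P) O1 O2 ρ1 ρ2 D gF cF gb cb), 0 < G.s ∧
    (∀ τ ∈ P.inertiaSubgroupIn ℚ, ∀ x a, Rd O1 ρ1 x a → Rd O1 ρ1 (galF N τ x) a) ∧
    (∀ τ ∈ P.inertiaSubgroupIn ℚ, ∀ x a, Rd O2 ρ2 x a → Rd O2 ρ2 (galF N τ x) a) ∧
    (∀ a b : IsLocalRing.ResidueField P, ∃ f : FN N,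
      Rd O1 ρ1 f (algebraMap _ E a) ∧ Rd O2 ρ2 f (algebraMap _ E b)) ∧
    (∀ τ ∈ P.inertiaSubgroupIn ℚ, ∀ (n : ℕ) (x : FN N), x ∈ riemannRochSpace (n • D) →
      galF N τ x ∈ riemannRochSpace (n • D))

theorem unipHyp_of_input {m N q : ℕ} [NeZero N] [NeZero m] (hq : q.Prime) (hm : ¬ q ∣ m)
    (h : ∀ P : ValuationSubring Kb, P.LiesOverPrime q → NodalInputAt N P) : UnipHyp m N q := by
  intro P hP τ hτ
  obtain ⟨E, _, _, O1, O2, ρ1, ρ2, D, gF, cF, gb, cb, G, hs, hin1, hin2, happ, hinL⟩ := h P hP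
  have : IsAlgClosed (IsLocalRing.ResidueField P) :=
    isAlgClosed_of_surj P (IsLocalRing.residue P) IsLocalRing.residue_surjective
  exact G.unip hs (natCast_ne_zero_of_not_dvd hq hP (IsLocalRing.residue P)
    IsLocalRing.residue_surjective hm) hin1 hin2 happ hinL τ hτ τ hτ

theorem unipHyp_congr {m N N' q : ℕ} [NeZero N] [NeZero N'] (h : N = N')
    (hU : UnipHyp m N q) : UnipHyp m N' q := by
  subst h
  exact hU

/-- arithmetic of the auxiliary level. -/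
theorem exists_level {N q : ℕ} (hq : q.Prime) (hqN : q ∣ N) (hq2 : ¬ q ^ 2 ∣ N) :
    ∃ M : ℕ, Nat.lcm N (auxLevel q) = M * q ∧ ¬ q ∣ M ∧ auxLevel q ∣ M := by
  have hcop : Nat.Coprime q (auxLevel q) :=
    (Nat.Prime.coprime_iff_not_dvd hq).2 (not_dvd_auxLevel hq)
  obtain ⟨M, hM⟩ : q ∣ Nat.lcm N (auxLevel q) := hqN.trans (Nat.dvd_lcm_left _ _)
  refine ⟨M, by rw [hM, mul_comm], ?_, ?_⟩
  · intro hqM
    apply hq2
    have h1 : q ^ 2 ∣ Nat.lcm N (auxLevel q) := by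
      rw [hM, pow_two]
      exact Nat.mul_dvd_mul_left q hqM
    have h2 : q ^ 2 ∣ N * auxLevel q := h1.trans (Nat.lcm_dvd_mul _ _)
    exact (Nat.Coprime.pow_left 2 hcop).dvd_of_dvd_mul_right h2
  · have h1 : auxLevel q ∣ q * M := hM ▸ Nat.dvd_lcm_right _ _
    exact hcop.symm.dvd_of_dvd_mul_left h1

/-- **final glue.** -/
theorem unipHyp_main
    (h : ∀ (M l : ℕ) [NeZero (M * l)], l.Prime → ¬ l ∣ M → auxLevel l ∣ M →
      ∀ P : ValuationSubring Kb, P.LiesOverPrime l → NodalInputAt (M * l) P)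
    {m N q : ℕ} [NeZero N] [NeZero m] (hq : q.Prime) (hqN : q ∣ N) (hq2 : ¬ q ^ 2 ∣ N)
    (hm : ¬ q ∣ m) : UnipHyp m N q := by
  obtain ⟨M, hM, hqM, haux⟩ := exists_level hq hqN hq2
  have : NeZero (Nat.lcm N (auxLevel q)) :=
    ⟨Nat.lcm_ne_zero (NeZero.ne N) (auxLevel_ne_zero q)⟩
  have : NeZero (M * q) := ⟨hM ▸ NeZero.ne _⟩
  exact unipHyp_of_lcm m N q hm
    (unipHyp_congr hM.symm (unipHyp_of_input hq hm (h M q hq hqM haux)))

end FAN
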