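import Fermat.Agent.Nodal.UnipOf
import Fermat.Agent.Nodal.UnipDescend
import Fermat.Agent.Nodal.S34Core
import Fermat.Agent.Red.FinalA
import Fermat.Prelude.Def_CuspForm_HeckeGaloisRepDatum

/-!
# PROJECT N: the top of the chain.  S34 from the existence of nodal geometries at the levels `M * q`.
-/

set_option autoImplicit false

open FA24 FAG AlgebraicCurve FA18 FA18.G4 IsLocalRing

namespace FAN

/-- the nodal geometry of `X₀(M q)` at every place above `q`, with the invariance under inertia. -/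
def TopHyp (M q : ℕ) [NeZero (M * q)] : Prop :=
  ∀ P : ValuationSubring Kb, P.LiesOverPrime q →
    ∃ (k : Type) (_ : Field k) (_ : IsAlgClosed k) (π : P →+* k)
      (E : Type) (_ : Field E) (_ : Algebra k E)
      (O1 O2 : ValuationSubring (FN (M * q))) (ρ1 : O1 →+* E) (ρ2 : O2 →+* E)
      (D : Divisor Kb (FN (M * q))) (gF cF gb cb : ℤ)
      (G : NodalGeom P π O1 O2 ρ1 ρ2 D gF cF gb cb), 0 < G.s ∧
      (∀ m : ℕ, ¬ q ∣ m → (m : k) ≠ 0) ∧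
      (∀ τ ∈ P.inertiaSubgroupIn ℚ, ∀ x a, Rd O1 ρ1 x a → Rd O1 ρ1 (galF (M * q) τ x) a) ∧
      (∀ τ ∈ P.inertiaSubgroupIn ℚ, ∀ x a, Rd O2 ρ2 x a → Rd O2 ρ2 (galF (M * q) τ x) a) ∧
      (∀ a b : k, ∃ f : FN (M * q),
        Rd O1 ρ1 f (algebraMap k E a) ∧ Rd O2 ρ2 f (algebraMap k E b)) ∧
      (∀ τ ∈ P.inertiaSubgroupIn ℚ, ∀ (n : ℕ) (x : FN (M * q)), x ∈ riemannRochSpace (n • D) →
        galF (M * q) τ x ∈ riemannRochSpace (n • D))

theorem unipHyp_of_topHyp {M q : ℕ} [NeZero (M * q)] (h : TopHyp M q) (m : ℕ) [NeZero m]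
    (hm : ¬ q ∣ m) : UnipHyp m (M * q) q := by
  intro P hP τ hτ
  obtain ⟨k, _, _, π, E, _, _, O1, O2, ρ1, ρ2, D, gF, cF, gb, cb, G, hs, hchar, hin1, hin2, happ,
    hinL⟩ := h P hP
  exact G.unip hs (hchar m hm) hin1 hin2 happ hinL τ hτ τ hτ

theorem coprime_auxLevel {q : ℕ} (hq : q.Prime) : Nat.Coprime q (auxLevel q) :=
  (Nat.Prime.coprime_iff_not_dvd hq).2 (not_dvd_auxLevel hq)

/-- `UnipHyp` at every level exactly divisible by `q`. -/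
theorem unipHyp_of_forall_topHyp
    (hG : ∀ (M q : ℕ) [NeZero (M * q)], q.Prime → ¬ q ∣ M → auxLevel q ∣ M → TopHyp M q)
    {N : ℕ} [NeZero N] {q : ℕ} (hq : q.Prime) (hqN : q ∣ N) (hq2 : ¬ q ^ 2 ∣ N)
    (m : ℕ) [NeZero m] (hm : ¬ q ∣ m) : UnipHyp m N q := by
  haveI : NeZero (Nat.lcm N (auxLevel q)) :=
    ⟨Nat.lcm_ne_zero (NeZero.ne N) (auxLevel_ne_zero q)⟩
  refine unipHyp_of_lcm m N q hm ?_
  have key : ∀ (N'' : ℕ) [NeZero N''], N'' = Nat.lcm N (auxLevel q) → UnipHyp m N'' q := by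
    intro N'' _ hN''
    have hqN'' : q ∣ N'' := hN'' ▸ dvd_trans hqN (Nat.dvd_lcm_left _ _)
    obtain ⟨M, rfl⟩ : ∃ M, N'' = M * q := ⟨N'' / q, (Nat.div_mul_cancel hqN'').symm⟩
    have hcop := coprime_auxLevel hq
    have hqM : ¬ q ∣ M := by
      intro hdvd
      apply hq2
      have h1 : q ^ 2 ∣ Nat.lcm N (auxLevel q) := by
        rw [← hN'', pow_two]
        exact Nat.mul_dvd_mul hdvd dvd_rfl
      have h2 : q ^ 2 ∣ N * auxLevel q := h1.trans (Nat.lcm_dvd_mul _ _)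
      exact (Nat.Coprime.pow_left 2 hcop).dvd_of_dvd_mul_right h2
    have haux : auxLevel q ∣ M := by
      have h1 : auxLevel q ∣ M * q := hN'' ▸ Nat.dvd_lcm_right _ _
      exact hcop.symm.dvd_of_dvd_mul_right h1
    exact unipHyp_of_topHyp (hG M q hq hqM haux) m hm
  exact key _ rfl

/-- **S34** from the nodal geometries. -/
theorem S34_of_topHyp
    (hG : ∀ (M q : ℕ) [NeZero (M * q)], q.Prime → ¬ q ∣ M → auxLevel q ∣ M → TopHyp M q)
    {𝒪 : Type} [CommRing 𝒪] [IsDomain 𝒪] [IsDiscreteValuationRing 𝒪]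
    [IsAdicComplete (maximalIdeal 𝒪) 𝒪] [Finite (ResidueField 𝒪)] [CharZero 𝒪]
    {p : ℕ} (hp : p.Prime) (hp𝒪 : (p : 𝒪) ∈ maximalIdeal 𝒪)
    {N : ℕ} [NeZero N] {S : Finset ℕ} (hpS : p ∈ S) (hNS : ∀ q : ℕ, q.Prime → q ∣ N → q ∈ S)
    {θ : CuspForm.heckeAlgebra N 2 (↑S : Set ℕ) →+* ResidueField 𝒪}
    {T : Type} [CommRing T] [IsLocalRing T] [IsNoetherianRing T]
    [IsAdicComplete (maximalIdeal T) T] [Algebra 𝒪 T] [IsLocalHom (algebraMap 𝒪 T)]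
    [Module.Finite 𝒪 T] [Module.Free 𝒪 T]
    (H : CuspForm.HeckeGaloisRepDatum N (↑S : Set ℕ) 𝒪 θ T)
    (q : ℕ) (hq : q.Prime) (hqp : q ≠ p) (hqN : q ∣ N) (hq2 : ¬ q ^ 2 ∣ N) :
    H.ρ.IsUnipotentOnInertiaAt q := by
  have hpT : (p : T) ∈ maximalIdeal T := by
    have h1 : algebraMap 𝒪 T (p : 𝒪) ∈ maximalIdeal T := map_nonunit (algebraMap 𝒪 T) _ hp𝒪
    rwa [map_natCast] at h1
  have h2T : ∀ x : T, 2 * x = 0 → x = 0 := by
    intro x hx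
    have h1 : (2 : 𝒪) • x = 0 := by
      rw [Algebra.smul_def, map_ofNat]
      exact hx
    exact (smul_eq_zero.1 h1).resolve_left two_ne_zero
  refine unipotent_of_unip h2T hp hpT hpS hNS H.π H.ρ H.charpoly_frob hq hqp fun n => ?_
  haveI : NeZero (p ^ n) := ⟨pow_ne_zero _ hp.ne_zero⟩
  have hm : ¬ q ∣ p ^ n := fun h =>
    hqp ((Nat.prime_dvd_prime_iff_eq hq hp).1 (hq.dvd_of_dvd_pow h))
  exact unipHyp_of_forall_topHyp hG hq hqN hq2 (p ^ n) hm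

end FAN
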