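import Fermat.Agent.Nodal.AffOf

/-!
# PROJECT N, (c): the nodal reduction has at least one node (`0 < G.s`): connectedness of the
special fibre, from Riemann's inequality on `F`.
-/

set_option autoImplicit false

open AlgebraicCurve Module FA18 FA18.G4

namespace FAN

variable {K F k E : Type*} [Field K] [Field F] [Algebra K F] [Field k] [Field E] [Algebra k E]
  [IsAlgClosed k]
  {A : ValuationSubring K} {π : A →+* k} {O1 O2 : ValuationSubring F}
  {ρ1 : O1 →+* E} {ρ2 : O2 →+* E} {D : Divisor K F} {gF cF gb cb : ℤ}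
  (G : NodalGeom A π O1 O2 ρ1 ρ2 D gF cF gb cb)

namespace NodalGeom

/-- multipliers: if there is no node, `(0, b)` lifts, for `b` with exact poles at the cusps and not
vanishing on a given finite set. -/
theorem exists_mult (hs : G.s = 0) (Z : Finset (Place k E)) :
    ∃ (n : ℕ) (b : E) (μ : F), 0 < n ∧ b ≠ 0 ∧ b ∈ riemannRochSpace (n • G.C2) ∧
      (∀ P, (P ∈ Z ∨ G.C2 P ≠ 0) → P.ord b = -(n * G.C2 P)) ∧
      μ ∈ riemannRochSpace (n • D) ∧ Rd O1 ρ1 μ 0 ∧ Rd O2 ρ2 μ b := by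
  obtain ⟨Q, hQ, -⟩ := G.exists_good1 ∅
  obtain ⟨n1, hn1, h⟩ := G.exists_glued1 Q hQ.1 hQ.2 ∅ Z (by simp)
  obtain ⟨a, ha, b, hb, ha0, hb0, -, -, -, hbo, -⟩ := h (n1 + 1) (by omega)
  obtain ⟨μ, hμ, h1, h2⟩ := G.exists_lift (n := n1 + 1) (by omega)
    (a := 0) (b := b) (Submodule.zero_mem _) hb (fun i => by
      have : i.1 < G.s := i.2
      omega)
  exact ⟨n1 + 1, b, μ, by omega, hb0, hb, hbo, hμ, h1, h2⟩

omit [IsAlgClosed k] in
/-- one multiplier gives a pole bound for `y'`. -/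
theorem mult_bound (arch : ∀ z μ : F, Rd O1 ρ1 μ 0 → ∃ (M : ℕ) (α : E), Rd O1 ρ1 (z * μ ^ M) α)
    {G' : Divisor K F} {C' : Divisor k E} {N0 : ℕ}
    (hp : ∀ N : ℕ, N0 ≤ N → ∀ x ∈ riemannRochSpace (G' + N • D), ∀ α β : E,
      Rd O1 ρ1 x α → Rd O2 ρ2 x β → β ∈ riemannRochSpace (N • G.C2 - C'))
    {z : F} (hz : z ∈ riemannRochSpace G') {y' : E} (hzy : Rd O2 ρ2 z y')
    {n : ℕ} (hn : 0 < n) {b : E} {μ : F} (hμ : μ ∈ riemannRochSpace (n • D))
    (h1 : Rd O1 ρ1 μ 0) (h2 : Rd O2 ρ2 μ b) :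
    ∃ M : ℕ, y' * b ^ M ∈ riemannRochSpace ((n * M) • G.C2 - C') := by
  obtain ⟨M, α, hα⟩ := arch z μ h1
  refine ⟨M + N0, ?_⟩
  have e1 : z * μ ^ (M + N0) = z * μ ^ M * μ ^ N0 := by rw [pow_add, mul_assoc]
  have hR1 : Rd O1 ρ1 (z * μ ^ (M + N0)) (α * 0 ^ N0) := by
    rw [e1]
    exact hα.mul (h1.pow N0)
  have hR2 : Rd O2 ρ2 (z * μ ^ (M + N0)) (y' * b ^ (M + N0)) := hzy.mul (h2.pow _)
  have hmem : z * μ ^ (M + N0) ∈ riemannRochSpace (G' + (n * (M + N0)) • D) := by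
    have := mul_mem_L hz (pow_mem_L hμ (M + N0))
    rw [smul_smul, mul_comm (M + N0) n] at this
    exact this
  have hN : N0 ≤ n * (M + N0) := by nlinarith
  exact hp _ hN _ hmem _ _ hR1 hR2

/-- **(c)**: there is at least one node. -/
theorem s_pos_abs (arch : ∀ z μ : F, Rd O1 ρ1 μ 0 → ∃ (M : ℕ) (α : E), Rd O1 ρ1 (z * μ ^ M) α)
    {G' : Divisor K F} (hG' : gF ≤ Divisor.degree G') {C' : Divisor k E}
    (hC' : 0 < Divisor.degree C') (hsupp : ∀ P, G.C2 P = 0 → C' P = 0) {N0 : ℕ}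
    (hp : ∀ N : ℕ, N0 ≤ N → ∀ x ∈ riemannRochSpace (G' + N • D), ∀ α β : E,
      Rd O1 ρ1 x α → Rd O2 ρ2 x β → β ∈ riemannRochSpace (N • G.C2 - C')) :
    0 < G.s := by
  classical
  by_contra hs
  have hs : G.s = 0 := by omega
  -- a nonzero function in `L(G')`
  have hfin := G.HF.finDim G'
  have hpos : 0 < finrank K (riemannRochSpace G') := by
    have := G.HF.riemann G'
    omega
  obtain ⟨⟨f, hf⟩, hf0⟩ := (Module.finrank_pos_iff_exists_ne_zero (R := K)).1 hpos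
  have hf0' : f ≠ 0 := fun h => hf0 (Subtype.ext h)
  obtain ⟨c, hc0, y', hy'0, hzy⟩ := G.hB2.scale f hf0'
  have hz : algebraMap K F c * f ∈ riemannRochSpace G' := by
    rw [← Algebra.smul_def]
    exact Submodule.smul_mem _ c hf
  -- first multiplier
  obtain ⟨n, b, μ, hn, hb0, hb, hbo, hμ, h1, h2⟩ := G.exists_mult hs ∅
  obtain ⟨M, hM⟩ := G.mult_bound arch hp hz hzy hn hμ h1 h2
  obtain ⟨Db, hDb, -⟩ := G.Hb.exists_div b hb0
  -- second multiplier
  obtain ⟨n', b', μ', hn', hb0', hb', hbo', hμ', h1', h2'⟩ := G.exists_mult hs Db.support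
  obtain ⟨M', hM'⟩ := G.mult_bound arch hp hz hzy hn' hμ' h1' h2'
  have hmem : y' ∈ riemannRochSpace (-C') := by
    rw [mem_L_iff hy'0]
    intro P
    rw [mem_L_iff (mul_ne_zero hy'0 (pow_ne_zero _ hb0))] at hM
    rw [mem_L_iff (mul_ne_zero hy'0 (pow_ne_zero _ hb0'))] at hM'
    have e := hM P
    have e' := hM' P
    rw [P.ord_mul hy'0 (pow_ne_zero _ hb0), ord_pow] at e
    rw [P.ord_mul hy'0 (pow_ne_zero _ hb0'), ord_pow] at e'
    rw [Finsupp.sub_apply, Finsupp.smul_apply, nsmul_eq_mul, Nat.cast_mul] at e e'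
    rw [Finsupp.neg_apply, neg_neg]
    by_cases hP : G.C2 P = 0
    · rw [hsupp P hP]
      rw [hsupp P hP, hP] at e e'
      by_cases hPb : P.ord b = 0
      · rw [hPb] at e
        simpa using e
      · have hPs : P ∈ Db.support := by
          rw [Finsupp.mem_support_iff, hDb]
          exact hPb
        have := hbo' P (Or.inl hPs)
        rw [hP] at this
        rw [this] at e'
        simpa using e'
    · have := hbo P (Or.inr hP)
      rw [this] at e
      linarith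
  have := G.Hb.degree_nonneg_of_mem hy'0 hmem
  rw [map_neg] at this
  omega

end NodalGeom

end FAN
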