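import Fermat.Agent.Nodal.SPos
import Fermat.Agent.Nodal.PoleGen

/-!
# PROJECT N, (c): `0 < G.s` for the symmetric divisor `D = m0 • (Dj + Djw)`.
-/

set_option autoImplicit false

open AlgebraicCurve Module FA18 FA18.G4 IntermediateField

namespace FAN

variable {K F k E : Type*} [Field K] [Field F] [Algebra K F] [Field k] [Field E] [Algebra k E]
  [IsAlgClosed k]
  {A : ValuationSubring K} {π : A →+* k} {O1 O2 : ValuationSubring F}
  {ρ1 : O1 →+* E} {ρ2 : O2 →+* E} {D : Divisor K F} {gF cF gb cb : ℤ}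
  (G : NodalGeom A π O1 O2 ρ1 ρ2 D gF cF gb cb)

omit [IsAlgClosed k] in
/-- the polar divisor of a power. -/
theorem polar_pow {Cj : Divisor k E} {J : E} (hCj : ∀ v, Cj v = max 0 (-(v.ord J))) (m : ℕ) :
    ∀ v, (m • Cj) v = max 0 (-(v.ord (J ^ m))) := by
  intro v
  rw [Finsupp.smul_apply, nsmul_eq_mul, hCj, ord_pow]
  have hm : (0 : ℤ) ≤ m := Int.natCast_nonneg m
  rcases le_total 0 (-(v.ord J)) with h | h
  · rw [max_eq_right h, max_eq_right (by nlinarith)]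
    ring
  · rw [max_eq_left h, max_eq_left (by nlinarith)]
    ring

namespace NodalGeom

/-- **(c)** for `D = m0 • (Dj + Djw)`, `C2 = (m0 (l+1)) • Cj`. -/
theorem s_pos_of (arch : ∀ z μ : F, Rd O1 ρ1 μ 0 → ∃ (M : ℕ) (α : E), Rd O1 ρ1 (z * μ ^ M) α)
    {t : F} (ht0 : t ≠ 0) (ht1 : Rd O1 ρ1 t 0) (ht2 : Rd O2 ρ2 t⁻¹ 0)
    (x0 : F) [FiniteDimensional K⟮x0⟯ F]
    {Dj Djw : Divisor K F} {Cj : Divisor k E} {l m0 : ℕ} (hl : 2 ≤ l) (hm0 : 0 < m0)
    (hD : D = m0 • (Dj + Djw)) (hC2 : G.C2 = (m0 * (l + 1)) • Cj)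
    (hDj : 0 ≤ Dj) (hDjw : 0 ≤ Djw)
    (hdj : Divisor.degree Dj = (l + 1) * Divisor.degree Cj)
    (hdjw : Divisor.degree Djw = (l + 1) * Divisor.degree Cj)
    {J : E} (hCj : ∀ v, Cj v = max 0 (-(v.ord J))) (hCjpos : 0 < Divisor.degree Cj)
    {u u' : F} (hu : u ∈ riemannRochSpace Dj) (hu' : u' ∈ riemannRochSpace Djw)
    (hu1 : Rd O1 ρ1 u J) (hu2 : Rd O2 ρ2 u (J ^ l))
    (hu'1 : Rd O1 ρ1 u' (J ^ l)) (hu'2 : Rd O2 ρ2 u' J) : 0 < G.s := by
  obtain ⟨l', rfl⟩ : ∃ l' : ℕ, l = l' + 2 := ⟨l - 2, by omega⟩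
  set e : ℕ := gF.toNat with he
  set a : ℕ := e + 1 with ha
  set b : ℕ := 2 * e + 1 with hb
  set w : ℕ := l' * (e + 1) + 1 with hw
  have hwb : w + b = (l' + 2) * a := by rw [hw, hb, ha]; ring
  have hwbZ : (w : ℤ) + b = ((l' + 2 : ℕ) : ℤ) * a := by exact_mod_cast hwb
  have hgFe : gF ≤ e := by rw [he]; exact Int.self_le_toNat gF
  refine G.s_pos_abs arch (G' := b • Djw - a • Dj) (C' := w • Cj) (N0 := a) ?_ ?_ ?_ ?_
  · rw [map_sub, map_nsmul, map_nsmul, hdj, hdjw, nsmul_eq_mul, nsmul_eq_mul]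
    have h1 : ((b : ℤ) - a) = e := by rw [hb, ha]; push_cast; ring
    have h2 : (1 : ℤ) ≤ (((l' + 2 : ℕ) : ℤ) + 1) * Divisor.degree Cj := by
      have : (0 : ℤ) ≤ l' := Int.natCast_nonneg l'
      push_cast
      nlinarith
    have h3 : (0 : ℤ) ≤ e := Int.natCast_nonneg e
    have h4 : (b : ℤ) * ((((l' + 2 : ℕ) : ℤ) + 1) * Divisor.degree Cj) -
        a * ((((l' + 2 : ℕ) : ℤ) + 1) * Divisor.degree Cj) =
        e * ((((l' + 2 : ℕ) : ℤ) + 1) * Divisor.degree Cj) := by rw [← h1]; ring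
    rw [h4]
    nlinarith
  · rw [map_nsmul, nsmul_eq_mul]
    have : (0 : ℤ) < w := by rw [hw]; positivity
    positivity
  · intro P hP
    rw [hC2, Finsupp.smul_apply, nsmul_eq_mul] at hP
    have h0 : ((m0 * (l' + 2 + 1) : ℕ) : ℤ) ≠ 0 := by positivity
    have := (mul_eq_zero.1 hP).resolve_left h0
    rw [Finsupp.smul_apply, this, smul_zero]
  · intro N hN x hx α β hα hβ
    have hNm : a ≤ N * m0 := by nlinarith
    obtain ⟨p, hp⟩ := Nat.exists_eq_add_of_le hNm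
    have hpZ : (N : ℤ) * m0 = a + p := by exact_mod_cast hp
    set r : ℕ := N * m0 + b with hr
    have hrZ : (r : ℤ) = (N : ℤ) * m0 + b := by rw [hr]; push_cast; ring
    have eB : b • Djw - a • Dj + N • D = p • Dj + r • Djw := by
      rw [hD]
      ext v
      simp only [Finsupp.add_apply, Finsupp.sub_apply, Finsupp.smul_apply, nsmul_eq_mul]
      rw [hrZ]
      linear_combination (Dj v) * hpZ
    have eC : N • G.C2 - w • Cj = ((l' + 2) * p + r) • Cj := by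
      rw [hC2]
      ext v
      simp only [Finsupp.sub_apply, Finsupp.smul_apply, nsmul_eq_mul]
      push_cast
      rw [hrZ]
      push_cast at hwbZ
      linear_combination (Cj v) * (((l' : ℤ) + 2) * hpZ - hwbZ)
    rw [eB] at hx
    rw [eC]
    have hxw : u ^ p * u' ^ r ∈ riemannRochSpace (p • Dj + r • Djw) :=
      mul_mem_L (pow_mem_L hu p) (pow_mem_L hu' r)
    have hw1 : Rd O1 ρ1 (u ^ p * u' ^ r) (J ^ (p + (l' + 2) * r)) := by
      have := (hu1.pow p).mul (hu'1.pow r)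
      rw [← pow_mul, ← pow_add] at this
      exact this
    have hw2 : Rd O2 ρ2 (u ^ p * u' ^ r) (J ^ ((l' + 2) * p + r)) := by
      have := (hu2.pow p).mul (hu'2.pow r)
      rw [← pow_mul, ← pow_add] at this
      exact this
    have hr0 : 0 < r := by rw [hr, hb]; omega
    refine (pole_gen G.hB1 G.hB2 ht0 ht1 ht2 G.HF G.Hb x0 (B := p • Dj + r • Djw) ?_ hxw hw1 hw2
      (polar_pow hCj _) (polar_pow hCj _) ?_ ?_ ?_ x α β hx hα hβ).2
    · exact add_nonneg (nsmul_nonneg hDj p) (nsmul_nonneg hDjw r)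
    · rw [map_nsmul, nsmul_eq_mul]
      have : (0 : ℤ) < ((p + (l' + 2) * r : ℕ) : ℤ) := by
        have : 0 < p + (l' + 2) * r := by positivity
        exact_mod_cast this
      positivity
    · rw [map_nsmul, nsmul_eq_mul]
      have : (0 : ℤ) < (((l' + 2) * p + r : ℕ) : ℤ) := by
        have : 0 < (l' + 2) * p + r := by positivity
        exact_mod_cast this
      positivity
    · rw [map_add, map_nsmul, map_nsmul, map_nsmul, map_nsmul, hdj, hdjw]
      simp only [nsmul_eq_mul]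
      push_cast
      apply le_of_eq
      ring

end NodalGeom

end FAN
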