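import Mathlib

/-!
# PROJECT N, (SAT): saturation at the cusps by the bi-filtration.  Pure linear algebra.
-/

namespace FAN

open Module

/-- The bi-filtration `Rr a b = red2 L(a D + b Dβ) ⊆ X (a + q b) × X (q a + b)`. -/
structure BiFil (k B : Type*) [Field k] [CommRing B] [Algebra k B] (q ψ γ g c0 : ℤ) where
  X : ℤ → Submodule k B
  Rr : ℤ → ℤ → Submodule k (B × B)
  finX : ∀ m, FiniteDimensional k (X m)
  monoX : ∀ m, X m ≤ X (m + 1)
  mulX : ∀ m n x y, x ∈ X m → y ∈ X n → x * y ∈ X (m + n)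
  dimX : ∀ m, c0 ≤ m → (finrank k (X m) : ℤ) = m * ψ + 1 - γ
  pole : ∀ a b z, z ∈ Rr a b → z.1 ∈ X (a + q * b) ∧ z.2 ∈ X (q * a + b)
  dimR : ∀ a b, c0 ≤ a + b → (finrank k (Rr a b) : ℤ) = (a + b) * ((q + 1) * ψ) + 1 - g
  mulR : ∀ a b a' b' z z', z ∈ Rr a b → z' ∈ Rr a' b' → z * z' ∈ Rr (a + a') (b + b')
  mono1 : ∀ a b, Rr (a + 1) (b - q) ≤ Rr a b
  mono2 : ∀ a b, Rr (a - q) (b + 1) ≤ Rr a b
  mono3 : ∀ a b, Rr a b ≤ Rr a (b + 1)
  mono4 : ∀ a b, Rr a b ≤ Rr (a + 1) b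
  alpha : ∀ m x, c0 ≤ m → x ∈ X m → ∃ y, (x, y) ∈ Rr m 0
  beta : ∀ m y, c0 ≤ m → y ∈ X m → ∃ x, (x, y) ∈ Rr 0 m
  y0 : B
  y0_inj : ∀ x, x * y0 = 0 → x = 0
  hy0 : (0, y0) ∈ Rr q 0
  cancel : ∀ m x, x * y0 ∈ X (m + q ^ 2) → x ∈ X m

namespace BiFil

variable {k B : Type*} [Field k] [CommRing B] [Algebra k B] {q ψ γ g c0 : ℤ}
  (H : BiFil k B q ψ γ g c0)

/-- `{y | (0, y) ∈ Rr a b}`. -/
def bb (a b : ℤ) : Submodule k B := (H.Rr a b).comap (LinearMap.inr k B B)

theorem mem_bb {a b : ℤ} {y : B} : y ∈ H.bb a b ↔ ((0 : B), y) ∈ H.Rr a b := Iff.rfl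

theorem bb_le_X (a b : ℤ) : H.bb a b ≤ H.X (q * a + b) := fun _ hy => (H.pole a b _ hy).2

theorem finR (a b : ℤ) : FiniteDimensional k (H.Rr a b) := by
  have h1 := H.finX (a + q * b)
  have h2 := H.finX (q * a + b)
  have hle : H.Rr a b ≤ (H.X (a + q * b)).prod (H.X (q * a + b)) := fun z hz => H.pole a b z hz
  have hf : FiniteDimensional k ((H.X (a + q * b)).prod (H.X (q * a + b)) : Submodule k (B × B)) :=
    Module.Finite.iff_fg.2 (Submodule.FG.prod (Module.Finite.iff_fg.1 h1)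
      (Module.Finite.iff_fg.1 h2))
  exact Submodule.finiteDimensional_of_le hle

theorem finbb (a b : ℤ) : FiniteDimensional k (H.bb a b) := by
  have := H.finX (q * a + b)
  exact Submodule.finiteDimensional_of_le (H.bb_le_X a b)

theorem mono1_iter (t : ℕ) : ∀ a b a' b' : ℤ, a' = a + t → b' = b - q * t → H.Rr a' b' ≤ H.Rr a b := by
  induction t with
  | zero =>
    intro a b a' b' h1 h2
    have e1 : a' = a := by simpa using h1
    have e2 : b' = b := by simpa using h2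
    rw [e1, e2]
  | succ t ih =>
    intro a b a' b' h1 h2
    have e1 : a' = (a + t) + 1 := by rw [h1]; push_cast; ring
    have e2 : b' = (b - q * t) - q := by rw [h2]; push_cast; ring
    rw [e1, e2]
    exact (H.mono1 _ _).trans (ih a b _ _ rfl rfl)

theorem mono2_iter (t : ℕ) : ∀ a b a' b' : ℤ, a' = a - q * t → b' = b + t → H.Rr a' b' ≤ H.Rr a b := by
  induction t with
  | zero =>
    intro a b a' b' h1 h2
    have e1 : a' = a := by simpa using h1
    have e2 : b' = b := by simpa using h2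
    rw [e1, e2]
  | succ t ih =>
    intro a b a' b' h1 h2
    have e1 : a' = (a - q * t) - q := by rw [h1]; push_cast; ring
    have e2 : b' = (b + t) + 1 := by rw [h2]; push_cast; ring
    rw [e1, e2]
    exact (H.mono2 _ _).trans (ih a b _ _ rfl rfl)

theorem mono4_iter (t : ℕ) : ∀ a b a' : ℤ, a' = a + t → H.Rr a b ≤ H.Rr a' b := by
  induction t with
  | zero =>
    intro a b a' h1
    have e1 : a' = a := by simpa using h1
    rw [e1]
  | succ t ih =>
    intro a b a' h1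
    have e1 : a' = (a + t) + 1 := by rw [h1]; push_cast; ring
    rw [e1]
    exact (ih a b _ rfl).trans (H.mono4 _ _)

theorem monoX_iter (t : ℕ) : ∀ m m' : ℤ, m' = m + t → H.X m ≤ H.X m' := by
  induction t with
  | zero =>
    intro m m' h1
    have e1 : m' = m := by simpa using h1
    rw [e1]
  | succ t ih =>
    intro m m' h1
    have e1 : m' = (m + t) + 1 := by rw [h1]; push_cast; ring
    rw [e1]
    exact (ih m _ rfl).trans (H.monoX _)

theorem monoX' {m m' : ℤ} (h : m ≤ m') : H.X m ≤ H.X m' :=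
  H.monoX_iter (m' - m).toNat m m' (by omega)

/-- Step 1: the dimension of `bb a b` in the regime `b ≤ 0`, `c0 ≤ a + q b`. -/
theorem finrank_bb (hq : 1 ≤ q) {a b : ℤ} (hb : b ≤ 0) (hab : c0 ≤ a + q * b) :
    (finrank k (H.bb a b) : ℤ) = (q * a + b) * ψ + γ - g := by
  have := H.finR a b
  let f : H.Rr a b →ₗ[k] H.X (a + q * b) :=
    (LinearMap.fst k B B).restrict (fun z hz => (H.pole a b z hz).1)
  let gg : H.bb a b →ₗ[k] H.Rr a b := (LinearMap.inr k B B).restrict (fun y hy => hy)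
  have hf : Function.Surjective f := by
    rintro ⟨x, hx⟩
    obtain ⟨y, hy⟩ := H.alpha _ x hab hx
    have hle := H.mono2_iter (-b).toNat a b (a + q * b) 0
      (by rw [Int.toNat_of_nonneg (by omega)]; ring) (by rw [Int.toNat_of_nonneg (by omega)]; ring)
    exact ⟨⟨(x, y), hle hy⟩, rfl⟩
  have hg : Function.Injective gg := by
    intro y y' h
    have := congrArg (fun z : H.Rr a b => z.1.2) h
    exact Subtype.ext this
  have hker : LinearMap.range gg = LinearMap.ker f := by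
    ext ⟨z, hz⟩
    constructor
    · rintro ⟨y, hy⟩
      rw [LinearMap.mem_ker]
      apply Subtype.ext
      have := congrArg (fun z : H.Rr a b => z.1.1) hy
      exact this.symm
    · intro h
      rw [LinearMap.mem_ker] at h
      have h1 : z.1 = 0 := congrArg Subtype.val h
      have h2 : z = (0, z.2) := Prod.ext h1 rfl
      refine ⟨⟨z.2, ?_⟩, ?_⟩
      · rw [mem_bb, ← h2]
        exact hz
      · apply Subtype.ext
        exact h2.symm
  have h1 := LinearMap.finrank_range_add_finrank_ker f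
  rw [LinearMap.range_eq_top.2 hf, finrank_top, ← hker, LinearMap.finrank_range_of_inj hg] at h1
  have h2 := H.dimR a b (by nlinarith)
  have h3 := H.dimX _ hab
  have h4 : (finrank k (H.X (a + q * b)) : ℤ) + finrank k (H.bb a b) = finrank k (H.Rr a b) := by
    exact_mod_cast h1
  rw [h2, h3] at h4
  linarith

/-- Step 2: invariance along the lines `q a + b = const` inside the regime. -/
theorem bb_line (hq : 1 ≤ q) {a b : ℤ} (hb : b ≤ 0) (t : ℕ) (hab : c0 ≤ a + t + q * (b - q * t)) :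
    H.bb (a + t) (b - q * t) = H.bb a b := by
  have := H.finbb a b
  have hle : H.bb (a + t) (b - q * t) ≤ H.bb a b := fun y hy =>
    H.mono1_iter t a b _ _ rfl rfl hy
  apply Submodule.eq_of_le_of_finrank_eq hle
  have ht : (0 : ℤ) ≤ t := Int.natCast_nonneg t
  have h1 := H.finrank_bb hq (a := a + t) (b := b - q * t) (by nlinarith) hab
  have hqq : 1 ≤ q * q := by nlinarith
  have htq : (t : ℤ) * 1 ≤ t * (q * q) := mul_le_mul_of_nonneg_left hqq ht
  have h2 := H.finrank_bb hq (a := a) (b := b) hb (by linarith)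
  have : (finrank k (H.bb (a + t) (b - q * t)) : ℤ) = finrank k (H.bb a b) := by
    rw [h1, h2]; ring
  exact_mod_cast this

/-- Step 3. -/
theorem mul_mem_bb {a b m : ℤ} (hm : c0 ≤ m) {y t : B} (hy : y ∈ H.X m) (ht : t ∈ H.bb a b) :
    y * t ∈ H.bb a (b + m) := by
  obtain ⟨x, hx⟩ := H.beta m y hm hy
  have := H.mulR 0 m a b _ _ hx (H.mem_bb.1 ht)
  rw [mem_bb]
  have e : ((x, y) : B × B) * (0, t) = (0, y * t) := by
    ext <;> simp
  rw [e, zero_add, add_comm m b] at this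
  exact this

/-- Step 4. -/
theorem y0_pow_mem (K : ℕ) : H.y0 ^ (K + 1) ∈ H.bb (q * (K + 1 : ℕ)) 0 := by
  induction K with
  | zero =>
    rw [mem_bb]
    simpa using H.hy0
  | succ K ih =>
    rw [mem_bb] at ih ⊢
    have := H.mulR _ _ _ _ _ _ ih H.hy0
    have e : (((0 : B), H.y0 ^ (K + 1)) : B × B) * (0, H.y0) = (0, H.y0 ^ (K + 1 + 1)) := by
      ext
      · simp
      · simp [pow_succ]
    rw [e, add_zero] at this
    have e2 : q * ((K + 1 : ℕ) : ℤ) + q = q * ((K + 1 + 1 : ℕ) : ℤ) := by push_cast; ring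
    rw [e2] at this
    exact this

/-- the canonical regime point on the line `q a + b = b'`. -/
def pa (q b' : ℤ) : ℤ := (b' + q - 1) / q

/-- the canonical regime point on the line `q a + b = b'`. -/
def pb (q b' : ℤ) : ℤ := b' - q * pa q b'

theorem pb_bounds (hq : 1 ≤ q) (b' : ℤ) : pb q b' ≤ 0 ∧ -q < pb q b' := by
  unfold pb pa
  have h1 := Int.emod_add_mul_ediv (b' + q - 1) q
  have h2 := Int.emod_nonneg (b' + q - 1) (show q ≠ 0 by omega)
  have h3 := Int.emod_lt_of_pos (b' + q - 1) (show 0 < q by omega)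
  constructor <;> linarith

theorem pa_ge (hq : 1 ≤ q) {b' M : ℤ} (h : q * M ≤ b') : M ≤ pa q b' := by
  have h1 := (pb_bounds hq b').1
  unfold pb at h1
  by_contra hlt
  push Not at hlt
  nlinarith

/-- `T b' = 𝔟 ∩ X b'` (as it will turn out). -/
def T (b' : ℤ) : Submodule k B := H.bb (pa q b') (pb q b')

theorem T_eq (hq : 1 ≤ q) {a b b' : ℤ} (hb : b ≤ 0) (hab : c0 ≤ a + q * b) (h : q * a + b = b') :
    H.bb a b = H.T b' := by
  obtain ⟨h1, h2⟩ := pb_bounds hq b'
  have h3 : b' = q * pa q b' + pb q b' := by unfold pb; ring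
  have hge : pa q b' ≤ a := by
    by_contra hlt
    push Not at hlt
    nlinarith
  obtain ⟨t, ht⟩ : ∃ t : ℕ, a = pa q b' + t := ⟨(a - pa q b').toNat, by omega⟩
  have hb' : b = pb q b' - q * t := by
    rw [ht] at h
    linarith
  unfold T
  rw [ht, hb']
  apply H.bb_line hq h1
  rw [← ht, ← hb']
  exact hab

theorem T_le_X (b' : ℤ) : H.T b' ≤ H.X b' := by
  have := H.bb_le_X (pa q b') (pb q b')
  have e : q * pa q b' + pb q b' = b' := by unfold pb; ring
  rw [e] at this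
  exact this

theorem finrank_T (hq : 1 ≤ q) {b' : ℤ} (h : c0 + q ^ 2 ≤ pa q b') :
    (finrank k (H.T b') : ℤ) = b' * ψ + γ - g := by
  obtain ⟨h1, h2⟩ := pb_bounds hq b'
  have := H.finrank_bb hq (a := pa q b') (b := pb q b') h1 (by nlinarith)
  have e : q * pa q b' + pb q b' = b' := by unfold pb; ring
  rw [e] at this
  exact this

theorem y0_pow_mem_X (K : ℕ) : H.y0 ^ (K + 1) ∈ H.X ((K + 1 : ℕ) * q ^ 2) := by
  have h0 : H.y0 ∈ H.X (q ^ 2) := by
    have := (H.pole q 0 _ H.hy0).2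
    have e : q * q + 0 = q ^ 2 := by ring
    rw [e] at this
    exact this
  induction K with
  | zero => simpa using h0
  | succ K ih =>
    have := H.mulX _ _ _ _ ih h0
    have e : ((K + 1 : ℕ) : ℤ) * q ^ 2 + q ^ 2 = ((K + 1 + 1 : ℕ) : ℤ) * q ^ 2 := by
      push_cast; ring
    rw [e, ← pow_succ] at this
    exact this

theorem cancel_iter (K : ℕ) : ∀ (m : ℤ) (x : B), x * H.y0 ^ K ∈ H.X (m + K * q ^ 2) → x ∈ H.X m := by
  induction K with
  | zero =>
    intro m x h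
    simpa using h
  | succ K ih =>
    intro m x h
    apply ih m x
    apply H.cancel
    have e : m + ((K + 1 : ℕ) : ℤ) * q ^ 2 = m + K * q ^ 2 + q ^ 2 := by push_cast; ring
    rw [e] at h
    have e2 : x * H.y0 ^ K * H.y0 = x * H.y0 ^ (K + 1) := by rw [pow_succ, mul_assoc]
    rw [e2]
    exact h

theorem y0_pow_inj (K : ℕ) : ∀ x : B, x * H.y0 ^ K = 0 → x = 0 := by
  induction K with
  | zero =>
    intro x h
    simpa using h
  | succ K ih =>
    intro x h
    apply ih x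
    apply H.y0_inj
    rw [mul_assoc, ← pow_succ]
    exact h

/-- leading terms: `X m * y0 ^ K` fills `X (m + K q²) / X (m + K q² - 1)`. -/
theorem le_sup_of_mul (K : ℕ) {m : ℤ} (hm : c0 + 1 ≤ m) (S : Submodule k B)
    (hS : ∀ x ∈ H.X m, x * H.y0 ^ (K + 1) ∈ S) :
    H.X (m + (K + 1 : ℕ) * q ^ 2) ≤ S ⊔ H.X (m + (K + 1 : ℕ) * q ^ 2 - 1) := by
  set B1 : ℤ := m + (K + 1 : ℕ) * q ^ 2 with hB1
  have hKq : (0 : ℤ) ≤ (K + 1 : ℕ) * q ^ 2 := by positivity
  let μ : B →ₗ[k] B := LinearMap.mulRight k (H.y0 ^ (K + 1))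
  have hμ : ∀ x, μ x = x * H.y0 ^ (K + 1) := fun x => rfl
  have hinj : Function.Injective μ := by
    rw [← LinearMap.ker_eq_bot, LinearMap.ker_eq_bot']
    intro x hx
    exact H.y0_pow_inj (K + 1) x hx
  have hle1 : (H.X m).map μ ≤ S := by
    rintro _ ⟨x, hx, rfl⟩
    exact hS x hx
  have hfin1 := H.finX m
  have hfin2 := H.finX (B1 - 1)
  have hfin3 := H.finX B1
  have hfin4 := H.finX (m - 1)
  have hinf : (H.X m).map μ ⊓ H.X (B1 - 1) = (H.X (m - 1)).map μ := by
    apply le_antisymm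
    · rintro _ ⟨⟨x, hx, rfl⟩, h2⟩
      refine ⟨x, ?_, rfl⟩
      apply H.cancel_iter (K + 1)
      have e : m - 1 + ((K + 1 : ℕ) : ℤ) * q ^ 2 = B1 - 1 := by rw [hB1]; ring
      rw [e]
      exact h2
    · rintro _ ⟨x, hx, rfl⟩
      refine ⟨⟨x, H.monoX' (by omega) hx, rfl⟩, ?_⟩
      have := H.mulX _ _ _ _ hx (H.y0_pow_mem_X K)
      have e : m - 1 + ((K + 1 : ℕ) : ℤ) * q ^ 2 = B1 - 1 := by rw [hB1]; ring
      rw [e] at this
      exact this
  have hsup_le : (H.X m).map μ ⊔ H.X (B1 - 1) ≤ H.X B1 := by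
    apply sup_le
    · rintro _ ⟨x, hx, rfl⟩
      exact H.mulX _ _ _ _ hx (H.y0_pow_mem_X K)
    · exact H.monoX' (by omega)
  have hdim := Submodule.finrank_sup_add_finrank_inf_eq ((H.X m).map μ) (H.X (B1 - 1))
  rw [hinf, (Submodule.equivMapOfInjective μ hinj (H.X m)).symm.finrank_eq,
    (Submodule.equivMapOfInjective μ hinj (H.X (m - 1))).symm.finrank_eq] at hdim
  have d1 := H.dimX m (by omega)
  have d2 := H.dimX (m - 1) (by omega)
  have d3 := H.dimX (B1 - 1) (by omega)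
  have d4 := H.dimX B1 (by omega)
  have hdim' : (finrank k ((H.X m).map μ ⊔ H.X (B1 - 1) : Submodule k B) : ℤ) +
      finrank k (H.X (m - 1)) = finrank k (H.X m) + finrank k (H.X (B1 - 1)) := by
    exact_mod_cast hdim
  have heq : (H.X m).map μ ⊔ H.X (B1 - 1) = H.X B1 := by
    apply Submodule.eq_of_le_of_finrank_eq hsup_le
    have : (finrank k ((H.X m).map μ ⊔ H.X (B1 - 1) : Submodule k B) : ℤ) =
        finrank k (H.X B1) := by
      rw [d1, d2, d3] at hdim'
      rw [d4]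
      linarith
    exact_mod_cast this
  rw [← heq]
  exact sup_le_sup_right hle1 _

/-- Claim B. -/
theorem le_T_sup (hq : 1 ≤ q) (hc0 : 0 ≤ c0) {B1 : ℤ}
    (hB1 : (c0 + q ^ 2 * (c0 + q ^ 2)) * q ^ 2 ≤ B1 - (c0 + 1)) :
    H.X B1 ≤ H.T B1 ⊔ H.X (B1 - 1) := by
  have hQ : 1 ≤ q ^ 2 := by nlinarith
  set Q : ℤ := q ^ 2 with hQdef
  set K0 : ℤ := (B1 - (c0 + 1)) / Q with hK0
  have hK0ge : c0 + Q * (c0 + Q) ≤ K0 := (Int.le_ediv_iff_mul_le (by omega)).2 hB1
  have hM0 : 1 ≤ c0 + Q * (c0 + Q) := by nlinarith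
  have e1 := Int.emod_add_mul_ediv (B1 - (c0 + 1)) Q
  have e2 := Int.emod_nonneg (B1 - (c0 + 1)) (show Q ≠ 0 by omega)
  have e3 := Int.emod_lt_of_pos (B1 - (c0 + 1)) (show 0 < Q by omega)
  rw [← hK0] at e1
  set m : ℤ := B1 - K0 * Q with hm
  have hm1 : c0 + 1 ≤ m := by rw [hm]; linarith
  have hm2 : m ≤ c0 + Q := by rw [hm]; linarith
  obtain ⟨K, hK⟩ : ∃ K : ℕ, K0 = (K + 1 : ℕ) := ⟨(K0 - 1).toNat, by push_cast; omega⟩
  obtain ⟨t, ht⟩ : ∃ t : ℕ, m = t := ⟨m.toNat, by omega⟩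
  have hBm : B1 = m + (K + 1 : ℕ) * q ^ 2 := by rw [← hK, hm, ← hQdef]; ring
  have hqK : K0 ≤ q * K0 := by nlinarith
  have hQm : Q * m ≤ Q * (c0 + Q) := by nlinarith
  have hqm : m ≤ q * m := by nlinarith
  have key : ∀ x ∈ H.X m, x * H.y0 ^ (K + 1) ∈ H.T B1 := by
    intro x hx
    have h1 := H.y0_pow_mem K
    rw [← hK] at h1
    have h2 : H.bb (q * K0 + t) (0 - q * t) = H.bb (q * K0) 0 := by
      apply H.bb_line hq le_rfl
      rw [← ht]
      have : q * (0 - q * m) = - (Q * m) := by rw [hQdef]; ring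
      rw [this]
      linarith
    rw [← h2] at h1
    have h3 := H.mul_mem_bb (by omega : c0 ≤ m) hx h1
    have h4 : H.bb (q * K0 + t) (0 - q * t + m) = H.T B1 := by
      apply H.T_eq hq
      · rw [← ht]; linarith
      · rw [← ht]
        have : q * (0 - q * m + m) = - (Q * m) + q * m := by rw [hQdef]; ring
        rw [this]
        linarith
      · rw [← ht, hm, hQdef]; ring
    rw [h4] at h3
    exact h3
  have := H.le_sup_of_mul K hm1 (H.T B1) key
  rw [← hBm] at this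
  exact this

/-- Claim C. -/
theorem T_le_succ (hq : 1 ≤ q) {b' : ℤ} (h : c0 + 2 * q ^ 2 ≤ pa q b') :
    H.T b' ≤ H.T (b' + 1) := by
  obtain ⟨h1, h2⟩ := pb_bounds hq b'
  have hQ : 1 ≤ q ^ 2 := by nlinarith
  have e0 : q * pa q b' + pb q b' = b' := by unfold pb; ring
  have hqpb : - q ^ 2 ≤ q * pb q b' := by nlinarith
  have e1 : H.bb (pa q b' + (1 : ℕ)) (pb q b' - q * (1 : ℕ)) = H.T b' := by
    apply H.bb_line hq h1
    push_cast
    have : q * (pb q b' - q * 1) = q * pb q b' - q ^ 2 := by ring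
    rw [this]
    linarith
  have e2 : H.bb (pa q b' + (1 : ℕ)) (pb q b' - q * (1 : ℕ) + 1) = H.T (b' + 1) := by
    apply H.T_eq hq
    · push_cast; linarith
    · push_cast
      have : q * (pb q b' - q * 1 + 1) = q * pb q b' - q ^ 2 + q := by ring
      rw [this]
      linarith
    · push_cast
      linarith
  rw [← e1, ← e2]
  intro y hy
  exact H.mono3 _ _ hy

/-- the threshold. -/
def thr (q c0 : ℤ) : ℤ := q * (c0 + 2 * q ^ 2) + (c0 + q ^ 2 * (c0 + q ^ 2)) * q ^ 2 + c0 + 1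

theorem thr_pa (hq : 1 ≤ q) (hc0 : 0 ≤ c0) {b' : ℤ} (h : thr q c0 ≤ b') :
    c0 + 2 * q ^ 2 ≤ pa q b' := by
  apply pa_ge hq
  unfold thr at h
  have : 0 ≤ (c0 + q ^ 2 * (c0 + q ^ 2)) * q ^ 2 := by positivity
  linarith

/-- Claim D. -/
theorem T_succ_inf (hq : 1 ≤ q) (hc0 : 0 ≤ c0) {b' : ℤ} (h : thr q c0 ≤ b') :
    H.T (b' + 1) ⊓ H.X b' = H.T b' := by
  have hpa := thr_pa hq hc0 h
  have hpa' := thr_pa hq hc0 (show thr q c0 ≤ b' + 1 by omega)
  have hQ : 0 ≤ q ^ 2 := by positivity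
  have hb'c : c0 ≤ b' := by
    unfold thr at h
    have h1 : 0 ≤ (c0 + q ^ 2 * (c0 + q ^ 2)) * q ^ 2 := by positivity
    have h2 : 0 ≤ q * (c0 + 2 * q ^ 2) := by positivity
    linarith
  have hfin1 := H.finX b'
  have hfin2 := H.finX (b' + 1)
  have hfin3 : FiniteDimensional k (H.T (b' + 1)) :=
    Submodule.finiteDimensional_of_le (H.T_le_X (b' + 1))
  have hsup : H.T (b' + 1) ⊔ H.X b' = H.X (b' + 1) := by
    apply le_antisymm
    · exact sup_le (H.T_le_X _) (H.monoX b')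
    · have := H.le_T_sup hq hc0 (B1 := b' + 1) (by
        unfold thr at h
        have h2 : 0 ≤ q * (c0 + 2 * q ^ 2) := by positivity
        linarith)
      rw [add_sub_cancel_right] at this
      exact this
  have hdim := Submodule.finrank_sup_add_finrank_inf_eq (H.T (b' + 1)) (H.X b')
  rw [hsup] at hdim
  have d1 := H.dimX b' hb'c
  have d2 := H.dimX (b' + 1) (by omega)
  have d3 := H.finrank_T hq (b' := b' + 1) (by linarith)
  have d4 := H.finrank_T hq (b' := b') (by linarith)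
  have hdim' : (finrank k (H.X (b' + 1)) : ℤ) + finrank k (H.T (b' + 1) ⊓ H.X b' : Submodule k B)
      = finrank k (H.T (b' + 1)) + finrank k (H.X b') := by exact_mod_cast hdim
  have hfin4 : FiniteDimensional k (H.T (b' + 1) ⊓ H.X b' : Submodule k B) :=
    Submodule.finiteDimensional_of_le inf_le_right
  symm
  apply Submodule.eq_of_le_of_finrank_eq (le_inf (H.T_le_succ hq hpa) (H.T_le_X b'))
  have : (finrank k (H.T b') : ℤ) = finrank k (H.T (b' + 1) ⊓ H.X b' : Submodule k B) := by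
    rw [d1, d2, d3] at hdim'
    rw [d4]
    linarith
  exact_mod_cast this

/-- Claim E. -/
theorem T_add_inf (hq : 1 ≤ q) (hc0 : 0 ≤ c0) {b' : ℤ} (h : thr q c0 ≤ b') (j : ℕ) :
    H.T (b' + j) ⊓ H.X b' = H.T b' := by
  induction j with
  | zero =>
    simp only [Nat.cast_zero, add_zero]
    exact inf_eq_left.2 (H.T_le_X b')
  | succ j ih =>
    have h1 := H.T_succ_inf hq hc0 (b' := b' + j) (by omega)
    have h2 : H.X b' ≤ H.X (b' + j) := H.monoX' (by omega)
    have e : b' + ((j + 1 : ℕ) : ℤ) = b' + j + 1 := by push_cast; ring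
    rw [e, ← ih, ← h1, inf_assoc, inf_eq_right.2 h2]

/-- **Saturation**: `𝔟 ∩ X b' = T b'` for `b'` large. -/
theorem mem_T_of_mem (hq : 1 ≤ q) (hc0 : 0 ≤ c0) {b' : ℤ} (h : thr q c0 ≤ b') {n : ℤ} {y : B}
    (hy : ((0 : B), y) ∈ H.Rr n 0) (hyX : y ∈ H.X b') : y ∈ H.T b' := by
  -- enlarge `n`
  set n' : ℤ := max (max n c0) b' with hn'
  have h1 : n ≤ n' := le_trans (le_max_left _ _) (le_max_left _ _)
  have h2 : c0 ≤ n' := le_trans (le_max_right _ _) (le_max_left _ _)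
  have h3 : b' ≤ n' := le_max_right _ _
  have hy' : ((0 : B), y) ∈ H.Rr n' 0 := H.mono4_iter (n' - n).toNat n 0 n' (by omega) hy
  have h4 : H.bb n' 0 = H.T (q * n') := H.T_eq hq le_rfl (by simpa using h2) (by ring)
  have h5 : y ∈ H.T (q * n') := by
    rw [← h4]
    exact hy'
  have h6 : b' ≤ q * n' := by nlinarith
  obtain ⟨j, hj⟩ : ∃ j : ℕ, q * n' = b' + j := ⟨(q * n' - b').toNat, by omega⟩
  rw [hj] at h5
  rw [← H.T_add_inf hq hc0 h j]
  exact ⟨h5, hyX⟩

/-- **(SAT)**: the number of nodes is at least `g - 2γ + 1`. -/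
theorem le_card_nodes (hq : 1 ≤ q) (hc0 : 0 ≤ c0) {s : ℕ} (ev' : Fin s → B →ₗ[k] k)
    (hev : ∀ y : B, (∀ i, ev' i y = 0) → ∃ n : ℤ, ((0 : B), y) ∈ H.Rr n 0) :
    g - 2 * γ + 1 ≤ s := by
  set b' := thr q c0 with hb'
  have hpa := thr_pa hq hc0 (le_refl (thr q c0))
  have hQ : 0 ≤ q ^ 2 := by positivity
  have hb'c : c0 ≤ b' := by
    rw [hb']
    unfold thr
    have h1 : 0 ≤ (c0 + q ^ 2 * (c0 + q ^ 2)) * q ^ 2 := by positivity
    have h2 : 0 ≤ q * (c0 + 2 * q ^ 2) := by positivity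
    linarith
  have hfin1 := H.finX b'
  let L : H.X b' →ₗ[k] (Fin s → k) := (LinearMap.pi ev').comp (H.X b').subtype
  have hker : (LinearMap.ker L).map (H.X b').subtype ≤ H.T b' := by
    rintro _ ⟨⟨y, hyX⟩, hy, rfl⟩
    rw [SetLike.mem_coe, LinearMap.mem_ker] at hy
    obtain ⟨n, hn⟩ := hev y (fun i => congrFun hy i)
    exact H.mem_T_of_mem hq hc0 le_rfl hn hyX
  have hfinT : FiniteDimensional k (H.T b') := Submodule.finiteDimensional_of_le (H.T_le_X b')
  have h1 := LinearMap.finrank_range_add_finrank_ker L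
  have h2 : finrank k (LinearMap.range L) ≤ s := by
    have := Submodule.finrank_le (LinearMap.range L)
    simpa using this
  have h3 : finrank k (LinearMap.ker L) ≤ finrank k (H.T b') := by
    rw [(Submodule.equivMapOfInjective (H.X b').subtype (H.X b').injective_subtype
      (LinearMap.ker L)).finrank_eq]
    exact Submodule.finrank_mono hker
  have d1 := H.dimX b' hb'c
  have d4 := H.finrank_T hq (b' := b') (by linarith)
  have h4 : (finrank k (H.X b') : ℤ) ≤ s + finrank k (H.T b') := by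
    have : finrank k (H.X b') ≤ s + finrank k (H.T b') := by omega
    exact_mod_cast this
  rw [d1, d4] at h4
  linarith

end BiFil

end FAN
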