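import Mathlib

/-!
# PROJECT N, (II) [TWIST], linear algebra core.
-/

set_option autoImplicit false

open Module

namespace FAN

section

variable {k : Type*} [Field k] {Z : Type*} [AddCommGroup Z] [Module k Z] [FiniteDimensional k Z]

/-- a subspace of codimension `≤ s` on which the `m`-th powers of `s` pairs of independent
functionals agree (in the polarised form) is cut out by `e i = ζ i * e' i`, `ζ i ^ m = 1`. -/
theorem twist_la {s : ℕ} (e e' : Fin s → Z →ₗ[k] k)
    (hsurj : ∀ a b : Fin s → k, ∃ z : Z, (∀ i, e i z = a i) ∧ ∀ i, e' i z = b i)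
    (m : ℕ) (hm : 0 < m) (W : Submodule k Z)
    (ha : ∀ w ∈ W, ∀ i, e i w ^ m = e' i w ^ m)
    (hb : ∀ w ∈ W, ∀ w' ∈ W, ∀ i, e i w ^ (m - 1) * e i w' = e' i w ^ (m - 1) * e' i w')
    (hdim : finrank k Z ≤ finrank k W + s) :
    ∃ ζ : Fin s → k, (∀ i, ζ i ^ m = 1) ∧ ∀ z : Z, z ∈ W ↔ ∀ i, e i z = ζ i * e' i z := by
  classical
  have hm1 : m - 1 + 1 = m := Nat.sub_add_cancel hm
  -- the local alternative
  have halt : ∀ i, (∃ ζ : k, ζ ^ m = 1 ∧ ∀ w ∈ W, e i w = ζ * e' i w) ∧
      ((∀ w ∈ W, e i w = 0) → ∀ w ∈ W, e' i w = 0) := by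
    intro i
    refine ⟨?_, fun h w hw => ?_⟩
    · by_cases hP : ∃ w ∈ W, e i w ≠ 0
      · obtain ⟨w, hw, hne⟩ := hP
        have hne' : e' i w ≠ 0 := by
          intro h0
          have := ha w hw i
          rw [h0, zero_pow hm.ne'] at this
          exact hne (pow_eq_zero_iff hm.ne' |>.1 this)
        refine ⟨e i w / e' i w, by rw [div_pow, ha w hw i, div_self (pow_ne_zero _ hne')], ?_⟩
        intro w' hw'
        have h1 := hb w hw w' hw' i
        have h2 := ha w hw i
        have h3 : e i w ^ (m - 1) ≠ 0 := pow_ne_zero _ hne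
        apply mul_left_cancel₀ h3
        rw [h1]
        have h4 : e i w ^ (m - 1) * e i w = e' i w ^ (m - 1) * e' i w := by
          rw [← pow_succ, ← pow_succ, hm1, h2]
        field_simp
        linear_combination (-(e' i w')) * h4
      · push Not at hP
        refine ⟨1, one_pow _, fun w hw => ?_⟩
        have := ha w hw i
        rw [hP w hw, zero_pow hm.ne'] at this
        rw [hP w hw, (pow_eq_zero_iff hm.ne').1 this.symm, mul_zero]
    · have := ha w hw i
      rw [h w hw, zero_pow hm.ne'] at this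
      exact (pow_eq_zero_iff hm.ne').1 this.symm
  choose ζ hζ using fun i => (halt i).1
  refine ⟨ζ, fun i => (hζ i).1, ?_⟩
  let Λ0 : Z →ₗ[k] (Fin s → k) := LinearMap.pi fun i => e i - ζ i • e' i
  have hΛ0 : ∀ z i, Λ0 z i = e i z - ζ i * e' i z := fun z i => rfl
  have hΛ0s : Function.Surjective Λ0 := by
    intro a
    obtain ⟨z, hz, hz'⟩ := hsurj a 0
    refine ⟨z, funext fun i => ?_⟩
    rw [hΛ0, hz, hz']
    simp
  have hle : W ≤ LinearMap.ker Λ0 := by
    intro w hw
    rw [LinearMap.mem_ker]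
    funext i
    rw [hΛ0, (hζ i).2 w hw, sub_self]
    rfl
  have hrank := LinearMap.finrank_range_add_finrank_ker Λ0
  rw [LinearMap.range_eq_top.2 hΛ0s, finrank_top, finrank_fin_fun] at hrank
  have heq : W = LinearMap.ker Λ0 := Submodule.eq_of_le_of_finrank_le hle (by omega)
  intro z
  rw [heq, LinearMap.mem_ker]
  constructor
  · intro h i
    have := congrFun h i
    rw [hΛ0] at this
    exact sub_eq_zero.1 this
  · intro h
    funext i
    rw [hΛ0, h i, sub_self]
    rfl

end

end FAN
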