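/-
PROJECT N, (IV): (Z-inv) implies that inertia acts unipotently on `KK m N`.
-/
import Fermat.Agent.Nodal.S34Core
import Fermat.Agent.Red.G4Core

set_option autoImplicit false

open FA24 FAG AlgebraicCurve FA18.G4

namespace FAN

/-- an automorphism of `ℚ̄` has finite orbits. -/
theorem exists_pow_apply_eq (σ : GQ) (c : Kb) : ∃ n : ℕ, 0 < n ∧ (σ ^ n) c = c := by
  classical
  have halg : IsAlgebraic ℚ c := (AlgebraicClosure.isAlgebraic ℚ).isAlgebraic c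
  have hne : minpoly ℚ c ≠ 0 := minpoly.ne_zero halg.isIntegral
  have hfin : ((minpoly ℚ c).rootSet Kb).Finite := Polynomial.rootSet_finite _ _
  have hmem : ∀ n : ℕ, (σ ^ n) c ∈ (minpoly ℚ c).rootSet Kb := by
    intro n
    rw [Polynomial.mem_rootSet_of_ne hne]
    have := Polynomial.aeval_algHom_apply ((σ ^ n : GQ) : Kb →ₐ[ℚ] Kb) c (minpoly ℚ c)
    rw [minpoly.aeval, map_zero] at this
    exact this
  have : Finite ((minpoly ℚ c).rootSet Kb) := hfin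
  obtain ⟨i, j, hij, h⟩ := Finite.exists_ne_map_eq_of_infinite
    (fun n : ℕ => (⟨(σ ^ n) c, hmem n⟩ : (minpoly ℚ c).rootSet Kb))
  have h' : (σ ^ i) c = (σ ^ j) c := congrArg Subtype.val h
  wlog hlt : i < j generalizing i j
  · exact this j i hij.symm h.symm h'.symm (lt_of_le_of_ne (not_lt.mp hlt) hij.symm)
  refine ⟨j - i, Nat.sub_pos_of_lt hlt, ?_⟩
  have h1 : (σ ^ i) ((σ ^ (j - i)) c) = (σ ^ i) c := by
    rw [← AlgEquiv.mul_apply, ← pow_add, Nat.add_sub_cancel' hlt.le, h']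
  exact (σ ^ i).injective h1

/-- an automorphism preserving a valuation ring preserves the valuation. -/
theorem apply_div_mem (P : ValuationSubring Kb) (σ : GQ) (hσ : ∀ x ∈ P, σ x ∈ P) {c : Kb}
    (hc : c ≠ 0) : σ c / c ∈ P := by
  by_contra hn
  have hy : c / σ c ∈ P := by
    rcases P.mem_or_inv_mem (σ c / c) with h | h
    · exact absurd h hn
    · rwa [inv_div] at h
  obtain ⟨n, hn0, hnc⟩ := exists_pow_apply_eq σ c
  have hpow : ∀ k : ℕ, (σ ^ k) c ≠ 0 := fun k => (map_ne_zero_iff _ (σ ^ k).injective).2 hc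
  have hmem : ∀ k : ℕ, (σ ^ k) c / (σ ^ (k + 1)) c ∈ P := by
    intro k
    induction k with
    | zero => simpa using hy
    | succ k ih =>
      have := hσ _ ih
      rwa [map_div₀, ← AlgEquiv.mul_apply, ← AlgEquiv.mul_apply, ← pow_succ', ← pow_succ'] at this
  have hprod : ∀ k : ℕ, σ c / (σ ^ (k + 1)) c ∈ P := by
    intro k
    induction k with
    | zero =>
      rw [zero_add, pow_one, div_self ((map_ne_zero_iff _ σ.injective).2 hc)]
      exact P.one_mem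
    | succ k ih =>
      have := P.mul_mem _ _ ih (hmem (k + 1))
      rwa [div_mul_div_cancel₀ (hpow (k + 1))] at this
  obtain ⟨k, rfl⟩ : ∃ k, n = k + 1 := ⟨n - 1, by omega⟩
  have := hprod k
  rw [hnc] at this
  exact hn this

section

variable {m N : ℕ} [NeZero N] [NeZero m] (P : ValuationSubring Kb)
  {k E : Type*} [Field k] [IsAlgClosed k] [Field E] [Algebra k E] (π : P →+* k)
  (O1 O2 : ValuationSubring (FN N)) (ρ1 : O1 →+* E) (ρ2 : O2 →+* E)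

omit [NeZero N] [NeZero m] [IsAlgClosed k] in
/-- `τ w / w` reduces to a non-zero constant. -/
theorem exists_const_red (hB1 : GBase P π O1 ρ1) (τ : GQ) (hτP : ∀ x ∈ P, τ x ∈ P)
    (hτP' : ∀ x ∈ P, τ⁻¹ x ∈ P)
    (hin1 : ∀ x a, Rd O1 ρ1 x a → Rd O1 ρ1 (galF N τ x) a) (w : FN N) (hw : w ≠ 0) :
    ∃ a : k, a ≠ 0 ∧ Rd O1 ρ1 (galF N τ w * w⁻¹) (algebraMap k E a) := by
  obtain ⟨c, hc, xb, hxb, hR⟩ := hB1.scale w hw
  have h1 := hin1 _ _ hR
  have h2 := Rd.inv hB1.surj hR hxb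
  have h3 := h1.mul h2
  rw [mul_inv_cancel₀ hxb, map_mul, galF_algebraMap] at h3
  -- the constant
  have hτc : τ c ≠ 0 := (map_ne_zero_iff _ τ.injective).2 hc
  have hξ : c / τ c ∈ P := by
    have := apply_div_mem P τ⁻¹ hτP' hτc
    rwa [AlgEquiv.aut_inv, AlgEquiv.symm_apply_apply] at this
  have hξ' : τ c / c ∈ P := apply_div_mem P τ hτP hc
  refine ⟨π ⟨c / τ c, hξ⟩, ?_, ?_⟩
  · intro h0
    have h4 : (⟨c / τ c, hξ⟩ : P) * ⟨τ c / c, hξ'⟩ = 1 := by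
      apply Subtype.ext
      show c / τ c * (τ c / c) = 1
      field_simp
    have h5 := congrArg π h4
    rw [map_mul, h0, zero_mul, map_one] at h5
    exact zero_ne_one h5
  · have h4 := (hB1.const ⟨c / τ c, hξ⟩).mul h3
    rw [mul_one] at h4
    refine h4.congr ?_ rfl
    have hc' : algebraMap Kb (FN N) c ≠ 0 := (map_ne_zero_iff _ (algebraMap Kb (FN N)).injective).2 hc
    have hτc' : algebraMap Kb (FN N) (τ c) ≠ 0 :=
      (map_ne_zero_iff _ (algebraMap Kb (FN N)).injective).2 hτc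
    show algebraMap Kb (FN N) (c / τ c) * _ = _
    rw [map_div₀, mul_inv]
    field_simp

/-- **(Z-inv) ⇒ unipotent inertia.** -/
theorem unip_of_zinv (hB1 : GBase P π O1 ρ1) (hB2 : GBase P π O2 ρ2)
    (hin1 : ∀ τ ∈ P.inertiaSubgroupIn ℚ, ∀ x a, Rd O1 ρ1 x a → Rd O1 ρ1 (galF N τ x) a)
    (hin2 : ∀ τ ∈ P.inertiaSubgroupIn ℚ, ∀ x a, Rd O2 ρ2 x a → Rd O2 ρ2 (galF N τ x) a)
    (happ : ∀ a b : k, ∃ f : FN N, Rd O1 ρ1 f (algebraMap k E a) ∧ Rd O2 ρ2 f (algebraMap k E b))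
    (hZ : ∀ u : FN N, Rd O1 ρ1 u 1 → Rd O2 ρ2 u 1 →
      (∀ Q : Place Kb (FN N), (m : ℤ) ∣ Q.ord u) →
      ∀ τ ∈ P.inertiaSubgroupIn ℚ, ∃ s : FN N, s ^ m = galF N τ u * u⁻¹)
    (τ : GQ) (hτ : τ ∈ P.inertiaSubgroupIn ℚ) (τ' : GQ) (hτ' : τ' ∈ P.inertiaSubgroupIn ℚ) :
    (KK.act m N τ - 1) * (KK.act m N τ' - 1) = 0 := by
  have hmem : ∀ σ ∈ P.inertiaSubgroupIn ℚ, ∀ x ∈ P, σ x ∈ P := by
    intro σ hσ x hx
    obtain ⟨h, -⟩ := hσ_of_mem_inertia (π := IsLocalRing.residue P)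
      IsLocalRing.residue_surjective hσ ⟨x, hx⟩
    exact h
  refine KK.end_ext fun u => ?_
  set w : FN N := ((u : (FN N)ˣ) : FN N) with hw
  have hw0 : w ≠ 0 := (u : (FN N)ˣ).ne_zero
  have hwd : ∀ Q : Place Kb (FN N), (m : ℤ) ∣ Q.ord w := u.2
  -- the key identity on functions
  have key : ∃ s : FN N, s ^ m =
      (galF N τ (galF N τ' w) * w) * (galF N τ w * galF N τ' w)⁻¹ := by
    set u0 : FN N := galF N τ' w * w⁻¹ with hu0
    have hτ'w : galF N τ' w ≠ 0 := (map_ne_zero_iff _ (galF N τ').injective).2 hw0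
    have hu00 : u0 ≠ 0 := mul_ne_zero hτ'w (inv_ne_zero hw0)
    obtain ⟨a1, ha1, hR1⟩ := exists_const_red P π O1 ρ1 hB1 τ' (hmem τ' hτ')
      (hmem τ'⁻¹ (inv_mem hτ')) (hin1 τ' hτ') w hw0
    obtain ⟨a2, ha2, hR2⟩ := exists_const_red P π O2 ρ2 hB2 τ' (hmem τ' hτ')
      (hmem τ'⁻¹ (inv_mem hτ')) (hin2 τ' hτ') w hw0
    obtain ⟨b1, hb1⟩ := IsAlgClosed.exists_pow_nat_eq a1⁻¹ (NeZero.pos m)
    obtain ⟨b2, hb2⟩ := IsAlgClosed.exists_pow_nat_eq a2⁻¹ (NeZero.pos m)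
    obtain ⟨f, hf1, hf2⟩ := happ b1 b2
    have hb10 : b1 ≠ 0 := by
      rintro rfl
      rw [zero_pow (NeZero.ne m)] at hb1
      exact inv_ne_zero ha1 hb1.symm
    have hf0 : f ≠ 0 := hf1.ne_zero ((map_ne_zero_iff _ (algebraMap k E).injective).2 hb10)
    have hU1 : Rd O1 ρ1 (u0 * f ^ m) 1 := by
      refine (hR1.mul (hf1.pow m)).congr rfl ?_
      rw [← map_pow, hb1, ← map_mul, mul_inv_cancel₀ ha1, map_one]
    have hU2 : Rd O2 ρ2 (u0 * f ^ m) 1 := by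
      refine (hR2.mul (hf2.pow m)).congr rfl ?_
      rw [← map_pow, hb2, ← map_mul, mul_inv_cancel₀ ha2, map_one]
    have hUd : ∀ Q : Place Kb (FN N), (m : ℤ) ∣ Q.ord (u0 * f ^ m) := by
      intro Q
      rw [Q.ord_mul hu00 (pow_ne_zero m hf0), hu0, Q.ord_mul hτ'w (inv_ne_zero hw0), Q.ord_inv,
        ord_pow]
      exact dvd_add (dvd_add (dvd_ord_galF N τ' m hwd Q) ((dvd_neg).2 (hwd Q)))
        (Dvd.intro _ rfl)
    obtain ⟨s, hs⟩ := hZ _ hU1 hU2 hUd τ hτ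
    have hτf : galF N τ f ≠ 0 := (map_ne_zero_iff _ (galF N τ).injective).2 hf0
    have hτw : galF N τ w ≠ 0 := (map_ne_zero_iff _ (galF N τ).injective).2 hw0
    have hττ'w : galF N τ (galF N τ' w) ≠ 0 := (map_ne_zero_iff _ (galF N τ).injective).2 hτ'w
    refine ⟨s * f * (galF N τ f)⁻¹, ?_⟩
    rw [mul_pow, mul_pow, hs, hu0, map_mul, map_mul, map_pow, map_inv₀, inv_pow]
    field_simp
  have e1 : (KK.act m N τ' - 1) (KK.mk u) =
      KK.mk (UU.map (galM N τ') (dvd_ord_galM m N τ') u) - KK.mk u := by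
    rw [LinearMap.sub_apply, Module.End.one_apply, KK.act_mk]
  rw [Module.End.mul_apply, e1, LinearMap.sub_apply, Module.End.one_apply, map_sub, KK.act_mk,
    KK.act_mk, LinearMap.zero_apply]
  have h1 : KK.mk (UU.map (galM N τ) (dvd_ord_galM m N τ)
      (UU.map (galM N τ') (dvd_ord_galM m N τ') u) * u) =
      KK.mk (UU.map (galM N τ) (dvd_ord_galM m N τ) u *
        UU.map (galM N τ') (dvd_ord_galM m N τ') u) := by
    rw [KK.mk_eq_mk_iff]
    exact key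
  rw [KK.mk_mul, KK.mk_mul] at h1
  rw [sub_eq_zero, sub_eq_sub_iff_add_eq_add, h1, add_comm]

end

end FAN
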