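import Fermat.Agent.Nodal.ZInvOf2
import Fermat.Agent.Nodal.AffOf
import Fermat.Agent.Nodal.ZInv

/-!
# PROJECT N: unipotent inertia on `KK m N` from a nodal geometry on `FN N`
-/

set_option autoImplicit false

open FA24 FAG AlgebraicCurve FA18 FA18.G4

namespace FAN

variable {m N : ℕ} [NeZero N] [NeZero m] {P : ValuationSubring Kb}
  {k E : Type*} [Field k] [IsAlgClosed k] [Field E] [Algebra k E] {π : P →+* k}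
  {O1 O2 : ValuationSubring (FN N)} {ρ1 : O1 →+* E} {ρ2 : O2 →+* E}
  {D : Divisor Kb (FN N)} {gF cF gb cb : ℤ}

/-- nodal geometry + inertia invariance ⇒ `(τ - 1)(τ' - 1) = 0` on `KK m N`. -/
theorem NodalGeom.unip (G : NodalGeom P π O1 O2 ρ1 ρ2 D gF cF gb cb) (hs : 0 < G.s)
    (hm : (m : k) ≠ 0)
    (hin1 : ∀ τ ∈ P.inertiaSubgroupIn ℚ, ∀ x a, Rd O1 ρ1 x a → Rd O1 ρ1 (galF N τ x) a)
    (hin2 : ∀ τ ∈ P.inertiaSubgroupIn ℚ, ∀ x a, Rd O2 ρ2 x a → Rd O2 ρ2 (galF N τ x) a)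
    (happ : ∀ a b : k, ∃ f : FN N, Rd O1 ρ1 f (algebraMap k E a) ∧ Rd O2 ρ2 f (algebraMap k E b))
    (hinL : ∀ τ ∈ P.inertiaSubgroupIn ℚ, ∀ (n : ℕ) (x : FN N), x ∈ riemannRochSpace (n • D) →
      galF N τ x ∈ riemannRochSpace (n • D))
    (τ : GQ) (hτ : τ ∈ P.inertiaSubgroupIn ℚ) (τ' : GQ) (hτ' : τ' ∈ P.inertiaSubgroupIn ℚ) :
    (KK.act m N τ - 1) * (KK.act m N τ' - 1) = 0 := by
  refine unip_of_zinv P π O1 O2 ρ1 ρ2 G.hB1 G.hB2 hin1 hin2 happ ?_ τ hτ τ' hτ'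
  intro u hu1 hu2 hdiv σ hσ
  exact G.zinv' hs G.aff (fun Q h1 h2 => ⟨h1, h2⟩) (fun Q h1 h2 => ⟨h1, h2⟩) hm
    (galF N σ : FN N →+* FN N) (hin1 σ hσ) (hin2 σ hσ) (hinL σ hσ) hu1 hu2 hdiv
    (dvd_ord_galF N σ (m : ℤ) hdiv)

end FAN
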