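import Fermat.Agent.Nodal.AffOf
import Fermat.Agent.Nodal.ZInvOf2

/-!
# PROJECT N: (Z-inv) from `NodalGeom` alone
-/

set_option autoImplicit false

open AlgebraicCurve Module FA18 FA18.G4

namespace FAN

variable {K F k E : Type*} [Field K] [Field F] [Algebra K F] [Field k] [Field E] [Algebra k E]
  {A : ValuationSubring K} {π : A →+* k} {O1 O2 : ValuationSubring F}
  {ρ1 : O1 →+* E} {ρ2 : O2 →+* E} {D : Divisor K F} {gF cF gb cb : ℤ}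
  (G : NodalGeom A π O1 O2 ρ1 ρ2 D gF cF gb cb)

namespace NodalGeom

/-- **(Z-inv)** from `NodalGeom` alone (at least one node). -/
theorem zinv_fin [IsAlgClosed K] [IsAlgClosed k] (hs : 0 < G.s) {m : ℕ} (hm : (m : k) ≠ 0)
    (τ : F →+* F)
    (hτ1 : ∀ x a, Rd O1 ρ1 x a → Rd O1 ρ1 (τ x) a) (hτ2 : ∀ x a, Rd O2 ρ2 x a → Rd O2 ρ2 (τ x) a)
    (hτL : ∀ (n : ℕ) (x : F), x ∈ riemannRochSpace (n • D) → τ x ∈ riemannRochSpace (n • D))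
    {u : F} (hu1 : Rd O1 ρ1 u 1) (hu2 : Rd O2 ρ2 u 1)
    (hdiv : ∀ P : Place K F, (m : ℤ) ∣ P.ord u) (hdivτ : ∀ P : Place K F, (m : ℤ) ∣ P.ord (τ u)) :
    ∃ s : F, s ^ m = τ u * u⁻¹ :=
  G.zinv' hs G.aff (fun _ h1 h2 => ⟨h1, h2⟩) (fun _ h1 h2 => ⟨h1, h2⟩) hm τ hτ1 hτ2 hτL hu1 hu2
    hdiv hdivτ

end NodalGeom

end FAN
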