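import Fermat.Agent.Nodal.NodalG2
import Fermat.Agent.Nodal.Glob

/-!
# PROJECT N, (III): (Z-inv) from `NodalGeom` + `Aff` + (D1)
-/

set_option autoImplicit false

open AlgebraicCurve Module FA18 FA18.G4
open scoped Classical

namespace FAN

variable {K F k E : Type*} [Field K] [Field F] [Algebra K F] [Field k] [Field E] [Algebra k E]
variable {A : ValuationSubring K} {π : A →+* k} {O1 O2 : ValuationSubring F}
  {ρ1 : O1 →+* E} {ρ2 : O2 →+* E} {D : Divisor K F} {gF cF gb cb : ℤ}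
  {Good1 Good2 : Place k E → Prop}

/-- **(Z-inv)** from the geometry of the nodal reduction. -/
theorem NodalGeom.zinv [IsAlgClosed K] (G : NodalGeom A π O1 O2 ρ1 ρ2 D gF cF gb cb)
    (H : Aff A π O1 O2 ρ1 ρ2 D G.C1 G.C2 Good1 Good2) {m : ℕ} (hm : (m : k) ≠ 0)
    {S1 S2 : Finset (Place k E)} (hS1 : ∀ Q ∈ S1, Good1 Q) (hS2 : ∀ Q ∈ S2, Good2 Q)
    (hn1 : ∀ Q ∈ S1, ∀ i, Q ≠ G.Qn i) (hn2 : ∀ Q ∈ S2, ∀ i, Q ≠ G.Qn' i)
    (hcard : gF ≤ ((S1.card + S2.card : ℕ) : ℤ))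
    (hLL : ∀ a b : E, (∀ P ∉ S1, 0 ≤ P.ord a) → (∀ P ∈ S1, -1 ≤ P.ord a) →
      (∀ P ∉ S2, 0 ≤ P.ord b) → (∀ P ∈ S2, -1 ≤ P.ord b) →
      (∀ i, ∃ c, ValAt (G.Qn i) a c ∧ ValAt (G.Qn' i) b c) →
      ∃ c : k, a = algebraMap k E c ∧ b = algebraMap k E c)
    {Qb : Place k E} (hQb : Good1 Qb) (hQbS : Qb ∉ S1)
    (τ : F →+* F)
    (hτ1 : ∀ x a, Rd O1 ρ1 x a → Rd O1 ρ1 (τ x) a) (hτ2 : ∀ x a, Rd O2 ρ2 x a → Rd O2 ρ2 (τ x) a)
    (hτL : ∀ (n : ℕ) (x : F), x ∈ riemannRochSpace (n • D) → τ x ∈ riemannRochSpace (n • D))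
    {u : F} (hu1 : Rd O1 ρ1 u 1) (hu2 : Rd O2 ρ2 u 1)
    (hdiv : ∀ P : Place K F, (m : ℤ) ∣ P.ord u) (hdivτ : ∀ P : Place K F, (m : ℤ) ∣ P.ord (τ u)) :
    ∃ s : F, s ^ m = τ u * u⁻¹ := by
  have hIn : ∀ P : Place K F,
      (∃ j : S1 ⊕ S2, P ∈ (Sum.elim (fun Q : S1 => disc π O1 O2 ρ1 ρ2 D (Q : Place k E))
        (fun Q : S2 => disc π O2 O1 ρ2 ρ1 D (Q : Place k E)) j)) →
      InS π O1 O2 ρ1 ρ2 D S1 S2 P := by
    rintro P ⟨j | j, hj⟩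
    · exact Or.inl ⟨j, j.2, hj⟩
    · exact Or.inr ⟨j, j.2, hj⟩
  refine G.toTwistData.zinv G.HF hm (J := S1 ⊕ S2)
    (Sum.elim (fun _ => true) (fun _ => false))
    (Sum.elim (fun Q => (Q : Place k E)) (fun Q => (Q : Place k E)))
    (Sum.elim (fun Q => disc π O1 O2 ρ1 ρ2 D (Q : Place k E))
      (fun Q => disc π O2 O1 ρ2 ρ1 D (Q : Place k E)))
    ?_ ?_ ?_ (ib := true) (Qb := Qb) (Δb := disc π O1 O2 ρ1 ρ2 D Qb)
    ((isDisc_disc H G.HF G.Hb hQb).discFacts1 H.hB1 H.hB2 hm) ?_ ?_ τ hτ1 hτ2 hτL hu1 hu2 hdiv hdivτ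
  · rintro (j | j)
    · exact (isDisc_disc H G.HF G.Hb (hS1 j j.2)).discFacts1 H.hB1 H.hB2 hm
    · exact (isDisc_disc H.swap G.HF G.Hb (hS2 j j.2)).discFacts2 H.hB1 H.hB2 hm
  · rintro (j | j) (j' | j') hne
    · refine Set.disjoint_left.2 fun P h1 h2 => ?_
      exact disc_disjoint11 H G.Hb (hS1 j j.2) (H.good1 _ (hS1 j' j'.2))
        (fun h => hne (congrArg Sum.inl (Subtype.ext h))) h1 h2
    · refine Set.disjoint_left.2 fun P h1 h2 => ?_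
      exact disc_disjoint12 H G.Hb (hS1 j j.2) (H.good2 _ (hS2 j' j'.2)) h1 h2
    · refine Set.disjoint_left.2 fun P h1 h2 => ?_
      exact disc_disjoint12 H G.Hb (hS1 j' j'.2) (H.good2 _ (hS2 j j.2)) h2 h1
    · refine Set.disjoint_left.2 fun P h1 h2 => ?_
      exact disc_disjoint11 H.swap G.Hb (hS2 j j.2) (H.good2 _ (hS2 j' j'.2))
        (fun h => hne (congrArg Sum.inr (Subtype.ext h))) h1 h2
  · rw [Fintype.card_sum, Fintype.card_coe, Fintype.card_coe]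
    exact hcard
  · rintro (j | j)
    · refine Set.disjoint_left.2 fun P h1 h2 => ?_
      exact disc_disjoint11 H G.Hb (hS1 j j.2) (H.good1 _ hQb)
        (fun h => hQbS (h ▸ j.2)) h1 h2
    · refine Set.disjoint_left.2 fun P h1 h2 => ?_
      exact disc_disjoint12 H G.Hb hQb (H.good2 _ (hS2 j j.2)) h2 h1
  · intro a b h1 h2 h3
    refine glob G H hS1 hS2 hn1 hn2 hLL a b ?_ ?_ (fun Q hQ => h3 (Sum.inl ⟨Q, hQ⟩))
      (fun Q hQ => h3 (Sum.inr ⟨Q, hQ⟩))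
    · obtain ⟨ψ, e1, e2, e3⟩ := h1
      exact ⟨ψ, e1, e2, fun P => (e3 P).imp_right fun h => h.imp_right (hIn P)⟩
    · obtain ⟨l, hl, χ, e1, e2, e3⟩ := h2
      exact ⟨l, hl, χ, e1, e2, fun P => (e3 P).imp_right (hIn P)⟩

end FAN
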